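/-
Plan K, [GS] step GS4 (cyclotomic part).

The mod `p` cyclotomic character `cff_chi p` of `Gal(ℚ̄/ℚ)` at primes `ℓ ≠ p`:
* `s29g_chi_frobenius`: `χ(σ) = ℓ` for a Frobenius element `σ` at `A | ℓ`;
* `s29g_chi_inertia`: `χ(τ) = 1` for `τ` in the inertia group at `A | ℓ`.
-/
import Mathlib
import Fermat.Prelude.Def_FLTPrelim_Ramification
import Fermat.Prelude.Def_EllipticCurve_FrobeniusTrace
import Fermat.Agent.Lib.CFT.GalRedChi

set_option autoImplicit false

namespace Fermat.Agent.Lib.S29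

open Fermat.Agent.Lib.CFT
open scoped Pointwise

section general

variable {K L : Type*} [Field K] [Field L] [Algebra K L]

/-- Elements of the decomposition group preserve `A`. -/
theorem s29g_decomp_mem (A : ValuationSubring L) {σ : L ≃ₐ[K] L}
    (hσ : σ ∈ A.decompositionSubgroup K) {a : L} (ha : a ∈ A) : σ a ∈ A := by
  have hσA : σ • A = A := hσ
  have := ValuationSubring.smul_mem_pointwise_smul σ a A ha
  rw [hσA] at this
  exact this

/-- A Frobenius element at `A` acts as `x ↦ x ^ ℓ` modulo the maximal ideal. -/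
theorem s29g_frob_congr (A : ValuationSubring L) {σ : L ≃ₐ[K] L} {ℓ : ℕ}
    (h : A.IsFrobeniusAt σ ℓ) {a : L} (ha : a ∈ A) : σ a - a ^ ℓ ∈ A.nonunits := by
  have hD := h.mem_decompositionSubgroup
  have h1 := h.smul_residue_eq (IsLocalRing.residue A ⟨a, ha⟩)
  rw [← IsLocalRing.ResidueField.residue_smul, ← map_pow] at h1
  have h2 : (⟨σ, hD⟩ : A.decompositionSubgroup K) • (⟨a, ha⟩ : A) - (⟨a, ha⟩ : A) ^ ℓ
      ∈ IsLocalRing.maximalIdeal A := by
    rw [← Ideal.Quotient.eq]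
    exact h1
  exact (ValuationSubring.coe_mem_nonunits_iff (A := A)).mpr h2

/-- An inertia element at `A` acts trivially modulo the maximal ideal. -/
theorem s29g_inertia_congr (A : ValuationSubring L) {τ : L ≃ₐ[K] L}
    (h : τ ∈ A.inertiaSubgroupIn K) {a : L} (ha : a ∈ A) : τ a - a ∈ A.nonunits := by
  obtain ⟨g, hg, rfl⟩ := h
  have h1 : g • (IsLocalRing.residue A ⟨a, ha⟩) = IsLocalRing.residue A ⟨a, ha⟩ :=
    RingEquiv.congr_fun (MonoidHom.mem_ker.mp hg) (IsLocalRing.residue A ⟨a, ha⟩)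
  rw [← IsLocalRing.ResidueField.residue_smul] at h1
  have h2 : g • (⟨a, ha⟩ : A) - ⟨a, ha⟩ ∈ IsLocalRing.maximalIdeal A := by
    rw [← Ideal.Quotient.eq]
    exact h1
  exact (ValuationSubring.coe_mem_nonunits_iff (A := A)).mpr h2

end general

section roots

variable {L : Type*} [Field L]

/-- Roots of unity lie in every valuation subring. -/
theorem s29g_root_mem (A : ValuationSubring L) {η : L} {p : ℕ} (hp : p ≠ 0) (h : η ^ p = 1) :
    η ∈ A := by
  rcases A.mem_or_inv_mem η with h1 | h1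
  · exact h1
  · have : η = η⁻¹ ^ (p - 1) := by
      have hη : η ≠ 0 := by
        rintro rfl
        rw [zero_pow hp] at h
        exact zero_ne_one h
      have hp1 : p = (p - 1) + 1 := by omega
      rw [inv_pow]
      refine eq_inv_of_mul_eq_one_left ?_
      rw [← pow_succ', ← hp1, h]
    rw [this]
    exact pow_mem h1 _

/-- `p`-th roots of unity are distinct modulo a valuation subring over a prime `ℓ ≠ p`. -/
theorem s29g_root_sep (A : ValuationSubring L) {p ℓ : ℕ} (hp : p.Prime) (hℓ : ℓ.Prime)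
    (hne : ℓ ≠ p) (hA : (ℓ : L) ∈ A.nonunits) {η₁ η₂ : L} (h1 : η₁ ^ p = 1) (h2 : η₂ ^ p = 1)
    (h : η₁ - η₂ ∈ A.nonunits) : η₁ = η₂ := by
  have hp0 : p ≠ 0 := hp.ne_zero
  have m1 := s29g_root_mem A hp0 h1
  have m2 := s29g_root_mem A hp0 h2
  set e₁ : A := ⟨η₁, m1⟩ with he₁
  set e₂ : A := ⟨η₂, m2⟩ with he₂
  have E1 : e₁ ^ p = 1 := Subtype.ext (by simpa using h1)
  have E2 : e₂ ^ p = 1 := Subtype.ext (by simpa using h2)
  have hres : IsLocalRing.residue A e₁ = IsLocalRing.residue A e₂ := by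
    rw [← sub_eq_zero, ← map_sub, IsLocalRing.residue_eq_zero_iff]
    exact (ValuationSubring.coe_mem_nonunits_iff (A := A)).mp h
  have hℓres : ((ℓ : ℕ) : IsLocalRing.ResidueField A) = 0 := by
    have : IsLocalRing.residue A ((ℓ : ℕ) : A) = 0 := by
      rw [IsLocalRing.residue_eq_zero_iff]
      exact (ValuationSubring.coe_mem_nonunits_iff (A := A)).mp (by simpa using hA)
    simpa using this
  set ξ : A := e₁ * e₂ ^ (p - 1) with hξ
  have hp1 : p = (p - 1) + 1 := by have := hp.pos; omega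
  have hξp : ξ ^ p = 1 := by
    rw [hξ, mul_pow, E1, one_mul, ← pow_mul, mul_comm, pow_mul, E2, one_pow]
  have hξres : IsLocalRing.residue A ξ = 1 := by
    rw [hξ, map_mul, map_pow, hres, ← pow_succ', ← hp1, ← map_pow, E2, map_one]
  by_cases hξ1 : ξ = 1
  · have : e₁ = e₂ := by
      have h3 : ξ * e₂ = e₁ := by
        rw [hξ, mul_assoc, ← pow_succ, ← hp1, E2, mul_one]
      rw [← h3, hξ1, one_mul]
    exact congrArg Subtype.val this
  · exfalso
    have hsum : ∑ i ∈ Finset.range p, ξ ^ i = 0 := by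
      have := mul_geom_sum ξ p
      rw [hξp, sub_self] at this
      rcases mul_eq_zero.mp this with h4 | h4
      · exact absurd (sub_eq_zero.mp h4) hξ1
      · exact h4
    have hpres : ((p : ℕ) : IsLocalRing.ResidueField A) = 0 := by
      have := congrArg (IsLocalRing.residue A) hsum
      rw [map_sum, map_zero] at this
      simp only [map_pow, hξres, one_pow, Finset.sum_const, Finset.card_range, nsmul_eq_mul,
        mul_one] at this
      exact this
    have hcop : IsCoprime (p : ℤ) (ℓ : ℤ) := by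
      rw [Nat.isCoprime_iff_coprime]
      exact (Nat.coprime_primes hp hℓ).mpr (Ne.symm hne)
    obtain ⟨a, b, hab⟩ := hcop
    have := congrArg (Int.cast : ℤ → IsLocalRing.ResidueField A) hab
    simp only [Int.cast_add, Int.cast_mul, Int.cast_natCast, hpres, hℓres, mul_zero, add_zero,
      Int.cast_one] at this
    exact zero_ne_one this

end roots

section chi

variable (p : ℕ) [Fact p.Prime]

/-- `χ(Frob_ℓ) = ℓ`. -/
theorem s29g_chi_frobenius {ℓ : ℕ} (hℓ : ℓ.Prime) (hne : ℓ ≠ p)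
    (A : ValuationSubring (AlgebraicClosure ℚ)) (hA : A.LiesOverPrime ℓ)
    (σ : AlgebraicClosure ℚ ≃ₐ[ℚ] AlgebraicClosure ℚ) (hσ : A.IsFrobeniusAt σ ℓ) :
    ((cff_chi p σ : (ZMod p)ˣ) : ZMod p) = (ℓ : ZMod p) := by
  have hp : p.Prime := Fact.out
  have : NeZero p := ⟨hp.ne_zero⟩
  obtain ⟨ζ, hζ⟩ : ∃ ζ : AlgebraicClosure ℚ, IsPrimitiveRoot ζ p :=
    HasEnoughRootsOfUnity.exists_primitiveRoot (AlgebraicClosure ℚ) p
  have hζp := hζ.pow_eq_one
  have hspec := cff_chi_spec p σ hζp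
  have hmem := s29g_root_mem A hp.ne_zero hζp
  have hcong := s29g_frob_congr A hσ hmem
  rw [hspec] at hcong
  have heq := s29g_root_sep A hp hℓ hne hA
    (by rw [← pow_mul, mul_comm, pow_mul, hζp, one_pow])
    (by rw [← pow_mul, mul_comm, pow_mul, hζp, one_pow]) hcong
  exact (cff_chi_eq_of_pow hζ σ ℓ (by rw [hspec, heq])).symm

/-- `χ` is trivial on inertia at `ℓ ≠ p`. -/
theorem s29g_chi_inertia {ℓ : ℕ} (hℓ : ℓ.Prime) (hne : ℓ ≠ p)
    (A : ValuationSubring (AlgebraicClosure ℚ)) (hA : A.LiesOverPrime ℓ)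
    (τ : AlgebraicClosure ℚ ≃ₐ[ℚ] AlgebraicClosure ℚ) (hτ : τ ∈ A.inertiaSubgroupIn ℚ) :
    cff_chi p τ = 1 := by
  have hp : p.Prime := Fact.out
  have : NeZero p := ⟨hp.ne_zero⟩
  obtain ⟨ζ, hζ⟩ : ∃ ζ : AlgebraicClosure ℚ, IsPrimitiveRoot ζ p :=
    HasEnoughRootsOfUnity.exists_primitiveRoot (AlgebraicClosure ℚ) p
  have hζp := hζ.pow_eq_one
  have hspec := cff_chi_spec p τ hζp
  have hmem := s29g_root_mem A hp.ne_zero hζp
  have hcong := s29g_inertia_congr A hτ hmem
  rw [cff_chi_eq_one_iff hζ]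
  refine s29g_root_sep A hp hℓ hne hA ?_ hζp hcong
  rw [hspec, ← pow_mul, mul_comm, pow_mul, hζp, one_pow]

end chi

end Fermat.Agent.Lib.S29
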