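/-
Plan K (S29 + S42), top-level interfaces (owner: lead).

Notation: `G = Gal(ℚ̄/ℚ)`, `J[p] = Pic0.torsion ℚ̄ (modularFunctionFieldBar N) p` (an `𝔽_p`-module, Prelude
instance), `T_ℓ = heckeOperatorBar N ℓ` restricted to `J[p]` (no `HeckeAlg`-module structure, no `hcomm`).

Contracts (each a `Prop`, proved by the package named in brackets):
* `s29k_EigenSupport`   [analytic core: DS + PS + BR + KAP + LAM + EQ + DESC]
* `s29k_S37Int`         [S37int]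
* `s29k_FrobDensity`    [FD]
The finite-group lemma [FG] is `s29f_exists_two_dim` in `Lib/S29/FGTwo.lean` (helper8).
-/
import Mathlib
import Fermat.Prelude.Def_ModularCurve_HeckeModule
import Fermat.Prelude.Def_GaloisRep_Residual
import Fermat.Prelude.Def_FLTPrelim_Ramification

set_option autoImplicit false

open ModularCurve AlgebraicCurve

namespace Fermat.Agent.Lib.S29

/-- The absolute Galois group of `ℚ`. -/
abbrev s29k_G : Type := AlgebraicClosure ℚ ≃ₐ[ℚ] AlgebraicClosure ℚ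

/-- `J₀(N)(ℚ̄)[p]`. -/
abbrev s29k_Jp (N p : ℕ) : Type :=
  Pic0.torsion (AlgebraicClosure ℚ) (modularFunctionFieldBar N) p

/-- `T_ℓ` on `J₀(N)(ℚ̄)[p]`, as an `𝔽_p`-linear endomorphism. -/
noncomputable def s29k_Tl (N p : ℕ) [NeZero N] (ℓ : Nat.Primes) :
    Module.End (ZMod p) (s29k_Jp N p) :=
  AddMonoidHom.toZModLinearMap p
    { toFun := fun x => ⟨heckeOperatorBar N ℓ (x : JZero N), by
        have hx := Pic0.mem_torsion.mp x.property
        rw [Pic0.mem_torsion, ← map_zsmul, hx, map_zero]⟩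
      map_zero' := Subtype.ext (map_zero _)
      map_add' := fun x y => Subtype.ext (map_add (heckeOperatorBar N ℓ) (x : JZero N) (y : JZero N)) }

@[simp]
theorem s29k_Tl_coe (N p : ℕ) [NeZero N] (ℓ : Nat.Primes) (x : s29k_Jp N p) :
    ((s29k_Tl N p ℓ x : s29k_Jp N p) : JZero N) = heckeOperatorBar N ℓ (x : JZero N) := rfl

/-- **[EigenSupport]**: the mod-`𝔓` eigen-system of a normalised eigenform `g` (away from `Np`)
occurs in `k ⊗_{𝔽_p} J₀(N)(ℚ̄)[p]`. -/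
def s29k_EigenSupport : Prop :=
  ∀ (N : ℕ) [NeZero N] (g : CuspForm (CongruenceSubgroup.Gamma0 N) 2), g.IsNormalizedEigenform →
  ∀ (p : ℕ) [Fact p.Prime] (k : Type) [Field k] [Algebra (ZMod p) k]
    (φ : integralClosure ℤ ℂ →+* k),
    ∃ v : TensorProduct (ZMod p) k (s29k_Jp N p), v ≠ 0 ∧
      ∀ ℓ : Nat.Primes, ¬ (ℓ : ℕ) ∣ N * p →
        ∃ a : integralClosure ℤ ℂ, (a : ℂ) = ModularFormClass.qCoeff g ℓ ∧
          (s29k_Tl N p ℓ).baseChange k v = φ a • v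

/-- **[S37int]**: what the top level needs from the landed S18/S37 packages. -/
structure s29k_S37Int : Prop where
  /-- Galois commutes with `T_ℓ` on `J₀(N)(ℚ̄)`. -/
  comm : ∀ (N : ℕ) [NeZero N] (ℓ : Nat.Primes) (σ : s29k_G) (x : JZero N),
    σ • heckeOperatorBar N ℓ x = heckeOperatorBar N ℓ (σ • x)
  /-- Eichler–Shimura on `p`-torsion. -/
  frobQuad : ∀ (N p : ℕ) [NeZero N] (ℓ : Nat.Primes), ¬ (ℓ : ℕ) ∣ N * p →
    ∀ A : ValuationSubring (AlgebraicClosure ℚ), A.LiesOverPrime ℓ →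
      ∀ σ : s29k_G, A.IsFrobeniusAt σ ℓ → ∀ x : JZero N, (p : ℤ) • x = 0 →
        σ • σ • x - heckeOperatorBar N ℓ (σ • x) + ((ℓ : ℕ) : ℤ) • x = 0
  /-- Inertia at `ℓ ∤ Np` acts trivially on `p`-torsion. -/
  unram : ∀ (N p : ℕ) [NeZero N] (ℓ : ℕ), ℓ.Prime → ¬ ℓ ∣ N * p →
    ∀ A : ValuationSubring (AlgebraicClosure ℚ), A.LiesOverPrime ℓ →
      ∀ σ ∈ A.inertiaSubgroupIn ℚ, ∀ x : JZero N, (p : ℤ) • x = 0 → σ • x = x
  /-- Open stabilisers. -/
  openStab : ∀ (N : ℕ) [NeZero N] (x : JZero N),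
    ∃ L : IntermediateField ℚ (AlgebraicClosure ℚ), FiniteDimensional ℚ L ∧
      ∀ σ : s29k_G, (∀ y ∈ L, σ y = y) → σ • x = x

/-- **[FD]** Frobenius density theorem, existence form. -/
def s29k_FrobDensity : Prop :=
  ∀ (L : IntermediateField ℚ (AlgebraicClosure ℚ)), FiniteDimensional ℚ L →
    (∀ σ : s29k_G, ∀ x ∈ L, σ x ∈ L) →
    ∀ (S : Finset ℕ) (g : s29k_G),
      ∃ (ℓ : ℕ) (A : ValuationSubring (AlgebraicClosure ℚ)) (σ : s29k_G) (j : ℕ),
        ℓ.Prime ∧ ℓ ∉ S ∧ A.LiesOverPrime ℓ ∧ A.IsFrobeniusAt σ ℓ ∧ ∀ x ∈ L, (σ ^ j) x = g x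

end Fermat.Agent.Lib.S29
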