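/-
S29 (Plan K), Galois side [GS] (helper2), part 3: **[GH] the Hecke operators of `J₀(N)` commute
with the Galois action**: `T_ℓ (σ • x) = σ • T_ℓ x` for every prime `ℓ` (no condition on `ℓ`: if the
Prelude's `HeckeInputsAlong` fails the operator is `0`).

Route: the degeneracy maps `α, β : F̄(N) → F̄(Nℓ)` intertwine the coefficientwise Galois actions;
pull-back (helper8's `s37l_pullbackAlong_smul`) and push-forward of divisors are equivariant under
intertwined semilinear automorphisms, hence so is the correspondence `α_* β^*` on `Pic⁰`.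
-/
import Fermat.Agent.Lib.S37.LFunct
import Fermat.Agent.Lib.S37.LLevel
import Fermat.Agent.Lib.S18.UFormalDef

set_option autoImplicit false
set_option linter.unusedSectionVars false
set_option linter.style.haveILetI false

noncomputable section

namespace Fermat.Agent.Lib.S29

open ModularCurve AlgebraicCurve HahnSeries Fermat.Agent.Lib.S18 Fermat.Agent.Lib.S37

section General

variable {K F F' : Type*} [Field K] [Field F] [Field F'] [Algebra K F] [Algebra K F']

/-- the tower formula for degrees, in the `Along` language. -/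
theorem s29g_deg_restrictAlong_mul (φ : F →ₐ[K] F') (hφ : φ.toRingHom.IsIntegral)
    (w : Place K F') :
    (w.restrictAlong φ hφ).deg * w.inertiaDegAlong φ hφ = w.deg := by
  letI := algebraAlong φ
  haveI := isScalarTower_along φ
  haveI := isIntegral_along φ hφ
  exact w.deg_restrict_mul_inertiaDeg (F := F)

/-- the residue degree is invariant under intertwined semilinear automorphisms (for places of
nonzero degree). -/
theorem s29g_inertiaDegAlong_smul (φ : F →ₐ[K] F') (hφ : φ.toRingHom.IsIntegral)
    (g : SemilinearAut K F) (g' : SemilinearAut K F')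
    (h : SemilinearAut.IntertwinesAlong (φ : F →+* F') g g') (w : Place K F')
    (hdeg : (w.restrictAlong φ hφ).deg ≠ 0) :
    Place.inertiaDegAlong φ hφ (g' • w) = Place.inertiaDegAlong φ hφ w := by
  have h1 := s29g_deg_restrictAlong_mul φ hφ w
  have h2 := s29g_deg_restrictAlong_mul φ hφ (g' • w)
  rw [s37l_restrictAlong_smul φ hφ g g' h w, SemilinearAut.deg_smul, SemilinearAut.deg_smul,
    ← h1] at h2
  exact Nat.eq_of_mul_eq_mul_left (Nat.pos_of_ne_zero hdeg) h2

/-- **push-forward of divisors is equivariant** under intertwined semilinear automorphisms. -/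
theorem s29g_pushforwardAlong_smul (φ : F →ₐ[K] F') (hφ : φ.toRingHom.IsIntegral)
    (g : SemilinearAut K F) (g' : SemilinearAut K F')
    (h : SemilinearAut.IntertwinesAlong (φ : F →+* F') g g')
    (hdeg : ∀ v : Place K F, v.deg ≠ 0) (E : Divisor K F') :
    Divisor.pushforwardAlong φ hφ (g' • E) = g • Divisor.pushforwardAlong φ hφ E := by
  induction E using Finsupp.induction with
  | zero => rw [smul_zero, map_zero, smul_zero]
  | single_add w n E _ _ ih =>
    rw [smul_add, map_add, map_add, smul_add, ih, SemilinearAut.smul_single,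
      Divisor.pushforwardAlong_single, Divisor.pushforwardAlong_single,
      SemilinearAut.smul_single, s37l_restrictAlong_smul φ hφ g g' h w,
      s29g_inertiaDegAlong_smul φ hφ g g' h w (hdeg _)]

variable [HasPrincipalDivisors K F']

/-- **correspondences on divisors are equivariant**. -/
theorem s29g_correspondence_smul (φ ψ : F →ₐ[K] F') (hφ : φ.toRingHom.IsIntegral)
    (hψ : ψ.toRingHom.IsIntegral)
    (g : SemilinearAut K F) (g' : SemilinearAut K F')
    (h₁ : SemilinearAut.IntertwinesAlong (φ : F →+* F') g g')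
    (h₂ : SemilinearAut.IntertwinesAlong (ψ : F →+* F') g g')
    (hdeg : ∀ v : Place K F, v.deg ≠ 0) (D : Divisor K F) :
    Divisor.correspondence φ ψ hφ hψ (g • D) = g • Divisor.correspondence φ ψ hφ hψ D := by
  rw [Divisor.correspondence_apply, Divisor.correspondence_apply,
    s37l_pullbackAlong_smul φ hφ g g' h₁ D, s29g_pushforwardAlong_smul ψ hψ g g' h₂ hdeg]

/-- **correspondences on `Pic⁰` are equivariant**. -/
theorem s29g_pic0_correspondence_smul (φ ψ : F →ₐ[K] F') (hφ : φ.toRingHom.IsIntegral)
    (hψ : ψ.toRingHom.IsIntegral) (hFI : FundamentalIdentityAlong K φ hφ)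
    (hfin : FiniteAlong K ψ) (hN : NormFormulaAlong K ψ hfin)
    (g : SemilinearAut K F) (g' : SemilinearAut K F')
    (h₁ : SemilinearAut.IntertwinesAlong (φ : F →+* F') g g')
    (h₂ : SemilinearAut.IntertwinesAlong (ψ : F →+* F') g g')
    (hdeg : ∀ v : Place K F, v.deg ≠ 0) (x : Pic0 K F) :
    Pic0.correspondence φ ψ hφ hψ hFI hfin hN (g • x) =
      g • Pic0.correspondence φ ψ hφ hψ hFI hfin hN x := by
  obtain ⟨D, rfl⟩ := Pic0.mk_surjective x
  rw [SemilinearAut.pic0_smul_mk, Pic0.correspondence_mk, Pic0.correspondence_mk,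
    SemilinearAut.pic0_smul_mk]
  congr 1
  apply Subtype.ext
  rw [Pic0.coe_degZeroCorrespondence, SemilinearAut.coe_degZeroSMulHom,
    SemilinearAut.coe_degZeroSMulHom, Pic0.coe_degZeroCorrespondence]
  exact s29g_correspondence_smul φ ψ hφ hψ g g' h₁ h₂ hdeg _

end General

section Modular

local notation "Qbar" => AlgebraicClosure ℚ
local notation "Γℚ" => (AlgebraicClosure ℚ ≃ₐ[ℚ] AlgebraicClosure ℚ)

variable (N ℓ : ℕ) [NeZero N] [NeZero ℓ]

/-- `α` (the inclusion `F̄(N) ⊆ F̄(Nℓ)`) intertwines the arithmetic Galois actions. -/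
theorem s29g_alpha_intertwines (σ : Γℚ) :
    SemilinearAut.IntertwinesAlong
      ((heckeAlphaBar Qbar N ℓ : _ →ₐ[Qbar] _) :
        ↥(modularFunctionFieldBar N) →+* ↥(modularFunctionFieldBar (N * ℓ)))
      (arithmeticGalois (modularFunctionFieldFull N) σ)
      (arithmeticGalois (modularFunctionFieldFull (N * ℓ)) σ) := by
  intro x
  apply Subtype.ext
  show ((arithmeticGalois (modularFunctionFieldFull (N * ℓ)) σ • (heckeAlphaBar Qbar N ℓ x) :
      ↥(modularFunctionFieldBar (N * ℓ))) : LaurentSeries Qbar) =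
    ((heckeAlphaBar Qbar N ℓ (arithmeticGalois (modularFunctionFieldFull N) σ • x) :
      ↥(modularFunctionFieldBar (N * ℓ))) : LaurentSeries Qbar)
  rw [coe_arithmeticGalois_smul, coe_heckeAlphaBar, coe_heckeAlphaBar, coe_arithmeticGalois_smul]

/-- `β` (`q ↦ q^ℓ`) intertwines the arithmetic Galois actions. -/
theorem s29g_beta_intertwines (σ : Γℚ) :
    SemilinearAut.IntertwinesAlong
      ((heckeBetaBar Qbar N ℓ : _ →ₐ[Qbar] _) :
        ↥(modularFunctionFieldBar N) →+* ↥(modularFunctionFieldBar (N * ℓ)))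
      (arithmeticGalois (modularFunctionFieldFull N) σ)
      (arithmeticGalois (modularFunctionFieldFull (N * ℓ)) σ) := by
  intro x
  apply Subtype.ext
  show ((arithmeticGalois (modularFunctionFieldFull (N * ℓ)) σ • (heckeBetaBar Qbar N ℓ x) :
      ↥(modularFunctionFieldBar (N * ℓ))) : LaurentSeries Qbar) =
    ((heckeBetaBar Qbar N ℓ (arithmeticGalois (modularFunctionFieldFull N) σ • x) :
      ↥(modularFunctionFieldBar (N * ℓ))) : LaurentSeries Qbar)
  rw [coe_arithmeticGalois_smul, coe_heckeBetaBar, coe_heckeBetaBar, coe_arithmeticGalois_smul,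
    s18u_coeffMap_qExpand]

/-- **[GH] for `heckeOperatorAlong`**. -/
theorem s29g_heckeOperatorAlong_smul (σ : Γℚ) (x : JZero N) :
    heckeOperatorAlong Qbar N ℓ (σ • x) = σ • heckeOperatorAlong Qbar N ℓ x := by
  by_cases h : HeckeInputsAlong Qbar N ℓ
  · haveI := h.snd.snd.fst
    rw [heckeOperatorAlong_eq h.fst h.snd.fst h.snd.snd.snd.snd.1 h.snd.snd.snd.fst
      h.snd.snd.snd.snd.2]
    rw [galois_smul_pic0_def, galois_smul_pic0_def]
    exact s29g_pic0_correspondence_smul _ _ _ _ _ _ _ _
      (arithmeticGalois (modularFunctionFieldFull (N * ℓ)) σ)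
      (s29g_beta_intertwines N ℓ σ) (s29g_alpha_intertwines N ℓ σ)
      (fun v => by rw [s37l_deg_eq_one N v]; exact one_ne_zero) x
  · rw [heckeOperatorAlong, dif_neg h, AddMonoidHom.zero_apply, AddMonoidHom.zero_apply,
      smul_zero]

/-- **[GH]**: the Hecke operators on `J₀(N)` commute with the Galois action. -/
theorem s29g_heckeOperatorBar_smul (ℓ : Nat.Primes) (σ : Γℚ) (x : JZero N) :
    heckeOperatorBar N ℓ (σ • x) = σ • heckeOperatorBar N ℓ x := by
  haveI : NeZero (ℓ : ℕ) := ⟨ℓ.2.ne_zero⟩
  rw [heckeOperatorBar_apply, heckeOperatorBar_apply]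
  exact s29g_heckeOperatorAlong_smul N (ℓ : ℕ) σ x

end Modular

end Fermat.Agent.Lib.S29
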