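/-
S29 (Plan K), Galois side [GS] (helper2), part 1: the unconditional reduction contract of S37 and
its consequences on the `p`-power torsion of `J₀(N)`:

* `s29g_redAt`: `s37x_RedAt N p ℓ hℓ A σ₀` for every `ℓ ∤ N p`;
* `s29g_inertia_trivial`: inertia at `ℓ ∤ N p` acts trivially on `J₀(N)[p^∞]`;
* `s29g_frobenius_quadratic`: `σ₀² − T_ℓ σ₀ + ℓ = 0` on `J₀(N)[p^∞]` for every Frobenius lift `σ₀`
  at a place over `ℓ ∤ N p`.
-/
import Fermat.Agent.Lib.S37.RClose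
import Fermat.Agent.Lib.S37.EHecke
import Fermat.Agent.Lib.S37.LTransfer
import Fermat.Agent.Lib.Frobenius.Exists

set_option autoImplicit false
set_option linter.unusedSectionVars false
set_option linter.style.haveILetI false

noncomputable section

namespace Fermat.Agent.Lib.S29

open ModularCurve AlgebraicCurve Fermat.Agent.Lib.S18 Fermat.Agent.Lib.S37

local notation "Γℚ" => (AlgebraicClosure ℚ ≃ₐ[ℚ] AlgebraicClosure ℚ)

variable (N p : ℕ) [NeZero N]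

/-- the reduction contract of S37, unconditionally, at every prime `ℓ ∤ N p`. -/
theorem s29g_redAt (ℓ : ℕ) (hℓ : ℓ.Prime) (hℓNp : ¬ ℓ ∣ N * p)
    (A : ValuationSubring (AlgebraicClosure ℚ)) (hA : A.LiesOverPrime ℓ)
    (σ₀ : Γℚ) (hσ₀ : A.IsFrobeniusAt σ₀ ℓ) : s37x_RedAt N p ℓ hℓ A σ₀ :=
  s37x_redAt (s37x_good_of s37r12_exists s37e_es) s37l_transfer N p ℓ hℓ
    (fun h => hℓNp (Dvd.dvd.mul_right h p)) (fun h => hℓNp (Dvd.dvd.mul_left h N)) A hA σ₀ hσ₀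

/-- Galois translates of `p`-power torsion points are `p`-power torsion. -/
theorem s29g_smul_torsion (σ : Γℚ) {x : JZero N} {n : ℕ} (hx : p ^ n • x = 0) :
    p ^ n • (σ • x) = 0 := by
  have h := map_nsmul (DistribSMul.toAddMonoidHom (JZero N) σ) (p ^ n) x
  rw [hx, map_zero] at h
  exact h.symm

/-- Hecke translates of `p`-power torsion points are `p`-power torsion. -/
theorem s29g_hecke_torsion (ℓ : Nat.Primes) {x : JZero N} {n : ℕ} (hx : p ^ n • x = 0) :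
    p ^ n • (heckeOperatorBar N ℓ x) = 0 := by
  rw [← map_nsmul, hx, map_zero]

/-- **(U)** inertia at `ℓ ∤ N p` acts trivially on the `p`-power torsion of `J₀(N)`. -/
theorem s29g_inertia_trivial (ℓ : ℕ) (hℓ : ℓ.Prime) (hℓNp : ¬ ℓ ∣ N * p)
    (A : ValuationSubring (AlgebraicClosure ℚ)) (hA : A.LiesOverPrime ℓ)
    (τ : Γℚ) (hτ : τ ∈ A.inertiaSubgroupIn ℚ) (x : JZero N) (n : ℕ) (hx : p ^ n • x = 0) :
    τ • x = x := by
  obtain ⟨σ₀, hσ₀⟩ := Fermat.Agent.Lib.Frobenius.exists_isFrobeniusAt_of_liesOverPrime A ℓ hℓ hA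
  obtain ⟨X, _, red, h_in, -, h_inj⟩ := s29g_redAt N p ℓ hℓ hℓNp A hA σ₀ hσ₀
  have h1 : p ^ n • (τ • x - x) = 0 := by
    rw [nsmul_sub, s29g_smul_torsion N p τ hx, hx, sub_zero]
  have h2 : red (τ • x - x) = 0 := by
    rw [map_sub, h_in τ hτ x, sub_self]
  exact sub_eq_zero.mp (h_inj _ ⟨n, h1⟩ h2)

/-- **(Q)** the Eichler–Shimura relation `σ₀² − T_ℓ σ₀ + ℓ = 0` on the `p`-power torsion of
`J₀(N)`, for every Frobenius lift `σ₀` at a place over `ℓ ∤ N p`. -/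
theorem s29g_frobenius_quadratic (ℓ : ℕ) (hℓ : ℓ.Prime) (hℓNp : ¬ ℓ ∣ N * p)
    (A : ValuationSubring (AlgebraicClosure ℚ)) (hA : A.LiesOverPrime ℓ)
    (σ₀ : Γℚ) (hσ₀ : A.IsFrobeniusAt σ₀ ℓ) (x : JZero N) (n : ℕ) (hx : p ^ n • x = 0) :
    σ₀ • σ₀ • x - heckeOperatorBar N ⟨ℓ, hℓ⟩ (σ₀ • x) + ℓ • x = 0 := by
  obtain ⟨X, _, red, -, h_es, h_inj⟩ := s29g_redAt N p ℓ hℓ hℓNp A hA σ₀ hσ₀
  refine h_inj _ ⟨n, ?_⟩ (h_es x)
  rw [nsmul_add, nsmul_sub, s29g_smul_torsion N p σ₀ (s29g_smul_torsion N p σ₀ hx),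
    s29g_hecke_torsion N p ⟨ℓ, hℓ⟩ (s29g_smul_torsion N p σ₀ hx), smul_comm, hx, smul_zero,
    sub_zero, add_zero]

end Fermat.Agent.Lib.S29
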