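/-
S29 (Plan K), Galois side [GS] (helper2), part 2: OPEN STABILISERS.  Every point of
`J₀(N) = Pic⁰(ℚ̄ ⊗ F₀(N))` is fixed by `Gal(ℚ̄/L)` for a number field `L ⊆ ℚ̄`.

Argument: a divisor has finite support; by the separating level ([Q], `s37q_separating`) there is a
number field `L` such that every place `P` of the support is the only place over its restriction to
`F_L(N)`; an automorphism `σ` fixing `L` fixes `F_L(N)` pointwise, so `σ P` and `P` have the same
restriction.
-/
import Fermat.Agent.Lib.S37.QSep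

set_option autoImplicit false
set_option linter.unusedSectionVars false
set_option linter.style.haveILetI false

noncomputable section

namespace Fermat.Agent.Lib.S29

open ModularCurve AlgebraicCurve HahnSeries Fermat.Agent.Lib.S18 Fermat.Agent.Lib.S37

local notation "Qbar" => AlgebraicClosure ℚ
local notation "Γℚ" => (AlgebraicClosure ℚ ≃ₐ[ℚ] AlgebraicClosure ℚ)

variable (N : ℕ) [NeZero N]

/-- an automorphism fixing `L` pointwise fixes the image of `F_L(N)` in `F_{ℚ̄}(N)` pointwise. -/
theorem s29g_smul_incl (L : IntermediateField ℚ Qbar) (σ : Γℚ) (hσ : ∀ y ∈ L, σ y = y)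
    (f : ↥(laurentBaseChange ↥L (modularFunctionFieldFull N))) :
    arithmeticGalois (modularFunctionFieldFull N) σ • s18q_incl N L f = s18q_incl N L f := by
  apply Subtype.ext
  rw [coe_arithmeticGalois_smul]
  show coeffMap (σ : Qbar →+* Qbar) (coeffMap (algebraMap ↥L Qbar) (f : LaurentSeries ↥L)) =
    coeffMap (algebraMap ↥L Qbar) (f : LaurentSeries ↥L)
  rw [coeffMap_coeffMap]
  apply coeffMap_congr
  refine RingHom.ext fun y => ?_
  exact hσ (y : Qbar) y.2

/-- an automorphism fixing `L` pointwise does not change the restriction of a place to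
`F_L(N)`. -/
theorem s29g_restrict_smul (L : IntermediateField ℚ Qbar) (σ : Γℚ) (hσ : ∀ y ∈ L, σ y = y)
    (P : Place Qbar ↥(modularFunctionFieldBar N)) :
    s18q_restrict N L (arithmeticGalois (modularFunctionFieldFull N) σ • P) =
      s18q_restrict N L P := by
  have hσinv : ∀ y ∈ L, σ⁻¹ y = y := by
    intro y hy
    have h := hσ y hy
    calc σ⁻¹ y = σ⁻¹ (σ y) := by rw [h]
      _ = y := by
        show (σ⁻¹ * σ) y = y
        rw [inv_mul_cancel]
        rfl
  apply Place.ext
  ext f
  rw [s18q_mem_restrict, s18q_mem_restrict, SemilinearAut.smul_toValuationSubring,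
    ValuationSubring.mem_pointwise_smul_iff_inv_smul_mem, ← map_inv,
    s29g_smul_incl N L σ⁻¹ hσinv f]

/-- **open stabilisers of places**, simultaneously for finitely many places. -/
theorem s29g_exists_level_places (T : Finset (Place Qbar ↥(modularFunctionFieldBar N))) :
    ∃ L : IntermediateField ℚ Qbar, FiniteDimensional ℚ ↥L ∧
      ∀ σ : Γℚ, (∀ y ∈ L, σ y = y) → ∀ P ∈ T,
        arithmeticGalois (modularFunctionFieldFull N) σ • P = P := by
  obtain ⟨L, hfd, -, hL⟩ := s37q_separating N T (⊥ : IntermediateField ℚ Qbar)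
  refine ⟨L, hfd, fun σ hσ P hP => ?_⟩
  exact hL L le_rfl P hP _ (s29g_restrict_smul N L σ hσ P)

/-- **open stabilisers of divisors**. -/
theorem s29g_exists_level_divisor (D : Divisor Qbar ↥(modularFunctionFieldBar N)) :
    ∃ L : IntermediateField ℚ Qbar, FiniteDimensional ℚ ↥L ∧
      ∀ σ : Γℚ, (∀ y ∈ L, σ y = y) →
        arithmeticGalois (modularFunctionFieldFull N) σ • D = D := by
  obtain ⟨L, hfd, hL⟩ := s29g_exists_level_places N D.support
  refine ⟨L, hfd, fun σ hσ => ?_⟩
  rw [SemilinearAut.divisor_smul_def]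
  have h1 : Finsupp.mapDomain
      (fun P => arithmeticGalois (modularFunctionFieldFull N) σ • P) D =
      Finsupp.mapDomain id D :=
    Finsupp.mapDomain_congr fun P hP => hL σ hσ P hP
  rw [h1, Finsupp.mapDomain_id]

/-- **open stabilisers of points of `J₀(N)`**. -/
theorem s29g_exists_level (x : JZero N) :
    ∃ L : IntermediateField ℚ Qbar, FiniteDimensional ℚ ↥L ∧
      ∀ σ : Γℚ, (∀ y ∈ L, σ y = y) → σ • x = x := by
  obtain ⟨D, rfl⟩ := Pic0.mk_surjective x
  obtain ⟨L, hfd, hL⟩ := s29g_exists_level_divisor N (D : Divisor Qbar ↥(modularFunctionFieldBar N))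
  refine ⟨L, hfd, fun σ hσ => ?_⟩
  rw [galois_smul_pic0_def, SemilinearAut.pic0_smul_mk]
  congr 1
  apply Subtype.ext
  rw [SemilinearAut.coe_degZeroSMulHom]
  exact hL σ hσ

end Fermat.Agent.Lib.S29
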