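/-
S29 (Plan K), Galois side [GS] (helper2), part 4: **the contract `s29k_S37Int` is discharged**:
`s29g_S37Int : s29k_S37Int` (Hecke–Galois commutation [GH], Eichler–Shimura relation and triviality
of inertia on `p`-torsion from the landed S18/S37 packages, open stabilisers).
-/
import Fermat.Agent.Lib.S29.KIface
import Fermat.Agent.Lib.S29.GSRed
import Fermat.Agent.Lib.S29.GSStab
import Fermat.Agent.Lib.S29.GSHecke

set_option autoImplicit false
set_option linter.unusedSectionVars false
set_option linter.style.haveILetI false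

noncomputable section

namespace Fermat.Agent.Lib.S29

open ModularCurve AlgebraicCurve

/-- **[S37int]**. -/
theorem s29g_S37Int : s29k_S37Int where
  comm := fun N _ ℓ σ x => (s29g_heckeOperatorBar_smul N ℓ σ x).symm
  frobQuad := by
    intro N p _ ℓ hℓNp A hA σ hσ x hx
    have hx' : p ^ 1 • x = 0 := by
      rw [pow_one, ← natCast_zsmul]
      exact hx
    have h := s29g_frobenius_quadratic N p (ℓ : ℕ) ℓ.2 hℓNp A hA σ hσ x 1 hx'
    rw [natCast_zsmul]
    exact h
  unram := by
    intro N p _ ℓ hℓ hℓNp A hA σ hσ x hx
    have hx' : p ^ 1 • x = 0 := by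
      rw [pow_one, ← natCast_zsmul]
      exact hx
    exact s29g_inertia_trivial N p ℓ hℓ hℓNp A hA σ hσ x 1 hx'
  openStab := fun N _ x => s29g_exists_level N x

end Fermat.Agent.Lib.S29
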