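/-
Plan K (S29 + S42), package [DC], piece [DCField] (helper8, for helper7's descent).

Let `F ⊆ Ω` be algebraically closed fields.  If `x ∈ Ω ∖ F` then for every `c ∈ F` there is an
`F`-automorphism of `Ω` with `x ↦ x + c`; hence the orbit of `x` under `Aut(Ω/F)` is infinite.
Consequently (`s29cf_mem_range_of_finite_orbit`): for a ring hom `ι : K → L` of algebraically closed
fields, an element of `L` with FINITE orbit under the automorphisms of `L` fixing `ι K` pointwise
lies in `ι K`.  (Applied with `K = ℚ̄`, `L = ℂ`.)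

Proof: `x` is transcendental over `F`; extend `{x}` to a transcendence basis `t` of `Ω/F`, put
`E = F(t ∖ {x})`; `x` and `x + c` are transcendental over `E`, so `E(x) ≅ E(X) ≅ E(x + c)` over `E`
with `x ↦ x + c`, and `Ω` is an algebraic closure of both, so the isomorphism extends to `Ω`.
-/
import Mathlib

set_option autoImplicit false

open IntermediateField

namespace Fermat.Agent.Lib.S29

section General

variable {F Ω : Type*} [Field F] [Field Ω] [Algebra F Ω]

/-- an element algebraic over an algebraically closed field lies in it. -/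
theorem s29cf_mem_range_of_isAlgebraic [IsAlgClosed F] {x : Ω} (hx : IsAlgebraic F x) :
    x ∈ Set.range (algebraMap F Ω) := by
  have hint : IsIntegral F x := hx.isIntegral
  have hdeg : (minpoly F x).degree = 1 :=
    IsAlgClosed.degree_eq_one_of_irreducible F (minpoly.irreducible hint)
  exact minpoly.mem_range_of_degree_eq_one F x hdeg

theorem s29cf_isAlgebraic_of_le {K K' : IntermediateField F Ω} (h : K ≤ K')
    (halg : Algebra.IsAlgebraic K Ω) : Algebra.IsAlgebraic K' Ω := by
  refine ⟨fun y => ?_⟩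
  obtain ⟨p, hp0, hp⟩ := halg.isAlgebraic y
  refine ⟨p.map (IntermediateField.inclusion h).toRingHom, ?_, ?_⟩
  · rw [Polynomial.map_ne_zero_iff (IntermediateField.inclusion h).toRingHom.injective]
    exact hp0
  · rw [Polynomial.aeval_def, Polynomial.eval₂_map]
    rw [Polynomial.aeval_def] at hp
    exact hp

set_option synthInstance.maxHeartbeats 200000 in
/-- **Key step**: if `x` is transcendental over an intermediate field `E` and `Ω` is algebraically
closed and algebraic over `E(x)`, then for every `c ∈ E` some `E`-automorphism of `Ω` maps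
`x ↦ x + c`. -/
theorem s29cf_exists_translate [IsAlgClosed Ω] (E : IntermediateField F Ω) {x : Ω}
    (hx : Transcendental E x) (halg : Algebra.IsAlgebraic E⟮x⟯ Ω) (c : E) :
    ∃ σ : Ω ≃ₐ[E] Ω, σ x = x + (c : Ω) := by
  have hx' : Transcendental E (x + (c : Ω)) := by
    intro h
    apply hx
    have h2 : IsAlgebraic E ((c : Ω)) := isAlgebraic_algebraMap c
    have := h.sub h2
    simpa using this
  have hle : E⟮x⟯ ≤ E⟮x + (c : Ω)⟯ := by
    rw [adjoin_simple_le_iff]
    have h1 : x + (c : Ω) ∈ E⟮x + (c : Ω)⟯ := mem_adjoin_simple_self E _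
    have h2 : (c : Ω) ∈ E⟮x + (c : Ω)⟯ := (E⟮x + (c : Ω)⟯).algebraMap_mem c
    have := sub_mem h1 h2
    simpa using this
  have halg' : Algebra.IsAlgebraic E⟮x + (c : Ω)⟯ Ω := s29cf_isAlgebraic_of_le hle halg
  let e₁ := RatFunc.algEquivOfTranscendental x hx
  let e₂ := RatFunc.algEquivOfTranscendental (x + (c : Ω)) hx'
  let τ : E⟮x⟯ ≃ₐ[E] E⟮x + (c : Ω)⟯ := e₁.symm.trans e₂
  have hτ : τ (AdjoinSimple.gen E x) = AdjoinSimple.gen E (x + (c : Ω)) := by
    show e₂ (e₁.symm (AdjoinSimple.gen E x)) = _
    have h1 : e₁.symm (AdjoinSimple.gen E x) = RatFunc.X := by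
      rw [AlgEquiv.symm_apply_eq]
      exact Subtype.ext (RatFunc.algEquivOfTranscendental_X x hx).symm
    rw [h1]
    exact Subtype.ext (RatFunc.algEquivOfTranscendental_X _ hx')
  have : IsAlgClosure E⟮x⟯ Ω := ⟨inferInstance, halg⟩
  have : IsAlgClosure E⟮x + (c : Ω)⟯ Ω := ⟨inferInstance, halg'⟩
  let σ₀ : Ω ≃+* Ω := IsAlgClosure.equivOfEquiv Ω Ω τ.toRingEquiv
  have hσ₀ : ∀ a : E⟮x⟯, σ₀ (a : Ω) = (τ a : Ω) := fun a =>
    IsAlgClosure.equivOfEquiv_algebraMap Ω Ω τ.toRingEquiv a
  refine ⟨AlgEquiv.ofRingEquiv (f := σ₀) (fun a => ?_), ?_⟩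
  · have := hσ₀ (algebraMap E E⟮x⟯ a)
    rw [τ.commutes] at this
    exact this
  · show σ₀ x = _
    have := hσ₀ (AdjoinSimple.gen E x)
    rw [hτ] at this
    exact this

open scoped IntermediateField.algebraAdjoinAdjoin in
/-- transcendence over `Algebra.adjoin` passes to `IntermediateField.adjoin`. -/
theorem s29cf_transcendental_adjoin_field {S : Set Ω} {x : Ω}
    (h : Transcendental (Algebra.adjoin F S) x) : Transcendental (IntermediateField.adjoin F S) x := by
  intro halg
  apply h
  exact halg.restrictScalars (Algebra.adjoin F S)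

/-- **translations**: if `F` and `Ω` are algebraically closed and `x ∉ F`, every translation
`x ↦ x + c`, `c ∈ F`, is induced by an `F`-automorphism of `Ω`. -/
theorem s29cf_exists_translate_of_notMem [IsAlgClosed F] [IsAlgClosed Ω] {x : Ω}
    (hx : x ∉ Set.range (algebraMap F Ω)) (c : F) :
    ∃ σ : Ω ≃ₐ[F] Ω, σ x = x + algebraMap F Ω c := by
  have hxt : Transcendental F x := fun h => hx (s29cf_mem_range_of_isAlgebraic h)
  have hind : AlgebraicIndepOn F (id : Ω → Ω) {x} := by
    rw [AlgebraicIndepOn, algebraicIndependent_singleton_iff ⟨x, rfl⟩]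
    exact hxt
  obtain ⟨t, hxt', ht⟩ := exists_isTranscendenceBasis_superset hind
  have hxmem : x ∈ t := hxt' rfl
  -- the other elements of the basis
  let s : Set t := {i | (i : Ω) ≠ x}
  have hxs : (⟨x, hxmem⟩ : t) ∉ s := fun h => h rfl
  have htr := ht.1.transcendental_adjoin hxs
  let E : IntermediateField F Ω := IntermediateField.adjoin F (Subtype.val '' s)
  have hE : Transcendental E x := s29cf_transcendental_adjoin_field htr
  -- `Ω` is algebraic over `E(x)`
  have halg0 : Algebra.IsAlgebraic (IntermediateField.adjoin F (Set.range (Subtype.val : t → Ω))) Ω :=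
    ht.isAlgebraic_field
  have hle : IntermediateField.adjoin F (Set.range (Subtype.val : t → Ω)) ≤
      (E⟮x⟯).restrictScalars F := by
    rw [IntermediateField.adjoin_le_iff]
    rintro _ ⟨⟨y, hy⟩, rfl⟩
    by_cases hyx : y = x
    · subst hyx
      exact mem_adjoin_simple_self E y
    · have h1 : y ∈ E := IntermediateField.subset_adjoin F _ ⟨⟨y, hy⟩, hyx, rfl⟩
      exact (E⟮x⟯).algebraMap_mem ⟨y, h1⟩
  have halg1 : Algebra.IsAlgebraic ((E⟮x⟯).restrictScalars F) Ω :=
    s29cf_isAlgebraic_of_le hle halg0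
  have halg : Algebra.IsAlgebraic E⟮x⟯ Ω := halg1
  obtain ⟨σ, hσ⟩ := s29cf_exists_translate E hE halg (algebraMap F E c)
  exact ⟨σ.restrictScalars F, hσ⟩

/-- the orbit of an element outside `F` under `Aut(Ω/F)` is infinite. -/
theorem s29cf_infinite_orbit [IsAlgClosed F] [IsAlgClosed Ω] {x : Ω}
    (hx : x ∉ Set.range (algebraMap F Ω)) :
    {y : Ω | ∃ σ : Ω ≃ₐ[F] Ω, σ x = y}.Infinite := by
  have : Infinite F := IsAlgClosed.instInfinite
  apply Set.infinite_of_injective_forall_mem (f := fun c : F => x + algebraMap F Ω c)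
  · intro a b hab
    exact (algebraMap F Ω).injective (add_left_cancel hab)
  · intro c
    exact s29cf_exists_translate_of_notMem hx c

end General

/-- **[DCField]**: let `ι : K → L` be a ring hom between algebraically closed fields.  An element
of `L` with finite orbit under the automorphisms of `L` fixing `ι K` pointwise lies in `ι K`. -/
theorem s29cf_mem_range_of_finite_orbit {K L : Type*} [Field K] [Field L] [IsAlgClosed K]
    [IsAlgClosed L] (ι : K →+* L) (x : L)
    (h : {y : L | ∃ σ : L ≃+* L, (∀ a : K, σ (ι a) = ι a) ∧ σ x = y}.Finite) :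
    x ∈ Set.range ι := by
  by_contra hx
  let _ : Algebra K L := ι.toAlgebra
  have hinf := s29cf_infinite_orbit (F := K) (Ω := L) (x := x) hx
  apply hinf
  apply h.subset
  rintro y ⟨σ, rfl⟩
  exact ⟨σ.toRingEquiv, fun a => σ.commutes a, rfl⟩

end Fermat.Agent.Lib.S29
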