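/-
Plan K (S29 + S42), package [DC] (helper7), part 1: ABSTRACT EXTENSION OF PLACES along a
(possibly transcendental) extension of algebraically closed constant fields.

Setting: fields `K0 ⊆ K1`, function fields `F0/K0`, `F1/K1`, a `K0`-algebra map `j : F0 → F1` with
* (LD)  a `K0`-basis `b` of `K1` stays `F0`-linearly independent in `F1`,
* (GEN) `F1` is generated as a field by `K1` and `j F0`.
For a place `P0` of `F0` with residue field `K0` we construct the unique place `s29c_ext` of `F1`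
above `P0`: with `T = O_{P0} ⊗[K0] K1`, `μ : T → F1` (injective by (LD)), `ev : T → K1`
(evaluation at `P0`, a ring homomorphism with kernel `t·T`), the valuation ring is the localisation
of `μ T` at `ker ev`.  It is unramified over `P0` (`ord (j f) = ord f`) and it is the only place of
`F1` whose valuation ring pulls back to `O_{P0}`.
-/
import Mathlib
import Fermat.Prelude.Def_AlgebraicCurve_DivisorClassGroup
import Fermat.Agent.Lib.FF.FFBasicPlace
import Fermat.Agent.Lib.S18.QPlace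

set_option autoImplicit false
set_option linter.unusedSectionVars false
set_option linter.style.haveILetI false

noncomputable section

namespace Fermat.Agent.Lib.S29

open AlgebraicCurve TensorProduct Fermat.Agent.Lib.FF Fermat.Agent.Lib.S18

variable {K0 K1 F0 F1 : Type*} [Field K0] [Field K1] [Field F0] [Field F1]
  [Algebra K0 F0] [Algebra K1 F1] [Algebra K0 K1] [Algebra K0 F1] [IsScalarTower K0 K1 F1]

section Res

variable (P0 : Place K0 F0)
  (hres : Function.Surjective (algebraMap K0 P0.ResidueField))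

/-- The residue field of a place with trivial residue extension, identified with `K0`. -/
def s29c_resEquiv : K0 ≃ₐ[K0] P0.ResidueField :=
  AlgEquiv.ofBijective (Algebra.ofId K0 P0.ResidueField)
    ⟨(algebraMap K0 P0.ResidueField).injective, hres⟩

/-- Evaluation at `P0`. -/
def s29c_res : ↥P0.toValuationSubring →ₐ[K0] K0 :=
  ((s29c_resEquiv P0 hres).symm : P0.ResidueField →ₐ[K0] K0).comp
    (IsScalarTower.toAlgHom K0 ↥P0.toValuationSubring P0.ResidueField)

theorem s29c_res_spec (a : ↥P0.toValuationSubring) :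
    algebraMap K0 P0.ResidueField (s29c_res P0 hres a) =
      IsLocalRing.residue ↥P0.toValuationSubring a := by
  have h : s29c_resEquiv P0 hres (s29c_res P0 hres a) =
      IsLocalRing.residue ↥P0.toValuationSubring a := by
    simp [s29c_res]
  exact h

theorem s29c_res_eq_zero_iff (a : ↥P0.toValuationSubring) :
    s29c_res P0 hres a = 0 ↔ a ∈ IsLocalRing.maximalIdeal ↥P0.toValuationSubring := by
  rw [← IsLocalRing.residue_eq_zero_iff, ← s29c_res_spec P0 hres a]
  exact (map_eq_zero (algebraMap K0 P0.ResidueField)).symm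

theorem s29c_sub_res_mem (a : ↥P0.toValuationSubring) :
    a - algebraMap K0 ↥P0.toValuationSubring (s29c_res P0 hres a) ∈
      IsLocalRing.maximalIdeal ↥P0.toValuationSubring := by
  rw [← s29c_res_eq_zero_iff P0 hres, map_sub, AlgHom.commutes, Algebra.algebraMap_self_apply,
    sub_self]

end Res

section Tensor

variable (j : F0 →ₐ[K0] F1) (P0 : Place K0 F0)
  (hres : Function.Surjective (algebraMap K0 P0.ResidueField))

/-- `T = O_{P0} ⊗[K0] K1`. -/
abbrev s29c_T (K1 : Type*) [Field K1] [Algebra K0 K1] (P0 : Place K0 F0) : Type _ :=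
  ↥P0.toValuationSubring ⊗[K0] K1

/-- `μ : T → F1`, `a ⊗ e ↦ j a · e`. -/
def s29c_mu : s29c_T K1 P0 →ₐ[K0] F1 :=
  Algebra.TensorProduct.lift (j.comp (IsScalarTower.toAlgHom K0 ↥P0.toValuationSubring F0))
    (IsScalarTower.toAlgHom K0 K1 F1) (fun _ _ => Commute.all _ _)

/-- `ev : T → K1`, `a ⊗ e ↦ a(P0) · e`. -/
def s29c_ev : s29c_T K1 P0 →ₐ[K0] K1 :=
  Algebra.TensorProduct.lift ((Algebra.ofId K0 K1).comp (s29c_res P0 hres)) (AlgHom.id K0 K1)
    (fun _ _ => Commute.all _ _)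

@[simp]
theorem s29c_mu_tmul (a : ↥P0.toValuationSubring) (e : K1) :
    s29c_mu j P0 (a ⊗ₜ[K0] e) = j (a : F0) * algebraMap K1 F1 e := by
  simp [s29c_mu]

@[simp]
theorem s29c_ev_tmul (a : ↥P0.toValuationSubring) (e : K1) :
    s29c_ev P0 hres (a ⊗ₜ[K0] e) = algebraMap K0 K1 (s29c_res P0 hres a) * e := by
  simp [s29c_ev]

theorem s29c_mu_smul (a : ↥P0.toValuationSubring) (τ : s29c_T K1 P0) :
    s29c_mu j P0 (a • τ) = j (a : F0) * s29c_mu j P0 τ := by
  have h : a • τ = (a ⊗ₜ[K0] (1 : K1)) * τ := by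
    rw [Algebra.smul_def]
    rfl
  rw [h, map_mul, s29c_mu_tmul, map_one, mul_one]

theorem s29c_ev_smul (a : ↥P0.toValuationSubring) (τ : s29c_T K1 P0) :
    s29c_ev P0 hres (a • τ) = algebraMap K0 K1 (s29c_res P0 hres a) * s29c_ev P0 hres τ := by
  have h : a • τ = (a ⊗ₜ[K0] (1 : K1)) * τ := by
    rw [Algebra.smul_def]
    rfl
  rw [h, map_mul, s29c_ev_tmul, mul_one]

theorem s29c_ev_one_tmul (e : K1) : s29c_ev P0 hres ((1 : ↥P0.toValuationSubring) ⊗ₜ[K0] e) = e := by
  rw [s29c_ev_tmul, map_one, map_one, one_mul]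

theorem s29c_mu_one_tmul (e : K1) :
    s29c_mu j P0 ((1 : ↥P0.toValuationSubring) ⊗ₜ[K0] e) = algebraMap K1 F1 e := by
  rw [s29c_mu_tmul]
  simp

variable {P0} in
/-- **`T/tT = K1`**: every `τ` is congruent to the constant `ev τ` modulo a uniformiser `t`. -/
theorem s29c_exists_eq_add_smul {t : ↥P0.toValuationSubring} (ht : Irreducible t)
    (τ : s29c_T K1 P0) :
    ∃ τ' : s29c_T K1 P0, τ = (1 : ↥P0.toValuationSubring) ⊗ₜ[K0] (s29c_ev P0 hres τ) + t • τ' := by
  induction τ using TensorProduct.induction_on with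
  | zero => exact ⟨0, by simp⟩
  | tmul a e =>
      have h1 := s29c_sub_res_mem P0 hres a
      rw [ht.maximalIdeal_eq, Ideal.mem_span_singleton] at h1
      obtain ⟨a', ha'⟩ := h1
      refine ⟨a' ⊗ₜ[K0] e, ?_⟩
      have h2 : (1 : ↥P0.toValuationSubring) ⊗ₜ[K0]
          (algebraMap K0 K1 (s29c_res P0 hres a) * e) =
          (algebraMap K0 ↥P0.toValuationSubring (s29c_res P0 hres a)) ⊗ₜ[K0] e := by
        rw [← Algebra.smul_def, ← TensorProduct.smul_tmul, Algebra.smul_def, mul_one]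
      rw [s29c_ev_tmul, TensorProduct.smul_tmul', smul_eq_mul, ← ha', TensorProduct.sub_tmul, h2,
        add_sub_cancel]
  | add x y hx hy =>
      obtain ⟨x', hx'⟩ := hx
      obtain ⟨y', hy'⟩ := hy
      refine ⟨x' + y', ?_⟩
      rw [map_add, TensorProduct.tmul_add, smul_add]
      nth_rewrite 1 [hx']
      nth_rewrite 1 [hy']
      abel

variable {P0} in
theorem s29c_exists_eq_smul_of_ev_eq_zero {t : ↥P0.toValuationSubring} (ht : Irreducible t)
    {τ : s29c_T K1 P0} (h : s29c_ev P0 hres τ = 0) : ∃ τ' : s29c_T K1 P0, τ = t • τ' := by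
  obtain ⟨τ', hτ'⟩ := s29c_exists_eq_add_smul hres ht τ
  refine ⟨τ', ?_⟩
  rw [hτ', h, TensorProduct.tmul_zero, zero_add]

end Tensor

section Coord

variable (j : F0 →ₐ[K0] F1) (P0 : Place K0 F0)
  (hres : Function.Surjective (algebraMap K0 P0.ResidueField))
variable {I : Type*} (b : Module.Basis I K0 K1)

/-- `μ` in the coordinates of the basis `1 ⊗ b i` of `T` over `O_{P0}`. -/
theorem s29c_mu_eq_sum (τ : s29c_T K1 P0) :
    s29c_mu j P0 τ = ((Algebra.TensorProduct.basis ↥P0.toValuationSubring b).repr τ).sum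
      (fun i a => j (a : F0) * algebraMap K1 F1 (b i)) := by
  conv_lhs => rw [← (Algebra.TensorProduct.basis ↥P0.toValuationSubring b).linearCombination_repr τ]
  rw [Finsupp.linearCombination_apply, map_finsuppSum]
  refine Finsupp.sum_congr fun i _ => ?_
  rw [s29c_mu_smul, Algebra.TensorProduct.basis_apply, s29c_mu_one_tmul]

/-- (LD) for the basis `b`. -/
def s29c_LD : Prop :=
  ∀ c : I →₀ F0, (c.sum fun i u => j u * algebraMap K1 F1 (b i)) = 0 → c = 0

variable {j b} in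
theorem s29c_mu_injective (hLD : s29c_LD j b) :
    Function.Injective (s29c_mu (K1 := K1) j P0) := by
  rw [injective_iff_map_eq_zero]
  intro τ hτ
  rw [s29c_mu_eq_sum j P0 b] at hτ
  set c := (Algebra.TensorProduct.basis ↥P0.toValuationSubring b).repr τ with hc
  have h1 : (c.mapRange (fun a : ↥P0.toValuationSubring => (a : F0)) rfl).sum
      (fun i u => j u * algebraMap K1 F1 (b i)) = 0 := by
    rw [Finsupp.sum_mapRange_index (fun i => by simp)]
    exact hτ
  have h2 := hLD _ h1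
  have h3 : c = 0 := by
    apply Finsupp.mapRange_injective (fun a : ↥P0.toValuationSubring => (a : F0)) rfl
      Subtype.val_injective
    rw [h2, Finsupp.mapRange_zero]
  exact (LinearEquiv.map_eq_zero_iff _).mp h3

variable {P0} in
include b in
/-- **`T` is `t`-adically separated**: a nonzero `τ` is `t^n • τ'` with `τ'(P0) ≠ 0`. -/
theorem s29c_exists_eq_pow_smul {t : ↥P0.toValuationSubring} (ht : Irreducible t)
    {τ : s29c_T K1 P0} (hτ : τ ≠ 0) :
    ∃ (n : ℕ) (τ' : s29c_T K1 P0), τ = t ^ n • τ' ∧ s29c_ev P0 hres τ' ≠ 0 := by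
  classical
  set B := Algebra.TensorProduct.basis ↥P0.toValuationSubring b with hB
  have hc : B.repr τ ≠ 0 := fun h => hτ ((LinearEquiv.map_eq_zero_iff _).mp h)
  obtain ⟨i0, hi0⟩ : ∃ i0, B.repr τ i0 ≠ 0 := by
    by_contra hcon
    push Not at hcon
    exact hc (Finsupp.ext hcon)
  have hi0' : ((B.repr τ i0 : ↥P0.toValuationSubring) : F0) ≠ 0 := fun h => hi0 (Subtype.ext h)
  set m : ℤ := P0.ord ((B.repr τ i0 : ↥P0.toValuationSubring) : F0) with hm
  have htF : (t : F0) ≠ 0 := by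
    simpa [ne_eq, ZeroMemClass.coe_eq_zero] using ht.ne_zero
  have key : ∀ (n : ℕ) (τ' : s29c_T K1 P0), τ = t ^ n • τ' → (n : ℤ) ≤ m := by
    intro n τ' h
    have h1 : B.repr τ i0 = t ^ n * B.repr τ' i0 := by
      rw [h, map_smul, Finsupp.smul_apply, smul_eq_mul]
    have h2 : B.repr τ' i0 ≠ 0 := by
      intro h0
      rw [h0, mul_zero] at h1
      exact hi0 h1
    have h2' : ((B.repr τ' i0 : ↥P0.toValuationSubring) : F0) ≠ 0 := fun h => h2 (Subtype.ext h)
    have h3 : ((B.repr τ i0 : ↥P0.toValuationSubring) : F0) =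
        (t : F0) ^ (n : ℤ) * ((B.repr τ' i0 : ↥P0.toValuationSubring) : F0) := by
      rw [h1, zpow_natCast]
      rfl
    have h4 : 0 ≤ P0.ord ((B.repr τ' i0 : ↥P0.toValuationSubring) : F0) :=
      (ff_mem_iff_ord_nonneg P0 h2').mp (B.repr τ' i0).2
    rw [hm, h3, P0.ord_mul (zpow_ne_zero _ htF) h2', P0.ord_zpow, P0.ord_coe_irreducible ht]
    omega
  let P : ℕ → Prop := fun n => ∃ τ' : s29c_T K1 P0, τ = t ^ n • τ'
  have hP0 : P 0 := ⟨τ, by rw [pow_zero, one_smul]⟩
  have hspec : P (Nat.findGreatest P m.toNat) := Nat.findGreatest_spec (Nat.zero_le _) hP0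
  obtain ⟨τ', hτ'⟩ := hspec
  refine ⟨Nat.findGreatest P m.toNat, τ', hτ', ?_⟩
  intro hev
  obtain ⟨τ'', hτ''⟩ := s29c_exists_eq_smul_of_ev_eq_zero hres ht hev
  have h5 : τ = t ^ (Nat.findGreatest P m.toNat + 1) • τ'' := by
    rw [hτ', hτ'', smul_smul, pow_succ]
  have h6 := key _ _ h5
  have h7 : Nat.findGreatest P m.toNat + 1 ≤ m.toNat := by omega
  exact Nat.findGreatest_is_greatest (Nat.lt_succ_self _) h7 ⟨τ'', h5⟩

end Coord

section Ext

variable (j : F0 →ₐ[K0] F1) (P0 : Place K0 F0)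
  (hres : Function.Surjective (algebraMap K0 P0.ResidueField))
variable {I : Type*} (b : Module.Basis I K0 K1)

/-- The two hypotheses on the constant field extension. -/
structure s29c_Hyp : Prop where
  ld : s29c_LD j b
  gen : Subfield.closure (Set.range (algebraMap K1 F1) ∪ Set.range j) = ⊤

variable {j b}

/-- `μ` does not kill elements with nonzero value at `P0`. -/
theorem s29c_mu_ne_zero_of_ev (H : s29c_Hyp j b) {τ : s29c_T K1 P0}
    (h : s29c_ev P0 hres τ ≠ 0) : s29c_mu j P0 τ ≠ 0 := by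
  intro h0
  apply h
  have : τ = 0 := s29c_mu_injective P0 H.ld (by rw [h0, map_zero])
  rw [this, map_zero]

/-- (GEN) in fraction form: every element of `F1` is a quotient of elements of `μ T`. -/
theorem s29c_exists_frac (H : s29c_Hyp j b) (x : F1) :
    ∃ a c : s29c_T K1 P0, s29c_mu j P0 c ≠ 0 ∧ x * s29c_mu j P0 c = s29c_mu j P0 a := by
  have hx : x ∈ Subfield.closure (Set.range (algebraMap K1 F1) ∪ Set.range j) := by
    rw [H.gen]; trivial
  have hmul : ∀ u v : s29c_T K1 P0, s29c_mu j P0 u ≠ 0 → s29c_mu j P0 v ≠ 0 →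
      s29c_mu j P0 (u * v) ≠ 0 := fun u v hu hv => by
    rw [map_mul]; exact mul_ne_zero hu hv
  induction hx using Subfield.closure_induction with
  | mem y hy =>
      rcases hy with ⟨e, rfl⟩ | ⟨f, rfl⟩
      · exact ⟨(1 : ↥P0.toValuationSubring) ⊗ₜ[K0] e, 1, by simp, by
          rw [map_one, mul_one, s29c_mu_one_tmul]⟩
      · by_cases hf : f ∈ P0.toValuationSubring
        · refine ⟨(⟨f, hf⟩ : ↥P0.toValuationSubring) ⊗ₜ[K0] (1 : K1), 1, by simp, ?_⟩
          rw [map_one, mul_one, s29c_mu_tmul, map_one, mul_one]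
        · have hf0 : f ≠ 0 := fun h0 => hf (h0 ▸ P0.toValuationSubring.zero_mem)
          have hfi : f⁻¹ ∈ P0.toValuationSubring :=
            (P0.toValuationSubring.mem_or_inv_mem f).resolve_left hf
          refine ⟨1, (⟨f⁻¹, hfi⟩ : ↥P0.toValuationSubring) ⊗ₜ[K0] (1 : K1), ?_, ?_⟩
          · rw [s29c_mu_tmul, map_one, mul_one]
            exact (map_ne_zero j).mpr (inv_ne_zero hf0)
          · rw [s29c_mu_tmul, map_one, mul_one, map_one, ← map_mul, mul_inv_cancel₀ hf0, map_one]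
  | one => exact ⟨1, 1, by simp, by simp⟩
  | add x y _ _ hx hy =>
      obtain ⟨a, c, hc, h⟩ := hx
      obtain ⟨a', c', hc', h'⟩ := hy
      refine ⟨a * c' + a' * c, c * c', hmul _ _ hc hc', ?_⟩
      rw [map_add, map_mul, map_mul, map_mul, ← h, ← h']
      ring
  | neg x _ hx =>
      obtain ⟨a, c, hc, h⟩ := hx
      exact ⟨-a, c, hc, by rw [map_neg, ← h]; ring⟩
  | inv x _ hx =>
      obtain ⟨a, c, hc, h⟩ := hx
      rcases eq_or_ne x 0 with rfl | hx0
      · exact ⟨0, 1, by simp, by simp⟩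
      · refine ⟨c, a, ?_, ?_⟩
        · rw [← h]; exact mul_ne_zero hx0 hc
        · rw [← h]; field_simp
  | mul x y _ _ hx hy =>
      obtain ⟨a, c, hc, h⟩ := hx
      obtain ⟨a', c', hc', h'⟩ := hy
      refine ⟨a * a', c * c', hmul _ _ hc hc', ?_⟩
      rw [map_mul, map_mul, ← h, ← h']
      ring

variable (K1 j) in
/-- The valuation ring of the extended place, as a subring: the localisation of `μ T` at
`ker ev`. -/
def s29c_extSubring : Subring F1 where
  carrier := {x | ∃ τ τ' : s29c_T K1 P0, s29c_ev P0 hres τ' ≠ 0 ∧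
    x * s29c_mu j P0 τ' = s29c_mu j P0 τ}
  zero_mem' := ⟨0, 1, by simp, by simp⟩
  one_mem' := ⟨1, 1, by simp, by simp⟩
  add_mem' := by
    rintro x y ⟨a, c, hc, h⟩ ⟨a', c', hc', h'⟩
    refine ⟨a * c' + a' * c, c * c', by rw [map_mul]; exact mul_ne_zero hc hc', ?_⟩
    rw [map_add, map_mul, map_mul, map_mul, ← h, ← h']
    ring
  mul_mem' := by
    rintro x y ⟨a, c, hc, h⟩ ⟨a', c', hc', h'⟩
    refine ⟨a * a', c * c', by rw [map_mul]; exact mul_ne_zero hc hc', ?_⟩
    rw [map_mul, map_mul, ← h, ← h']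
    ring
  neg_mem' := by
    rintro x ⟨a, c, hc, h⟩
    exact ⟨-a, c, hc, by rw [map_neg, ← h]; ring⟩

theorem s29c_mem_extSubring {x : F1} :
    x ∈ s29c_extSubring K1 j P0 hres ↔ ∃ τ τ' : s29c_T K1 P0, s29c_ev P0 hres τ' ≠ 0 ∧
      x * s29c_mu j P0 τ' = s29c_mu j P0 τ := Iff.rfl

theorem s29c_mu_mem_extSubring (τ : s29c_T K1 P0) :
    s29c_mu j P0 τ ∈ s29c_extSubring K1 j P0 hres :=
  ⟨τ, 1, by simp, by simp⟩

theorem s29c_algebraMap_mem_extSubring (e : K1) :
    algebraMap K1 F1 e ∈ s29c_extSubring K1 j P0 hres := by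
  rw [← s29c_mu_one_tmul j P0 e]
  exact s29c_mu_mem_extSubring P0 hres _

theorem s29c_map_mem_extSubring (a : ↥P0.toValuationSubring) :
    j (a : F0) ∈ s29c_extSubring K1 j P0 hres := by
  have h := s29c_mu_mem_extSubring (j := j) P0 hres (a ⊗ₜ[K0] (1 : K1))
  rwa [s29c_mu_tmul, map_one, mul_one] at h

/-- units: quotients of two elements with nonzero value at `P0`. -/
theorem s29c_inv_mem_extSubring (H : s29c_Hyp j b) {x : F1} {τ τ' : s29c_T K1 P0}
    (hτ : s29c_ev P0 hres τ ≠ 0) (hτ' : s29c_ev P0 hres τ' ≠ 0)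
    (h : x * s29c_mu j P0 τ' = s29c_mu j P0 τ) : x⁻¹ ∈ s29c_extSubring K1 j P0 hres := by
  refine ⟨τ', τ, hτ, ?_⟩
  have h1 := s29c_mu_ne_zero_of_ev P0 hres H hτ
  have h2 := s29c_mu_ne_zero_of_ev P0 hres H hτ'
  have hx : x ≠ 0 := by
    rintro rfl
    rw [zero_mul] at h
    exact h1 h.symm
  rw [← h]
  field_simp

theorem s29c_mu_pow_smul (t : ↥P0.toValuationSubring) (n : ℕ) (τ : s29c_T K1 P0) :
    s29c_mu j P0 (t ^ n • τ) = j (t : F0) ^ n * s29c_mu j P0 τ := by
  rw [s29c_mu_smul, SubmonoidClass.coe_pow, map_pow]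

theorem s29c_res_irreducible {t : ↥P0.toValuationSubring} (ht : Irreducible t) :
    s29c_res P0 hres t = 0 := by
  rw [s29c_res_eq_zero_iff, IsLocalRing.mem_maximalIdeal, mem_nonunits_iff]
  exact ht.not_isUnit

theorem s29c_map_irreducible_ne_zero {t : ↥P0.toValuationSubring} (ht : Irreducible t) :
    j (t : F0) ≠ 0 := by
  apply (map_ne_zero j).mpr
  simpa [ne_eq, ZeroMemClass.coe_eq_zero] using ht.ne_zero

theorem s29c_mem_or_inv_mem (H : s29c_Hyp j b) (x : F1) :
    x ∈ s29c_extSubring K1 j P0 hres ∨ x⁻¹ ∈ s29c_extSubring K1 j P0 hres := by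
  rcases eq_or_ne x 0 with rfl | hx0
  · left; exact Subring.zero_mem _
  obtain ⟨t, ht⟩ := IsDiscreteValuationRing.exists_irreducible ↥P0.toValuationSubring
  obtain ⟨a, c, hc, h⟩ := s29c_exists_frac P0 H x
  have ha : s29c_mu j P0 a ≠ 0 := by rw [← h]; exact mul_ne_zero hx0 hc
  have ha0 : a ≠ 0 := fun h0 => ha (by rw [h0, map_zero])
  have hc0 : c ≠ 0 := fun h0 => hc (by rw [h0, map_zero])
  obtain ⟨n, a', rfl, ha'⟩ := s29c_exists_eq_pow_smul hres b ht ha0
  obtain ⟨m, c', rfl, hc'⟩ := s29c_exists_eq_pow_smul hres b ht hc0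
  have hπ := s29c_map_irreducible_ne_zero (j := j) P0 ht
  rw [s29c_mu_pow_smul, s29c_mu_pow_smul] at h
  rcases le_total m n with hmn | hnm
  · left
    refine ⟨t ^ (n - m) • a', c', hc', ?_⟩
    rw [s29c_mu_pow_smul]
    have h1 : j (t : F0) ^ m * (x * s29c_mu j P0 c') =
        j (t : F0) ^ m * (j (t : F0) ^ (n - m) * s29c_mu j P0 a') := by
      rw [← mul_assoc (j (t : F0) ^ m) (j (t : F0) ^ (n - m)), ← pow_add,
        Nat.add_sub_cancel' hmn, ← h]
      ring
    exact mul_left_cancel₀ (pow_ne_zero _ hπ) h1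
  · right
    refine ⟨t ^ (m - n) • c', a', ha', ?_⟩
    rw [s29c_mu_pow_smul]
    have ha'' := s29c_mu_ne_zero_of_ev P0 hres H ha'
    have h1 : j (t : F0) ^ n * (x * (x⁻¹ * s29c_mu j P0 a')) =
        j (t : F0) ^ n * (x * (j (t : F0) ^ (m - n) * s29c_mu j P0 c')) := by
      rw [mul_inv_cancel_left₀ hx0, ← h]
      have : m = n + (m - n) := (Nat.add_sub_cancel' hnm).symm
      conv_lhs => rw [this, pow_add]
      ring
    exact mul_left_cancel₀ hx0 (mul_left_cancel₀ (pow_ne_zero _ hπ) h1)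

/-- The valuation ring of the extended place. -/
def s29c_extVS (H : s29c_Hyp j b) : ValuationSubring F1 :=
  { s29c_extSubring K1 j P0 hres with
    mem_or_inv_mem' := s29c_mem_or_inv_mem P0 hres H }

theorem s29c_mem_extVS (H : s29c_Hyp j b) {x : F1} :
    x ∈ s29c_extVS P0 hres H ↔ ∃ τ τ' : s29c_T K1 P0, s29c_ev P0 hres τ' ≠ 0 ∧
      x * s29c_mu j P0 τ' = s29c_mu j P0 τ := Iff.rfl

theorem s29c_mem_extVS_iff (H : s29c_Hyp j b) {x : F1} :
    x ∈ s29c_extVS P0 hres H ↔ x ∈ s29c_extSubring K1 j P0 hres := Iff.rfl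

/-- the image of a uniformiser is not invertible in the extended valuation ring. -/
theorem s29c_inv_unif_not_mem (H : s29c_Hyp j b) {t : ↥P0.toValuationSubring}
    (ht : Irreducible t) : (j (t : F0))⁻¹ ∉ s29c_extVS P0 hres H := by
  rintro ⟨τ, τ', hτ', h⟩
  have hπ := s29c_map_irreducible_ne_zero (j := j) P0 ht
  have h1 : s29c_mu j P0 τ' = s29c_mu j P0 (t • τ) := by
    rw [s29c_mu_smul, ← h]
    field_simp
  have h2 := s29c_mu_injective P0 H.ld h1
  apply hτ'
  rw [h2, s29c_ev_smul, s29c_res_irreducible P0 hres ht, map_zero, zero_mul]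

/-- every nonzero element of the extended valuation ring is a power of `j t` times a unit. -/
theorem s29c_extVS_unif (H : s29c_Hyp j b) {t : ↥P0.toValuationSubring} (ht : Irreducible t)
    (y : F1) (hy : y ∈ s29c_extVS P0 hres H) (hy0 : y ≠ 0) :
    ∃ (n : ℕ) (u : F1), u ∈ s29c_extVS P0 hres H ∧ u⁻¹ ∈ s29c_extVS P0 hres H ∧
      y = j (t : F0) ^ n * u := by
  obtain ⟨τ, τ', hτ', h⟩ := hy
  have hμτ' := s29c_mu_ne_zero_of_ev P0 hres H hτ'
  have hτ0 : τ ≠ 0 := by
    rintro rfl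
    rw [map_zero] at h
    exact (mul_ne_zero hy0 hμτ') h
  obtain ⟨n, τ'', rfl, hτ''⟩ := s29c_exists_eq_pow_smul hres b ht hτ0
  have hμτ'' := s29c_mu_ne_zero_of_ev P0 hres H hτ''
  have hu : s29c_mu j P0 τ'' / s29c_mu j P0 τ' * s29c_mu j P0 τ' = s29c_mu j P0 τ'' := by
    field_simp
  refine ⟨n, s29c_mu j P0 τ'' / s29c_mu j P0 τ', ⟨τ'', τ', hτ', hu⟩,
    s29c_inv_mem_extSubring P0 hres H hτ'' hτ' hu, ?_⟩
  rw [s29c_mu_pow_smul] at h
  field_simp
  exact h

theorem s29c_extVS_isDVR (H : s29c_Hyp j b) :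
    IsDiscreteValuationRing ↥(s29c_extVS P0 hres H) := by
  obtain ⟨t, ht⟩ := IsDiscreteValuationRing.exists_irreducible ↥P0.toValuationSubring
  exact s18q_isDVR_of_unif _ (j (t : F0)) (s29c_map_mem_extSubring P0 hres t)
    (s29c_inv_unif_not_mem P0 hres H ht) (s29c_extVS_unif P0 hres H ht)

/-- **The extended place.** -/
def s29c_ext (H : s29c_Hyp j b) : Place K1 F1 where
  toValuationSubring := s29c_extVS P0 hres H
  algebraMap_mem' := s29c_algebraMap_mem_extSubring P0 hres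
  ne_top' := by
    obtain ⟨t, ht⟩ := IsDiscreteValuationRing.exists_irreducible ↥P0.toValuationSubring
    intro h
    apply s29c_inv_unif_not_mem P0 hres H ht
    rw [h]
    exact ValuationSubring.mem_top _
  isPrincipalIdealRing' := by
    have := s29c_extVS_isDVR P0 hres H
    infer_instance

@[simp]
theorem s29c_ext_toValuationSubring (H : s29c_Hyp j b) :
    (s29c_ext P0 hres H).toValuationSubring = s29c_extVS P0 hres H := rfl

/-- `j t` has order one at the extended place. -/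
theorem s29c_ext_ord_unif (H : s29c_Hyp j b) {t : ↥P0.toValuationSubring} (ht : Irreducible t) :
    (s29c_ext P0 hres H).ord (j (t : F0)) = 1 := by
  set P := s29c_ext P0 hres H with hP
  have hπ0 := s29c_map_irreducible_ne_zero (j := j) P0 ht
  have hπ1 : 0 ≤ P.ord (j (t : F0)) :=
    (ff_mem_iff_ord_nonneg P hπ0).mp (s29c_map_mem_extSubring P0 hres t)
  have hπ2 : ¬ 0 ≤ P.ord (j (t : F0))⁻¹ := fun h =>
    s29c_inv_unif_not_mem P0 hres H ht ((ff_mem_iff_ord_nonneg P (inv_ne_zero hπ0)).mpr h)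
  rw [P.ord_inv] at hπ2
  obtain ⟨ϖ, hϖ0, hϖ⟩ := ff_exists_ord_eq_one P
  have hϖmem : ϖ ∈ s29c_extVS P0 hres H :=
    (ff_mem_iff_ord_nonneg P hϖ0).mpr (by rw [hϖ]; exact zero_le_one)
  obtain ⟨n, u, hu, hu', hϖu⟩ := s29c_extVS_unif P0 hres H ht ϖ hϖmem hϖ0
  have hu0 : u ≠ 0 := by
    rintro rfl
    rw [mul_zero] at hϖu
    exact hϖ0 hϖu
  have h1 : 0 ≤ P.ord u := (ff_mem_iff_ord_nonneg P hu0).mp hu
  have h2 : 0 ≤ P.ord u⁻¹ := (ff_mem_iff_ord_nonneg P (inv_ne_zero hu0)).mp hu'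
  rw [P.ord_inv] at h2
  have h3 : P.ord u = 0 := by omega
  have h4 : (1 : ℤ) = n * P.ord (j (t : F0)) := by
    rw [← hϖ, hϖu, P.ord_mul (pow_ne_zero _ hπ0) hu0, h3, add_zero, ← zpow_natCast, P.ord_zpow]
  have h5 : 0 < P.ord (j (t : F0)) := by omega
  have h6 : P.ord (j (t : F0)) ∣ 1 := ⟨n, by rw [h4]; ring⟩
  exact Int.eq_one_of_dvd_one h5.le h6

/-- **The extended place is unramified over `P0`.** -/
theorem s29c_ext_ord (H : s29c_Hyp j b) (f : F0) :
    (s29c_ext P0 hres H).ord (j f) = P0.ord f := by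
  set P := s29c_ext P0 hres H with hP
  obtain ⟨t, ht⟩ := IsDiscreteValuationRing.exists_irreducible ↥P0.toValuationSubring
  have htF : (t : F0) ≠ 0 := by
    simpa [ne_eq, ZeroMemClass.coe_eq_zero] using ht.ne_zero
  rcases eq_or_ne f 0 with rfl | hf
  · simp
  obtain ⟨u, hu⟩ := P0.exists_unit_mul_zpow hf ht
  have hu0 : ((u : ↥P0.toValuationSubring) : F0) ≠ 0 := by
    simp [ne_eq, ZeroMemClass.coe_eq_zero]
  have hju0 : j ((u : ↥P0.toValuationSubring) : F0) ≠ 0 := (map_ne_zero j).mpr hu0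
  have h1 : 0 ≤ P.ord (j ((u : ↥P0.toValuationSubring) : F0)) :=
    (ff_mem_iff_ord_nonneg P hju0).mp (s29c_map_mem_extSubring P0 hres _)
  have h2 : 0 ≤ P.ord (j ((u : ↥P0.toValuationSubring) : F0))⁻¹ := by
    refine (ff_mem_iff_ord_nonneg P (inv_ne_zero hju0)).mp ?_
    have h3 : (j ((u : ↥P0.toValuationSubring) : F0))⁻¹ =
        j (((u⁻¹ : (↥P0.toValuationSubring)ˣ) : ↥P0.toValuationSubring) : F0) := by
      rw [← map_inv₀]
      congr 1
      rw [eq_comm, ← mul_eq_one_iff_eq_inv₀ hu0, ← MulMemClass.coe_mul, ← Units.val_mul,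
        inv_mul_cancel, Units.val_one, OneMemClass.coe_one]
    rw [h3]
    exact s29c_map_mem_extSubring P0 hres _
  rw [P.ord_inv] at h2
  have h3 : P.ord (j ((u : ↥P0.toValuationSubring) : F0)) = 0 := by omega
  conv_lhs => rw [hu]
  rw [map_mul, map_zpow₀, P.ord_mul hju0 (zpow_ne_zero _ (s29c_map_irreducible_ne_zero P0 ht)),
    h3, zero_add, P.ord_zpow, s29c_ext_ord_unif P0 hres H ht, mul_one]

/-- the extended valuation ring pulls back to `O_{P0}`. -/
theorem s29c_ext_mem_iff (H : s29c_Hyp j b) (f : F0) :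
    j f ∈ (s29c_ext P0 hres H).toValuationSubring ↔ f ∈ P0.toValuationSubring := by
  rcases eq_or_ne f 0 with rfl | hf
  · simp only [map_zero]
    exact ⟨fun _ => zero_mem _, fun _ => zero_mem _⟩
  rw [ff_mem_iff_ord_nonneg _ ((map_ne_zero j).mpr hf), ff_mem_iff_ord_nonneg _ hf, s29c_ext_ord]

/-- `μ T` lies in every valuation ring of `F1` containing `K1` and `j O_{P0}`. -/
theorem s29c_mu_mem_of_le (V : ValuationSubring F1) (hK : ∀ e : K1, algebraMap K1 F1 e ∈ V)
    (hO : ∀ a : ↥P0.toValuationSubring, j (a : F0) ∈ V) (τ : s29c_T K1 P0) :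
    s29c_mu j P0 τ ∈ V := by
  induction τ using TensorProduct.induction_on with
  | zero => rw [map_zero]; exact V.zero_mem
  | tmul a e => rw [s29c_mu_tmul]; exact V.mul_mem _ _ (hO a) (hK e)
  | add x y hx hy => rw [map_add]; exact V.add_mem _ _ hx hy

/-- **Uniqueness of the extended place**: a place of `F1` whose valuation ring pulls back to
`O_{P0}` is `s29c_ext P0`. -/
theorem s29c_ext_unique (H : s29c_Hyp j b) (P : Place K1 F1)
    (hP : ∀ f : F0, j f ∈ P.toValuationSubring ↔ f ∈ P0.toValuationSubring) :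
    P = s29c_ext P0 hres H := by
  symm
  apply ff_place_eq_of_le
  obtain ⟨t, ht⟩ := IsDiscreteValuationRing.exists_irreducible ↥P0.toValuationSubring
  have htF : (t : F0) ≠ 0 := by
    simpa [ne_eq, ZeroMemClass.coe_eq_zero] using ht.ne_zero
  have hμ : ∀ τ : s29c_T K1 P0, s29c_mu j P0 τ ∈ P.toValuationSubring :=
    s29c_mu_mem_of_le P0 _ P.algebraMap_mem' (fun a => (hP _).mpr a.2)
  -- `j t` is a nonunit of `O_P`
  have htinv : (t : F0)⁻¹ ∉ P0.toValuationSubring := by
    intro h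
    apply ht.not_isUnit
    exact isUnit_iff_exists_inv.mpr ⟨⟨(t : F0)⁻¹, h⟩, Subtype.ext (mul_inv_cancel₀ htF)⟩
  have hπlt : P.adicValuation (j (t : F0)) < 1 := by
    have h1 : ¬ (j (t : F0))⁻¹ ∈ P.toValuationSubring := by
      rw [← map_inv₀, hP]
      exact htinv
    rw [ff_mem_iff_adicValuation_le_one, map_inv₀, not_le] at h1
    have h0 : P.adicValuation (j (t : F0)) ≠ 0 :=
      P.adicValuation_ne_zero ((map_ne_zero j).mpr htF)
    by_contra hcon
    push Not at hcon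
    have : (P.adicValuation (j (t : F0)))⁻¹ ≤ 1 := inv_le_one_of_one_le₀ hcon
    exact absurd h1 (not_lt.mpr this)
  intro x hx
  obtain ⟨τ, τ', hτ', h⟩ := hx
  -- `μ τ'` is a unit of `O_P`
  obtain ⟨τ'', hτ''⟩ := s29c_exists_eq_add_smul hres ht τ'
  have hval : P.adicValuation (s29c_mu j P0 τ') = 1 := by
    by_contra hne
    have hlt : P.adicValuation (s29c_mu j P0 τ') < 1 :=
      lt_of_le_of_ne ((ff_mem_iff_adicValuation_le_one P _).mp (hμ τ')) hne
    have h2 : P.adicValuation (j (t : F0) * s29c_mu j P0 τ'') < 1 := by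
      rw [map_mul]
      calc P.adicValuation (j (t : F0)) * P.adicValuation (s29c_mu j P0 τ'')
          ≤ P.adicValuation (j (t : F0)) * 1 :=
            mul_le_mul_right ((ff_mem_iff_adicValuation_le_one P _).mp (hμ τ'')) _
        _ = P.adicValuation (j (t : F0)) := mul_one _
        _ < 1 := hπlt
    have h3 : algebraMap K1 F1 (s29c_ev P0 hres τ') =
        s29c_mu j P0 τ' - j (t : F0) * s29c_mu j P0 τ'' := by
      conv_rhs => rw [hτ'', map_add, s29c_mu_smul, s29c_mu_one_tmul]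
      ring
    have h4 : P.adicValuation (algebraMap K1 F1 (s29c_ev P0 hres τ')) < 1 := by
      rw [h3]
      exact Valuation.map_sub_lt _ hlt h2
    have h5 : P.ord (algebraMap K1 F1 (s29c_ev P0 hres τ')) = 0 := ff_ord_algebraMap P _
    have h6 : algebraMap K1 F1 (s29c_ev P0 hres τ') ≠ 0 := by simpa using hτ'
    rw [ff_adicValuation_eq_exp P h6, h5, neg_zero, WithZero.exp_zero] at h4
    exact lt_irrefl _ h4
  have hμ0 : s29c_mu j P0 τ' ≠ 0 := by
    intro h0
    rw [h0, map_zero] at hval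
    exact zero_ne_one hval
  have hx : x = s29c_mu j P0 τ * (s29c_mu j P0 τ')⁻¹ := by
    rw [← h]
    field_simp
  rw [hx]
  refine P.toValuationSubring.mul_mem _ _ (hμ τ) ?_
  rw [ff_mem_iff_adicValuation_le_one, map_inv₀, hval, inv_one]

end Ext

end Fermat.Agent.Lib.S29
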