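/-
Plan K (S29 + S42), package [DC] (helper7), part 2: finite generation is preserved by a constant
field extension.  If `F0` is finite over `K0(x0)`, `j : F0 → F1` is compatible with `ι : K0 → K1`
and `F1` is generated by `K1` and `j F0`, then `F1` is finite over `K1(j x0)`.
-/
import Mathlib
import Fermat.Agent.Lib.FF.FFBasicDedekind

set_option autoImplicit false
set_option linter.unusedSectionVars false
set_option linter.style.haveILetI false

noncomputable section

namespace Fermat.Agent.Lib.S29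

open IntermediateField Polynomial Fermat.Agent.Lib.FF

variable {K0 K1 F0 F1 : Type*} [Field K0] [Field K1] [Field F0] [Field F1]
  [Algebra K0 F0] [Algebra K1 F1]

theorem s29c_map_aeval (ι : K0 →+* K1) (j : F0 →+* F1)
    (hj : ∀ a, j (algebraMap K0 F0 a) = algebraMap K1 F1 (ι a)) (x0 : F0) (r : K0[X]) :
    j (aeval x0 r) = aeval (j x0) (r.map ι) := by
  rw [aeval_def, aeval_def, hom_eval₂, eval₂_map]
  congr 1
  exact RingHom.ext hj

theorem s29c_map_mem_adjoin (ι : K0 →+* K1) (j : F0 →+* F1)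
    (hj : ∀ a, j (algebraMap K0 F0 a) = algebraMap K1 F1 (ι a)) (x0 : F0) {c : F0}
    (hc : c ∈ K0⟮x0⟯) : j c ∈ K1⟮j x0⟯ := by
  obtain ⟨r, s, rfl⟩ := (mem_adjoin_simple_iff K0 c).mp hc
  rw [map_div₀, s29c_map_aeval ι j hj, s29c_map_aeval ι j hj]
  exact (mem_adjoin_simple_iff K1 _).mpr ⟨r.map ι, s.map ι, rfl⟩

/-- **Finite generation over the extended constants.** -/
theorem s29c_ffGen_of_map (ι : K0 →+* K1) (j : F0 →+* F1)
    (hj : ∀ a, j (algebraMap K0 F0 a) = algebraMap K1 F1 (ι a))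
    (hgen : Subfield.closure (Set.range (algebraMap K1 F1) ∪ Set.range j) = ⊤)
    (x0 : F0) [FFGen K0 x0] (htr : Transcendental K1 (j x0)) : FFGen K1 (j x0) := by
  classical
  refine ⟨htr, ?_⟩
  haveI : FiniteDimensional K0⟮x0⟯ F0 := ff_finiteDimensional
  -- the map between the rational subfields
  let jE : ↥K0⟮x0⟯ →+* ↥K1⟮j x0⟯ :=
    (j.comp (algebraMap ↥K0⟮x0⟯ F0)).codRestrict K1⟮j x0⟯.toSubfield.toSubring
      (fun c => s29c_map_mem_adjoin ι j hj x0 c.2)
  have hjE : (algebraMap ↥K1⟮j x0⟯ F1).comp jE = j.comp (algebraMap ↥K0⟮x0⟯ F0) :=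
    RingHom.ext fun c => rfl
  let θ := Module.finBasis ↥K0⟮x0⟯ F0
  set S : Set F1 := Set.range (fun k => j (θ k)) with hS
  haveI : Finite S := Set.finite_range _
  have hint : ∀ y ∈ S, IsIntegral ↥K1⟮j x0⟯ y := by
    rintro y ⟨k, rfl⟩
    exact IsIntegral.map_of_comp_eq jE j hjE (Algebra.IsIntegral.isIntegral (θ k))
  haveI hfd : FiniteDimensional ↥K1⟮j x0⟯ ↥(adjoin ↥K1⟮j x0⟯ S) := finiteDimensional_adjoin hint
  have htop : adjoin ↥K1⟮j x0⟯ S = ⊤ := by
    rw [eq_top_iff]
    intro y _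
    have hy : y ∈ Subfield.closure (Set.range (algebraMap K1 F1) ∪ Set.range j) := by
      rw [hgen]; trivial
    induction hy using Subfield.closure_induction with
    | mem z hz =>
        rcases hz with ⟨e, rfl⟩ | ⟨f, rfl⟩
        · have : algebraMap K1 F1 e = algebraMap ↥K1⟮j x0⟯ F1 (algebraMap K1 ↥K1⟮j x0⟯ e) := rfl
          rw [this]
          exact (adjoin ↥K1⟮j x0⟯ S).algebraMap_mem _
        · have hf : f = ∑ k, (θ.repr f k) • θ k := (θ.sum_repr f).symm
          rw [hf, map_sum]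
          refine sum_mem fun k _ => ?_
          rw [Algebra.smul_def, map_mul]
          refine mul_mem ?_ (subset_adjoin _ _ ⟨k, rfl⟩)
          have : j (algebraMap ↥K0⟮x0⟯ F0 (θ.repr f k)) =
              algebraMap ↥K1⟮j x0⟯ F1 (jE (θ.repr f k)) := rfl
          rw [this]
          exact (adjoin ↥K1⟮j x0⟯ S).algebraMap_mem _
    | one => exact one_mem _
    | add x y _ _ hx hy => exact add_mem (hx trivial) (hy trivial)
    | neg x _ hx => exact neg_mem (hx trivial)
    | inv x _ hx => exact inv_mem (hx trivial)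
    | mul x y _ _ hx hy => exact mul_mem (hx trivial) (hy trivial)
  rw [htop] at hfd
  exact Module.Finite.equiv (topEquiv (F := ↥K1⟮j x0⟯) (E := F1)).toLinearEquiv

end Fermat.Agent.Lib.S29
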