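/-
Plan K (S29 + S42), package [DC] (helper7), part 3: the abstract extension of places of `DCExt`
applied to the Laurent-series function fields `E0 = laurentBaseChange K0 F₀ ⊆ K0((q))`,
`E1 = laurentBaseChange K1 F₀ ⊆ K1((q))`, `j = s18q_map (algebraMap K0 K1)` (coefficientwise).
* (LD) holds coefficientwise, (GEN) by the definition of `laurentBaseChange`;
* `FFGen K0 x0 → FFGen K1 (j x0)`.
-/
import Mathlib
import Fermat.Agent.Lib.S29.DCExt
import Fermat.Agent.Lib.S29.DCFin
import Fermat.Agent.Lib.S18.QBase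
import Fermat.Agent.Lib.S37.DegOne

set_option autoImplicit false
set_option linter.unusedSectionVars false
set_option linter.style.haveILetI false

noncomputable section

namespace Fermat.Agent.Lib.S29

open AlgebraicCurve ModularCurve Fermat.Agent.Lib.FF Fermat.Agent.Lib.S18 Fermat.Agent.Lib.S37

variable {K0 K1 : Type*} [Field K0] [Field K1] [Algebra ℚ K0] [Algebra ℚ K1] [Algebra K0 K1]
variable (F₀ : IntermediateField ℚ (LaurentSeries ℚ))

/-- The `K0`-algebra structure of `E1` (through the constants `K1`). -/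
@[reducible] def s29c_algE1 (K0 : Type*) {K1 : Type*} [Field K0] [Field K1] [Algebra ℚ K1]
    [Algebra K0 K1] (F₀ : IntermediateField ℚ (LaurentSeries ℚ)) :
    Algebra K0 ↥(laurentBaseChange K1 F₀) :=
  ((algebraMap K1 ↥(laurentBaseChange K1 F₀)).comp (algebraMap K0 K1)).toAlgebra

attribute [local instance] s29c_algE1

instance s29c_isScalarTowerE1 : IsScalarTower K0 K1 ↥(laurentBaseChange K1 F₀) :=
  IsScalarTower.of_algebraMap_eq fun _ => rfl

/-- The coefficientwise inclusion `E0 → E1` as a `K0`-algebra map. -/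
def s29c_jL : ↥(laurentBaseChange K0 F₀) →ₐ[K0] ↥(laurentBaseChange K1 F₀) :=
  { s18q_map (algebraMap K0 K1) F₀ with
    commutes' := fun c => s18q_map_algebraMap (algebraMap K0 K1) F₀ c }

@[simp]
theorem s29c_jL_apply (f : ↥(laurentBaseChange K0 F₀)) :
    s29c_jL (K1 := K1) F₀ f = s18q_map (algebraMap K0 K1) F₀ f := rfl

theorem s29c_coe_jL (f : ↥(laurentBaseChange K0 F₀)) :
    ((s29c_jL (K1 := K1) F₀ f : ↥(laurentBaseChange K1 F₀)) : LaurentSeries K1) =
      coeffMap (algebraMap K0 K1) (f : LaurentSeries K0) := rfl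

theorem s29c_coeff_mul_algebraMap (x : LaurentSeries K1) (e : K1) (m : ℤ) :
    (x * algebraMap K1 (LaurentSeries K1) e).coeff m = x.coeff m * e := by
  rw [algebraMap_laurentSeries_eq_single, HahnSeries.coeff_mul_single_zero]

/-- **(LD)**: coefficientwise. -/
theorem s29c_ld_laurent {I : Type*} (b : Module.Basis I K0 K1) :
    s29c_LD (s29c_jL (K1 := K1) F₀) b := by
  classical
  intro c hc
  have hcoe : ∀ m : ℤ, c.sum (fun i u => algebraMap K0 K1 ((u : LaurentSeries K0).coeff m) * b i)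
      = 0 := by
    intro m
    have h1 := congrArg (fun y : ↥(laurentBaseChange K1 F₀) => (y : LaurentSeries K1).coeff m) hc
    simp only [ZeroMemClass.coe_zero, HahnSeries.coeff_zero] at h1
    rw [← h1, Finsupp.sum, Finsupp.sum, AddSubmonoidClass.coe_finsetSum, HahnSeries.coeff_sum]
    refine Finset.sum_congr rfl fun i _ => ?_
    rw [MulMemClass.coe_mul]
    have h2 : ((algebraMap K1 ↥(laurentBaseChange K1 F₀) (b i) : ↥(laurentBaseChange K1 F₀)) :
        LaurentSeries K1) = algebraMap K1 (LaurentSeries K1) (b i) := rfl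
    rw [h2, s29c_coeff_mul_algebraMap, s29c_coe_jL, coeffMap_coeff]
  refine Finsupp.ext fun i => Subtype.ext ?_
  ext m
  have h3 : Finsupp.linearCombination K0 b
      (c.mapRange (fun u : ↥(laurentBaseChange K0 F₀) => (u : LaurentSeries K0).coeff m)
        (by simp)) = 0 := by
    rw [Finsupp.linearCombination_apply, Finsupp.sum_mapRange_index (fun i => by simp)]
    rw [← hcoe m]
    refine Finsupp.sum_congr fun i _ => ?_
    rw [Algebra.smul_def]
  have h4 := linearIndependent_iff.mp b.linearIndependent _ h3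
  have h5 := DFunLike.congr_fun h4 i
  simpa using h5

/-- **(GEN)**: `E1` is generated by `K1` and `j E0`. -/
theorem s29c_gen_laurent :
    Subfield.closure (Set.range (algebraMap K1 ↥(laurentBaseChange K1 F₀)) ∪
      Set.range (s29c_jL (K0 := K0) (K1 := K1) F₀)) = ⊤ := by
  rw [eq_top_iff]
  rintro ⟨x, hx⟩ -
  have hx' := hx
  rw [mem_laurentBaseChange_iff] at hx'
  set S := Subfield.closure (Set.range (algebraMap K1 ↥(laurentBaseChange K1 F₀)) ∪
      Set.range (s29c_jL (K0 := K0) (K1 := K1) F₀)) with hS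
  have hle : Subfield.closure (Set.range (algebraMap K1 (LaurentSeries K1)) ∪
      (⇑(coeffEmb K1) '' (F₀ : Set (LaurentSeries ℚ)))) ≤
      S.map (laurentBaseChange K1 F₀).toSubfield.subtype := by
    rw [hS, RingHom.map_field_closure]
    apply Subfield.closure_mono
    rintro z (⟨e, rfl⟩ | ⟨w, hw, rfl⟩)
    · exact ⟨algebraMap K1 ↥(laurentBaseChange K1 F₀) e, Or.inl ⟨e, rfl⟩, rfl⟩
    · refine ⟨s29c_jL (K1 := K1) F₀ ⟨coeffEmb K0 w, coeffEmb_mem_laurentBaseChange K0 hw⟩,
        Or.inr ⟨_, rfl⟩, ?_⟩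
      exact s18q_coeffMap_coeffEmb (algebraMap K0 K1) w
  obtain ⟨y, hy, hyx⟩ := hle hx'
  have : y = ⟨x, hx⟩ := Subtype.ext hyx
  rw [← this]
  exact hy

/-- The hypotheses of `DCExt` hold for the Laurent-series function fields. -/
theorem s29c_hyp_laurent {I : Type*} (b : Module.Basis I K0 K1) :
    s29c_Hyp (s29c_jL (K1 := K1) F₀) b :=
  ⟨s29c_ld_laurent F₀ b, s29c_gen_laurent F₀⟩

section Places

variable [IsAlgClosed K0] (x0 : ↥(laurentBaseChange K0 F₀)) [FFGen K0 x0]

/-- **Extension of a place of `E0` to `E1`** (the unique place above it). -/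
def s29c_extL (P0 : Place K0 ↥(laurentBaseChange K0 F₀)) : Place K1 ↥(laurentBaseChange K1 F₀) :=
  s29c_ext P0 (s37dg_residue_surjective x0 P0)
    (s29c_hyp_laurent F₀ (Module.Basis.ofVectorSpace K0 K1))

/-- unramified. -/
theorem s29c_extL_ord (P0 : Place K0 ↥(laurentBaseChange K0 F₀))
    (f : ↥(laurentBaseChange K0 F₀)) :
    (s29c_extL (K1 := K1) F₀ x0 P0).ord (s18q_map (algebraMap K0 K1) F₀ f) = P0.ord f :=
  s29c_ext_ord P0 _ _ f

theorem s29c_extL_mem_iff (P0 : Place K0 ↥(laurentBaseChange K0 F₀))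
    (f : ↥(laurentBaseChange K0 F₀)) :
    s18q_map (algebraMap K0 K1) F₀ f ∈ (s29c_extL (K1 := K1) F₀ x0 P0).toValuationSubring ↔
      f ∈ P0.toValuationSubring :=
  s29c_ext_mem_iff P0 _ _ f

/-- uniqueness. -/
theorem s29c_extL_unique (P0 : Place K0 ↥(laurentBaseChange K0 F₀))
    (P : Place K1 ↥(laurentBaseChange K1 F₀))
    (hP : ∀ f : ↥(laurentBaseChange K0 F₀),
      s18q_map (algebraMap K0 K1) F₀ f ∈ P.toValuationSubring ↔ f ∈ P0.toValuationSubring) :
    P = s29c_extL F₀ x0 P0 :=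
  s29c_ext_unique P0 _ _ P hP

theorem s29c_extL_injective : Function.Injective (s29c_extL (K1 := K1) F₀ x0) := by
  intro P Q h
  apply Place.ext
  apply SetLike.ext
  intro f
  rw [← s29c_extL_mem_iff (K1 := K1) F₀ x0 P f, ← s29c_extL_mem_iff (K1 := K1) F₀ x0 Q f, h]

/-- `E1` is a function field over `K1` as soon as the image of the generator stays
transcendental. -/
theorem s29c_ffGen_laurent (htr : Transcendental K1 (s18q_map (algebraMap K0 K1) F₀ x0)) :
    FFGen K1 (s18q_map (algebraMap K0 K1) F₀ x0) :=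
  s29c_ffGen_of_map (algebraMap K0 K1) (s18q_map (algebraMap K0 K1) F₀)
    (s18q_map_algebraMap (algebraMap K0 K1) F₀) (s29c_gen_laurent (K0 := K0) F₀) x0 htr

end Places

end Fermat.Agent.Lib.S29
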