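/-
Plan K (S29 + S42), package [DC] (helper7), part 5: the action of `Aut(K1/K0)` on the function
field `E1 = laurentBaseChange K1 F₀`, the push-forward of divisors `E0 → E1` along the extension of
places, and the base-change map `s29c_c : Pic0 K0 E0 →+ Pic0 K1 E1`.
-/
import Mathlib
import Fermat.Agent.Lib.S29.DCLaurent
import Fermat.Agent.Lib.S29.DCField
import Fermat.Prelude.Def_ModularCurve_ArithmeticGalois
import Fermat.Agent.Lib.S37.IRiemann

set_option autoImplicit false
set_option linter.unusedSectionVars false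
set_option linter.style.haveILetI false

noncomputable section

namespace Fermat.Agent.Lib.S29

open AlgebraicCurve ModularCurve Fermat.Agent.Lib.FF Fermat.Agent.Lib.S18 Fermat.Agent.Lib.S37
open scoped Pointwise

variable {K0 K1 : Type*} [Field K0] [Field K1] [Algebra ℚ K0] [Algebra ℚ K1] [Algebra K0 K1]
variable (F₀ : IntermediateField ℚ (LaurentSeries ℚ))

/-! ### The group `Aut(K1/K0)` acting semilinearly on `E1` -/

/-- `K0`-automorphisms of `K1` are `ℚ`-automorphisms. -/
def s29c_toQ : (K1 ≃ₐ[K0] K1) →* (K1 ≃ₐ[ℚ] K1) where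
  toFun σ := AlgEquiv.ofRingEquiv (f := σ.toRingEquiv) (fun q => by simp)
  map_one' := rfl
  map_mul' := fun _ _ => rfl

@[simp]
theorem s29c_toQ_apply (σ : K1 ≃ₐ[K0] K1) (a : K1) : s29c_toQ σ a = σ a := rfl

/-- The semilinear action of `Aut(K1/K0)` on `E1` (coefficientwise). -/
def s29c_act : (K1 ≃ₐ[K0] K1) →* SemilinearAut K1 ↥(laurentBaseChange K1 F₀) :=
  (arithmeticGalois F₀).comp s29c_toQ

theorem s29c_coe_act_smul (σ : K1 ≃ₐ[K0] K1) (x : ↥(laurentBaseChange K1 F₀)) :
    ((s29c_act F₀ σ • x : ↥(laurentBaseChange K1 F₀)) : LaurentSeries K1) =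
      coeffMap ((s29c_toQ σ : K1 ≃ₐ[ℚ] K1) : K1 →+* K1) (x : LaurentSeries K1) := rfl

theorem s29c_coeff_act_smul (σ : K1 ≃ₐ[K0] K1) (x : ↥(laurentBaseChange K1 F₀)) (m : ℤ) :
    ((s29c_act F₀ σ • x : ↥(laurentBaseChange K1 F₀)) : LaurentSeries K1).coeff m =
      σ ((x : LaurentSeries K1).coeff m) := rfl

/-- the elements coming from `E0` are fixed. -/
theorem s29c_act_map (σ : K1 ≃ₐ[K0] K1) (f : ↥(laurentBaseChange K0 F₀)) :
    s29c_act F₀ σ • (s18q_map (algebraMap K0 K1) F₀ f) = s18q_map (algebraMap K0 K1) F₀ f := by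
  apply Subtype.ext
  ext m
  rw [s29c_coeff_act_smul, s18q_map_coe, coeffMap_coeff, AlgEquiv.commutes]

theorem s29c_act_algebraMap (σ : K1 ≃ₐ[K0] K1) (e : K1) :
    s29c_act F₀ σ • (algebraMap K1 ↥(laurentBaseChange K1 F₀) e) =
      algebraMap K1 ↥(laurentBaseChange K1 F₀) (σ e) :=
  SemilinearAut.smul_algebraMap _ e

section Places

variable [IsAlgClosed K0] (x0 : ↥(laurentBaseChange K0 F₀)) [FFGen K0 x0]

/-- **The extended places are fixed by `Aut(K1/K0)`.** -/
theorem s29c_act_extL (σ : K1 ≃ₐ[K0] K1) (P0 : Place K0 ↥(laurentBaseChange K0 F₀)) :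
    s29c_act F₀ σ • s29c_extL (K1 := K1) F₀ x0 P0 = s29c_extL F₀ x0 P0 := by
  apply s29c_extL_unique
  intro f
  rw [SemilinearAut.smul_toValuationSubring,
    ValuationSubring.mem_pointwise_smul_iff_inv_smul_mem, ← map_inv, s29c_act_map,
    s29c_extL_mem_iff]

/-- **Dichotomy**: a place of `E1` is either trivial on `E0` or the extension of a place of
`E0`. -/
theorem s29c_place_dichotomy (P : Place K1 ↥(laurentBaseChange K1 F₀)) :
    (∀ u : ↥(laurentBaseChange K0 F₀), u ≠ 0 → P.ord (s18q_map (algebraMap K0 K1) F₀ u) = 0) ∨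
      ∃ P0 : Place K0 ↥(laurentBaseChange K0 F₀), P = s29c_extL F₀ x0 P0 := by
  set j := s18q_map (algebraMap K0 K1) F₀ with hj
  by_cases htop : P.toValuationSubring.comap j = ⊤
  · left
    intro u hu
    have hmem : ∀ w : ↥(laurentBaseChange K0 F₀), j w ∈ P.toValuationSubring := by
      intro w
      have : w ∈ P.toValuationSubring.comap j := by rw [htop]; exact ValuationSubring.mem_top w
      exact this
    have hju : j u ≠ 0 := (map_ne_zero j).mpr hu
    have h1 := (ff_mem_iff_ord_nonneg P hju).mp (hmem u)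
    have h2 := (ff_mem_iff_ord_nonneg P (inv_ne_zero hju)).mp (by
      rw [← map_inv₀]; exact hmem u⁻¹)
    rw [P.ord_inv] at h2
    omega
  · right
    have hdvr : IsDiscreteValuationRing ↥(P.toValuationSubring.comap j) := by
      refine s18q_isDVR_of_ord _ (fun f => P.ord (j f)) ?_ ?_ htop
      · intro f g hf hg
        simp only [map_mul]
        exact P.ord_mul ((map_ne_zero _).mpr hf) ((map_ne_zero _).mpr hg)
      · intro f hf
        rw [ValuationSubring.mem_comap]
        exact ff_mem_iff_ord_nonneg P ((map_ne_zero _).mpr hf)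
    let P0 : Place K0 ↥(laurentBaseChange K0 F₀) :=
      { toValuationSubring := P.toValuationSubring.comap j
        algebraMap_mem' := fun a => by
          rw [ValuationSubring.mem_comap, hj, s18q_map_algebraMap]
          exact P.algebraMap_mem' _
        ne_top' := htop
        isPrincipalIdealRing' := inferInstance }
    exact ⟨P0, s29c_extL_unique F₀ x0 P0 P (fun f => Iff.rfl)⟩

/-! ### Push-forward of divisors -/

/-- `i_* : Div(E0) → Div(E1)`. -/
def s29c_divMap : Divisor K0 ↥(laurentBaseChange K0 F₀) →+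
    Divisor K1 ↥(laurentBaseChange K1 F₀) :=
  Finsupp.mapDomain.addMonoidHom (s29c_extL (K1 := K1) F₀ x0)

theorem s29c_divMap_apply (D : Divisor K0 ↥(laurentBaseChange K0 F₀)) :
    s29c_divMap (K1 := K1) F₀ x0 D = Finsupp.mapDomain (s29c_extL (K1 := K1) F₀ x0) D := rfl

theorem s29c_divMap_extL (D : Divisor K0 ↥(laurentBaseChange K0 F₀))
    (P0 : Place K0 ↥(laurentBaseChange K0 F₀)) :
    s29c_divMap (K1 := K1) F₀ x0 D (s29c_extL F₀ x0 P0) = D P0 := by
  rw [s29c_divMap_apply]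
  exact Finsupp.mapDomain_apply (s29c_extL_injective F₀ x0) D P0

theorem s29c_divMap_of_notMem (D : Divisor K0 ↥(laurentBaseChange K0 F₀))
    (P : Place K1 ↥(laurentBaseChange K1 F₀))
    (hP : P ∉ Set.range (s29c_extL (K1 := K1) F₀ x0)) :
    s29c_divMap (K1 := K1) F₀ x0 D P = 0 := by
  rw [s29c_divMap_apply]
  exact Finsupp.mapDomain_of_notMem_range D P hP

/-- the divisor of `j f` is the push-forward of the divisor of `f`. -/
theorem s29c_divMap_principal {D : Divisor K0 ↥(laurentBaseChange K0 F₀)}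
    {f : ↥(laurentBaseChange K0 F₀)} (hf : f ≠ 0) (hD : ∀ v, D v = v.ord f)
    (P : Place K1 ↥(laurentBaseChange K1 F₀)) :
    s29c_divMap (K1 := K1) F₀ x0 D P = P.ord (s18q_map (algebraMap K0 K1) F₀ f) := by
  by_cases hP : P ∈ Set.range (s29c_extL (K1 := K1) F₀ x0)
  · obtain ⟨P0, rfl⟩ := hP
    rw [s29c_divMap_extL, s29c_extL_ord, hD]
  · rw [s29c_divMap_of_notMem F₀ x0 D P hP]
    rcases s29c_place_dichotomy F₀ x0 P with h | ⟨P0, rfl⟩
    · exact (h f hf).symm
    · exact absurd ⟨P0, rfl⟩ hP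

/-- the push-forward of a divisor is fixed by `Aut(K1/K0)`. -/
theorem s29c_act_divMap (σ : K1 ≃ₐ[K0] K1) (D : Divisor K0 ↥(laurentBaseChange K0 F₀)) :
    s29c_act F₀ σ • s29c_divMap (K1 := K1) F₀ x0 D = s29c_divMap F₀ x0 D := by
  rw [SemilinearAut.divisor_smul_def, s29c_divMap_apply, ← Finsupp.mapDomain_comp]
  congr 1
  funext P0
  exact s29c_act_extL F₀ x0 σ P0

/-! ### Degrees and the map on `Pic⁰` -/

section Pic

variable [CharZero K0] [CharZero K1] [IsAlgClosed K1] (x1 : ↥(laurentBaseChange K1 F₀))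
  [FFGen K1 x1]

include x1 in
theorem s29c_degree_divMap (D : Divisor K0 ↥(laurentBaseChange K0 F₀)) :
    Divisor.degree (s29c_divMap (K1 := K1) F₀ x0 D) = Divisor.degree D := by
  rw [s37i_degree_eq_sum x1, s37i_degree_eq_sum x0, s29c_divMap_apply,
    Finsupp.sum_mapDomain_index (fun _ => rfl) (fun _ _ _ => rfl)]

/-- `i_*` on divisors of degree zero. -/
def s29c_degZeroMap : Divisor.degZero (K := K0) (F := ↥(laurentBaseChange K0 F₀)) →+
    Divisor.degZero (K := K1) (F := ↥(laurentBaseChange K1 F₀)) :=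
  ((s29c_divMap (K1 := K1) F₀ x0).comp (Divisor.degZero (K := K0)
    (F := ↥(laurentBaseChange K0 F₀))).subtype).codRestrict _ (fun D => by
      rw [Divisor.mem_degZero]
      show Divisor.degree (s29c_divMap (K1 := K1) F₀ x0 (D : Divisor K0 _)) = 0
      rw [s29c_degree_divMap F₀ x0 x1]
      exact D.2)

@[simp]
theorem s29c_coe_degZeroMap (D : Divisor.degZero (K := K0) (F := ↥(laurentBaseChange K0 F₀))) :
    (s29c_degZeroMap (K1 := K1) F₀ x0 x1 D : Divisor K1 ↥(laurentBaseChange K1 F₀)) =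
      s29c_divMap F₀ x0 (D : Divisor K0 ↥(laurentBaseChange K0 F₀)) := rfl

theorem s29c_divMap_mem_principal {D : Divisor K0 ↥(laurentBaseChange K0 F₀)}
    (hD : D ∈ Divisor.principal (K := K0) (F := ↥(laurentBaseChange K0 F₀))) :
    s29c_divMap (K1 := K1) F₀ x0 D ∈
      Divisor.principal (K := K1) (F := ↥(laurentBaseChange K1 F₀)) := by
  obtain ⟨f, hf, hD⟩ := hD
  exact ⟨s18q_map (algebraMap K0 K1) F₀ f, (map_ne_zero _).mpr hf,
    fun P => s29c_divMap_principal F₀ x0 hf hD P⟩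

/-- **The base-change map `Pic⁰(E0) → Pic⁰(E1)`.** -/
def s29c_c : Pic0 K0 ↥(laurentBaseChange K0 F₀) →+ Pic0 K1 ↥(laurentBaseChange K1 F₀) :=
  QuotientAddGroup.map _ _ (s29c_degZeroMap (K1 := K1) F₀ x0 x1) (by
    rintro ⟨D, hD0⟩ hD
    simp only [AddSubgroup.mem_addSubgroupOf, AddSubgroup.mem_comap] at hD ⊢
    exact s29c_divMap_mem_principal F₀ x0 hD)

theorem s29c_c_mk (D : Divisor.degZero (K := K0) (F := ↥(laurentBaseChange K0 F₀))) :
    s29c_c (K1 := K1) F₀ x0 x1 (Pic0.mk D) = Pic0.mk (s29c_degZeroMap F₀ x0 x1 D) := rfl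

/-- the image of the base-change map is fixed by `Aut(K1/K0)`. -/
theorem s29c_act_c (σ : K1 ≃ₐ[K0] K1) (y : Pic0 K0 ↥(laurentBaseChange K0 F₀)) :
    s29c_act F₀ σ • s29c_c (K1 := K1) F₀ x0 x1 y = s29c_c F₀ x0 x1 y := by
  obtain ⟨D, rfl⟩ := Pic0.mk_surjective y
  rw [s29c_c_mk, SemilinearAut.pic0_smul_mk]
  congr 1
  apply Subtype.ext
  rw [SemilinearAut.coe_degZeroSMulHom, s29c_coe_degZeroMap, s29c_act_divMap]

end Pic

end Places

end Fermat.Agent.Lib.S29
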