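/-
Plan K (S29 + S42), package [DC] (helper7), part 6: INJECTIVITY of the base-change map
`s29c_c : Pic⁰(E0) → Pic⁰(E1)`.  If `i_* D0 = div f1`, normalise one coefficient of `f1` to `1`;
then `σ f1 / f1` is a constant (it has trivial divisor) with that coefficient `1`, so `f1` is fixed
by `Aut(K1/K0)`, its coefficients lie in `K0`, and `f1 = j f0` with `f0 ∈ E0` by linear disjointness.
-/
import Mathlib
import Fermat.Agent.Lib.S29.DCGalois
import Fermat.Agent.Lib.S29.DCField

set_option autoImplicit false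
set_option linter.unusedSectionVars false
set_option linter.style.haveILetI false

noncomputable section

namespace Fermat.Agent.Lib.S29

open AlgebraicCurve ModularCurve Fermat.Agent.Lib.FF Fermat.Agent.Lib.S18 Fermat.Agent.Lib.S37
  IntermediateField
open scoped Pointwise

/-- **Functions without poles are constant.** -/
theorem s29c_const_of_ord_nonneg {K F : Type*} [Field K] [Field F] [Algebra K F] (x : F)
    [FFGen K x] [CharZero K] [IsAlgClosed K] (f : F) (h : ∀ v : Place K F, 0 ≤ v.ord f) :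
    ∃ a : K, algebraMap K F a = f := by
  by_cases halg : IsAlgebraic K f
  · exact ff_mem_range_of_isAlgebraic halg
  · exfalso
    haveI : FFGen K f := ff_gen_of_transcendental (x := x) halg
    obtain ⟨P, hP, hsum⟩ := ff_fibreSum_poles K f
    have hempty : P = ∅ := Finset.eq_empty_of_forall_notMem fun v hv => by
      have h1 := (hP v).mp hv
      have h2 := h v
      omega
    rw [hempty, Finset.sum_empty] at hsum
    haveI : FiniteDimensional K⟮f⟯ F := ff_finiteDimensional
    have : 0 < Module.finrank K⟮f⟯ F := Module.finrank_pos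
    omega

variable {K0 K1 : Type*} [Field K0] [Field K1] [Algebra ℚ K0] [Algebra ℚ K1] [Algebra K0 K1]
variable (F₀ : IntermediateField ℚ (LaurentSeries ℚ))

/-- An element of `K1` with finite orbit under `Aut(K1/K0)` lies in `K0` (from helper8's
`DCField`). -/
theorem s29c_mem_range_of_finite_orbit [IsAlgClosed K0] [IsAlgClosed K1] {c : K1}
    (h : (Set.range fun σ : K1 ≃ₐ[K0] K1 => σ c).Finite) :
    c ∈ Set.range (algebraMap K0 K1) := by
  apply s29cf_mem_range_of_finite_orbit (algebraMap K0 K1) c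
  refine h.subset ?_
  rintro y ⟨τ, hτ, rfl⟩
  exact ⟨AlgEquiv.ofRingEquiv (f := τ) hτ, rfl⟩

/-- **(LD) for arbitrary Laurent series**, finite-sum form. -/
theorem s29c_ld_series {I : Type*} (b : Module.Basis I K0 K1) (s : Finset I)
    (u : I → LaurentSeries K0)
    (h : ∑ i ∈ s, coeffMap (algebraMap K0 K1) (u i) * algebraMap K1 (LaurentSeries K1) (b i) = 0) :
    ∀ i ∈ s, u i = 0 := by
  intro i hi
  ext m
  have h1 := congrArg (fun y : LaurentSeries K1 => y.coeff m) h
  simp only [HahnSeries.coeff_sum, HahnSeries.coeff_zero] at h1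
  have h2 : ∑ i ∈ s, ((u i).coeff m) • b i = 0 := by
    rw [← h1]
    refine Finset.sum_congr rfl fun i _ => ?_
    rw [s29c_coeff_mul_algebraMap, coeffMap_coeff, Algebra.smul_def]
  exact linearIndependent_iff'.mp b.linearIndependent s _ h2 i hi

/-- A Laurent series over `K1` all of whose coefficients lie in `K0` comes from `K0((q))`. -/
theorem s29c_exists_series (x : LaurentSeries K1)
    (hx : ∀ m : ℤ, x.coeff m ∈ Set.range (algebraMap K0 K1)) :
    ∃ y : LaurentSeries K0, coeffMap (algebraMap K0 K1) y = x := by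
  choose d hd using hx
  have hsupp : Function.support d = x.support := by
    ext m
    rw [Function.mem_support, HahnSeries.mem_support, ← hd m, Ne, Ne,
      map_eq_zero_iff _ (algebraMap K0 K1).injective]
  refine ⟨⟨d, hsupp ▸ x.isPWO_support⟩, ?_⟩
  ext m
  rw [coeffMap_coeff]
  exact hd m

attribute [local instance] s29c_algE1

section Mem

variable [IsAlgClosed K0] [CharZero K0] (x0 : ↥(laurentBaseChange K0 F₀)) [FFGen K0 x0]

include x0 in
/-- function fields have places. -/
theorem s29c_exists_place : Nonempty (Place K0 ↥(laurentBaseChange K0 F₀)) := by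
  obtain ⟨P, hP, hsum⟩ := ff_fibreSum_poles K0 x0
  by_contra hne
  have hempty : P = ∅ := Finset.eq_empty_of_forall_notMem fun v _ => hne ⟨v⟩
  rw [hempty, Finset.sum_empty] at hsum
  haveI : FiniteDimensional K0⟮x0⟯ ↥(laurentBaseChange K0 F₀) := ff_finiteDimensional
  have : 0 < Module.finrank K0⟮x0⟯ ↥(laurentBaseChange K0 F₀) := Module.finrank_pos
  omega

include x0 in
/-- **`E1 ∩ K0((q)) = E0`.** -/
theorem s29c_mem_of_coeffMap_mem (y0 : LaurentSeries K0)
    (h : coeffMap (algebraMap K0 K1) y0 ∈ laurentBaseChange K1 F₀) :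
    y0 ∈ laurentBaseChange K0 F₀ := by
  classical
  obtain ⟨P0⟩ := s29c_exists_place F₀ x0
  set b := Module.Basis.ofVectorSpace K0 K1 with hb
  have H := s29c_hyp_laurent (K1 := K1) F₀ b
  obtain ⟨a, c, hc, hxc⟩ := s29c_exists_frac P0 H
    (⟨coeffMap (algebraMap K0 K1) y0, h⟩ : ↥(laurentBaseChange K1 F₀))
  set B := Algebra.TensorProduct.basis ↥P0.toValuationSubring b with hB
  set s := (B.repr a).support ∪ (B.repr c).support with hs
  let aa : _ → LaurentSeries K0 := fun i =>
    (((B.repr a i : ↥P0.toValuationSubring) : ↥(laurentBaseChange K0 F₀)) : LaurentSeries K0)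
  let cc : _ → LaurentSeries K0 := fun i =>
    (((B.repr c i : ↥P0.toValuationSubring) : ↥(laurentBaseChange K0 F₀)) : LaurentSeries K0)
  have hmu : ∀ τ : s29c_T K1 P0, (B.repr τ).support ⊆ s →
      ((s29c_mu (s29c_jL (K1 := K1) F₀) P0 τ : ↥(laurentBaseChange K1 F₀)) : LaurentSeries K1) =
        ∑ i ∈ s, coeffMap (algebraMap K0 K1)
          (((B.repr τ i : ↥P0.toValuationSubring) : ↥(laurentBaseChange K0 F₀)) :
            LaurentSeries K0) * algebraMap K1 (LaurentSeries K1) (b i) := by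
    intro τ hτ
    rw [s29c_mu_eq_sum (s29c_jL (K1 := K1) F₀) P0 b τ,
      Finsupp.sum_of_support_subset _ hτ _ (fun i _ => by simp), AddSubmonoidClass.coe_finsetSum]
    rfl
  have ha := hmu a Finset.subset_union_left
  have hc' := hmu c Finset.subset_union_right
  have hxc' := congrArg (fun y : ↥(laurentBaseChange K1 F₀) => (y : LaurentSeries K1)) hxc
  simp only [MulMemClass.coe_mul] at hxc'
  rw [ha, hc', Finset.mul_sum] at hxc'
  have hzero : ∑ i ∈ s, coeffMap (algebraMap K0 K1) (aa i - y0 * cc i) *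
      algebraMap K1 (LaurentSeries K1) (b i) = 0 := by
    rw [← sub_eq_zero] at hxc'
    rw [← neg_eq_zero, ← hxc', ← Finset.sum_sub_distrib, ← Finset.sum_neg_distrib]
    refine Finset.sum_congr rfl fun i _ => ?_
    simp only [aa, cc, map_sub, map_mul]
    ring
  have hld := s29c_ld_series b s (fun i => aa i - y0 * cc i) hzero
  -- some coordinate of `c` is nonzero
  have hc0 : c ≠ 0 := fun h0 => hc (by rw [h0, map_zero])
  have hrc : B.repr c ≠ 0 := fun h0 => hc0 ((LinearEquiv.map_eq_zero_iff _).mp h0)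
  obtain ⟨i, hi⟩ : ∃ i, B.repr c i ≠ 0 := by
    by_contra hcon
    push Not at hcon
    exact hrc (Finsupp.ext hcon)
  have his : i ∈ s := Finset.mem_union_right _ (Finsupp.mem_support_iff.mpr hi)
  have hcci : cc i ≠ 0 := by
    intro h0
    apply hi
    apply Subtype.ext
    apply Subtype.ext
    exact h0
  have h1 : aa i - y0 * cc i = 0 := hld i his
  have h2 : y0 = aa i * (cc i)⁻¹ := by
    rw [sub_eq_zero] at h1
    rw [h1, mul_assoc, mul_inv_cancel₀ hcci, mul_one]
  rw [h2]
  exact mul_mem (B.repr a i : ↥(laurentBaseChange K0 F₀)).2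
    (inv_mem (B.repr c i : ↥(laurentBaseChange K0 F₀)).2)

end Mem

section Inj

variable [IsAlgClosed K0] [CharZero K0] (x0 : ↥(laurentBaseChange K0 F₀)) [FFGen K0 x0]
  [IsAlgClosed K1] [CharZero K1] (x1 : ↥(laurentBaseChange K1 F₀)) [FFGen K1 x1]

include x1 in
/-- a function whose divisor is a push-forward, normalised at one coefficient, is fixed by
`Aut(K1/K0)`. -/
theorem s29c_fixed_of_divMap (D0 : Divisor K0 ↥(laurentBaseChange K0 F₀))
    (f2 : ↥(laurentBaseChange K1 F₀)) (hf2 : f2 ≠ 0)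
    (hD2 : ∀ P : Place K1 ↥(laurentBaseChange K1 F₀),
      s29c_divMap (K1 := K1) F₀ x0 D0 P = P.ord f2)
    (m0 : ℤ) (hm0 : (f2 : LaurentSeries K1).coeff m0 = 1) (σ : K1 ≃ₐ[K0] K1) :
    s29c_act F₀ σ • f2 = f2 := by
  have hσf2 : s29c_act F₀ σ • f2 ≠ 0 := by
    rw [SemilinearAut.smul_def]
    exact (map_ne_zero _).mpr hf2
  have hg : ∀ P : Place K1 ↥(laurentBaseChange K1 F₀),
      P.ord ((s29c_act F₀ σ • f2) * f2⁻¹) = 0 := by
    intro P
    rw [P.ord_mul hσf2 (inv_ne_zero hf2), P.ord_inv]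
    have h1 := SemilinearAut.ord_smul (s29c_act F₀ σ) ((s29c_act F₀ σ)⁻¹ • P) f2
    rw [smul_inv_smul] at h1
    rw [h1, ← hD2, ← hD2]
    have h2 := s29c_act_divMap (K1 := K1) F₀ x0 σ D0
    have h3 := SemilinearAut.divisor_smul_apply (s29c_act F₀ σ) (s29c_divMap (K1 := K1) F₀ x0 D0) P
    rw [h2] at h3
    rw [← h3]
    ring
  obtain ⟨e, he⟩ := s29c_const_of_ord_nonneg x1 _ (fun P => (hg P).ge)
  have h4 : s29c_act F₀ σ • f2 = algebraMap K1 ↥(laurentBaseChange K1 F₀) e * f2 := by
    rw [he, mul_assoc, inv_mul_cancel₀ hf2, mul_one]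
  have h5 := congrArg (fun y : ↥(laurentBaseChange K1 F₀) => (y : LaurentSeries K1).coeff m0) h4
  simp only [s29c_coeff_act_smul, hm0, map_one, MulMemClass.coe_mul] at h5
  have h6 : ((algebraMap K1 ↥(laurentBaseChange K1 F₀) e : ↥(laurentBaseChange K1 F₀)) :
      LaurentSeries K1) = algebraMap K1 (LaurentSeries K1) e := rfl
  rw [h6, mul_comm, s29c_coeff_mul_algebraMap, hm0, one_mul] at h5
  rw [h4, ← h5, map_one, one_mul]

include x1 in
/-- **The base-change map `Pic⁰(E0) → Pic⁰(E1)` is injective.** -/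
theorem s29c_c_injective : Function.Injective (s29c_c (K1 := K1) F₀ x0 x1) := by
  rw [injective_iff_map_eq_zero]
  intro y hy
  obtain ⟨D0, rfl⟩ := Pic0.mk_surjective y
  rw [s29c_c_mk] at hy
  have hprin : s29c_divMap (K1 := K1) F₀ x0 (D0 : Divisor K0 ↥(laurentBaseChange K0 F₀)) ∈
      Divisor.principal (K := K1) (F := ↥(laurentBaseChange K1 F₀)) := by
    have h := (QuotientAddGroup.eq_zero_iff _).mp hy
    rw [AddSubgroup.mem_addSubgroupOf] at h
    exact h
  obtain ⟨f1, hf1, hD⟩ := hprin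
  suffices h : (D0 : Divisor K0 ↥(laurentBaseChange K0 F₀)) ∈
      Divisor.principal (K := K0) (F := ↥(laurentBaseChange K0 F₀)) by
    refine (QuotientAddGroup.eq_zero_iff _).mpr ?_
    rw [AddSubgroup.mem_addSubgroupOf]
    exact h
  -- normalise one coefficient of `f1`
  obtain ⟨m0, hm0⟩ : ∃ m0, (f1 : LaurentSeries K1).coeff m0 ≠ 0 := by
    by_contra hcon
    push Not at hcon
    apply hf1
    apply Subtype.ext
    ext m
    exact hcon m
  set e0 : K1 := ((f1 : LaurentSeries K1).coeff m0)⁻¹ with he0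
  have he0' : e0 ≠ 0 := inv_ne_zero hm0
  set f2 : ↥(laurentBaseChange K1 F₀) := f1 * algebraMap K1 ↥(laurentBaseChange K1 F₀) e0 with hf2def
  have hce : algebraMap K1 ↥(laurentBaseChange K1 F₀) e0 ≠ 0 := by simpa using he0'
  have hf2 : f2 ≠ 0 := mul_ne_zero hf1 hce
  have hcoef : (f2 : LaurentSeries K1).coeff m0 = 1 := by
    have h6 : ((algebraMap K1 ↥(laurentBaseChange K1 F₀) e0 : ↥(laurentBaseChange K1 F₀)) :
        LaurentSeries K1) = algebraMap K1 (LaurentSeries K1) e0 := rfl
    rw [hf2def, MulMemClass.coe_mul, h6, s29c_coeff_mul_algebraMap, he0, mul_inv_cancel₀ hm0]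
  have hD2 : ∀ P : Place K1 ↥(laurentBaseChange K1 F₀),
      s29c_divMap (K1 := K1) F₀ x0 (D0 : Divisor K0 ↥(laurentBaseChange K0 F₀)) P = P.ord f2 := by
    intro P
    rw [hf2def, P.ord_mul hf1 hce, ff_ord_algebraMap, add_zero]
    exact hD P
  have hfix := s29c_fixed_of_divMap F₀ x0 x1 (D0 : Divisor K0 ↥(laurentBaseChange K0 F₀)) f2 hf2
    hD2 m0 hcoef
  -- the coefficients of `f2` lie in `K0`
  have hcoeff : ∀ m : ℤ, (f2 : LaurentSeries K1).coeff m ∈ Set.range (algebraMap K0 K1) := by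
    intro m
    apply s29c_mem_range_of_finite_orbit
    have : (Set.range fun σ : K1 ≃ₐ[K0] K1 => σ ((f2 : LaurentSeries K1).coeff m)) ⊆
        {(f2 : LaurentSeries K1).coeff m} := by
      rintro _ ⟨σ, rfl⟩
      rw [Set.mem_singleton_iff]
      have h := congrArg (fun y : ↥(laurentBaseChange K1 F₀) => (y : LaurentSeries K1).coeff m)
        (hfix σ)
      simpa only [s29c_coeff_act_smul] using h
    exact (Set.finite_singleton _).subset this
  obtain ⟨y0, hy0⟩ := s29c_exists_series (f2 : LaurentSeries K1) hcoeff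
  have hy0mem : y0 ∈ laurentBaseChange K0 F₀ :=
    s29c_mem_of_coeffMap_mem (K1 := K1) F₀ x0 y0 (hy0 ▸ f2.2)
  have hjf0 : s18q_map (algebraMap K0 K1) F₀ ⟨y0, hy0mem⟩ = f2 := Subtype.ext hy0
  refine ⟨⟨y0, hy0mem⟩, ?_, fun P0 => ?_⟩
  · intro h0
    apply hf2
    rw [← hjf0, h0, map_zero]
  · rw [← s29c_divMap_extL (K1 := K1) F₀ x0 (D0 : Divisor K0 ↥(laurentBaseChange K0 F₀)) P0, hD2,
      ← hjf0, s29c_extL_ord]

end Inj

end Fermat.Agent.Lib.S29
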