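/-
S29 (Plan K), package [DC] (helper1): the **canonical effective representative** of a divisor class
of degree zero on a function field `F / K` (`K` algebraically closed of characteristic zero, `F`
finite over `K(x)`), relative to a base place `P`.

For `D₀` of degree `0`, let `m` be minimal such that `D₀ + m P` is linearly equivalent to an
effective divisor `E`; then `E` is UNIQUE (two distinct ones would give `l(E) ≥ 2`, and one could
subtract `P`, `s37i_step`).  Consequently `E` is fixed by every semilinear automorphism fixing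
`P` and the class of `D₀` (Prelude's `SemilinearAut` action on places / divisors / `Pic0`).
-/
import Fermat.Agent.Lib.S37.IRiemann
import Fermat.Prelude.Def_AlgebraicCurve_BaseChangeGalois

set_option autoImplicit false

noncomputable section

open AlgebraicCurve Fermat.Agent.Lib.FF Fermat.Agent.Lib.S37

namespace Fermat.Agent.Lib.S29

set_option linter.unusedSectionVars false

variable {K F : Type*} [Field K] [Field F] [Algebra K F]

/-- `E` is an effective divisor with `E - m P ~ D₀`. -/
def s29cc_IsRep (P : Place K F) (D₀ : Divisor K F) (m : ℕ) (E : Divisor K F) : Prop :=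
  0 ≤ E ∧ E - m • Finsupp.single P (1 : ℤ) - D₀ ∈ Divisor.principal (K := K) (F := F)

/-- The semilinear action preserves effectivity. -/
theorem s29cc_smul_nonneg (g : SemilinearAut K F) {E : Divisor K F} (hE : 0 ≤ E) :
    0 ≤ g • E := by
  rw [Finsupp.le_def]
  intro w
  rw [SemilinearAut.divisor_smul_apply]
  exact Finsupp.le_def.mp hE _

/-- Transport of representatives by a semilinear automorphism fixing `P` and the class of `D₀`. -/
theorem s29cc_isRep_smul (g : SemilinearAut K F) {P : Place K F} (hP : g • P = P)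
    {D₀ : Divisor K F} (hD₀ : g • D₀ - D₀ ∈ Divisor.principal (K := K) (F := F))
    {m : ℕ} {E : Divisor K F} (h : s29cc_IsRep P D₀ m E) : s29cc_IsRep P D₀ m (g • E) := by
  refine ⟨s29cc_smul_nonneg g h.1, ?_⟩
  have h1 := SemilinearAut.smul_mem_principal g h.2
  have h2 : g • (E - m • Finsupp.single P (1 : ℤ) - D₀) =
      g • E - m • Finsupp.single P (1 : ℤ) - g • D₀ := by
    rw [smul_sub, smul_sub, smul_comm g m, SemilinearAut.smul_single, hP]
  rw [h2] at h1
  have h3 := add_mem h1 hD₀
  have h4 : g • E - m • Finsupp.single P (1 : ℤ) - g • D₀ + (g • D₀ - D₀) =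
      g • E - m • Finsupp.single P (1 : ℤ) - D₀ := by abel
  rwa [h4] at h3

section Main

variable (x : F) [FFGen K x] [CharZero K] [IsAlgClosed K]

include x in
/-- The degree of a representative. -/
theorem s29cc_degree_of_isRep {P : Place K F} {D₀ : Divisor K F} (hD₀ : Divisor.degree D₀ = 0)
    {m : ℕ} {E : Divisor K F} (h : s29cc_IsRep P D₀ m E) : Divisor.degree E = m := by
  obtain ⟨f, hf, hfD⟩ := h.2
  have h1 := ff_ifacePrincipal K x f hf _ hfD
  rw [map_sub, map_sub, hD₀, map_nsmul, Divisor.degree_single, ff_deg_eq_one K x P] at h1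
  simp at h1
  linarith

include x in
/-- Existence of representatives (weak Riemann). -/
theorem s29cc_exists_isRep (P : Place K F) (D₀ : Divisor K F) (hD₀ : Divisor.degree D₀ = 0) :
    ∃ (m : ℕ) (E : Divisor K F), s29cc_IsRep P D₀ m E := by
  obtain ⟨γ, hγ⟩ := s37i_riemann_effective (K := K) x
  have hdeg : (γ : ℤ) ≤ Divisor.degree (D₀ + γ • Finsupp.single P (1 : ℤ)) := by
    rw [map_add, hD₀, map_nsmul, Divisor.degree_single, ff_deg_eq_one K x P]
    simp
  obtain ⟨E, hE, hprin⟩ := hγ _ hdeg
  refine ⟨γ, E, hE, ?_⟩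
  have h1 := neg_mem hprin
  have h2 : -(D₀ + γ • Finsupp.single P (1 : ℤ) - E) =
      E - γ • Finsupp.single P (1 : ℤ) - D₀ := by abel
  rwa [h2] at h1

include x in
/-- **Descent step**: two distinct representatives of level `m` give one of level `m - 1`. -/
theorem s29cc_exists_lower {P : Place K F} {D₀ : Divisor K F} (hD₀ : Divisor.degree D₀ = 0)
    {m : ℕ} {E E' : Divisor K F} (h : s29cc_IsRep P D₀ m E) (h' : s29cc_IsRep P D₀ m E')
    (hne : E ≠ E') : ∃ (m' : ℕ) (E'' : Divisor K F), m' < m ∧ s29cc_IsRep P D₀ m' E'' := by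
  classical
  -- `E - E' = div f`
  have hsub := sub_mem h.2 h'.2
  have hsub' : E - m • Finsupp.single P (1 : ℤ) - D₀ - (E' - m • Finsupp.single P (1 : ℤ) - D₀) =
      E - E' := by abel
  rw [hsub'] at hsub
  obtain ⟨f, hf, hfD⟩ := hsub
  -- `f` is not constant
  have hfconst : ∀ a : K, algebraMap K F a ≠ f := by
    rintro a rfl
    apply hne
    ext v
    have := hfD v
    rw [ff_ord_algebraMap, Finsupp.sub_apply] at this
    linarith
  -- `1, f ∈ L(E')`
  have h1L : (1 : F) ∈ riemannRochSpace E' := by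
    rw [s37i_mem_L one_ne_zero]
    intro v
    rw [Place.ord_one, add_zero]
    exact Finsupp.le_def.mp h'.1 v
  have hfL : f ∈ riemannRochSpace E' := by
    rw [s37i_mem_L hf]
    intro v
    have h2 := hfD v
    rw [Finsupp.sub_apply] at h2
    have h3 := Finsupp.le_def.mp h.1 v
    simp only [Finsupp.coe_zero, Pi.zero_apply] at h3
    linarith
  -- the plane `V = ⟨1, f⟩`
  have hli : LinearIndependent K ![(1 : F), f] := by
    rw [LinearIndependent.pair_iff]
    intro a b hab
    by_cases hb : b = 0
    · subst hb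
      rw [zero_smul, add_zero, Algebra.smul_def, mul_one] at hab
      exact ⟨(map_eq_zero _).mp hab, rfl⟩
    · exfalso
      apply hfconst (-(a / b))
      have h2 : b • f = -(a • (1 : F)) := by
        rw [eq_neg_iff_add_eq_zero, add_comm]
        exact hab
      have h3 : f = b⁻¹ • (b • f) := by rw [smul_smul, inv_mul_cancel₀ hb, one_smul]
      rw [h3, h2, smul_neg, smul_smul, Algebra.smul_def, mul_one, ← map_neg]
      congr 1
      field_simp
  set V : Submodule K F := Submodule.span K (Set.range ![(1 : F), f]) with hV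
  have hVfin : FiniteDimensional K V := FiniteDimensional.span_of_finite K (Set.finite_range _)
  have hVdim : Module.finrank K V = 2 := by
    rw [hV, finrank_span_eq_card hli]
    simp
  have hVL : V ≤ riemannRochSpace (E' - Finsupp.single P (1 : ℤ) + Finsupp.single P 1) := by
    rw [sub_add_cancel, hV, Submodule.span_le]
    rintro _ ⟨i, rfl⟩
    fin_cases i
    · exact h1L
    · exact hfL
  have hstep := s37i_step (K := K) x (E' - Finsupp.single P (1 : ℤ)) P V hVL
  rw [hVdim] at hstep
  have hpos : 0 < Module.finrank K ↥(V ⊓ riemannRochSpace (E' - Finsupp.single P (1 : ℤ))) := by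
    omega
  have hfinW : FiniteDimensional K ↥(V ⊓ riemannRochSpace (E' - Finsupp.single P (1 : ℤ))) :=
    Submodule.finiteDimensional_of_le inf_le_left
  obtain ⟨⟨g, hgW⟩, hg0⟩ := Module.finrank_pos_iff_exists_ne_zero.mp hpos
  have hg : g ≠ 0 := fun h0 => hg0 (Subtype.ext h0)
  have hgL := (s37i_mem_L hg).mp (Submodule.mem_inf.mp hgW).2
  -- the new representative
  obtain ⟨Dg, hDg, hDgdeg⟩ := s37i_exists_divisor (K := K) x g hg
  set E'' : Divisor K F := E' - Finsupp.single P (1 : ℤ) + Dg with hE''
  have hE''nn : 0 ≤ E'' := by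
    rw [Finsupp.le_def]
    intro v
    rw [hE'', Finsupp.add_apply, hDg v]
    exact hgL v
  have hdegE' := s29cc_degree_of_isRep x hD₀ h'
  have hdegE'' : Divisor.degree E'' = (m : ℤ) - 1 := by
    rw [hE'', map_add, map_sub, hdegE', hDgdeg, Divisor.degree_single, ff_deg_eq_one K x P]
    simp
  have hnn := s37i_degree_nonneg (K := K) x hE''nn
  have hm : 1 ≤ m := by
    rw [hdegE''] at hnn
    omega
  refine ⟨m - 1, E'', by omega, hE''nn, ?_⟩
  have hprin : Dg ∈ Divisor.principal (K := K) (F := F) := ⟨g, hg, hDg⟩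
  have h5 := add_mem h'.2 hprin
  have h6 : E' - m • Finsupp.single P (1 : ℤ) - D₀ + Dg =
      E'' - (m - 1) • Finsupp.single P (1 : ℤ) - D₀ := by
    rw [hE'']
    have : m • Finsupp.single P (1 : ℤ) =
        (m - 1) • Finsupp.single P (1 : ℤ) + Finsupp.single P (1 : ℤ) := by
      rw [← succ_nsmul, Nat.sub_add_cancel hm]
    rw [this]
    abel
  rwa [h6] at h5

include x in
/-- **The canonical representative** of a divisor of degree zero. -/
theorem s29cc_exists_unique (P : Place K F) (D₀ : Divisor K F) (hD₀ : Divisor.degree D₀ = 0) :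
    ∃ (m : ℕ) (E : Divisor K F), s29cc_IsRep P D₀ m E ∧
      ∀ E' : Divisor K F, s29cc_IsRep P D₀ m E' → E' = E := by
  classical
  have hex : ∃ m : ℕ, ∃ E : Divisor K F, s29cc_IsRep P D₀ m E := s29cc_exists_isRep x P D₀ hD₀
  obtain ⟨E, hE⟩ := Nat.find_spec hex
  refine ⟨Nat.find hex, E, hE, fun E' hE' => ?_⟩
  by_contra hne
  obtain ⟨m', E'', hlt, hE''⟩ := s29cc_exists_lower x hD₀ hE' hE hne
  exact Nat.find_min hex hlt ⟨E'', hE''⟩

include x in
/-- The canonical representative is fixed by every semilinear automorphism fixing `P` and the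
class of `D₀`. -/
theorem s29cc_canonical_divisor (P : Place K F) (D₀ : Divisor K F)
    (hD₀ : Divisor.degree D₀ = 0) :
    ∃ (m : ℕ) (E : Divisor K F), s29cc_IsRep P D₀ m E ∧
      ∀ g : SemilinearAut K F, g • P = P →
        g • D₀ - D₀ ∈ Divisor.principal (K := K) (F := F) → g • E = E := by
  obtain ⟨m, E, hE, huniq⟩ := s29cc_exists_unique x P D₀ hD₀
  exact ⟨m, E, hE, fun g hP hg => huniq _ (s29cc_isRep_smul g hP hg hE)⟩

include x in
/-- **Canonical effective representative of a class in `Pic⁰`**, with its invariance. -/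
theorem s29cc_canonical (P : Place K F) (y : Pic0 K F) :
    ∃ (m : ℕ) (E : Divisor K F), 0 ≤ E ∧ Divisor.degree E = m ∧
      (∃ h : E - m • Finsupp.single P (1 : ℤ) ∈ Divisor.degZero (K := K) (F := F),
        Pic0.mk ⟨_, h⟩ = y) ∧
      ∀ g : SemilinearAut K F, g • P = P → g • y = y → g • E = E := by
  obtain ⟨⟨D₀, hD₀⟩, rfl⟩ := Pic0.mk_surjective y
  rw [Divisor.mem_degZero] at hD₀
  obtain ⟨m, E, hE, hinv⟩ := s29cc_canonical_divisor x P D₀ hD₀
  have hdeg := s29cc_degree_of_isRep x hD₀ hE
  have hmem : E - m • Finsupp.single P (1 : ℤ) ∈ Divisor.degZero (K := K) (F := F) := by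
    rw [Divisor.mem_degZero, map_sub, hdeg, map_nsmul, Divisor.degree_single,
      ff_deg_eq_one K x P]
    simp
  refine ⟨m, E, hE.1, hdeg, ⟨hmem, ?_⟩, fun g hP hg => hinv g hP ?_⟩
  · refine (QuotientAddGroup.eq_iff_sub_mem).mpr ?_
    rw [AddSubgroup.mem_addSubgroupOf]
    exact hE.2
  · rw [SemilinearAut.pic0_smul_mk] at hg
    have h1 := (QuotientAddGroup.eq_iff_sub_mem).mp hg
    rw [AddSubgroup.mem_addSubgroupOf] at h1
    exact h1

include x in
/-- The support of the canonical representative is stable under the stabiliser. -/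
theorem s29cc_canonical_support (P : Place K F) (y : Pic0 K F) :
    ∃ (m : ℕ) (E : Divisor K F), 0 ≤ E ∧ Divisor.degree E = m ∧
      (∃ h : E - m • Finsupp.single P (1 : ℤ) ∈ Divisor.degZero (K := K) (F := F),
        Pic0.mk ⟨_, h⟩ = y) ∧
      ∀ g : SemilinearAut K F, g • P = P → g • y = y → ∀ v ∈ E.support, g • v ∈ E.support := by
  obtain ⟨m, E, h1, h2, h3, h4⟩ := s29cc_canonical x P y
  refine ⟨m, E, h1, h2, h3, fun g hP hy v hv => ?_⟩
  have h5 := SemilinearAut.divisor_smul_apply_smul g E v
  rw [h4 g hP hy] at h5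
  rw [Finsupp.mem_support_iff] at hv ⊢
  rwa [h5]

end Main

end Fermat.Agent.Lib.S29
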