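/-
S29 (Plan K), package [DC], piece [DCRat] (helper1): **a place of `E1 = K1(X)` with finite Galois
orbit is the extension of a place of `E0 = K0(X)`** (setting of helper7's `DCLaurent`:
`K0 ⊆ K1` algebraically closed of characteristic zero, `E_i = laurentBaseChange K_i F₀`,
`j = s18q_map (algebraMap K0 K1)` the coefficientwise inclusion, `G` = automorphisms of `K1` fixing
`K0`, acting through the Prelude's `arithmeticGalois`).

Route: the value `c = (j f)(P) ∈ K1` of `f ∈ E0` at `P` satisfies `σ c = (j f)(σ • P)`, so its orbit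
is the image of the (finite) orbit of `P`; hence `c ∈ K0` (`s29cf_mem_range_of_finite_orbit`).
Therefore `j⁻¹ O_P ≠ E0` (otherwise `x0` would be congruent to a constant `a ∈ K0`, but
`j (x0 - a)` is then a nonunit), so the valuation `P.adicValuation ∘ j` of `E0` is a positive
multiple of a place `P0` (`s29bp_exists_place_of_valuation`), `O_{P0} = j⁻¹ O_P`, and
`P = s29c_extL P0` by uniqueness of the extension.
-/
import Fermat.Agent.Lib.S29.DCLaurent
import Fermat.Agent.Lib.S29.DCField
import Fermat.Agent.Lib.S29.BPPlace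
import Fermat.Prelude.Def_ModularCurve_ArithmeticGalois
import Fermat.Prelude.Def_AlgebraicCurve_Repartitions

set_option autoImplicit false
set_option linter.unusedSectionVars false

noncomputable section

namespace Fermat.Agent.Lib.S29

open AlgebraicCurve ModularCurve Fermat.Agent.Lib.FF Fermat.Agent.Lib.S18 Fermat.Agent.Lib.S37
open WithZero

/-! ### Values of functions at places (generic) -/

section Value

variable {K F : Type*} [Field K] [Field F] [Algebra K F]

/-- `y` lies in the maximal ideal of `v`. -/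
theorem s29cr_small_iff (v : Place K F) (y : F) :
    v.adicValuation y < 1 ↔ y = 0 ∨ 0 < v.ord y := by
  rcases eq_or_ne y 0 with rfl | hy
  · simp
  · rw [v.adicValuation_eq_exp_neg_ord hy]
    constructor
    · intro h
      right
      rw [← exp_zero, exp_lt_exp] at h
      omega
    · rintro (h | h)
      · exact absurd h hy
      · rw [← exp_zero, exp_lt_exp]
        omega

theorem s29cr_adicValuation_const (v : Place K F) {c : K} (hc : c ≠ 0) :
    v.adicValuation (algebraMap K F c) = 1 := by
  have h1 := v.adicValuation_algebraMap_le_one c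
  have h2 := v.adicValuation_algebraMap_le_one c⁻¹
  rw [map_inv₀, map_inv₀] at h2
  have h0 : v.adicValuation (algebraMap K F c) ≠ 0 :=
    v.adicValuation_ne_zero (by simpa using hc)
  refine le_antisymm h1 ?_
  have := mul_le_mul_left h2 (v.adicValuation (algebraMap K F c))
  rwa [inv_mul_cancel₀ h0, one_mul] at this

/-- Uniqueness of the value. -/
theorem s29cr_value_unique (v : Place K F) (y : F) {c c' : K}
    (h : v.adicValuation (y - algebraMap K F c) < 1)
    (h' : v.adicValuation (y - algebraMap K F c') < 1) : c = c' := by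
  by_contra hne
  have h1 : algebraMap K F (c' - c) = (y - algebraMap K F c) - (y - algebraMap K F c') := by
    rw [map_sub]; ring
  have h2 : v.adicValuation (algebraMap K F (c' - c)) < 1 := by
    rw [h1]
    exact lt_of_le_of_lt (Valuation.map_sub _ _ _) (max_lt h h')
  rw [s29cr_adicValuation_const v (sub_ne_zero.mpr (Ne.symm hne))] at h2
  exact lt_irrefl _ h2

/-- Transport of smallness by a semilinear automorphism. -/
theorem s29cr_small_smul (g : SemilinearAut K F) (v : Place K F) (y : F)
    (h : v.adicValuation y < 1) : (g • v).adicValuation (g • y) < 1 := by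
  rw [s29cr_small_iff] at h ⊢
  rcases h with rfl | h
  · left; exact smul_zero g
  · right; rwa [SemilinearAut.ord_smul]

/-- Existence of the value (algebraically closed constants). -/
theorem s29cr_exists_value (x : F) [FFGen K x] [CharZero K] [IsAlgClosed K] (v : Place K F)
    {y : F} (hy : y ∈ v.toValuationSubring) :
    ∃ c : K, v.adicValuation (y - algebraMap K F c) < 1 := by
  obtain ⟨a, ha | ha⟩ := ff_exists_const_sub_mem K x v hy
  · exact ⟨a, by rw [ha, sub_self, map_zero]; exact zero_lt_one⟩
  · exact ⟨a, (s29cr_small_iff v _).mpr (Or.inr ha)⟩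

end Value

/-! ### The Laurent setting -/

section Laurent

variable {K0 K1 : Type*} [Field K0] [Field K1] [Algebra ℚ K0] [Algebra ℚ K1] [Algebra K0 K1]
variable (F₀ : IntermediateField ℚ (LaurentSeries ℚ))

/-- The image of `E0` is fixed by the automorphisms of `K1` fixing `K0`. -/
theorem s29cr_smul_map (σ : K1 ≃ₐ[ℚ] K1)
    (hσ : ∀ a : K0, σ (algebraMap K0 K1 a) = algebraMap K0 K1 a)
    (f : ↥(laurentBaseChange K0 F₀)) :
    arithmeticGalois F₀ σ • s18q_map (algebraMap K0 K1) F₀ f =
      s18q_map (algebraMap K0 K1) F₀ f := by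
  apply Subtype.ext
  rw [coe_arithmeticGalois_smul, s18q_map_coe, coeffMap_coeffMap]
  exact coeffMap_congr (RingHom.ext fun a => hσ a) _

theorem s29cr_smul_algebraMap (σ : K1 ≃ₐ[ℚ] K1) (c : K1) :
    arithmeticGalois F₀ σ • algebraMap K1 ↥(laurentBaseChange K1 F₀) c =
      algebraMap K1 ↥(laurentBaseChange K1 F₀) (σ c) :=
  arithmeticRingAut_algebraMap F₀ σ c

variable [IsAlgClosed K0] [IsAlgClosed K1]
variable (x0 : ↥(laurentBaseChange K0 F₀)) [FFGen K0 x0]

/-- The orbit of a place under the automorphisms of `K1` fixing `K0`. -/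
def s29cr_orbit (P : Place K1 ↥(laurentBaseChange K1 F₀)) :
    Set (Place K1 ↥(laurentBaseChange K1 F₀)) :=
  {Q | ∃ σ : K1 ≃ₐ[ℚ] K1, (∀ a : K0, σ (algebraMap K0 K1 a) = algebraMap K0 K1 a) ∧
    arithmeticGalois F₀ σ • P = Q}

/-- **Values of `K0`-rational functions at a place with finite orbit are `K0`-rational.** -/
theorem s29cr_value_mem_range
    (P : Place K1 ↥(laurentBaseChange K1 F₀)) (hfin : (s29cr_orbit (K0 := K0) F₀ P).Finite)
    (f : ↥(laurentBaseChange K0 F₀)) (c : K1)
    (hc : P.adicValuation (s18q_map (algebraMap K0 K1) F₀ f -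
      algebraMap K1 ↥(laurentBaseChange K1 F₀) c) < 1) :
    c ∈ Set.range (algebraMap K0 K1) := by
  classical
  apply s29cf_mem_range_of_finite_orbit (algebraMap K0 K1) c
  -- the value function on places
  let val : Place K1 ↥(laurentBaseChange K1 F₀) → K1 := fun Q =>
    if h : ∃ c' : K1, Q.adicValuation (s18q_map (algebraMap K0 K1) F₀ f -
      algebraMap K1 ↥(laurentBaseChange K1 F₀) c') < 1 then h.choose else 0
  refine (hfin.image val).subset ?_
  rintro y ⟨τ, hτ, rfl⟩
  let σ : K1 ≃ₐ[ℚ] K1 := τ.toRatAlgEquiv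
  have hσ : ∀ a : K0, σ (algebraMap K0 K1 a) = algebraMap K0 K1 a := hτ
  refine ⟨arithmeticGalois F₀ σ • P, ⟨σ, hσ, rfl⟩, ?_⟩
  have h1 := s29cr_small_smul (arithmeticGalois F₀ σ) P _ hc
  rw [smul_sub, s29cr_smul_map F₀ σ hσ, s29cr_smul_algebraMap] at h1
  have hex : ∃ c' : K1, (arithmeticGalois F₀ σ • P).adicValuation
      (s18q_map (algebraMap K0 K1) F₀ f - algebraMap K1 ↥(laurentBaseChange K1 F₀) c') < 1 :=
    ⟨σ c, h1⟩
  show val (arithmeticGalois F₀ σ • P) = τ c
  simp only [val]
  rw [dif_pos hex]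
  exact s29cr_value_unique _ _ hex.choose_spec h1

/-- **[DCRat]** A place of `E1` with finite orbit under the automorphisms of `K1` fixing `K0` is
the extension of a place of `E0`. -/
theorem s29cr_exists_restrict
    (htr : Transcendental K1 (s18q_map (algebraMap K0 K1) F₀ x0))
    (P : Place K1 ↥(laurentBaseChange K1 F₀))
    (hfin : (s29cr_orbit (K0 := K0) F₀ P).Finite) :
    ∃ P0 : Place K0 ↥(laurentBaseChange K0 F₀), P = s29c_extL F₀ x0 P0 := by
  classical
  have hchar0 : CharZero K0 := algebraRat.charZero K0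
  have hchar1 : CharZero K1 := algebraRat.charZero K1
  have hgen1 : FFGen K1 (s18q_map (algebraMap K0 K1) F₀ x0) := s29c_ffGen_laurent F₀ x0 htr
  let j := s18q_map (algebraMap K0 K1) F₀
  -- the pulled-back valuation
  let w0 : Valuation ↥(laurentBaseChange K0 F₀) ℤᵐ⁰ := P.adicValuation.comap j
  have hw0 : ∀ f, w0 f = P.adicValuation (j f) := fun f => rfl
  have hK : ∀ c : K0, w0 (algebraMap K0 ↥(laurentBaseChange K0 F₀) c) ≤ 1 := by
    intro c
    rw [hw0]
    show P.adicValuation (s18q_map (algebraMap K0 K1) F₀ _) ≤ 1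
    rw [s18q_map_algebraMap]
    exact P.adicValuation_algebraMap_le_one _
  -- nontriviality
  have hnt : ∃ t : ↥(laurentBaseChange K0 F₀), t ≠ 0 ∧ w0 t < 1 := by
    by_contra hcon
    push Not at hcon
    have hx0 : x0 ≠ 0 := by
      have := ff_sub_ne_zero (K := K0) (x := x0) 0
      simpa using this
    -- `j x0 ∈ O_P`
    have hmem : j x0 ∈ P.toValuationSubring := by
      rw [ff_mem_iff_adicValuation_le_one]
      have h1 := hcon x0⁻¹ (inv_ne_zero hx0)
      rw [hw0, map_inv₀, map_inv₀] at h1
      have h0 : P.adicValuation (j x0) ≠ 0 :=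
        P.adicValuation_ne_zero ((map_ne_zero j).mpr hx0)
      have := mul_le_mul_left h1 (P.adicValuation (j x0))
      rwa [one_mul, inv_mul_cancel₀ h0] at this
    obtain ⟨c, hc⟩ := s29cr_exists_value (s18q_map (algebraMap K0 K1) F₀ x0) P hmem
    obtain ⟨a, rfl⟩ := s29cr_value_mem_range F₀ P hfin x0 c hc
    have h2 := hcon (x0 - algebraMap K0 _ a) (ff_sub_ne_zero a)
    rw [hw0, map_sub] at h2
    have h3 : j (algebraMap K0 ↥(laurentBaseChange K0 F₀) a) =
        algebraMap K1 ↥(laurentBaseChange K1 F₀) (algebraMap K0 K1 a) :=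
      s18q_map_algebraMap _ F₀ a
    rw [h3] at h2
    exact absurd hc (not_lt.mpr h2)
  obtain ⟨t, ht0, ht⟩ := hnt
  obtain ⟨P0, m, hm, hP0⟩ := s29bp_exists_place_of_valuation (K := K0) w0 hK ht0 ht
  refine ⟨P0, s29c_extL_unique F₀ x0 P0 P fun f => ?_⟩
  rcases eq_or_ne f 0 with rfl | hf
  · simp only [map_zero]
    exact ⟨fun _ => zero_mem _, fun _ => zero_mem _⟩
  have hjf : j f ≠ 0 := (map_ne_zero j).mpr hf
  show j f ∈ P.toValuationSubring ↔ f ∈ P0.toValuationSubring
  rw [ff_mem_iff_ord_nonneg P hjf, ff_mem_iff_ord_nonneg P0 hf]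
  have h1 := hP0 f hf
  have h2 : ffi_ord w0 f = P.ord (j f) := rfl
  rw [h2] at h1
  rw [h1]
  constructor
  · intro h
    by_contra hneg
    push Not at hneg
    have : m * P0.ord f < 0 := mul_neg_of_pos_of_neg hm hneg
    omega
  · intro h
    exact mul_nonneg hm.le h

end Laurent

end Fermat.Agent.Lib.S29
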