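/-
S29 (Plan K), package [DC], piece [DCSurj] (helper1): **the descent assembly**.

* abstract (`s29cs_support_finite_orbit`): a class `y ∈ Pic⁰(F)` with FINITE orbit under a group `G`
  acting semilinearly and fixing a base place `P` has a canonical effective representative `E`
  (`DCCanon`) all of whose places have finite `G`-orbit;
* Laurent setting (helper7's `DCLaurent`): extended places are fixed by the automorphisms of `K1`
  fixing `K0` (`s29cs_smul_extL`); a class with finite orbit is the class of the push-forward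
  `Finsupp.mapDomain (s29c_extL F₀ x0) D₀` of a divisor `D₀` of `E0` (`s29cs_exists_preimage`), in
  particular every element of a FINITE torsion subgroup (`s29cs_exists_preimage_torsion`).
-/
import Fermat.Agent.Lib.S29.DCCanon
import Fermat.Agent.Lib.S29.DCRat

set_option autoImplicit false
set_option linter.unusedSectionVars false

noncomputable section

namespace Fermat.Agent.Lib.S29

open AlgebraicCurve ModularCurve Fermat.Agent.Lib.FF Fermat.Agent.Lib.S18 Fermat.Agent.Lib.S37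
open scoped Pointwise

/-! ### Abstract part -/

section Abstract

variable {K F : Type*} [Field K] [Field F] [Algebra K F]
variable (x : F) [FFGen K x] [CharZero K] [IsAlgClosed K]
variable {G : Type*} [Group G] (ρ : G →* SemilinearAut K F)

include x in
/-- A class with finite orbit has a canonical effective representative whose places all have
finite orbit. -/
theorem s29cs_support_finite_orbit (P : Place K F) (hP : ∀ g : G, ρ g • P = P) (y : Pic0 K F)
    (hy : (Set.range fun g : G => ρ g • y).Finite) :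
    ∃ (m : ℕ) (E : Divisor K F), 0 ≤ E ∧ Divisor.degree E = m ∧
      (∃ h : E - m • Finsupp.single P (1 : ℤ) ∈ Divisor.degZero (K := K) (F := F),
        Pic0.mk ⟨_, h⟩ = y) ∧
      ∀ v ∈ E.support, (Set.range fun g : G => ρ g • v).Finite := by
  classical
  obtain ⟨m, E, h1, h2, h3, h4⟩ := s29cc_canonical_support x P y
  refine ⟨m, E, h1, h2, h3, fun v hv => ?_⟩
  -- coset representatives
  let τ : Pic0 K F → G := fun y' => if h : ∃ g : G, ρ g • y = y' then h.choose else 1
  have hτ : ∀ g : G, ρ (τ (ρ g • y)) • y = ρ g • y := by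
    intro g
    have hex : ∃ g' : G, ρ g' • y = ρ g • y := ⟨g, rfl⟩
    simp only [τ]
    rw [dif_pos hex]
    exact hex.choose_spec
  have hfin : (⋃ y' ∈ Set.range fun g : G => ρ g • y,
      (fun w : Place K F => ρ (τ y') • w) '' (E.support : Set (Place K F))).Finite :=
    Set.Finite.biUnion hy fun y' _ => (E.support.finite_toSet).image _
  refine hfin.subset ?_
  rintro _ ⟨g, rfl⟩
  simp only [Set.mem_iUnion, Set.mem_range, exists_prop]
  refine ⟨ρ g • y, ⟨g, rfl⟩, ?_⟩
  set t := τ (ρ g • y) with ht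
  have hfix : ρ (t⁻¹ * g) • y = y := by
    rw [map_mul, mul_smul, ← hτ g, ← ht, map_inv, inv_smul_smul]
  have hmem := h4 (ρ (t⁻¹ * g)) (hP _) hfix v hv
  refine ⟨ρ (t⁻¹ * g) • v, hmem, ?_⟩
  show ρ t • ρ (t⁻¹ * g) • v = ρ g • v
  rw [← mul_smul, ← map_mul, mul_inv_cancel_left]

end Abstract

/-! ### The Laurent setting -/

section Laurent

variable {K0 K1 : Type*} [Field K0] [Field K1] [Algebra ℚ K0] [Algebra ℚ K1] [Algebra K0 K1]
variable (F₀ : IntermediateField ℚ (LaurentSeries ℚ))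

/-- The automorphisms of `K1` fixing `K0` pointwise. -/
def s29cs_G (K0 K1 : Type*) [Field K0] [Field K1] [Algebra ℚ K1] [Algebra K0 K1] :
    Subgroup (K1 ≃ₐ[ℚ] K1) where
  carrier := {σ | ∀ a : K0, σ (algebraMap K0 K1 a) = algebraMap K0 K1 a}
  one_mem' := fun _ => rfl
  mul_mem' := fun {σ τ} hσ hτ a => by
    show σ (τ (algebraMap K0 K1 a)) = algebraMap K0 K1 a
    rw [hτ a, hσ a]
  inv_mem' := fun {σ} hσ a => by
    show σ.symm (algebraMap K0 K1 a) = algebraMap K0 K1 a
    rw [AlgEquiv.symm_apply_eq, hσ a]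

theorem s29cs_mem_G {σ : K1 ≃ₐ[ℚ] K1} :
    σ ∈ s29cs_G K0 K1 ↔ ∀ a : K0, σ (algebraMap K0 K1 a) = algebraMap K0 K1 a := Iff.rfl

/-- The semilinear action of `s29cs_G` on `E1`. -/
def s29cs_rho : ↥(s29cs_G K0 K1) →* SemilinearAut K1 ↥(laurentBaseChange K1 F₀) :=
  (arithmeticGalois F₀).comp (s29cs_G K0 K1).subtype

theorem s29cs_rho_apply (σ : ↥(s29cs_G K0 K1)) :
    s29cs_rho (K0 := K0) F₀ σ = arithmeticGalois F₀ (σ : K1 ≃ₐ[ℚ] K1) := rfl

variable [IsAlgClosed K0]
variable (x0 : ↥(laurentBaseChange K0 F₀)) [FFGen K0 x0]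

/-- **Extended places are Galois-fixed.** -/
theorem s29cs_smul_extL (σ : K1 ≃ₐ[ℚ] K1)
    (hσ : ∀ a : K0, σ (algebraMap K0 K1 a) = algebraMap K0 K1 a)
    (P0 : Place K0 ↥(laurentBaseChange K0 F₀)) :
    arithmeticGalois F₀ σ • s29c_extL (K1 := K1) F₀ x0 P0 = s29c_extL F₀ x0 P0 := by
  apply s29c_extL_unique
  intro f
  rw [SemilinearAut.smul_toValuationSubring,
    ValuationSubring.mem_pointwise_smul_iff_inv_smul_mem, ← map_inv]
  have hσ' : ∀ a : K0, σ⁻¹ (algebraMap K0 K1 a) = algebraMap K0 K1 a :=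
    (s29cs_G K0 K1).inv_mem hσ
  rw [s29cr_smul_map F₀ σ⁻¹ hσ' f]
  exact s29c_extL_mem_iff F₀ x0 P0 f

variable [IsAlgClosed K1]

/-- The orbit of a place under `s29cs_G` is `s29cr_orbit`. -/
theorem s29cs_range_eq_orbit (P : Place K1 ↥(laurentBaseChange K1 F₀)) :
    (Set.range fun g : ↥(s29cs_G K0 K1) => s29cs_rho (K0 := K0) F₀ g • P) =
      s29cr_orbit (K0 := K0) F₀ P := by
  ext Q
  constructor
  · rintro ⟨⟨σ, hσ⟩, rfl⟩
    exact ⟨σ, hσ, rfl⟩
  · rintro ⟨σ, hσ, rfl⟩
    exact ⟨⟨σ, hσ⟩, rfl⟩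

/-- **Descent**: a class of `Pic⁰(E1)` with finite Galois orbit is the class of the push-forward
of a divisor of `E0`. -/
theorem s29cs_exists_preimage
    (htr : Transcendental K1 (s18q_map (algebraMap K0 K1) F₀ x0))
    (P0 : Place K0 ↥(laurentBaseChange K0 F₀))
    (y : Pic0 K1 ↥(laurentBaseChange K1 F₀))
    (hy : (Set.range fun g : ↥(s29cs_G K0 K1) => s29cs_rho (K0 := K0) F₀ g • y).Finite) :
    ∃ (D₀ : Divisor K0 ↥(laurentBaseChange K0 F₀))
      (h : Finsupp.mapDomain (s29c_extL (K1 := K1) F₀ x0) D₀ ∈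
        Divisor.degZero (K := K1) (F := ↥(laurentBaseChange K1 F₀))),
      Pic0.mk ⟨_, h⟩ = y := by
  classical
  have hchar1 : CharZero K1 := algebraRat.charZero K1
  have hgen1 : FFGen K1 (s18q_map (algebraMap K0 K1) F₀ x0) := s29c_ffGen_laurent F₀ x0 htr
  have hPfix : ∀ g : ↥(s29cs_G K0 K1),
      s29cs_rho (K0 := K0) F₀ g • s29c_extL (K1 := K1) F₀ x0 P0 = s29c_extL F₀ x0 P0 :=
    fun g => s29cs_smul_extL F₀ x0 g.1 g.2 P0
  obtain ⟨m, E, hE, hdeg, ⟨hmem, hmk⟩, hsupp⟩ :=
    s29cs_support_finite_orbit (s18q_map (algebraMap K0 K1) F₀ x0) (s29cs_rho (K0 := K0) F₀)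
      (s29c_extL (K1 := K1) F₀ x0 P0) hPfix y hy
  -- every place of the support is an extended place
  have hext : ∀ v ∈ E.support, ∃ Q0 : Place K0 ↥(laurentBaseChange K0 F₀),
      v = s29c_extL F₀ x0 Q0 := by
    intro v hv
    have h1 := hsupp v hv
    rw [s29cs_range_eq_orbit] at h1
    exact s29cr_exists_restrict F₀ x0 htr v h1
  have hinj : Function.Injective (s29c_extL (K1 := K1) F₀ x0) := s29c_extL_injective F₀ x0
  -- pull `E` back
  let E₀ : Divisor K0 ↥(laurentBaseChange K0 F₀) :=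
    Finsupp.comapDomain (s29c_extL (K1 := K1) F₀ x0) E hinj.injOn
  have hE₀ : Finsupp.mapDomain (s29c_extL (K1 := K1) F₀ x0) E₀ = E := by
    apply Finsupp.mapDomain_comapDomain _ hinj
    intro v hv
    obtain ⟨Q0, rfl⟩ := hext v (Finset.mem_coe.mp hv)
    exact ⟨Q0, rfl⟩
  refine ⟨E₀ - m • Finsupp.single P0 (1 : ℤ), ?_, ?_⟩
  · rw [Finsupp.mapDomain_sub, hE₀, Finsupp.mapDomain_smul, Finsupp.mapDomain_single]
    exact hmem
  · rw [← hmk]
    congr 1
    apply Subtype.ext
    show Finsupp.mapDomain (s29c_extL (K1 := K1) F₀ x0) (E₀ - m • Finsupp.single P0 (1 : ℤ)) =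
      E - m • Finsupp.single (s29c_extL F₀ x0 P0) (1 : ℤ)
    rw [Finsupp.mapDomain_sub, hE₀, Finsupp.mapDomain_smul, Finsupp.mapDomain_single]

/-- **Descent for a finite torsion subgroup.** -/
theorem s29cs_exists_preimage_torsion
    (htr : Transcendental K1 (s18q_map (algebraMap K0 K1) F₀ x0))
    (P0 : Place K0 ↥(laurentBaseChange K0 F₀)) (p : ℕ)
    (hfin : Finite (Pic0.torsion K1 ↥(laurentBaseChange K1 F₀) p))
    (y : Pic0 K1 ↥(laurentBaseChange K1 F₀))
    (hy : y ∈ Pic0.torsion K1 ↥(laurentBaseChange K1 F₀) p) :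
    ∃ (D₀ : Divisor K0 ↥(laurentBaseChange K0 F₀))
      (h : Finsupp.mapDomain (s29c_extL (K1 := K1) F₀ x0) D₀ ∈
        Divisor.degZero (K := K1) (F := ↥(laurentBaseChange K1 F₀))),
      Pic0.mk ⟨_, h⟩ = y := by
  apply s29cs_exists_preimage F₀ x0 htr P0 y
  have hT : ((Pic0.torsion K1 ↥(laurentBaseChange K1 F₀) p : AddSubgroup _) :
      Set (Pic0 K1 ↥(laurentBaseChange K1 F₀))).Finite := Set.toFinite _
  refine hT.subset ?_
  rintro _ ⟨g, rfl⟩
  exact SemilinearAut.smul_mem_torsion _ hy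

end Laurent

end Fermat.Agent.Lib.S29
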