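/-
S29 (Plan K), package [DC], piece [DCSurjC] (helper1): **surjectivity of the base-change map
`s29c_c : Pic⁰(E0) → Pic⁰(E1)` (helper7's `DCGalois`) onto a FINITE torsion subgroup**, and onto
every class with finite orbit under the automorphisms of `K1` fixing `K0`.
Combination of `DCSurj` (descent assembly: `DCCanon` + `DCRat`) with the definition of `s29c_c`.
-/
import Fermat.Agent.Lib.S29.DCSurj
import Fermat.Agent.Lib.S29.DCGalois

set_option autoImplicit false
set_option linter.unusedSectionVars false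

noncomputable section

namespace Fermat.Agent.Lib.S29

open AlgebraicCurve ModularCurve Fermat.Agent.Lib.FF Fermat.Agent.Lib.S18 Fermat.Agent.Lib.S37
  IntermediateField

variable {K0 K1 : Type*} [Field K0] [Field K1] [Algebra ℚ K0] [Algebra ℚ K1] [Algebra K0 K1]
variable (F₀ : IntermediateField ℚ (LaurentSeries ℚ))
variable [IsAlgClosed K0] (x0 : ↥(laurentBaseChange K0 F₀)) [FFGen K0 x0]

include x0 in
/-- Function fields have places. -/
theorem s29cs_exists_place [CharZero K0] : Nonempty (Place K0 ↥(laurentBaseChange K0 F₀)) := by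
  obtain ⟨P, hP, hsum⟩ := ff_fibreSum_poles K0 x0
  by_contra hne
  have hempty : P = ∅ := Finset.eq_empty_of_forall_notMem fun v _ => hne ⟨v⟩
  rw [hempty, Finset.sum_empty] at hsum
  have : FiniteDimensional K0⟮x0⟯ ↥(laurentBaseChange K0 F₀) := ff_finiteDimensional
  have : 0 < Module.finrank K0⟮x0⟯ ↥(laurentBaseChange K0 F₀) := Module.finrank_pos
  omega

variable [CharZero K0] [CharZero K1] [IsAlgClosed K1] (x1 : ↥(laurentBaseChange K1 F₀))
  [FFGen K1 x1]

/-- A class which is the class of a push-forward is in the image of `s29c_c`. -/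
theorem s29cs_mem_range_c (D₀ : Divisor K0 ↥(laurentBaseChange K0 F₀))
    (h : Finsupp.mapDomain (s29c_extL (K1 := K1) F₀ x0) D₀ ∈
      Divisor.degZero (K := K1) (F := ↥(laurentBaseChange K1 F₀))) :
    ∃ x : Pic0 K0 ↥(laurentBaseChange K0 F₀),
      s29c_c (K1 := K1) F₀ x0 x1 x = Pic0.mk ⟨_, h⟩ := by
  have hdeg : D₀ ∈ Divisor.degZero (K := K0) (F := ↥(laurentBaseChange K0 F₀)) := by
    rw [Divisor.mem_degZero, ← s29c_degree_divMap (K1 := K1) F₀ x0 x1 D₀, s29c_divMap_apply]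
    exact h
  refine ⟨Pic0.mk ⟨D₀, hdeg⟩, ?_⟩
  rw [s29c_c_mk]
  congr 1

/-- **[DC] surjectivity onto classes with finite Galois orbit.** -/
theorem s29cs_surj_of_finite_orbit
    (htr : Transcendental K1 (s18q_map (algebraMap K0 K1) F₀ x0))
    (y : Pic0 K1 ↥(laurentBaseChange K1 F₀))
    (hy : (Set.range fun g : ↥(s29cs_G K0 K1) => s29cs_rho (K0 := K0) F₀ g • y).Finite) :
    ∃ x : Pic0 K0 ↥(laurentBaseChange K0 F₀), s29c_c (K1 := K1) F₀ x0 x1 x = y := by
  obtain ⟨P0⟩ := s29cs_exists_place F₀ x0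
  obtain ⟨D₀, h, rfl⟩ := s29cs_exists_preimage F₀ x0 htr P0 y hy
  exact s29cs_mem_range_c F₀ x0 x1 D₀ h

/-- **[DC] surjectivity onto a finite torsion subgroup.** -/
theorem s29cs_surj_torsion
    (htr : Transcendental K1 (s18q_map (algebraMap K0 K1) F₀ x0)) (p : ℕ)
    (hfin : Finite (Pic0.torsion K1 ↥(laurentBaseChange K1 F₀) p))
    (y : Pic0 K1 ↥(laurentBaseChange K1 F₀))
    (hy : y ∈ Pic0.torsion K1 ↥(laurentBaseChange K1 F₀) p) :
    ∃ x : Pic0 K0 ↥(laurentBaseChange K0 F₀), s29c_c (K1 := K1) F₀ x0 x1 x = y := by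
  obtain ⟨P0⟩ := s29cs_exists_place F₀ x0
  obtain ⟨D₀, h, rfl⟩ := s29cs_exists_preimage_torsion F₀ x0 htr P0 p hfin y hy
  exact s29cs_mem_range_c F₀ x0 x1 D₀ h

/-- Variant with `x1 = j x0` instead of the transcendence hypothesis. -/
theorem s29cs_surj_torsion' (hx : s18q_map (algebraMap K0 K1) F₀ x0 = x1) (p : ℕ)
    (hfin : Finite (Pic0.torsion K1 ↥(laurentBaseChange K1 F₀) p))
    (y : Pic0 K1 ↥(laurentBaseChange K1 F₀))
    (hy : y ∈ Pic0.torsion K1 ↥(laurentBaseChange K1 F₀) p) :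
    ∃ x : Pic0 K0 ↥(laurentBaseChange K0 F₀), s29c_c (K1 := K1) F₀ x0 x1 x = y :=
  s29cs_surj_torsion F₀ x0 x1 (hx ▸ (FFGen.transc (K := K1) (x := x1))) p hfin y hy

/-- If moreover `s29c_c` is injective, the preimage is `p`-torsion. -/
theorem s29cs_surj_torsion_mem
    (htr : Transcendental K1 (s18q_map (algebraMap K0 K1) F₀ x0))
    (hinj : Function.Injective (s29c_c (K1 := K1) F₀ x0 x1)) (p : ℕ)
    (hfin : Finite (Pic0.torsion K1 ↥(laurentBaseChange K1 F₀) p))
    (y : Pic0 K1 ↥(laurentBaseChange K1 F₀))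
    (hy : y ∈ Pic0.torsion K1 ↥(laurentBaseChange K1 F₀) p) :
    ∃ x : Pic0 K0 ↥(laurentBaseChange K0 F₀),
      x ∈ Pic0.torsion K0 ↥(laurentBaseChange K0 F₀) p ∧ s29c_c (K1 := K1) F₀ x0 x1 x = y := by
  obtain ⟨x, rfl⟩ := s29cs_surj_torsion F₀ x0 x1 htr p hfin y hy
  refine ⟨x, ?_, rfl⟩
  rw [Pic0.mem_torsion] at hy ⊢
  apply hinj
  rw [map_zsmul, hy, map_zero]

end Fermat.Agent.Lib.S29
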