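/-
Plan K (S29/S42), package [BR], part (BR3), step (i) (helper4): the formal <-> analytic bridge over
an ARBITRARY constant field `K` of characteristic zero with an embedding `ι : K →+* ℂ` (to be used
with `K = ℂ`, `ι = id`; keeping `K` generic avoids the instance diamonds of `ℂ`).
`FK = laurentBaseChange K (modularFunctionFieldFull N) = K(j(q^d) : d ∣ N) ⊆ K((q))`;
`ψ : K[J_d : d ∣ N] →+* ffm_R N` (evaluation, characterised by `ffb_IsLaurent (ψ a) (ι a)`) and its
extension to fraction fields `φ : FK →+* ffm_E N` (`s29bp_phi`), with `φ c = ι c` on constants,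
`Γ₀(N)`-invariant image, `φ j = j`, `φ J_d = (z ↦ j (d z))`.
This is the S24 bridge (Lib/FF/BridgePsi + DegreeBridgeModel) with `Q̄` replaced by `K`.
-/
import Fermat.Agent.Lib.FF.DegreeBridgeModel
import Fermat.Agent.Lib.FF.BridgePsi

set_option autoImplicit false
set_option linter.unusedSectionVars false

namespace Fermat.Agent.Lib.S29

open UpperHalfPlane hiding I
open ModularCurve IntermediateField Matrix.SpecialLinearGroup CongruenceSubgroup
open Fermat.Agent.Lib.FF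
open scoped MatrixGroups

noncomputable section

variable (K : Type*) [Field K] [Algebra ℚ K]

/-- The function field of `X₀(N)` over `K`, inside `K((q))`. -/
abbrev s29bp_FK (N : ℕ) : IntermediateField K (LaurentSeries K) :=
  laurentBaseChange K (modularFunctionFieldFull N)

/-- The generators `J_d = j(q^d)`, `d ∣ N`, with coefficients in `K`. -/
abbrev s29bp_gens (N : ℕ) : Set (LaurentSeries K) := ⇑(coeffEmb K) '' divisorExpansions N

/-- The `K`-algebra generated by the `J_d`. -/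
abbrev s29bp_A (N : ℕ) : Subalgebra K (LaurentSeries K) := Algebra.adjoin K (s29bp_gens K N)

theorem s29bp_field_eq (N : ℕ) :
    s29bp_FK K N = IntermediateField.adjoin K (s29bp_gens K N) :=
  ffg_laurentBaseChange_adjoin K (divisorExpansions N)

theorem s29bp_A_le (N : ℕ) : s29bp_A K N ≤ (s29bp_FK K N).toSubalgebra := by
  rw [s29bp_field_eq]
  exact IntermediateField.algebra_adjoin_le_adjoin K (s29bp_gens K N)

instance s29bp_algebraAF (N : ℕ) : Algebra (s29bp_A K N) ↥(s29bp_FK K N) :=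
  (Subalgebra.inclusion (s29bp_A_le K N)).toAlgebra

@[simp] theorem s29bp_algebraMap_AF_coe (N : ℕ) (a : s29bp_A K N) :
    ((algebraMap (s29bp_A K N) ↥(s29bp_FK K N) a : ↥(s29bp_FK K N)) : LaurentSeries K) =
      (a : LaurentSeries K) := rfl

instance s29bp_isScalarTowerAF (N : ℕ) : IsScalarTower K (s29bp_A K N) ↥(s29bp_FK K N) :=
  IsScalarTower.of_algebraMap_eq fun _ => rfl

instance s29bp_faithfulSMulAF (N : ℕ) : FaithfulSMul (s29bp_A K N) ↥(s29bp_FK K N) :=
  Subalgebra.inclusion.faithfulSMul (s29bp_A_le K N)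

instance s29bp_isFractionRingAF (N : ℕ) : IsFractionRing (s29bp_A K N) ↥(s29bp_FK K N) :=
  .of_field _ _ fun ⟨z, hz⟩ => by
    have hz' : z ∈ IntermediateField.adjoin K (s29bp_gens K N) := by
      rw [← s29bp_field_eq]; exact hz
    obtain ⟨x, hx, y, hy, heq⟩ := IntermediateField.mem_adjoin_iff_div.mp hz'
    exact ⟨⟨x, hx⟩, ⟨y, hy⟩, Subtype.ext heq⟩

variable {K} (ι : K →+* ℂ)

theorem s29bp_coeffMap_coeffEmb (y : LaurentSeries ℚ) :
    coeffMap ι (coeffEmb K y) = coeffMap (algebraMap ℚ ℂ) y := by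
  rw [coeffEmb, coeffMap_coeffMap]
  exact coeffMap_congr (Subsingleton.elim _ _) y

theorem s29bp_coeffMap_algebraMap (c : K) :
    coeffMap ι (algebraMap K (LaurentSeries K) c) = HahnSeries.C (ι c) := by
  rw [algebraMap_laurentSeries_eq_single, coeffMap_single]
  rfl

/-! ### The evaluation homomorphism `ψ` -/

/-- The `K`-subalgebra of Laurent series that are `q`-expansions of elements of `ffm_R N`. -/
def s29bp_B (N : ℕ) : Subalgebra K (LaurentSeries K) where
  carrier := {x | ∃ r : ffm_R N, ffb_IsLaurent (r : ℍ → ℂ) (coeffMap ι x)}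
  mul_mem' := by
    rintro x y ⟨r, hr⟩ ⟨s, hs⟩
    exact ⟨r * s, by rw [map_mul]; exact hr.mul hs⟩
  add_mem' := by
    rintro x y ⟨r, hr⟩ ⟨s, hs⟩
    exact ⟨r + s, by rw [map_add]; exact hr.add hs⟩
  algebraMap_mem' := fun c => ⟨algebraMap ℂ (ffm_R N) (ι c), by
    rw [s29bp_coeffMap_algebraMap]
    exact ffb_IsLaurent.const _⟩

variable (N : ℕ)

def s29bp_psiB (x : s29bp_B ι N) : ffm_R N := Classical.choose x.2

theorem s29bp_psiB_spec (x : s29bp_B ι N) :
    ffb_IsLaurent (s29bp_psiB ι N x : ℍ → ℂ) (coeffMap ι (x : LaurentSeries K)) :=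
  Classical.choose_spec x.2

variable {N} in
theorem s29bp_psiB_eq {x : s29bp_B ι N} {r : ffm_R N}
    (h : ffb_IsLaurent (r : ℍ → ℂ) (coeffMap ι (x : LaurentSeries K))) : s29bp_psiB ι N x = r :=
  Subtype.ext ((s29bp_psiB_spec ι N x).ext h)

def s29bp_psiBHom : s29bp_B ι N →+* ffm_R N where
  toFun := s29bp_psiB ι N
  map_one' := s29bp_psiB_eq ι (by
    have h := ffb_IsLaurent.const 1
    rw [map_one] at h
    simp only [OneMemClass.coe_one, map_one]
    exact h)
  map_mul' x y := s29bp_psiB_eq ι (by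
    have := (s29bp_psiB_spec ι N x).mul (s29bp_psiB_spec ι N y)
    simpa using this)
  map_zero' := s29bp_psiB_eq ι (by
    have h := ffb_IsLaurent.const 0
    rw [map_zero] at h
    simp only [ZeroMemClass.coe_zero, map_zero]
    exact h)
  map_add' x y := s29bp_psiB_eq ι (by
    have := (s29bp_psiB_spec ι N x).add (s29bp_psiB_spec ι N y)
    simpa using this)

theorem s29bp_psiBHom_isLaurent (x : s29bp_B ι N) :
    ffb_IsLaurent (s29bp_psiBHom ι N x : ℍ → ℂ) (coeffMap ι (x : LaurentSeries K)) :=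
  s29bp_psiB_spec ι N x

theorem s29bp_psiBHom_injective : Function.Injective (s29bp_psiBHom ι N) := by
  intro x y h
  have h1 := s29bp_psiBHom_isLaurent ι N x
  have h2 := s29bp_psiBHom_isLaurent ι N y
  rw [h] at h1
  exact Subtype.ext (ffb_coeffMap_injective _ ι.injective (h1.unique h2))

theorem s29bp_gens_subset_B : s29bp_gens K N ⊆ (s29bp_B ι N : Set (LaurentSeries K)) := by
  rintro _ ⟨_, ⟨d, hne, hd, rfl⟩, rfl⟩
  have := hne
  refine ⟨⟨ffb_jd d, ffb_jd_isWH N hd⟩, ?_⟩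
  rw [s29bp_coeffMap_coeffEmb]
  exact ffb_isLaurent_jd d

theorem s29bp_A_le_B : s29bp_A K N ≤ s29bp_B ι N := Algebra.adjoin_le (s29bp_gens_subset_B ι N)

/-- **The evaluation homomorphism** from `K[J_d : d ∣ N]` to the ring of modular functions. -/
def s29bp_psi : s29bp_A K N →+* ffm_R N :=
  (s29bp_psiBHom ι N).comp (Subalgebra.inclusion (s29bp_A_le_B ι N)).toRingHom

theorem s29bp_psi_isLaurent (a : s29bp_A K N) :
    ffb_IsLaurent (s29bp_psi ι N a : ℍ → ℂ) (coeffMap ι (a : LaurentSeries K)) :=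
  s29bp_psiBHom_isLaurent ι N (Subalgebra.inclusion (s29bp_A_le_B ι N) a)

variable {N} in
theorem s29bp_psi_eq {a : s29bp_A K N} {r : ffm_R N}
    (h : ffb_IsLaurent (r : ℍ → ℂ) (coeffMap ι (a : LaurentSeries K))) : s29bp_psi ι N a = r :=
  s29bp_psiB_eq ι (x := Subalgebra.inclusion (s29bp_A_le_B ι N) a) h

theorem s29bp_psi_injective : Function.Injective (s29bp_psi ι N) :=
  (s29bp_psiBHom_injective ι N).comp (Subalgebra.inclusion_injective (s29bp_A_le_B ι N))

theorem s29bp_psi_algebraMap (c : K) :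
    s29bp_psi ι N (algebraMap K (s29bp_A K N) c) = algebraMap ℂ (ffm_R N) (ι c) := by
  refine s29bp_psi_eq ι ?_
  have : ((algebraMap K (s29bp_A K N) c : s29bp_A K N) : LaurentSeries K) =
      algebraMap K (LaurentSeries K) c := rfl
  rw [this, s29bp_coeffMap_algebraMap]
  exact ffb_IsLaurent.const _

variable (K) in
theorem s29bp_gen_mem {d : ℕ} [NeZero d] (hd : d ∣ N) :
    coeffEmb K (qExpand ℚ d jq) ∈ s29bp_A K N :=
  Algebra.subset_adjoin ⟨_, mem_divisorExpansions N hd, rfl⟩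

variable (K) in
theorem s29bp_jSeries_mem : coeffEmb K jq ∈ s29bp_A K N := by
  have h := s29bp_gen_mem K N (one_dvd N)
  rwa [qExpand_one_apply] at h

theorem s29bp_psi_gen {d : ℕ} [NeZero d] (hd : d ∣ N) :
    s29bp_psi ι N ⟨coeffEmb K (qExpand ℚ d jq), s29bp_gen_mem K N hd⟩ =
      ⟨ffb_jd d, ffb_jd_isWH N hd⟩ := by
  refine s29bp_psi_eq ι ?_
  show ffb_IsLaurent (ffb_jd d) (coeffMap ι (coeffEmb K (qExpand ℚ d jq)))
  rw [s29bp_coeffMap_coeffEmb]
  exact ffb_isLaurent_jd d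

theorem s29bp_psi_j : s29bp_psi ι N ⟨coeffEmb K jq, s29bp_jSeries_mem K N⟩ = ffg_jR N := by
  refine s29bp_psi_eq ι ?_
  show ffb_IsLaurent (ffg_jR N : ℍ → ℂ) (coeffMap ι (coeffEmb K jq))
  rw [s29bp_coeffMap_coeffEmb]
  exact ffb_isLaurent_j

/-- The image of `ψ` is `Γ₀(N)`-invariant. -/
theorem s29bp_psi_smul {γ : SL(2, ℤ)} (hγ : γ ∈ Gamma0 N) (a : s29bp_A K N) :
    γ • s29bp_psi ι N a = s29bp_psi ι N a := by
  obtain ⟨a, ha⟩ := a
  induction ha using Algebra.adjoin_induction with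
  | mem x hx =>
    obtain ⟨_, ⟨d, hne, hd, rfl⟩, rfl⟩ := hx
    have := hne
    rw [s29bp_psi_gen ι N hd]
    ext z
    show ffb_jd d (γ⁻¹ • z) = ffb_jd d z
    exact ffb_jd_smul_of_mem_Gamma0 N hd (inv_mem hγ) z
  | algebraMap c =>
    have : (⟨algebraMap K (LaurentSeries K) c, (s29bp_A K N).algebraMap_mem c⟩ : s29bp_A K N) =
        algebraMap K (s29bp_A K N) c := rfl
    rw [this, s29bp_psi_algebraMap]
    exact ffm_smul_algebraMap_C γ _
  | add x y hx hy ihx ihy =>
    have : (⟨x + y, add_mem hx hy⟩ : s29bp_A K N) = ⟨x, hx⟩ + ⟨y, hy⟩ := rfl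
    rw [this, map_add, smul_add, ihx, ihy]
  | mul x y hx hy ihx ihy =>
    have : (⟨x * y, mul_mem hx hy⟩ : s29bp_A K N) = ⟨x, hx⟩ * ⟨y, hy⟩ := rfl
    rw [this, map_mul, smul_mul', ihx, ihy]

/-! ### The bridge `φ` over `K` -/

/-- **The bridge over `K`**: the extension of `ψ` to the fraction fields. -/
def s29bp_phi : ↥(s29bp_FK K N) →+* ffm_E N :=
  ffg_lift (A := s29bp_A K N) (F := ↥(s29bp_FK K N)) (R := ffm_R N) (E := ffm_E N)
    (s29bp_psi ι N) (s29bp_psi_injective ι N)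

theorem s29bp_phi_algebraMap (a : s29bp_A K N) :
    s29bp_phi ι N (algebraMap (s29bp_A K N) ↥(s29bp_FK K N) a) =
      algebraMap (ffm_R N) (ffm_E N) (s29bp_psi ι N a) :=
  ffg_lift_algebraMap _ _ a

theorem s29bp_phi_const (c : K) :
    s29bp_phi ι N (algebraMap K ↥(s29bp_FK K N) c) = algebraMap ℂ (ffm_E N) (ι c) := by
  rw [IsScalarTower.algebraMap_apply K (s29bp_A K N) ↥(s29bp_FK K N), s29bp_phi_algebraMap,
    s29bp_psi_algebraMap, ← IsScalarTower.algebraMap_apply]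

theorem s29bp_phi_injective : Function.Injective (s29bp_phi ι N) := (s29bp_phi ι N).injective

variable (K) in
/-- The `j`-function as an element of `FK`. -/
def s29bp_jK : ↥(s29bp_FK K N) :=
  algebraMap (s29bp_A K N) ↥(s29bp_FK K N) ⟨coeffEmb K jq, s29bp_jSeries_mem K N⟩

@[simp] theorem s29bp_jK_coe :
    ((s29bp_jK K N : ↥(s29bp_FK K N)) : LaurentSeries K) = coeffEmb K jq := rfl

variable (K) in
/-- `J_d = j(q^d)` as an element of `FK`. -/
def s29bp_jdK {d : ℕ} [NeZero d] (hd : d ∣ N) : ↥(s29bp_FK K N) :=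
  algebraMap (s29bp_A K N) ↥(s29bp_FK K N)
    ⟨coeffEmb K (qExpand ℚ d jq), s29bp_gen_mem K N hd⟩

@[simp] theorem s29bp_jdK_coe {d : ℕ} [NeZero d] (hd : d ∣ N) :
    ((s29bp_jdK K N hd : ↥(s29bp_FK K N)) : LaurentSeries K) = coeffEmb K (qExpand ℚ d jq) := rfl

theorem s29bp_phi_j :
    s29bp_phi ι N (s29bp_jK K N) = algebraMap (ffm_R N) (ffm_E N) (ffg_jR N) := by
  rw [s29bp_jK, s29bp_phi_algebraMap, s29bp_psi_j]

theorem s29bp_phi_jd {d : ℕ} [NeZero d] (hd : d ∣ N) :
    s29bp_phi ι N (s29bp_jdK K N hd) =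
      algebraMap (ffm_R N) (ffm_E N) ⟨ffb_jd d, ffb_jd_isWH N hd⟩ := by
  rw [s29bp_jdK, s29bp_phi_algebraMap, s29bp_psi_gen ι N hd]

/-- The image of `φ` is `Γ₀(N)`-invariant. -/
theorem s29bp_phi_smul {γ : SL(2, ℤ)} (hγ : γ ∈ Gamma0 N) (x : ↥(s29bp_FK K N)) :
    γ • s29bp_phi ι N x = s29bp_phi ι N x :=
  ffg_lift_smul_eq (A := s29bp_A K N) (F := ↥(s29bp_FK K N)) (R := ffm_R N) (E := ffm_E N)
    (G := SL(2, ℤ)) (fun g r => ffm_smul_algebraMap g r) (s29bp_psi ι N)
    (s29bp_psi_injective ι N) γ (fun a => s29bp_psi_smul ι N hγ a) x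

/-- Constants are `SL₂(ℤ)`-invariant. -/
theorem s29bp_phi_const_smul (γ : SL(2, ℤ)) (c : K) :
    γ • s29bp_phi ι N (algebraMap K ↥(s29bp_FK K N) c) =
      s29bp_phi ι N (algebraMap K ↥(s29bp_FK K N) c) := by
  rw [s29bp_phi_const, smul_algebraMap]

/-- `φ j` is `SL₂(ℤ)`-invariant. -/
theorem s29bp_phi_j_smul (γ : SL(2, ℤ)) :
    γ • s29bp_phi ι N (s29bp_jK K N) = s29bp_phi ι N (s29bp_jK K N) := by
  rw [s29bp_phi_j, ffm_smul_algebraMap, ffg_jR_smul]

/-- Every element of `FK` is a quotient of two elements of `K[J_d]`; its image under `φ` is the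
quotient of the corresponding modular functions. -/
theorem s29bp_exists_frac (x : ↥(s29bp_FK K N)) :
    ∃ a b : s29bp_A K N, b ≠ 0 ∧
      (x : LaurentSeries K) * (b : LaurentSeries K) = (a : LaurentSeries K) ∧
      s29bp_phi ι N x * algebraMap (ffm_R N) (ffm_E N) (s29bp_psi ι N b) =
        algebraMap (ffm_R N) (ffm_E N) (s29bp_psi ι N a) := by
  obtain ⟨a, b, hb, rfl⟩ := IsFractionRing.div_surjective (A := s29bp_A K N) x
  have hb0 : b ≠ 0 := nonZeroDivisors.ne_zero hb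
  have hbF : algebraMap (s29bp_A K N) ↥(s29bp_FK K N) b ≠ 0 := by
    intro h0
    exact hb0 ((FaithfulSMul.algebraMap_injective (s29bp_A K N) ↥(s29bp_FK K N))
      (by rw [h0, map_zero]))
  refine ⟨a, b, hb0, ?_, ?_⟩
  · have h1 : algebraMap (s29bp_A K N) ↥(s29bp_FK K N) a /
        algebraMap (s29bp_A K N) ↥(s29bp_FK K N) b *
        algebraMap (s29bp_A K N) ↥(s29bp_FK K N) b = algebraMap (s29bp_A K N) ↥(s29bp_FK K N) a :=
      div_mul_cancel₀ _ hbF
    exact congrArg Subtype.val h1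
  · rw [map_div₀, s29bp_phi_algebraMap, s29bp_phi_algebraMap]
    refine div_mul_cancel₀ _ ?_
    intro h0
    apply hb0
    apply s29bp_psi_injective ι N
    apply IsFractionRing.injective (ffm_R N) (ffm_E N)
    rw [h0, map_zero, map_zero]

end

end Fermat.Agent.Lib.S29
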