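/-
Plan K (S29), package [EQ] (helper6), part 4: the norm product formula of package [W]
(`s37w_norm_beta`, over `ℚ̄`) transported to `ℂ((q))` along an embedding `ι : ℚ̄ → ℂ`, and its
analytic form **(Q1)**:

if `y ∈ F_ℚ̄(N)` has analytic data `(a, b)` — holomorphic functions with Laurent expansions
`x_a, x_b` and `ι y · x_b = x_a` — then `Nm_α(β y)` has analytic data
`(s29q_hprod ℓ a, s29q_hprod ℓ b)`.
-/
import Fermat.Agent.Lib.S29.EQMult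
import Fermat.Agent.Lib.S37.WNorm

set_option autoImplicit false
set_option linter.unusedSectionVars false

namespace Fermat.Agent.Lib.S29

open UpperHalfPlane hiding I
open Complex Filter Topology ModularForm Function ModularCurve AlgebraicCurve
open Fermat.Agent.Lib.FF Fermat.Agent.Lib.S28 Fermat.Agent.Lib.S37 Fermat.Agent.Lib.ES
open scoped Manifold MatrixGroups OnePoint

noncomputable section

local notation "Kb" => AlgebraicClosure ℚ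

/-- `coeffMap` commutes with the product of the twists. -/
theorem s29q_coeffMap_prodTw {R S : Type*} [CommRing R] [CommRing S] (f : R →+* S) (ℓ : ℕ)
    (ζ : Rˣ) (y : LaurentSeries R) :
    coeffMap f (s37e_prodTw ℓ ζ y) =
      s37e_prodTw ℓ (Units.map (f : R →* S) ζ) (coeffMap f y) := by
  unfold s37e_prodTw
  rw [map_prod]
  refine Finset.prod_congr rfl fun b _ => ?_
  rw [s28m_coeffMap_tw, map_pow]

theorem s29q_prodTw_mul {R : Type*} [CommRing R] (ℓ : ℕ) (ζ : Rˣ) (x y : LaurentSeries R) :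
    s37e_prodTw ℓ ζ (x * y) = s37e_prodTw ℓ ζ x * s37e_prodTw ℓ ζ y := by
  unfold s37e_prodTw
  rw [← Finset.prod_mul_distrib]
  exact Finset.prod_congr rfl fun b _ => map_mul _ _ _

variable (ℓ : ℕ) [hℓ : Fact ℓ.Prime]

/-- A primitive `ℓ`-th root of unity of `ℚ̄` mapping to `exp (2 π i / ℓ)`. -/
theorem s29q_exists_zeta (ι : Kb →+* ℂ) :
    ∃ ζ : Kbˣ, IsPrimitiveRoot (ζ : Kb) ℓ ∧ Units.map (ι : Kb →* ℂ) ζ = s29q_zeta ℓ := by
  have hℓ0 : ℓ ≠ 0 := hℓ.out.ne_zero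
  have : NeZero (ℓ : Kb) := ⟨by exact_mod_cast hℓ0⟩
  obtain ⟨ζ₀, hζ₀⟩ := HasEnoughRootsOfUnity.exists_primitiveRoot Kb ℓ
  have h1 : IsPrimitiveRoot (ι ζ₀) ℓ := hζ₀.map_of_injective ι.injective
  have h2 : ((s29q_zeta ℓ : ℂˣ) : ℂ) ^ ℓ = 1 := (s29q_zeta_isPrimitiveRoot ℓ).pow_eq_one
  obtain ⟨i, hi, hpow⟩ := h1.eq_pow_of_pow_eq_one h2
  have hprim : IsPrimitiveRoot (ι (ζ₀ ^ i)) ℓ := by
    rw [map_pow, hpow]
    exact s29q_zeta_isPrimitiveRoot ℓ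
  have hζ : IsPrimitiveRoot (ζ₀ ^ i) ℓ := IsPrimitiveRoot.of_map_of_injective hprim ι.injective
  have hne : ζ₀ ^ i ≠ 0 := hζ.ne_zero hℓ0
  refine ⟨Units.mk0 (ζ₀ ^ i) hne, hζ, ?_⟩
  apply Units.ext
  rw [Units.coe_map]
  show ι (ζ₀ ^ i) = _
  rw [map_pow, hpow]

variable {N : ℕ} [NeZero N]

/-- **The norm product formula over `ℂ`**:
`ι(Nm_α(β y))(q^ℓ) = ι y (q^{ℓ²}) · ∏_{i<ℓ} ι y (ζ^i q)`, `ζ = exp (2 π i / ℓ)`. -/
theorem s29q_norm_beta (ι : Kb →+* ℂ) (hℓN : ¬ ℓ ∣ N) (y : ffi_F N) :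
    letI := algebraAlong (heckeAlphaBar Kb N ℓ)
    qExpand ℂ ℓ (coeffMap ι
        ((Algebra.norm (ffi_F N) (heckeBetaBar Kb N ℓ y) : ffi_F N) : LaurentSeries Kb)) =
      qExpand ℂ ℓ (qExpand ℂ ℓ (coeffMap ι (y : LaurentSeries Kb))) *
        s37e_prodTw ℓ (s29q_zeta ℓ) (coeffMap ι (y : LaurentSeries Kb)) := by
  obtain ⟨ζ, hζ, hζι⟩ := s29q_exists_zeta ℓ ι
  have h := congrArg (coeffMap ι) (s37w_norm_beta N ℓ hℓ.out hℓN ζ hζ y)
  rw [map_mul, ffb_coeffMap_qExpand, ffb_coeffMap_qExpand, ffb_coeffMap_qExpand,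
    s29q_coeffMap_prodTw, hζι] at h
  exact h

/-- **(Q1)**: analytic data of `Nm_α(β y)` from analytic data of `y`. -/
theorem s29q_hecke_data (ι : Kb →+* ℂ) (hℓN : ¬ ℓ ∣ N) (y : ffi_F N) {a b : ℍ → ℂ}
    {xa xb : LaurentSeries ℂ} (ha : ffb_IsLaurent a xa) (hb : ffb_IsLaurent b xb)
    (hab : coeffMap ι (y : LaurentSeries Kb) * xb = xa) :
    letI := algebraAlong (heckeAlphaBar Kb N ℓ)
    ∃ xa' xb' : LaurentSeries ℂ, ffb_IsLaurent (s29q_hprod ℓ a) xa' ∧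
      ffb_IsLaurent (s29q_hprod ℓ b) xb' ∧
      coeffMap ι ((Algebra.norm (ffi_F N) (heckeBetaBar Kb N ℓ y) : ffi_F N) : LaurentSeries Kb)
        * xb' = xa' := by
  obtain ⟨xa', ha', hxa'⟩ := s29q_isLaurent_hprodFun ℓ ha
  obtain ⟨xb', hb', hxb'⟩ := s29q_isLaurent_hprodFun ℓ hb
  rw [← s29q_hprod_eq_hprodFun] at ha' hb'
  refine ⟨xa', xb', ha', hb', ?_⟩
  apply qExpand_injective (R := ℂ) ℓ
  rw [map_mul, s29q_norm_beta ℓ ι hℓN y, hxa', hxb', ← hab, map_mul, map_mul, s29q_prodTw_mul]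
  ring

end

end Fermat.Agent.Lib.S29
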