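/-
Plan K (S29), package [EQ] (helper6), part 5: composition with the Möbius action of `GL₂(ℝ)`,
algebraic properties of the Hecke product, and the function-level form of (Q3):

if `A ^ p = a * b ^ (p - 1)` and `A (γ • τ) = ζ_p ^ ψ γ * A τ` on `Γ₀(N)`, then the Hecke products
satisfy `(hprod A) ^ p = hprod a * (hprod b) ^ (p - 1)` and
`hprod A (γ • τ) = ζ_p ^ (∑_x ψ (γ'_x)) * hprod A τ`.
-/
import Fermat.Agent.Lib.S29.EQNorm

set_option autoImplicit false
set_option linter.unusedSectionVars false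

namespace Fermat.Agent.Lib.S29

open UpperHalfPlane hiding I
open Complex Filter Topology ModularForm Function ModularCurve Matrix.SpecialLinearGroup
open Fermat.Agent.Lib.FF Fermat.Agent.Lib.S28 Fermat.Agent.Lib.S37 Fermat.Agent.Lib.ES
open P2MW.S_ModularForm_heckeT_slash_eq_self_of_mem_Gamma0.ModularForm.HeckeSlashInvariance
open scoped Manifold MatrixGroups OnePoint

noncomputable section

/-! ### Composition with the Möbius action -/

/-- `f ∘ (g • ·)` for `g ∈ GL₂(ℝ)`. -/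
def s29q_compFun (g : GL (Fin 2) ℝ) (f : ℍ → ℂ) : ℍ → ℂ := fun z => f (g • z)

@[simp] theorem s29q_compFun_apply (g : GL (Fin 2) ℝ) (f : ℍ → ℂ) (z : ℍ) :
    s29q_compFun g f z = f (g • z) := rfl

theorem s29q_compFun_one (f : ℍ → ℂ) : s29q_compFun 1 f = f := by
  funext z
  rw [s29q_compFun_apply, one_smul]

theorem s29q_compFun_mul (g h : GL (Fin 2) ℝ) (f : ℍ → ℂ) :
    s29q_compFun (g * h) f = s29q_compFun h (s29q_compFun g f) := by
  funext z
  rw [s29q_compFun_apply, s29q_compFun_apply, s29q_compFun_apply, mul_smul]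

theorem s29q_compFun_map_mul (g : GL (Fin 2) ℝ) (f₁ f₂ : ℍ → ℂ) :
    s29q_compFun g (f₁ * f₂) = s29q_compFun g f₁ * s29q_compFun g f₂ := rfl

theorem s29q_compFun_map_add (g : GL (Fin 2) ℝ) (f₁ f₂ : ℍ → ℂ) :
    s29q_compFun g (f₁ + f₂) = s29q_compFun g f₁ + s29q_compFun g f₂ := rfl

theorem s29q_compFun_const (g : GL (Fin 2) ℝ) (c : ℂ) :
    s29q_compFun g (fun _ => c) = fun _ => c := rfl

theorem s29q_compFun_injective (g : GL (Fin 2) ℝ) : Function.Injective (s29q_compFun g) := by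
  intro f₁ f₂ h
  funext z
  have := congrFun h (g⁻¹ • z)
  rwa [s29q_compFun_apply, s29q_compFun_apply, smul_inv_smul] at this

theorem s29q_compFun_mdiff {g : GL (Fin 2) ℝ} (hg : 0 < g.det.val) {f : ℍ → ℂ} (hf : MDiff f) :
    MDiff (s29q_compFun g f) :=
  hf.comp (UpperHalfPlane.mdifferentiable_smul hg)

theorem s29q_compFun_SL (γ : SL(2, ℤ)) (f : ℍ → ℂ) :
    s29q_compFun (mapGL ℝ γ) f = fun z => f (γ • z) := rfl

/-! ### Algebraic properties of the Hecke product -/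

variable (ℓ : ℕ) [hℓ : Fact ℓ.Prime]

theorem s29q_det_heckeRep_pos (x : OnePoint (ZMod ℓ)) : 0 < (heckeRep ℓ x).det.val := by
  induction x using OnePoint.rec with
  | infty => exact det_heckeDiagMatrix_pos ℓ
  | coe j => exact det_heckeMatrix_pos ℓ j.val

theorem s29q_hprod_eq_prod_compFun (u : ℍ → ℂ) :
    s29q_hprod ℓ u = ∏ x : OnePoint (ZMod ℓ), s29q_compFun (heckeRep ℓ x) u := by
  funext z
  rw [s29q_hprod_apply, Finset.prod_apply]
  rfl

theorem s29q_hprod_mul (u v : ℍ → ℂ) : s29q_hprod ℓ (u * v) = s29q_hprod ℓ u * s29q_hprod ℓ v := by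
  funext z
  simp only [s29q_hprod_apply, Pi.mul_apply, Finset.prod_mul_distrib]

theorem s29q_hprod_pow (u : ℍ → ℂ) (n : ℕ) : s29q_hprod ℓ (u ^ n) = s29q_hprod ℓ u ^ n := by
  funext z
  simp only [s29q_hprod_apply, Pi.pow_apply, Finset.prod_pow]

theorem s29q_hprod_one : s29q_hprod ℓ (1 : ℍ → ℂ) = 1 := by
  funext z
  simp [s29q_hprod_apply]

theorem s29q_hprod_const (c : ℂ) :
    s29q_hprod ℓ (fun _ => c) = fun _ => c ^ (ℓ + 1) := by
  funext z
  rw [s29q_hprod_apply, Finset.prod_const, Finset.card_univ]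
  congr 1
  rw [show Fintype.card (OnePoint (ZMod ℓ)) = Fintype.card (Option (ZMod ℓ)) from rfl,
    Fintype.card_option, ZMod.card]

theorem s29q_hprod_mdiff {u : ℍ → ℂ} (hu : MDiff u) : MDiff (s29q_hprod ℓ u) := by
  rw [s29q_hprod_eq_hprodFun]
  exact s29q_mdiff_hprodFun ℓ hu

/-- If `u` vanishes nowhere... more precisely: a zero of the Hecke product gives a zero of `u`. -/
theorem s29q_exists_zero_of_hprod_eq_zero {u : ℍ → ℂ} {z : ℍ} (h : s29q_hprod ℓ u z = 0) :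
    ∃ w : ℍ, u w = 0 := by
  rw [s29q_hprod_apply, Finset.prod_eq_zero_iff] at h
  obtain ⟨x, -, hx⟩ := h
  exact ⟨_, hx⟩

/-- The Hecke product of a holomorphic function which is not identically zero is not identically
zero. -/
theorem s29q_hprod_ne_zero {u : ℍ → ℂ} (hu : MDiff u) (hu0 : u ≠ 0) : s29q_hprod ℓ u ≠ 0 := by
  rw [s29q_hprod_eq_prod_compFun]
  classical
  have key : ∀ s : Finset (OnePoint (ZMod ℓ)),
      MDiff (∏ x ∈ s, s29q_compFun (heckeRep ℓ x) u) ∧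
        (∏ x ∈ s, s29q_compFun (heckeRep ℓ x) u) ≠ 0 := by
    intro s
    induction s using Finset.induction_on with
    | empty =>
      rw [Finset.prod_empty]
      refine ⟨mdifferentiable_const, fun h => ?_⟩
      have := congrFun h UpperHalfPlane.I
      simp at this
    | insert a s ha ih =>
      rw [Finset.prod_insert ha]
      have h1 : MDiff (s29q_compFun (heckeRep ℓ a) u) :=
        s29q_compFun_mdiff (s29q_det_heckeRep_pos ℓ a) hu
      refine ⟨h1.mul ih.1, fun h => ?_⟩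
      rcases (UpperHalfPlane.mul_eq_zero_iff h1 ih.1).mp h with h0 | h0
      · apply hu0
        apply s29q_compFun_injective (heckeRep ℓ a)
        rw [h0]
        rfl
      · exact ih.2 h0
  exact (key Finset.univ).2

/-! ### (Q3), function level -/

/-- `ζ_p = exp (2 π i / p)`. -/
def s29q_zetaP (p : ℕ) : ℂ := Complex.exp (2 * Real.pi * Complex.I / p)

/-- **(Q3), function level.**  Root and multiplier of the Hecke product. -/
theorem s29q_hprod_root {N : ℕ} {p : ℕ} {a b A : ℍ → ℂ}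
    (hA : ∀ τ, A τ ^ p = a τ * b τ ^ (p - 1)) (ψ : SL(2, ℤ) → ℕ)
    (hAψ : ∀ γ ∈ CongruenceSubgroup.Gamma0 N, ∀ τ : ℍ, A (γ • τ) = s29q_zetaP p ^ ψ γ * A τ)
    (γ : SL(2, ℤ)) (γ' : OnePoint (ZMod ℓ) → SL(2, ℤ)) (σ : Equiv.Perm (OnePoint (ZMod ℓ)))
    (hγ' : ∀ x, γ' x ∈ CongruenceSubgroup.Gamma0 N)
    (hmul : ∀ x, heckeRepZ ℓ x * (γ : Matrix (Fin 2) (Fin 2) ℤ) =
      (γ' x : Matrix (Fin 2) (Fin 2) ℤ) * heckeRepZ ℓ (σ x)) :
    (∀ τ, s29q_hprod ℓ A τ ^ p = s29q_hprod ℓ a τ * s29q_hprod ℓ b τ ^ (p - 1)) ∧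
      ∀ τ : ℍ, s29q_hprod ℓ A (γ • τ) =
        s29q_zetaP p ^ (∑ x : OnePoint (ZMod ℓ), ψ (γ' x)) * s29q_hprod ℓ A τ := by
  constructor
  · intro τ
    have h1 : A ^ p = a * b ^ (p - 1) := by
      funext τ
      exact hA τ
    have h2 := congrArg (s29q_hprod ℓ) h1
    rw [s29q_hprod_pow, s29q_hprod_mul, s29q_hprod_pow] at h2
    exact congrFun h2 τ
  · intro τ
    have := s29q_hprod_smul ℓ A (fun δ => s29q_zetaP p ^ ψ δ)
      (CongruenceSubgroup.Gamma0 N : Set SL(2, ℤ)) hAψ γ γ' σ hγ' hmul τ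
    rw [this, Finset.prod_pow_eq_pow_sum]

end

end Fermat.Agent.Lib.S29
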