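/-
Plan K (S29), package [DS] (helper3), DEFINITIONS on the `Hom`-side.

* `s29h_fam hℓN γ x ∈ Γ₀(N)`: the coset family of `γ ∈ Γ₀(N)` for `T_ℓ`, `ℓ ∤ N`: the UNIQUE element with
  `α_x γ = (s29h_fam hℓN γ x) α_{σ_γ x}`, `α_x = heckeRepZ ℓ x`, `σ_γ = heckePermT ℓ γ`
  (`s29h_fam_spec`, `s29h_fam_unique`, `s29h_fam_eq_of_family`); cocycle rule `s29h_fam_mul`.
* `s29h_heckeHom N ℓ A : (Additive Γ₀(N) →+ A) →+ (Additive Γ₀(N) →+ A)`, the Hecke operator
  `T_ℓ^H` on `Hom(Γ₀(N), A)`: `(T_ℓ^H χ)(γ) = ∑_{x ∈ ℙ¹(𝔽_ℓ)} χ (γ'_x)` for ANY valid coset family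
  `γ'` (`s29h_heckeHom_apply_of_family`); it is `0` if `ℓ ∣ N`.  Natural in `A`
  (`s29h_heckeHom_comp`).
* `s29h_Hpar R N A`: the `R`-submodule of `Hom(Γ₀(N), A)` of homomorphisms that are parabolic
  (Prelude `IsParabolicHom`) and vanish on the elements of finite order; `s29h_Hp N p` is the
  case `R = A = ZMod p`.
-/
import Mathlib
import Fermat.Agent.Lib.ES.HeckeFamilies
import Fermat.Prelude.Def_ModularCurve_PeriodMap

set_option autoImplicit false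
set_option linter.unusedSectionVars false

noncomputable section

namespace Fermat.Agent.Lib.S29

open CongruenceSubgroup ModularCurve.Period Fermat.Agent.Lib.ES
open P2MW.S_ModularForm_heckeT_slash_eq_self_of_mem_Gamma0.ModularForm.HeckeSlashInvariance
open scoped MatrixGroups

local notation "Mat2" => Matrix (Fin 2) (Fin 2) ℤ

/-! ### The permutation `σ_γ` is a right action -/

section Perm

variable (ℓ : ℕ) [Fact ℓ.Prime]

theorem s29h_redMatrix_mul (γ δ : SL(2, ℤ)) :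
    redMatrix ℓ (γ * δ) = redMatrix ℓ δ * redMatrix ℓ γ := by
  apply Matrix.GeneralLinearGroup.ext
  intro i j
  rw [Matrix.GeneralLinearGroup.coe_mul, Matrix.mul_apply, Fin.sum_univ_two]
  fin_cases i <;> fin_cases j <;>
    simp [redMatrix_apply_zero_zero, redMatrix_apply_zero_one, redMatrix_apply_one_zero,
      redMatrix_apply_one_one, Matrix.SpecialLinearGroup.coe_mul, Matrix.mul_apply,
      Fin.sum_univ_two] <;> ring

theorem s29h_redMatrix_one : redMatrix ℓ (1 : SL(2, ℤ)) = 1 := by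
  apply Matrix.GeneralLinearGroup.ext
  intro i j
  fin_cases i <;> fin_cases j <;>
    simp [redMatrix_apply_zero_zero, redMatrix_apply_zero_one, redMatrix_apply_one_zero,
      redMatrix_apply_one_one]

theorem s29h_permT_mul (γ δ : SL(2, ℤ)) (x : OnePoint (ZMod ℓ)) :
    heckePermT ℓ (γ * δ) x = heckePermT ℓ δ (heckePermT ℓ γ x) := by
  rw [heckePermT_apply, heckePermT_apply, heckePermT_apply, s29h_redMatrix_mul, mul_smul]

theorem s29h_permT_one (x : OnePoint (ZMod ℓ)) : heckePermT ℓ (1 : SL(2, ℤ)) x = x := by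
  rw [heckePermT_apply, s29h_redMatrix_one, one_smul]

end Perm

/-! ### Right cancellation by the coset representatives -/

theorem s29h_mul_right_cancel {A B M : Mat2} (hM : M.det ≠ 0) (h : A * M = B * M) : A = B := by
  have h1 := congrArg (fun X => X * M.adjugate) h
  simp only [Matrix.mul_assoc, Matrix.mul_adjugate] at h1
  rw [Matrix.mul_smul, Matrix.mul_smul, Matrix.mul_one, Matrix.mul_one] at h1
  exact smul_right_injective _ hM h1

/-! ### The coset family -/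

section Fam

variable {ℓ : ℕ} [Fact ℓ.Prime] {N : ℕ}

/-- The coset family of `γ ∈ Γ₀(N)` for `T_ℓ`, `ℓ ∤ N`. -/
def s29h_fam (hℓN : ¬ ℓ ∣ N) (γ : Gamma0 N) (x : OnePoint (ZMod ℓ)) : Gamma0 N :=
  ⟨Classical.choose (heckeRepZ_mul hℓN (γ : SL(2, ℤ)) γ.2 x),
    (Classical.choose_spec (heckeRepZ_mul hℓN (γ : SL(2, ℤ)) γ.2 x)).1⟩

theorem s29h_fam_spec (hℓN : ¬ ℓ ∣ N) (γ : Gamma0 N) (x : OnePoint (ZMod ℓ)) :
    heckeRepZ ℓ x * ((γ : SL(2, ℤ)) : Mat2) =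
      (((s29h_fam hℓN γ x : Gamma0 N) : SL(2, ℤ)) : Mat2) *
        heckeRepZ ℓ (heckePermT ℓ (γ : SL(2, ℤ)) x) :=
  (Classical.choose_spec (heckeRepZ_mul hℓN (γ : SL(2, ℤ)) γ.2 x)).2

theorem s29h_det_heckeRepZ_ne_zero (x : OnePoint (ZMod ℓ)) : (heckeRepZ ℓ x).det ≠ 0 := by
  rw [det_heckeRepZ]
  exact_mod_cast (Fact.out : ℓ.Prime).ne_zero

/-- Uniqueness of the coset family. -/
theorem s29h_fam_unique (hℓN : ¬ ℓ ∣ N) (γ : Gamma0 N) (x : OnePoint (ZMod ℓ)) (g : SL(2, ℤ))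
    (h : heckeRepZ ℓ x * ((γ : SL(2, ℤ)) : Mat2) =
      (g : Mat2) * heckeRepZ ℓ (heckePermT ℓ (γ : SL(2, ℤ)) x)) :
    g = ((s29h_fam hℓN γ x : Gamma0 N) : SL(2, ℤ)) := by
  apply Subtype.ext
  exact s29h_mul_right_cancel (s29h_det_heckeRepZ_ne_zero _) (h.symm.trans (s29h_fam_spec hℓN γ x))

/-- ANY valid coset family (for the permutation `heckePermT ℓ γ`) is `s29h_fam`. -/
theorem s29h_fam_eq_of_family (hℓN : ¬ ℓ ∣ N) (γ : Gamma0 N) (γ' : OnePoint (ZMod ℓ) → SL(2, ℤ))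
    (h1 : ∀ x, γ' x ∈ Gamma0 N)
    (h2 : ∀ x, heckeRepZ ℓ x * ((γ : SL(2, ℤ)) : Mat2) =
      (γ' x : Mat2) * heckeRepZ ℓ (heckePermT ℓ (γ : SL(2, ℤ)) x)) (x : OnePoint (ZMod ℓ)) :
    (⟨γ' x, h1 x⟩ : Gamma0 N) = s29h_fam hℓN γ x :=
  Subtype.ext (s29h_fam_unique hℓN γ x (γ' x) (h2 x))

theorem s29h_fam_one (hℓN : ¬ ℓ ∣ N) (x : OnePoint (ZMod ℓ)) :
    s29h_fam hℓN (1 : Gamma0 N) x = 1 := by
  apply Subtype.ext
  refine (s29h_fam_unique hℓN 1 x 1 ?_).symm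
  rw [OneMemClass.coe_one, s29h_permT_one, Matrix.SpecialLinearGroup.coe_one, Matrix.mul_one,
    Matrix.one_mul]

/-- The cocycle rule: `(γ δ)'_x = γ'_x δ'_{σ_γ x}`. -/
theorem s29h_fam_mul (hℓN : ¬ ℓ ∣ N) (γ δ : Gamma0 N) (x : OnePoint (ZMod ℓ)) :
    s29h_fam hℓN (γ * δ) x =
      s29h_fam hℓN γ x * s29h_fam hℓN δ (heckePermT ℓ (γ : SL(2, ℤ)) x) := by
  apply Subtype.ext
  refine (s29h_fam_unique hℓN (γ * δ) x _ ?_).symm
  rw [MulMemClass.coe_mul, MulMemClass.coe_mul, Matrix.SpecialLinearGroup.coe_mul,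
    Matrix.SpecialLinearGroup.coe_mul, s29h_permT_mul, ← Matrix.mul_assoc, s29h_fam_spec hℓN γ x,
    Matrix.mul_assoc, s29h_fam_spec hℓN δ, Matrix.mul_assoc]

end Fam

/-! ### The Hecke operator `T_ℓ^H` on `Hom(Γ₀(N), A)` -/

section HeckeHom

variable (N : ℕ) (ℓ : ℕ) [Fact ℓ.Prime] (A : Type*) [AddCommGroup A]

/-- `T_ℓ^H χ` for `ℓ ∤ N`, as a homomorphism. -/
def s29h_heckeHomAux (hℓN : ¬ ℓ ∣ N) (χ : Additive (Gamma0 N) →+ A) : Additive (Gamma0 N) →+ A where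
  toFun γ := ∑ x : OnePoint (ZMod ℓ), χ (Additive.ofMul (s29h_fam hℓN (Additive.toMul γ) x))
  map_zero' := by
    refine Finset.sum_eq_zero fun x _ => ?_
    rw [toMul_zero, s29h_fam_one, ofMul_one, map_zero]
  map_add' γ δ := by
    rw [← Equiv.sum_comp (heckePermT ℓ ((Additive.toMul γ : Gamma0 N) : SL(2, ℤ)))
      (fun x => χ (Additive.ofMul (s29h_fam hℓN (Additive.toMul δ) x))), ← Finset.sum_add_distrib]
    refine Finset.sum_congr rfl fun x _ => ?_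
    rw [toMul_add, s29h_fam_mul, ofMul_mul, map_add]

open Classical in
/-- **The Hecke operator `T_ℓ^H`** on `Hom(Γ₀(N), A)` (zero if `ℓ ∣ N`). -/
def s29h_heckeHom : (Additive (Gamma0 N) →+ A) →+ (Additive (Gamma0 N) →+ A) :=
  if hℓN : ¬ ℓ ∣ N then
    { toFun := s29h_heckeHomAux N ℓ A hℓN
      map_zero' := by
        refine AddMonoidHom.ext fun γ => ?_
        exact Finset.sum_eq_zero fun x _ => rfl
      map_add' := fun χ ψ => by
        refine AddMonoidHom.ext fun γ => ?_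
        exact Finset.sum_add_distrib }
  else 0

variable {N ℓ A}

theorem s29h_heckeHom_apply (hℓN : ¬ ℓ ∣ N) (χ : Additive (Gamma0 N) →+ A) (γ : Gamma0 N) :
    s29h_heckeHom N ℓ A χ (Additive.ofMul γ) =
      ∑ x : OnePoint (ZMod ℓ), χ (Additive.ofMul (s29h_fam hℓN γ x)) := by
  rw [s29h_heckeHom, dif_pos hℓN]
  rfl

/-- `(T_ℓ^H χ)(γ) = ∑_x χ(γ'_x)` for ANY valid coset family `γ'` of `γ`
(e.g. the one of `exists_family_heckeRepZ`). -/
theorem s29h_heckeHom_apply_of_family (hℓN : ¬ ℓ ∣ N) (χ : Additive (Gamma0 N) →+ A)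
    (γ : Gamma0 N) (γ' : OnePoint (ZMod ℓ) → SL(2, ℤ)) (h1 : ∀ x, γ' x ∈ Gamma0 N)
    (h2 : ∀ x, heckeRepZ ℓ x * ((γ : SL(2, ℤ)) : Mat2) =
      (γ' x : Mat2) * heckeRepZ ℓ (heckePermT ℓ (γ : SL(2, ℤ)) x)) :
    s29h_heckeHom N ℓ A χ (Additive.ofMul γ) =
      ∑ x : OnePoint (ZMod ℓ), χ (Additive.ofMul (⟨γ' x, h1 x⟩ : Gamma0 N)) := by
  rw [s29h_heckeHom_apply hℓN]
  refine Finset.sum_congr rfl fun x _ => ?_
  rw [s29h_fam_eq_of_family hℓN γ γ' h1 h2 x]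

theorem s29h_heckeHom_of_dvd (hℓN : ℓ ∣ N) : s29h_heckeHom N ℓ A = 0 := by
  rw [s29h_heckeHom, dif_neg (not_not.mpr hℓN)]

/-- Naturality of `T_ℓ^H` in the coefficient group. -/
theorem s29h_heckeHom_comp {B : Type*} [AddCommGroup B] (f : A →+ B)
    (χ : Additive (Gamma0 N) →+ A) :
    s29h_heckeHom N ℓ B (f.comp χ) = f.comp (s29h_heckeHom N ℓ A χ) := by
  by_cases hℓN : ℓ ∣ N
  · rw [s29h_heckeHom_of_dvd hℓN, s29h_heckeHom_of_dvd hℓN]
    simp
  · refine AddMonoidHom.ext fun γ => ?_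
    obtain ⟨γ, rfl⟩ := Additive.ofMul.surjective γ
    rw [AddMonoidHom.comp_apply, s29h_heckeHom_apply hℓN, s29h_heckeHom_apply hℓN, map_sum]
    rfl

/-- `T_ℓ^H` commutes with scalars. -/
theorem s29h_heckeHom_smul {R : Type*} [Semiring R] [Module R A] (c : R)
    (χ : Additive (Gamma0 N) →+ A) :
    s29h_heckeHom N ℓ A (c • χ) = c • s29h_heckeHom N ℓ A χ := by
  by_cases hℓN : ℓ ∣ N
  · rw [s29h_heckeHom_of_dvd hℓN]
    simp
  · refine AddMonoidHom.ext fun γ => ?_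
    obtain ⟨γ, rfl⟩ := Additive.ofMul.surjective γ
    rw [AddMonoidHom.smul_apply, s29h_heckeHom_apply hℓN, s29h_heckeHom_apply hℓN,
      Finset.smul_sum]
    rfl

variable (N ℓ A) in
/-- `T_ℓ^H` as an `R`-linear endomorphism of `Hom(Γ₀(N), A)`. -/
def s29h_heckeLin (R : Type*) [Semiring R] [Module R A] :
    (Additive (Gamma0 N) →+ A) →ₗ[R] (Additive (Gamma0 N) →+ A) where
  toFun := s29h_heckeHom N ℓ A
  map_add' := map_add _
  map_smul' c χ := s29h_heckeHom_smul c χ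

@[simp]
theorem s29h_heckeLin_apply {R : Type*} [Semiring R] [Module R A]
    (χ : Additive (Gamma0 N) →+ A) : s29h_heckeLin N ℓ A R χ = s29h_heckeHom N ℓ A χ := rfl

end HeckeHom

/-! ### The space `H(A)`: parabolic homomorphisms vanishing on finite-order elements -/

section Hpar

variable (R : Type*) [Semiring R] (N : ℕ) (A : Type*) [AddCommGroup A] [Module R A]

/-- Homomorphisms `Γ₀(N) → A` vanishing on the elements of finite order. -/
def s29h_finOrdTrivial : Submodule R (Additive (Gamma0 N) →+ A) where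
  carrier := {χ | ∀ γ : Gamma0 N, IsOfFinOrder γ → χ (Additive.ofMul γ) = 0}
  zero_mem' := fun _ _ => rfl
  add_mem' := by
    intro χ ψ hχ hψ γ hγ
    show χ (Additive.ofMul γ) + ψ (Additive.ofMul γ) = 0
    rw [hχ γ hγ, hψ γ hγ, add_zero]
  smul_mem' := by
    intro c χ hχ γ hγ
    show c • χ (Additive.ofMul γ) = 0
    rw [hχ γ hγ, smul_zero]

/-- **`H(A)`**: parabolic homomorphisms `Γ₀(N) → A` vanishing on the elements of finite order. -/
def s29h_Hpar : Submodule R (Additive (Gamma0 N) →+ A) :=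
  parabolicHoms R (Gamma0 N) A ⊓ s29h_finOrdTrivial R N A

variable {R N A}

theorem s29h_mem_Hpar_iff {χ : Additive (Gamma0 N) →+ A} :
    χ ∈ s29h_Hpar R N A ↔ IsParabolicHom (Gamma0 N) χ ∧
      ∀ γ : Gamma0 N, IsOfFinOrder γ → χ (Additive.ofMul γ) = 0 := Iff.rfl

/-- In a torsion-free coefficient group the finite-order condition is automatic. -/
theorem s29h_mem_Hpar_of_parabolic [IsAddTorsionFree A] {χ : Additive (Gamma0 N) →+ A}
    (hχ : IsParabolicHom (Gamma0 N) χ) : χ ∈ s29h_Hpar R N A := by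
  refine ⟨hχ, fun γ hγ => ?_⟩
  obtain ⟨n, hn, hγn⟩ := hγ.exists_pow_eq_one
  have h1 : n • χ (Additive.ofMul γ) = 0 := by
    rw [← map_nsmul, ← ofMul_pow, hγn, ofMul_one, map_zero]
  exact (nsmul_eq_zero_iff_right hn.ne').mp h1

end Hpar

/-- **`H_p`** `= H(𝔽_p)`: the `𝔽_p`-space of parabolic homomorphisms `Γ₀(N) → 𝔽_p` vanishing on the
elements of finite order. -/
abbrev s29h_Hp (N p : ℕ) : Submodule (ZMod p) (Additive (Gamma0 N) →+ ZMod p) :=
  s29h_Hpar (ZMod p) N (ZMod p)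

end Fermat.Agent.Lib.S29
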