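/-
Plan K (S29), package [EQ] (helper6), part 6: **(Q3), function level, in the language of
`RRoot.lean` and `HDefs.lean`**.

If `A` is a `p`-th root of `a * b ^ (p - 1)` on `ℍ` with character `ψ : Γ₀(N) → ZMod p`
(`A (γ • τ) = ζ_p ^ (ψ γ).val * A τ`, the `K = 0` output shape of `s29r_root_character`), then the
Hecke product `s29q_hprod ℓ A` is a `p`-th root of `hprod a * (hprod b) ^ (p - 1)` with character
`T_ℓ^H ψ = s29h_heckeHom N ℓ (ZMod p) ψ`.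
-/
import Fermat.Agent.Lib.S29.EQComp
import Fermat.Agent.Lib.S29.HDefs

set_option autoImplicit false
set_option linter.unusedSectionVars false

namespace Fermat.Agent.Lib.S29

open UpperHalfPlane hiding I
open Complex Filter Topology ModularForm Function ModularCurve Matrix.SpecialLinearGroup
open CongruenceSubgroup
open Fermat.Agent.Lib.FF Fermat.Agent.Lib.S28 Fermat.Agent.Lib.S37 Fermat.Agent.Lib.ES
open P2MW.S_ModularForm_heckeT_slash_eq_self_of_mem_Gamma0.ModularForm.HeckeSlashInvariance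
open scoped Manifold MatrixGroups OnePoint

noncomputable section

/-! ### Powers of `ζ_p` indexed by `ZMod p` -/

theorem s29q_zetaP_pow_self (p : ℕ) [NeZero p] : s29q_zetaP p ^ p = 1 := by
  have hp : (p : ℂ) ≠ 0 := Nat.cast_ne_zero.mpr (NeZero.ne p)
  rw [s29q_zetaP, ← Complex.exp_nat_mul, mul_div_cancel₀ _ hp, Complex.exp_two_pi_mul_I]

theorem s29q_zetaP_pow_mod (p : ℕ) [NeZero p] (n : ℕ) :
    s29q_zetaP p ^ (n % p) = s29q_zetaP p ^ n := by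
  conv_rhs => rw [← Nat.div_add_mod n p, pow_add, pow_mul, s29q_zetaP_pow_self, one_pow, one_mul]

theorem s29q_zetaP_pow_val_add (p : ℕ) [NeZero p] (x y : ZMod p) :
    s29q_zetaP p ^ (x + y).val = s29q_zetaP p ^ x.val * s29q_zetaP p ^ y.val := by
  rw [ZMod.val_add, s29q_zetaP_pow_mod, pow_add]

theorem s29q_zetaP_pow_val_sum (p : ℕ) [NeZero p] {ι : Type*} (s : Finset ι) (f : ι → ZMod p) :
    s29q_zetaP p ^ (∑ i ∈ s, f i).val = ∏ i ∈ s, s29q_zetaP p ^ (f i).val := by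
  classical
  induction s using Finset.induction_on with
  | empty => simp
  | insert a s ha ih =>
    rw [Finset.sum_insert ha, Finset.prod_insert ha, s29q_zetaP_pow_val_add, ih]

theorem s29q_zetaP_isPrimitiveRoot (p : ℕ) [NeZero p] : IsPrimitiveRoot (s29q_zetaP p) p :=
  Complex.isPrimitiveRoot_exp p (NeZero.ne p)

/-- `ζ_p ^ x.val = ζ_p ^ y.val` forces `x = y` in `ZMod p`. -/
theorem s29q_zetaP_pow_val_injective (p : ℕ) [NeZero p] {x y : ZMod p}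
    (h : s29q_zetaP p ^ x.val = s29q_zetaP p ^ y.val) : x = y := by
  have := (s29q_zetaP_isPrimitiveRoot p).pow_inj x.val_lt y.val_lt h
  exact ZMod.val_injective p this

/-! ### (Q3) -/

variable (ℓ : ℕ) [hℓ : Fact ℓ.Prime]

/-- **(Q3), function level.** -/
theorem s29q_hprod_character {N : ℕ} (hℓN : ¬ ℓ ∣ N) {p : ℕ} [NeZero p] {a b A : ℍ → ℂ}
    (hA : ∀ τ, A τ ^ p = a τ * b τ ^ (p - 1)) (ψ : Additive (Gamma0 N) →+ ZMod p)
    (hAψ : ∀ (γ : Gamma0 N) (τ : ℍ), A ((γ : SL(2, ℤ)) • τ) =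
      s29q_zetaP p ^ (ψ (Additive.ofMul γ)).val * A τ) :
    (∀ τ, s29q_hprod ℓ A τ ^ p = s29q_hprod ℓ a τ * s29q_hprod ℓ b τ ^ (p - 1)) ∧
      ∀ (γ : Gamma0 N) (τ : ℍ), s29q_hprod ℓ A ((γ : SL(2, ℤ)) • τ) =
        s29q_zetaP p ^ (s29h_heckeHom N ℓ (ZMod p) ψ (Additive.ofMul γ)).val *
          s29q_hprod ℓ A τ := by
  classical
  -- the exponent function on `SL(2, ℤ)`
  let ψ' : SL(2, ℤ) → ℕ := fun δ =>
    if h : δ ∈ Gamma0 N then (ψ (Additive.ofMul (⟨δ, h⟩ : Gamma0 N))).val else 0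
  have hψ' : ∀ δ (h : δ ∈ Gamma0 N), ψ' δ = (ψ (Additive.ofMul (⟨δ, h⟩ : Gamma0 N))).val :=
    fun δ h => dif_pos h
  have hAψ' : ∀ δ ∈ Gamma0 N, ∀ τ : ℍ, A (δ • τ) = s29q_zetaP p ^ ψ' δ * A τ := by
    intro δ hδ τ
    rw [hψ' δ hδ]
    exact hAψ ⟨δ, hδ⟩ τ
  refine ⟨fun τ => ?_, fun γ τ => ?_⟩
  · obtain ⟨γ', h1, h2⟩ := exists_family_heckeRepZ hℓN (1 : SL(2, ℤ)) (Subgroup.one_mem _)
    exact (s29q_hprod_root ℓ hA ψ' hAψ' 1 γ' (heckePermT ℓ 1) h1 h2).1 τ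
  · obtain ⟨γ', h1, h2⟩ := exists_family_heckeRepZ hℓN (γ : SL(2, ℤ)) γ.2
    rw [(s29q_hprod_root ℓ hA ψ' hAψ' γ γ' (heckePermT ℓ γ) h1 h2).2 τ,
      s29h_heckeHom_apply_of_family hℓN ψ γ γ' h1 h2, s29q_zetaP_pow_val_sum,
      ← Finset.prod_pow_eq_pow_sum]
    congr 1
    exact Finset.prod_congr rfl fun x _ => by rw [hψ' (γ' x) (h1 x)]

end

end Fermat.Agent.Lib.S29
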