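/-
Plan K (S29), package [EQ], part 7 (owner: helper6): function-level Kummer data and its behaviour
under the Hecke correspondence; the abstract equivariance theorem

  `κ₀ (T_ℓ x) = T_ℓ^H (κ₀ x)`   for `x ∈ J₀(N)(ℚ̄)[p]`, `ℓ ∤ N`,

for ANY map `κ₀ : J₀(N)(ℚ̄)[p] → Hom(Γ₀(N), 𝔽_p)` which is characterised by function-level data.

* `s29q_FunData ι N p f ψ` : `f ∈ ℚ̄(X₀(N))` has analytic data `(a, b, A)`: `a, b, A` holomorphic on `ℍ`,
  `a, b` `Γ₀(N)`-invariant with convergent `q`-expansions `xa, xb`, `ι f · xb = xa` ("`ι f = a / b`"),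
  `A ^ p = a · b ^ (p - 1)` ("`(A / b) ^ p = ι f`") and `A ∘ γ = ζ_p ^ ψ(γ) · A` for `γ ∈ Γ₀(N)`.
* `s29q_funData_hecke` : data for `(f, ψ)` gives data for `(Nm_α (β f), T_ℓ^H ψ)`.
* `s29q_heckeDivBar_ord` : `div f = p • D` implies `div (Nm_α (β f)) = p • T_ℓ D`.
* `s29q_equivariant` : the abstract equivariance theorem.
-/
import Fermat.Agent.Lib.S29.EQNorm
import Fermat.Agent.Lib.S29.EQChar
import Fermat.Agent.Lib.S29.KIface
import Fermat.Agent.Lib.S37.HUnfold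

set_option autoImplicit false
set_option linter.unusedSectionVars false
set_option linter.style.haveILetI false

namespace Fermat.Agent.Lib.S29

open UpperHalfPlane hiding I
open Complex Filter Topology ModularForm Function ModularCurve AlgebraicCurve
open Matrix.SpecialLinearGroup CongruenceSubgroup
open Fermat.Agent.Lib.FF Fermat.Agent.Lib.S28 Fermat.Agent.Lib.S37 Fermat.Agent.Lib.ES
open scoped Manifold MatrixGroups OnePoint

noncomputable section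

local notation "Kb" => AlgebraicClosure ℚ

/-- **Function-level Kummer data** for `f ∈ ℚ̄(X₀(N))` with character `ψ`. -/
def s29q_FunData (ι : Kb →+* ℂ) (N p : ℕ) (f : ffi_F N)
    (ψ : Additive (Gamma0 N) →+ ZMod p) : Prop :=
  ∃ (a b A : ℍ → ℂ) (xa xb : LaurentSeries ℂ), MDiff a ∧ MDiff b ∧ MDiff A ∧ b ≠ 0 ∧
    (∀ γ ∈ Gamma0 N, ∀ z : ℍ, a (γ • z) = a z) ∧ (∀ γ ∈ Gamma0 N, ∀ z : ℍ, b (γ • z) = b z) ∧
    ffb_IsLaurent a xa ∧ ffb_IsLaurent b xb ∧ coeffMap ι (f : LaurentSeries Kb) * xb = xa ∧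
    (∀ τ, A τ ^ p = a τ * b τ ^ (p - 1)) ∧
    ∀ (γ : Gamma0 N) (τ : ℍ), A ((γ : SL(2, ℤ)) • τ) =
      s29q_zetaP p ^ (ψ (Additive.ofMul γ)).val * A τ

variable (ℓ : ℕ) [hℓ : Fact ℓ.Prime] {N : ℕ} [NeZero N]

/-- **Hecke transform of function-level data**: data for `(f, ψ)` gives data for
`(Nm_α (β f), T_ℓ^H ψ)`. -/
theorem s29q_funData_hecke (ι : Kb →+* ℂ) (hℓN : ¬ ℓ ∣ N) {p : ℕ} [NeZero p] {f : ffi_F N}
    {ψ : Additive (Gamma0 N) →+ ZMod p} (h : s29q_FunData ι N p f ψ) :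
    letI := algebraAlong (heckeAlphaBar Kb N ℓ)
    s29q_FunData ι N p (Algebra.norm (ffi_F N) (heckeBetaBar Kb N ℓ f))
      (s29h_heckeHom N ℓ (ZMod p) ψ) := by
  obtain ⟨a, b, A, xa, xb, ha, hb, hA, hb0, hainv, hbinv, hxa, hxb, hab, hAp, hAψ⟩ := h
  obtain ⟨xa', xb', hxa', hxb', hab'⟩ := s29q_hecke_data ℓ ι hℓN f hxa hxb hab
  obtain ⟨hAp', hAψ'⟩ := s29q_hprod_character ℓ hℓN hAp ψ hAψ
  exact ⟨s29q_hprod ℓ a, s29q_hprod ℓ b, s29q_hprod ℓ A, xa', xb', s29q_hprod_mdiff ℓ ha,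
    s29q_hprod_mdiff ℓ hb, s29q_hprod_mdiff ℓ hA, s29q_hprod_ne_zero ℓ hb hb0,
    fun γ hγ z => s29q_hprod_invariant ℓ hℓN a hainv γ hγ z,
    fun γ hγ z => s29q_hprod_invariant ℓ hℓN b hbinv γ hγ z, hxa', hxb', hab', hAp', hAψ'⟩

/-- `div f = p • D` implies `div (Nm_α (β f)) = p • (T_ℓ D)`. -/
theorem s29q_heckeDivBar_ord (hℓN : ¬ ℓ ∣ N) {p : ℕ} {f : ffi_F N} (hf : f ≠ 0)
    {D : Divisor Kb (ffi_F N)}
    (hD : ∀ v : Place Kb (ffi_F N), v.ord f = (p : ℤ) * D v) (v : Place Kb (ffi_F N)) :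
    v.ord (letI := algebraAlong (heckeAlphaBar Kb N ℓ)
        Algebra.norm (ffi_F N) (heckeBetaBar Kb N ℓ f)) =
      (p : ℤ) * heckeDivBar (s37h_alphaIntegral N ℓ hℓ.out hℓN) (s37h_betaIntegral N ℓ hℓ.out hℓN)
        D v := by
  have h1 := s37h_heckeDivBar_principal N ℓ hℓ.out hℓN hf (D := (p : ℤ) • D)
    (fun w => by rw [Finsupp.smul_apply, smul_eq_mul, hD w]) v
  rw [← h1, map_zsmul, Finsupp.smul_apply, smul_eq_mul]

/-- **Abstract equivariance**: a map `κ₀` on `J₀(N)(ℚ̄)[p]` which is computed by function-level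
Kummer data (`hchar`), such data existing for every `p`-torsion class (`hex`), intertwines `T_ℓ` on
`J₀(N)(ℚ̄)[p]` with the Hecke operator `T_ℓ^H` on `Hom(Γ₀(N), 𝔽_p)`, for every prime `ℓ ∤ N`. -/
theorem s29q_equivariant (ι : Kb →+* ℂ) {p : ℕ} [NeZero p] (hℓN : ¬ ℓ ∣ N)
    (κ0 : s29k_Jp N p → (Additive (Gamma0 N) →+ ZMod p))
    (hex : ∀ (D : Divisor.degZero (K := Kb) (F := ffi_F N)) (f : ffi_F N), f ≠ 0 →
      (∀ v : Place Kb (ffi_F N), v.ord f = (p : ℤ) * (D : Divisor Kb (ffi_F N)) v) →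
      ∃ ψ, s29q_FunData ι N p f ψ)
    (hchar : ∀ (D : Divisor.degZero (K := Kb) (F := ffi_F N)) (f : ffi_F N), f ≠ 0 →
      (∀ v : Place Kb (ffi_F N), v.ord f = (p : ℤ) * (D : Divisor Kb (ffi_F N)) v) →
      ∀ ψ, s29q_FunData ι N p f ψ → ∀ x : s29k_Jp N p, (x : JZero N) = Pic0.mk D → κ0 x = ψ)
    (x : s29k_Jp N p) :
    κ0 (s29k_Tl N p ⟨ℓ, hℓ.out⟩ x) = s29h_heckeHom N ℓ (ZMod p) (κ0 x) := by
  obtain ⟨D, hD⟩ := Pic0.mk_surjective (x : JZero N)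
  -- `p • D = div f`
  have hx : (p : ℤ) • (x : JZero N) = 0 := Pic0.mem_torsion.mp x.2
  have h1 : Pic0.mk ((p : ℤ) • D) = (0 : JZero N) := by
    rw [← hx, ← hD]; rfl
  have h2 : ((p : ℤ) • D) ∈ (Divisor.principal (K := Kb) (F := ffi_F N)).addSubgroupOf
      (Divisor.degZero (K := Kb) (F := ffi_F N)) := (QuotientAddGroup.eq_zero_iff _).mp h1
  obtain ⟨f, hf, hDf⟩ := h2
  have hDf' : ∀ v : Place Kb (ffi_F N), v.ord f = (p : ℤ) * (D : Divisor Kb (ffi_F N)) v := by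
    intro v
    rw [← hDf v]
    simp
  obtain ⟨ψ, hψ⟩ := hex D f hf hDf'
  have hκx : κ0 x = ψ := hchar D f hf hDf' ψ hψ x hD.symm
  -- the transformed data
  letI := algebraAlong (heckeAlphaBar Kb N ℓ)
  haveI : Module.Finite (ffi_F N) (ffi_F (N * ℓ)) := s37w_finite_alpha N ℓ hℓ.out hℓN
  haveI : Module.Free (ffi_F N) (ffi_F (N * ℓ)) := Module.Free.of_divisionRing _ _
  have hβf : heckeBetaBar Kb N ℓ f ≠ 0 := by
    intro h0
    apply hf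
    apply (heckeBetaBar Kb N ℓ).toRingHom.injective
    rw [map_zero]
    exact h0
  have hf' : Algebra.norm (ffi_F N) (heckeBetaBar Kb N ℓ f) ≠ 0 :=
    Algebra.norm_ne_zero_iff.mpr hβf
  have hD' := s29q_heckeDivBar_ord ℓ hℓN hf hDf'
  have hψ' := s29q_funData_hecke ℓ ι hℓN hψ
  rw [hκx]
  refine hchar (Pic0.degZeroCorrespondence (heckeBetaBar Kb N ℓ) (heckeAlphaBar Kb N ℓ)
        (s37h_betaIntegral N ℓ hℓ.out hℓN) (s37h_alphaIntegral N ℓ hℓ.out hℓN)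
        (s37h_fundId_beta N ℓ hℓ.out hℓN) D) _ hf' hD' _ hψ' _ ?_
  have h3 : ((s29k_Tl N p ⟨ℓ, hℓ.out⟩ x : s29k_Jp N p) : JZero N) =
      heckeOperatorBar N ⟨ℓ, hℓ.out⟩ (x : JZero N) := rfl
  rw [h3, ← hD]
  exact s37h_heckeOperatorBar_mk N ℓ hℓ.out hℓN D

end

end Fermat.Agent.Lib.S29
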