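/-
Plan K (S29), package [KAP], part 4 (owner: helper5): finiteness.

* `s29m_finite_addHom` : `Additive G →+ A` is finite for `G` finitely generated and `A` finite;
* `s29m_Gamma0_fg` : `Γ₀(N)` is finitely generated (`N ≠ 0`);
* `s29m_finite_hom_Gamma0` : `Additive Γ₀(N) →+ ZMod p` is finite;
* `s29m_finite_of_injective` : a type injecting into it is finite.
-/
import Mathlib

set_option autoImplicit false

namespace Fermat.Agent.Lib.S29

open scoped MatrixGroups
open CongruenceSubgroup

theorem s29m_finite_monoidHom (G : Type*) [Group G] [Group.FG G] (A : Type*) [Group A]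
    [Finite A] : Finite (G →* A) := by
  obtain ⟨S, hS⟩ := Group.fg_def.mp (inferInstance : Group.FG G)
  let r : (G →* A) → (S → A) := fun f s => f s
  have hr : Function.Injective r := by
    intro f g hfg
    apply MonoidHom.eq_of_eqOn_dense hS
    intro s hs
    exact congrFun hfg ⟨s, hs⟩
  exact Finite.of_injective r hr

theorem s29m_finite_addHom (G : Type*) [Group G] [Group.FG G] (A : Type*) [AddCommGroup A]
    [Finite A] : Finite (Additive G →+ A) := by
  have := s29m_finite_monoidHom G (Multiplicative A)
  let e : (Additive G →+ A) → (G →* Multiplicative A) := fun f =>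
    { toFun := fun g => Multiplicative.ofAdd (f (Additive.ofMul g))
      map_one' := by simp
      map_mul' := fun x y => by simp }
  have he : Function.Injective e := by
    intro f g hfg
    refine DFunLike.ext _ _ fun x => ?_
    have := DFunLike.congr_fun hfg (Additive.toMul x)
    exact Multiplicative.ofAdd.injective this
  exact Finite.of_injective e he

instance s29m_SL2Z_fg : Group.FG SL(2, ℤ) := by
  rw [Group.fg_iff]
  exact ⟨{ModularGroup.S, ModularGroup.T}, SpecialLinearGroup.SL2Z_generators,
    Set.toFinite _⟩

instance s29m_Gamma0_fg (N : ℕ) [NeZero N] : Group.FG (Gamma0 N) :=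
  Subgroup.fg_of_index_ne_zero (Gamma0 N)

theorem s29m_finite_hom_Gamma0 (N : ℕ) [NeZero N] (p : ℕ) [NeZero p] :
    Finite (Additive (Gamma0 N) →+ ZMod p) :=
  s29m_finite_addHom (Gamma0 N) (ZMod p)

theorem s29m_finite_of_injective {X : Type*} (N : ℕ) [NeZero N] (p : ℕ) [NeZero p]
    (κ : X → (Additive (Gamma0 N) →+ ZMod p)) (hκ : Function.Injective κ) : Finite X :=
  haveI := s29m_finite_hom_Gamma0 N p
  Finite.of_injective κ hκ

end Fermat.Agent.Lib.S29
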