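/-
Plan K (S29), package [KAP], part 1 (owner: helper5): the *Kummer character* of a `p`-th root.

Pure algebra.  `M` is a field on which a group `G` acts by ring automorphisms, `ζ ∈ M` is a primitive
`p`-th root of unity fixed by `G`.  For `u ≠ 0` in `M` such that `u ^ p` is `G`-fixed, every `g ∈ G`
multiplies `u` by a `p`-th root of unity; we record it as an element of `ZMod p`:

  `g⁻¹ • u = ζ ^ (s29m_kummer hζ u g).val * u`.

(With the action `(g • f) z = f (g⁻¹ z)` on functions this reads `u (g z) = ζ ^ κ(g) · u z`.)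
-/
import Mathlib

set_option autoImplicit false

namespace Fermat.Agent.Lib.S29

section Expo

variable {M : Type*} [Field M] {p : ℕ} [NeZero p] {ζ : M}

/-- The exponent `a : ZMod p` with `ζ ^ a = ξ` of a `p`-th root of unity `ξ` (junk value `0` if
`ξ ^ p ≠ 1`). -/
noncomputable def s29m_expo (hζ : IsPrimitiveRoot ζ p) (ξ : M) : ZMod p :=
  open Classical in
  if h : ξ ^ p = 1 then ((hζ.eq_pow_of_pow_eq_one h).choose : ZMod p) else 0

theorem s29m_expo_spec (hζ : IsPrimitiveRoot ζ p) {ξ : M} (h : ξ ^ p = 1) :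
    ζ ^ (s29m_expo hζ ξ).val = ξ := by
  unfold s29m_expo
  rw [dif_pos h]
  have hs := (hζ.eq_pow_of_pow_eq_one h).choose_spec
  rw [ZMod.val_natCast_of_lt hs.1]
  exact hs.2

theorem s29m_expo_eq (hζ : IsPrimitiveRoot ζ p) {ξ : M} (a : ZMod p) (h : ζ ^ a.val = ξ) :
    s29m_expo hζ ξ = a := by
  have hξ : ξ ^ p = 1 := by
    rw [← h, ← pow_mul, mul_comm, pow_mul, hζ.pow_eq_one, one_pow]
  have h1 := s29m_expo_spec hζ hξ
  exact ZMod.val_injective p (hζ.pow_inj (ZMod.val_lt _) (ZMod.val_lt _) (h1.trans h.symm))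

theorem s29m_pow_val_add (hζ : IsPrimitiveRoot ζ p) (a b : ZMod p) :
    ζ ^ (a + b).val = ζ ^ a.val * ζ ^ b.val := by
  rw [ZMod.val_add, ← pow_add, ← pow_eq_pow_mod _ hζ.pow_eq_one]

theorem s29m_expo_mul (hζ : IsPrimitiveRoot ζ p) {ξ₁ ξ₂ : M} (h1 : ξ₁ ^ p = 1) (h2 : ξ₂ ^ p = 1) :
    s29m_expo hζ (ξ₁ * ξ₂) = s29m_expo hζ ξ₁ + s29m_expo hζ ξ₂ := by
  apply s29m_expo_eq
  rw [s29m_pow_val_add hζ, s29m_expo_spec hζ h1, s29m_expo_spec hζ h2]

theorem s29m_expo_one (hζ : IsPrimitiveRoot ζ p) : s29m_expo hζ (1 : M) = 0 := by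
  apply s29m_expo_eq
  simp

theorem s29m_expo_eq_zero_iff (hζ : IsPrimitiveRoot ζ p) {ξ : M} (h : ξ ^ p = 1) :
    s29m_expo hζ ξ = 0 ↔ ξ = 1 := by
  constructor
  · intro h0
    have := s29m_expo_spec hζ h
    rw [h0] at this
    simpa using this.symm
  · rintro rfl
    exact s29m_expo_one hζ

end Expo

section Kummer

variable {M : Type*} [Field M] {G : Type*} [Group G] [MulSemiringAction G M] {p : ℕ} [NeZero p]
  {ζ : M}

/-- The multiplier `(g⁻¹ • u) / u`. -/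
def s29m_kumRatio (u : M) (g : G) : M := (g⁻¹ • u) / u

omit [NeZero p] in
theorem s29m_kumRatio_pow {u : M} (hu : u ≠ 0) (h : ∀ g : G, g • u ^ p = u ^ p) (g : G) :
    s29m_kumRatio u g ^ p = 1 := by
  unfold s29m_kumRatio
  rw [div_pow, ← smul_pow', h, div_self (pow_ne_zero _ hu)]

theorem s29m_kumRatio_mul_self {u : M} (hu : u ≠ 0) (g : G) :
    s29m_kumRatio u g * u = g⁻¹ • u := by
  unfold s29m_kumRatio
  rw [div_mul_cancel₀ _ hu]

/-- A `p`-th root of unity of `M` is a power of `ζ`, hence `G`-fixed. -/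
theorem s29m_smul_root_of_unity (hζ : IsPrimitiveRoot ζ p) (hfix : ∀ g : G, g • ζ = ζ) {ξ : M}
    (hξ : ξ ^ p = 1) (g : G) : g • ξ = ξ := by
  obtain ⟨i, -, rfl⟩ := hζ.eq_pow_of_pow_eq_one hξ
  rw [smul_pow', hfix]

theorem s29m_kumRatio_mul (hζ : IsPrimitiveRoot ζ p) (hfix : ∀ g : G, g • ζ = ζ) {u : M}
    (hu : u ≠ 0) (h : ∀ g : G, g • u ^ p = u ^ p) (g₁ g₂ : G) :
    s29m_kumRatio u (g₁ * g₂) = s29m_kumRatio u g₁ * s29m_kumRatio u g₂ := by
  have e1 := s29m_kumRatio_mul_self hu g₁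
  have e2 := s29m_kumRatio_mul_self hu g₂
  have e3 := s29m_kumRatio_mul_self hu (g₁ * g₂)
  have hfix1 := s29m_smul_root_of_unity hζ hfix (s29m_kumRatio_pow hu h g₁) g₂⁻¹
  have : s29m_kumRatio u (g₁ * g₂) * u = s29m_kumRatio u g₁ * s29m_kumRatio u g₂ * u := by
    rw [e3, mul_inv_rev, mul_smul, ← e1, smul_mul', hfix1, ← e2]
    ring
  exact mul_right_cancel₀ hu this

/-- **The Kummer character** of `u` as a function `G → ZMod p`. -/
noncomputable def s29m_kummerFun (hζ : IsPrimitiveRoot ζ p) (u : M) (g : G) : ZMod p :=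
  s29m_expo hζ (s29m_kumRatio u g)

/-- Defining property: `g⁻¹ • u = ζ ^ κ(g) * u`. -/
theorem s29m_kummerFun_spec (hζ : IsPrimitiveRoot ζ p) {u : M} (hu : u ≠ 0)
    (h : ∀ g : G, g • u ^ p = u ^ p) (g : G) :
    g⁻¹ • u = ζ ^ (s29m_kummerFun hζ u g).val * u := by
  unfold s29m_kummerFun
  rw [s29m_expo_spec hζ (s29m_kumRatio_pow hu h g), s29m_kumRatio_mul_self hu]

/-- Uniqueness: if `g⁻¹ • u = ζ ^ a * u` then `κ(g) = a`. -/
theorem s29m_kummerFun_eq (hζ : IsPrimitiveRoot ζ p) {u : M} (hu : u ≠ 0) (g : G) (a : ZMod p)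
    (h : g⁻¹ • u = ζ ^ a.val * u) : s29m_kummerFun hζ u g = a := by
  unfold s29m_kummerFun
  apply s29m_expo_eq
  unfold s29m_kumRatio
  rw [h, mul_div_assoc, div_self hu, mul_one]

theorem s29m_kummerFun_mul_group (hζ : IsPrimitiveRoot ζ p) (hfix : ∀ g : G, g • ζ = ζ) {u : M}
    (hu : u ≠ 0) (h : ∀ g : G, g • u ^ p = u ^ p) (g₁ g₂ : G) :
    s29m_kummerFun hζ u (g₁ * g₂) = s29m_kummerFun hζ u g₁ + s29m_kummerFun hζ u g₂ := by
  unfold s29m_kummerFun
  rw [s29m_kumRatio_mul hζ hfix hu h, s29m_expo_mul hζ (s29m_kumRatio_pow hu h g₁)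
    (s29m_kumRatio_pow hu h g₂)]

/-- **The Kummer character** as an additive homomorphism `Additive G →+ ZMod p`. -/
noncomputable def s29m_kummer (hζ : IsPrimitiveRoot ζ p) (hfix : ∀ g : G, g • ζ = ζ) (u : M)
    (hu : u ≠ 0) (h : ∀ g : G, g • u ^ p = u ^ p) : Additive G →+ ZMod p :=
  AddMonoidHom.mk' (fun g => s29m_kummerFun hζ u (Additive.toMul g))
    (fun _ _ => s29m_kummerFun_mul_group hζ hfix hu h _ _)

@[simp]
theorem s29m_kummer_apply (hζ : IsPrimitiveRoot ζ p) (hfix : ∀ g : G, g • ζ = ζ) (u : M)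
    (hu : u ≠ 0) (h : ∀ g : G, g • u ^ p = u ^ p) (g : Additive G) :
    s29m_kummer hζ hfix u hu h g = s29m_kummerFun hζ u (Additive.toMul g) := rfl

/-- Multiplicativity in `u`. -/
theorem s29m_kummerFun_mul (hζ : IsPrimitiveRoot ζ p) {u v : M} (hu : u ≠ 0) (hv : v ≠ 0)
    (h : ∀ g : G, g • u ^ p = u ^ p) (h' : ∀ g : G, g • v ^ p = v ^ p) (g : G) :
    s29m_kummerFun hζ (u * v) g = s29m_kummerFun hζ u g + s29m_kummerFun hζ v g := by
  apply s29m_kummerFun_eq hζ (mul_ne_zero hu hv)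
  rw [smul_mul', s29m_kummerFun_spec hζ hu h g, s29m_kummerFun_spec hζ hv h' g,
    s29m_pow_val_add hζ]
  ring

/-- A `G`-fixed element has trivial Kummer character. -/
theorem s29m_kummerFun_of_fixed (hζ : IsPrimitiveRoot ζ p) {u : M} (hu : u ≠ 0)
    (h : ∀ g : G, g • u = u) (g : G) : s29m_kummerFun hζ u g = 0 := by
  apply s29m_kummerFun_eq hζ hu
  rw [h]
  simp

/-- Trivial Kummer character means `G`-fixed. -/
theorem s29m_fixed_of_kummerFun_eq_zero (hζ : IsPrimitiveRoot ζ p) {u : M} (hu : u ≠ 0)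
    (h : ∀ g : G, g • u ^ p = u ^ p) (h0 : ∀ g : G, s29m_kummerFun hζ u g = 0) (g : G) :
    g • u = u := by
  have := s29m_kummerFun_spec hζ hu h g⁻¹
  rw [h0, inv_inv] at this
  simpa using this

/-- The Kummer character only depends on `u ^ p`. -/
theorem s29m_kummerFun_congr (hζ : IsPrimitiveRoot ζ p) (hfix : ∀ g : G, g • ζ = ζ) {u v : M}
    (hu : u ≠ 0) (hv : v ≠ 0) (huv : u ^ p = v ^ p) (h : ∀ g : G, g • u ^ p = u ^ p) (g : G) :
    s29m_kummerFun hζ u g = s29m_kummerFun hζ v g := by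
  have hξ : (u / v) ^ p = 1 := by rw [div_pow, huv, div_self (pow_ne_zero _ hv)]
  have hξ0 : u / v ≠ 0 := div_ne_zero hu hv
  have h' : ∀ g : G, g • v ^ p = v ^ p := fun g => by rw [← huv, h]
  have h1 : u = (u / v) * v := by rw [div_mul_cancel₀ _ hv]
  have hfixξ : ∀ g : G, g • (u / v) = u / v := fun g => s29m_smul_root_of_unity hζ hfix hξ g
  have hξp : ∀ g : G, g • (u / v) ^ p = (u / v) ^ p := fun g => by rw [smul_pow', hfixξ]
  conv_lhs => rw [h1]
  rw [s29m_kummerFun_mul hζ hξ0 hv hξp h', s29m_kummerFun_of_fixed hζ hξ0 hfixξ, zero_add]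

end Kummer

end Fermat.Agent.Lib.S29
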