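/-
Plan K (S29), package [KAP], part 3 (owner: helper5): the abstract construction of

  `κ : Pic0(F)[p] →+ (Additive G →+ ZMod p)`,   injective.

`F` is a function field over `K` (Prelude `Place`, `Divisor`, `Pic0`), `φ : F →+* M` a ring hom into
a field `M` with an action of a group `G` fixing `φ F` pointwise and the primitive `p`-th root of
unity `ζ ∈ M`.  Hypotheses (to be supplied by [BR] + [R] in the concrete situation
`F = ℂ(X₀(N))`, `M = s29m_M`, `G = Γ₀(N)`):

* `hroot`  : if `div h = p • D` then `φ h` has a `p`-th root in `M`;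
* `hdesc`  : if moreover a `p`-th root `u` of `φ h` is `G`-fixed then `u ∈ φ F`;
* `hconst` : if `div h = 0` then `φ h` has a `G`-fixed `p`-th root in `M`.

`κ(x)` is the Kummer character (`KKummer.lean`) of any `u` with `u ^ p = φ h`, `div h = p • D`,
`x = [D]`.
-/
import Mathlib
import Fermat.Prelude.Def_AlgebraicCurve_DivisorClassGroup
import Fermat.Agent.Lib.S29.KKummer

set_option autoImplicit false

open AlgebraicCurve

namespace Fermat.Agent.Lib.S29

section

variable {K F : Type*} [Field K] [Field F] [Algebra K F]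
variable {M : Type*} [Field M] {G : Type*} [Group G] [MulSemiringAction G M]
variable {p : ℕ} [NeZero p] {ζ : M}

/-- `u` is a `p`-th root attached to the class `x`: `x = [D]`, `div h = p • D`, `u ^ p = φ h`. -/
def s29m_IsKData (p : ℕ) (φ : F →+* M) (x : Pic0 K F) (u : M) : Prop :=
  ∃ (D : Divisor.degZero (K := K) (F := F)) (h : F), h ≠ 0 ∧ Pic0.mk D = x ∧
    (∀ v : Place K F, v.ord h = (p : ℤ) * (D : Divisor K F) v) ∧ u ^ p = φ h

/-- The abstract hypotheses. -/
structure s29m_KappaHyp (K : Type*) {F : Type*} [Field K] [Field F] [Algebra K F]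
    {M : Type*} [Field M] (G : Type*) [Group G] [MulSemiringAction G M] (p : ℕ) (ζ : M)
    (φ : F →+* M) : Prop where
  prim : IsPrimitiveRoot ζ p
  fix : ∀ g : G, g • ζ = ζ
  inv : ∀ (h : F) (g : G), g • φ h = φ h
  root : ∀ h : F, h ≠ 0 → ∀ D : Divisor K F, (∀ v : Place K F, v.ord h = (p : ℤ) * D v) →
    ∃ u : M, u ^ p = φ h
  desc : ∀ h : F, h ≠ 0 → ∀ D : Divisor K F, (∀ v : Place K F, v.ord h = (p : ℤ) * D v) →
    ∀ u : M, u ^ p = φ h → (∀ g : G, g • u = u) → ∃ g' : F, φ g' = u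
  const : ∀ h : F, h ≠ 0 → (∀ v : Place K F, v.ord h = 0) →
    ∃ u : M, u ^ p = φ h ∧ ∀ g : G, g • u = u

variable {φ : F →+* M}

set_option linter.unusedSectionVars false

theorem s29m_IsKData.ne_zero {x : Pic0 K F} {u : M} (h : s29m_IsKData p φ x u) : u ≠ 0 := by
  obtain ⟨D, f, hf, -, -, hu⟩ := h
  intro h0
  rw [h0, zero_pow (NeZero.ne p)] at hu
  exact hf ((map_eq_zero φ).mp hu.symm)

theorem s29m_IsKData.smul_pow (H : s29m_KappaHyp K G p ζ φ) {x : Pic0 K F} {u : M}
    (h : s29m_IsKData p φ x u) (g : G) : g • u ^ p = u ^ p := by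
  obtain ⟨D, f, -, -, -, hu⟩ := h
  rw [hu, H.inv]

/-- Existence of data for `p`-torsion classes. -/
theorem s29m_exists_isKData (H : s29m_KappaHyp K G p ζ φ) (x : Pic0 K F)
    (hx : (p : ℤ) • x = 0) : ∃ u : M, s29m_IsKData p φ x u := by
  obtain ⟨D, rfl⟩ := Pic0.mk_surjective x
  have h1 : Pic0.mk ((p : ℤ) • D) = 0 := hx
  have h2 : ((p : ℤ) • D) ∈ (Divisor.principal (K := K) (F := F)).addSubgroupOf
      (Divisor.degZero (K := K) (F := F)) := (QuotientAddGroup.eq_zero_iff _).mp h1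
  obtain ⟨f, hf, hD⟩ := h2
  have hD' : ∀ v : Place K F, v.ord f = (p : ℤ) * (D : Divisor K F) v := by
    intro v
    rw [← hD v]
    simp
  obtain ⟨u, hu⟩ := H.root f hf D hD'
  exact ⟨u, D, f, hf, rfl, hD', hu⟩

/-- Data for a sum. -/
theorem s29m_IsKData.add {x y : Pic0 K F} {u v : M} (hx : s29m_IsKData p φ x u)
    (hy : s29m_IsKData p φ y v) : s29m_IsKData p φ (x + y) (u * v) := by
  obtain ⟨D, f, hf, rfl, hD, hu⟩ := hx
  obtain ⟨E, g, hg, rfl, hE, hv⟩ := hy
  refine ⟨D + E, f * g, mul_ne_zero hf hg, rfl, fun w => ?_, ?_⟩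
  · rw [w.ord_mul hf hg, hD, hE]
    simp [mul_add]
  · rw [mul_pow, hu, hv, map_mul]

/-- Data for zero. -/
theorem s29m_isKData_zero : s29m_IsKData p φ (0 : Pic0 K F) (1 : M) :=
  ⟨0, 1, one_ne_zero, rfl, fun v => by simp, by simp⟩

/-- **Well-definedness**: the Kummer character of data only depends on the class. -/
theorem s29m_IsKData.kummerFun_eq (H : s29m_KappaHyp K G p ζ φ) {x : Pic0 K F} {u u' : M}
    (h : s29m_IsKData p φ x u) (h' : s29m_IsKData p φ x u') (g : G) :
    s29m_kummerFun H.prim u g = s29m_kummerFun H.prim u' g := by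
  have hu0 := h.ne_zero
  have hu'0 := h'.ne_zero
  have hup := h.smul_pow H
  have hu'p := h'.smul_pow H
  obtain ⟨D, f, hf, hDx, hD, hu⟩ := h
  obtain ⟨D', f', hf', hD'x, hD', hu'⟩ := h'
  -- `D - D' = div e`
  have h1 : Pic0.mk (D - D') = 0 := by
    have : Pic0.mk (D - D') = Pic0.mk D - Pic0.mk D' := rfl
    rw [this, hDx, hD'x, sub_self]
  have h2 : (D - D') ∈ (Divisor.principal (K := K) (F := F)).addSubgroupOf
      (Divisor.degZero (K := K) (F := F)) := (QuotientAddGroup.eq_zero_iff _).mp h1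
  obtain ⟨e, he, hDe⟩ := h2
  have hDe' : ∀ v : Place K F, (D : Divisor K F) v - (D' : Divisor K F) v = v.ord e := by
    intro v
    rw [← hDe v]
    simp
  -- `c := f / (f' * e ^ p)` has trivial divisor
  set c : F := f / (f' * e ^ p) with hc
  have hep : e ^ p ≠ 0 := pow_ne_zero _ he
  have hc0 : c ≠ 0 := div_ne_zero hf (mul_ne_zero hf' hep)
  have hcord : ∀ v : Place K F, v.ord c = 0 := by
    intro v
    have h3 : f = c * (f' * e ^ p) := by rw [hc, div_mul_cancel₀ _ (mul_ne_zero hf' hep)]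
    have h4 := congrArg v.ord h3
    rw [v.ord_mul hc0 (mul_ne_zero hf' hep), v.ord_mul hf' hep, ← zpow_natCast e p, v.ord_zpow,
      hD, hD', ← hDe' v] at h4
    linarith
  obtain ⟨t, ht, htfix⟩ := H.const c hc0 hcord
  have ht0 : t ≠ 0 := by
    intro h0
    rw [h0, zero_pow (NeZero.ne p)] at ht
    exact hc0 ((map_eq_zero φ).mp ht.symm)
  have he0 : φ e ≠ 0 := (map_ne_zero φ).mpr he
  have hefix : ∀ g : G, g • φ e = φ e := fun g => H.inv e g
  -- `u ^ p = (t * u' * φ e) ^ p`
  have hpow : u ^ p = (t * u' * φ e) ^ p := by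
    have h3 : f = c * f' * e ^ p := by
      rw [hc, mul_assoc, div_mul_cancel₀ _ (mul_ne_zero hf' hep)]
    rw [mul_pow, mul_pow, ht, hu', hu, ← map_pow, ← map_mul, ← map_mul, ← h3]
  have htu' : t * u' ≠ 0 := mul_ne_zero ht0 hu'0
  have htp : ∀ g : G, g • t ^ p = t ^ p := fun g => by rw [smul_pow', htfix]
  have htu'p : ∀ g : G, g • (t * u') ^ p = (t * u') ^ p := fun g => by
    rw [mul_pow, smul_mul', htp, hu'p]
  have hep' : ∀ g : G, g • (φ e) ^ p = (φ e) ^ p := fun g => by rw [smul_pow', hefix]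
  rw [s29m_kummerFun_congr H.prim H.fix hu0 (mul_ne_zero htu' he0) hpow hup g,
    s29m_kummerFun_mul H.prim htu' he0 htu'p hep' g,
    s29m_kummerFun_mul H.prim ht0 hu'0 htp hu'p g,
    s29m_kummerFun_of_fixed H.prim ht0 htfix g, s29m_kummerFun_of_fixed H.prim he0 hefix g,
    zero_add, add_zero]

/-- **Injectivity**: trivial Kummer character implies trivial class. -/
theorem s29m_IsKData.eq_zero (H : s29m_KappaHyp K G p ζ φ) {x : Pic0 K F} {u : M}
    (h : s29m_IsKData p φ x u) (h0 : ∀ g : G, s29m_kummerFun H.prim u g = 0) : x = 0 := by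
  have hu0 := h.ne_zero
  have hup := h.smul_pow H
  have hfix := s29m_fixed_of_kummerFun_eq_zero H.prim hu0 hup h0
  obtain ⟨D, f, hf, rfl, hD, hu⟩ := h
  obtain ⟨e, he⟩ := H.desc f hf D hD u hu hfix
  have hfe : e ^ p = f := by
    apply φ.injective
    rw [map_pow, he, hu]
  have he0 : e ≠ 0 := by
    rintro rfl
    rw [zero_pow (NeZero.ne p)] at hfe
    exact hf hfe.symm
  show Pic0.mk D = 0
  refine (QuotientAddGroup.eq_zero_iff _).mpr ?_
  refine ⟨e, he0, fun v => ?_⟩
  have h1 := hD v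
  rw [← hfe, ← zpow_natCast e p, v.ord_zpow] at h1
  have hp0 : (p : ℤ) ≠ 0 := by exact_mod_cast NeZero.ne p
  exact (mul_left_cancel₀ hp0 h1).symm

variable (φ) in
/-- **The map `κ`** on `p`-torsion classes (as a function). -/
noncomputable def s29m_kappaFun (H : s29m_KappaHyp K G p ζ φ) (x : Pic0.torsion K F p) :
    Additive G →+ ZMod p :=
  let u := (s29m_exists_isKData H (x : Pic0 K F) (Pic0.mem_torsion.mp x.2)).choose
  have hu : s29m_IsKData p φ (x : Pic0 K F) u :=
    (s29m_exists_isKData H (x : Pic0 K F) (Pic0.mem_torsion.mp x.2)).choose_spec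
  s29m_kummer H.prim H.fix u hu.ne_zero (hu.smul_pow H)

theorem s29m_kappaFun_apply (H : s29m_KappaHyp K G p ζ φ) (x : Pic0.torsion K F p) {u : M}
    (hu : s29m_IsKData p φ (x : Pic0 K F) u) (g : G) :
    s29m_kappaFun φ H x (Additive.ofMul g) = s29m_kummerFun H.prim u g := by
  unfold s29m_kappaFun
  simp only [s29m_kummer_apply, toMul_ofMul]
  exact s29m_IsKData.kummerFun_eq H
    (s29m_exists_isKData H (x : Pic0 K F) (Pic0.mem_torsion.mp x.2)).choose_spec hu g

variable (φ) in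
/-- **The homomorphism `κ : Pic0(F)[p] →+ (Additive G →+ ZMod p)`.** -/
noncomputable def s29m_kappa (H : s29m_KappaHyp K G p ζ φ) :
    Pic0.torsion K F p →+ (Additive G →+ ZMod p) :=
  AddMonoidHom.mk' (s29m_kappaFun φ H) (by
    intro x y
    obtain ⟨u, hu⟩ := s29m_exists_isKData H (x : Pic0 K F) (Pic0.mem_torsion.mp x.2)
    obtain ⟨v, hv⟩ := s29m_exists_isKData H (y : Pic0 K F) (Pic0.mem_torsion.mp y.2)
    refine DFunLike.ext _ _ fun g => ?_
    have huv : s29m_IsKData p φ ((x + y : Pic0.torsion K F p) : Pic0 K F) (u * v) := hu.add hv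
    rw [AddMonoidHom.add_apply]
    change s29m_kappaFun φ H (x + y) (Additive.ofMul (Additive.toMul g)) =
      s29m_kappaFun φ H x (Additive.ofMul (Additive.toMul g)) +
        s29m_kappaFun φ H y (Additive.ofMul (Additive.toMul g))
    rw [s29m_kappaFun_apply H (x + y) huv, s29m_kappaFun_apply H x hu,
      s29m_kappaFun_apply H y hv]
    exact s29m_kummerFun_mul H.prim hu.ne_zero hv.ne_zero (hu.smul_pow H) (hv.smul_pow H) _)

/-- Characterisation of `κ` through any data. -/
theorem s29m_kappa_apply (H : s29m_KappaHyp K G p ζ φ) (x : Pic0.torsion K F p) {u : M}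
    (hu : s29m_IsKData p φ (x : Pic0 K F) u) (g : G) :
    s29m_kappa φ H x (Additive.ofMul g) = s29m_kummerFun H.prim u g :=
  s29m_kappaFun_apply H x hu g

/-- `κ` through the defining property `g⁻¹ • u = ζ ^ a * u`. -/
theorem s29m_kappa_eq (H : s29m_KappaHyp K G p ζ φ) (x : Pic0.torsion K F p) {u : M}
    (hu : s29m_IsKData p φ (x : Pic0 K F) u) (g : G) (a : ZMod p)
    (h : g⁻¹ • u = ζ ^ a.val * u) : s29m_kappa φ H x (Additive.ofMul g) = a := by
  rw [s29m_kappa_apply H x hu]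
  exact s29m_kummerFun_eq H.prim hu.ne_zero g a h

/-- **`κ` is injective.** -/
theorem s29m_kappa_injective (H : s29m_KappaHyp K G p ζ φ) :
    Function.Injective (s29m_kappa φ H) := by
  rw [injective_iff_map_eq_zero]
  intro x hx
  obtain ⟨u, hu⟩ := s29m_exists_isKData H (x : Pic0 K F) (Pic0.mem_torsion.mp x.2)
  apply Subtype.ext
  refine hu.eq_zero H fun g => ?_
  rw [← s29m_kappa_apply H x hu, hx]
  rfl

end

end Fermat.Agent.Lib.S29
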