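/-
Plan K, package [R] (lead): Lemma R in pure Mathlib.

* `s29r_root_unique`: two holomorphic `p`-th roots of the same function on a preconnected open set
  differ by a constant `p`-th root of unity.
* `s29r_root_nonvanishing_ball`: a nonvanishing holomorphic function on a ball has a holomorphic
  `p`-th root (primitive of the logarithmic derivative).
* `s29r_root_ball`: a function analytic near a closed ball with all orders divisible by `p` has a
  holomorphic `p`-th root on the ball (`MeromorphicOn.extract_zeros_poles`).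
* `s29r_root_exhaustion`, `s29r_exists_root_set`, `s29r_exists_root` (**R1**): gluing over an
  exhaustion of the upper half-plane by balls.
* `s29r_exists_root_ratio`: R1 for `F * G ^ (p - 1)` when `ord F - ord G` is divisible by `p`.
* `s29r_exists_multiplier`, `s29r_zmod_of_multiplier`, `s29r_exists_character` (**R2**): the
  multiplier system of a root is a character to the `p`-th roots of unity / to `ZMod p`.
* `s29r_root_character`: R1 + R2 for a ratio of two weight-`K` forms.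
-/
import Mathlib

open UpperHalfPlane hiding I
open Complex Metric Set Filter Topology
open scoped MatrixGroups Manifold ModularForm

noncomputable section

/-- If `w ^ p = 1` and the geometric sum `∑ i < p, w ^ i` does not vanish, then `w = 1`. -/
theorem s29r_eq_one_of_pow_eq_one_of_geom_ne {p : ℕ} {w : ℂ} (hw : w ^ p = 1)
    (hs : ∑ i ∈ Finset.range p, w ^ i ≠ 0) : w = 1 := by
  have h := geom_sum_mul w p
  rw [hw, sub_self] at h
  rcases mul_eq_zero.mp h with h | h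
  · exact absurd h hs
  · exact sub_eq_zero.mp h

/-- Two holomorphic functions with the same `p`-th power on a preconnected open set, the second
one not vanishing at some point, differ by a constant `p`-th root of unity. -/
theorem s29r_root_unique {p : ℕ} (hp : p ≠ 0) {V : Set ℂ} (hV : IsOpen V) (hVc : IsPreconnected V)
    {B C : ℂ → ℂ} (hB : DifferentiableOn ℂ B V) (hC : DifferentiableOn ℂ C V)
    (hBC : ∀ z ∈ V, B z ^ p = C z ^ p) {z₀ : ℂ} (hz₀ : z₀ ∈ V) (hC₀ : C z₀ ≠ 0) :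
    ∃ ζ : ℂ, ζ ^ p = 1 ∧ ∀ z ∈ V, B z = ζ * C z := by
  set ζ : ℂ := B z₀ / C z₀ with hζ
  have hζp : ζ ^ p = 1 := by
    rw [hζ, div_pow, hBC z₀ hz₀, div_self (pow_ne_zero _ hC₀)]
  refine ⟨ζ, hζp, ?_⟩
  have hζ0 : ζ ≠ 0 := fun h => by simp [h, hp] at hζp
  -- the function `D = ζ C`
  have hD : DifferentiableOn ℂ (fun z => ζ * C z) V := hC.const_mul ζ
  have hBD₀ : B z₀ = ζ * C z₀ := by rw [hζ, div_mul_cancel₀ _ hC₀]
  have hD₀ : ζ * C z₀ ≠ 0 := mul_ne_zero hζ0 hC₀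
  -- local equality near `z₀`
  have hBc : ContinuousAt B z₀ := (hB.continuousOn).continuousAt (hV.mem_nhds hz₀)
  have hDc : ContinuousAt (fun z => ζ * C z) z₀ := (hD.continuousOn).continuousAt (hV.mem_nhds hz₀)
  have hrc : ContinuousAt (fun z => B z / (ζ * C z)) z₀ := hBc.div hDc hD₀
  have hSc : ContinuousAt (fun z => ∑ i ∈ Finset.range p, (B z / (ζ * C z)) ^ i) z₀ := by
    refine tendsto_finsetSum _ fun i _ => ?_
    exact (hrc.pow i)
  have hS₀ : ∑ i ∈ Finset.range p, (B z₀ / (ζ * C z₀)) ^ i ≠ 0 := by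
    rw [← hBD₀, div_self (by rw [hBD₀]; exact hD₀)]
    simp [hp]
  have hloc : B =ᶠ[𝓝 z₀] fun z => ζ * C z := by
    filter_upwards [hSc.eventually_ne hS₀, hDc.eventually_ne hD₀, hV.mem_nhds hz₀] with z h1 h2 h3
    have hr : (B z / (ζ * C z)) ^ p = 1 := by
      rw [div_pow, mul_pow, hζp, one_mul, hBC z h3, div_self]
      intro h
      apply h2
      rw [pow_eq_zero_iff hp] at h
      rw [h, mul_zero]
    have := s29r_eq_one_of_pow_eq_one_of_geom_ne hr h1
    rw [div_eq_one_iff_eq h2] at this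
    exact this
  exact (hB.analyticOnNhd hV).eqOn_of_preconnected_of_eventuallyEq (hD.analyticOnNhd hV) hVc hz₀ hloc

/-- A nonvanishing holomorphic function on a ball has a holomorphic `p`-th root. -/
theorem s29r_root_nonvanishing_ball {p : ℕ} (hp : p ≠ 0) {c : ℂ} {r : ℝ} {g : ℂ → ℂ}
    (hg : DifferentiableOn ℂ g (ball c r)) (hg0 : ∀ z ∈ ball c r, g z ≠ 0) :
    ∃ a : ℂ → ℂ, DifferentiableOn ℂ a (ball c r) ∧ ∀ z ∈ ball c r, a z ^ p = g z := by
  by_cases hr : 0 < r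
  swap
  · refine ⟨fun _ => 0, differentiableOn_const _, fun z hz => ?_⟩
    rw [ball_eq_empty.mpr (not_lt.mp hr)] at hz
    exact absurd hz (notMem_empty z)
  have hcB : c ∈ ball c r := mem_ball_self hr
  -- logarithmic derivative and its primitive
  have hh : DifferentiableOn ℂ (fun z => deriv g z / g z) (ball c r) :=
    (hg.deriv isOpen_ball).div hg hg0
  obtain ⟨L, hL⟩ := hh.isExactOn_ball
  -- `g * exp (-L)` is constant
  have hφ : ∀ z ∈ ball c r, HasDerivAt (fun z => g z * Complex.exp (-L z)) 0 z := by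
    intro z hz
    have h1 : HasDerivAt g (deriv g z) z :=
      (hg.differentiableAt (isOpen_ball.mem_nhds hz)).hasDerivAt
    have h2 : HasDerivAt (fun z => Complex.exp (-L z))
        (Complex.exp (-L z) * -(deriv g z / g z)) z := (hL z hz).neg.cexp
    have h3 := h1.mul h2
    have hgz := hg0 z hz
    have h4 : g z * (Complex.exp (-L z) * -(deriv g z / g z)) =
        -(deriv g z * Complex.exp (-L z)) := by
      field_simp
    have h5 : deriv g z * Complex.exp (-L z) +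
        g z * (Complex.exp (-L z) * -(deriv g z / g z)) = 0 := by
      rw [h4]; ring
    rw [h5] at h3
    exact h3
  have hφd : DifferentiableOn ℂ (fun z => g z * Complex.exp (-L z)) (ball c r) :=
    fun z hz => (hφ z hz).differentiableAt.differentiableWithinAt
  have hconst : ∀ z ∈ ball c r, g z * Complex.exp (-L z) = g c * Complex.exp (-L c) := by
    intro z hz
    exact isOpen_ball.is_const_of_deriv_eq_zero (convex_ball c r).isPreconnected hφd
      (fun w hw => (hφ w hw).deriv) hz hcB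
  set k : ℂ := g c * Complex.exp (-L c) with hk
  have hk0 : k ≠ 0 := mul_ne_zero (hg0 c hcB) (Complex.exp_ne_zero _)
  have hgk : ∀ z ∈ ball c r, g z = k * Complex.exp (L z) := by
    intro z hz
    rw [← hconst z hz, mul_assoc, ← Complex.exp_add, neg_add_cancel, Complex.exp_zero, mul_one]
  refine ⟨fun z => Complex.exp ((Complex.log k + L z) / p), ?_, fun z hz => ?_⟩
  · intro z hz
    have : HasDerivAt (fun z => (Complex.log k + L z) / (p : ℂ)) ((deriv g z / g z) / p) z := by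
      have := ((hL z hz).const_add (Complex.log k)).div_const (p : ℂ)
      simpa using this
    exact this.cexp.differentiableAt.differentiableWithinAt
  · rw [← Complex.exp_nat_mul, mul_div_cancel₀ _ (Nat.cast_ne_zero.mpr hp), Complex.exp_add,
      Complex.exp_log hk0, hgk z hz]

/-- A function analytic near a closed ball, all of whose orders there are finite and divisible by
`p`, has a holomorphic `p`-th root on the open ball. -/
theorem s29r_root_ball {p : ℕ} (hp : p ≠ 0) {c : ℂ} {r : ℝ} {f : ℂ → ℂ}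
    (hf : AnalyticOnNhd ℂ f (closedBall c r))
    (hord : ∀ z ∈ closedBall c r, ∃ m : ℕ, analyticOrderAt f z = ((p * m : ℕ) : ℕ∞)) :
    ∃ A : ℂ → ℂ, DifferentiableOn ℂ A (ball c r) ∧ ∀ z ∈ ball c r, A z ^ p = f z := by
  classical
  have hK : IsCompact (closedBall c r) := isCompact_closedBall c r
  have h₁f : MeromorphicOn f (closedBall c r) := hf.meromorphicOn
  have hmo : ∀ z ∈ closedBall c r, ∃ m : ℕ, meromorphicOrderAt f z = (((p * m : ℕ) : ℤ) : WithTop ℤ) := by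
    intro z hz
    obtain ⟨m, hm⟩ := hord z hz
    refine ⟨m, ?_⟩
    rw [(hf z hz).meromorphicOrderAt_eq, hm]
    rfl
  have h₂f : ∀ u : closedBall c r, meromorphicOrderAt f u ≠ ⊤ := by
    intro u
    obtain ⟨m, hm⟩ := hmo u u.2
    rw [hm]
    exact WithTop.coe_ne_top
  have h₃f : (MeromorphicOn.divisor f (closedBall c r)).support.Finite :=
    (MeromorphicOn.divisor f (closedBall c r)).finiteSupport hK
  obtain ⟨g, hg_an, hg_ne, hfg⟩ := h₁f.extract_zeros_poles h₂f h₃f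
  have hD : ∀ u, ∃ m : ℕ, MeromorphicOn.divisor f (closedBall c r) u = ((p * m : ℕ) : ℤ) := by
    intro u
    by_cases hu : u ∈ closedBall c r
    · obtain ⟨m, hm⟩ := hmo u hu
      refine ⟨m, ?_⟩
      rw [MeromorphicOn.divisor_apply h₁f hu, hm]
      rfl
    · exact ⟨0, by simp [(MeromorphicOn.divisor f (closedBall c r)).apply_eq_zero_of_notMem hu]⟩
  choose E hE using hD
  -- the polynomial
  set P : ℂ → ℂ := fun z => ∏ u ∈ h₃f.toFinset, (z - u) ^ E u with hP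
  have hφ : ∀ z, (∏ᶠ u, (· - u) ^ MeromorphicOn.divisor f (closedBall c r) u) z = P z ^ p := by
    intro z
    rw [Function.FactorizedRational.finprod_eq_fun h₃f]
    show ∏ᶠ (u : ℂ), (z - u) ^ (MeromorphicOn.divisor f (closedBall c r)) u = P z ^ p
    rw [finprod_eq_prod_of_mulSupport_subset (s := h₃f.toFinset)]
    · rw [hP]
      simp only
      rw [← Finset.prod_pow]
      refine Finset.prod_congr rfl fun u _ => ?_
      rw [hE u, zpow_natCast, ← pow_mul, mul_comm]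
    · intro u hu
      simp only [Function.mem_mulSupport] at hu
      simp only [Set.Finite.coe_toFinset, Function.mem_support]
      intro h0
      apply hu
      rw [h0, zpow_zero]
  -- root of `g` on the ball
  have hgd : DifferentiableOn ℂ g (ball c r) := fun z hz =>
    (hg_an z (ball_subset_closedBall hz)).differentiableAt.differentiableWithinAt
  obtain ⟨a, ha, hap⟩ := s29r_root_nonvanishing_ball hp hgd
    (fun z hz => hg_ne ⟨z, ball_subset_closedBall hz⟩)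
  have hPd : Differentiable ℂ P := by
    rw [hP]
    fun_prop
  refine ⟨fun z => P z * a z, hPd.differentiableOn.mul ha, fun z hz => ?_⟩
  rw [mul_pow, hap z hz, ← hφ z]
  -- `f z = φ z * g z` by continuity
  have hzK := ball_subset_closedBall hz
  have hev : ∀ᶠ y in 𝓝[≠] z, f y =
      (∏ᶠ u, (· - u) ^ MeromorphicOn.divisor f (closedBall c r) u) y * g y := by
    have h1 := (mem_codiscreteWithin_iff_forall_mem_nhdsNE.mp hfg) z hzK
    have h2 : ball c r ∈ 𝓝[≠] z := mem_nhdsWithin_of_mem_nhds (isOpen_ball.mem_nhds hz)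
    filter_upwards [h1, h2] with y hy1 hy2
    rcases hy1 with hy1 | hy1
    · exact hy1
    · exact absurd (ball_subset_closedBall hy2) hy1
  have hfc : ContinuousAt f z := (hf z hzK).continuousAt
  have hrc : ContinuousAt
      (fun y => (∏ᶠ u, (· - u) ^ MeromorphicOn.divisor f (closedBall c r) u) y * g y) z := by
    have : (fun y => (∏ᶠ u, (· - u) ^ MeromorphicOn.divisor f (closedBall c r) u) y * g y) =
        fun y => P y ^ p * g y := funext fun y => by rw [hφ y]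
    rw [this]
    exact ((hPd.continuous.continuousAt).pow p).mul (hg_an z hzK).continuousAt
  exact (tendsto_nhds_unique_of_eventuallyEq (hfc.mono_left nhdsWithin_le_nhds)
    (hrc.mono_left nhdsWithin_le_nhds) hev).symm

/-- Gluing: if `U` is covered by open balls whose closed balls lie in `U` and which all contain a
common neighbourhood of a point `z₁`, a holomorphic function on `U` all of whose orders are finite
and divisible by `p` has a holomorphic `p`-th root on `U`. -/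
theorem s29r_root_exhaustion {p : ℕ} (hp : p ≠ 0) {U : Set ℂ} (hU : IsOpen U)
    (cn : ℕ → ℂ) (rn : ℕ → ℝ) (hsub : ∀ n, closedBall (cn n) (rn n) ⊆ U)
    (hcov : ∀ z ∈ U, ∃ n, z ∈ ball (cn n) (rn n))
    {z₁ : ℂ} {W : Set ℂ} (hW : W ∈ 𝓝 z₁) (hWsub : ∀ n, W ⊆ ball (cn n) (rn n))
    {f : ℂ → ℂ} (hf : DifferentiableOn ℂ f U)
    (hord : ∀ z ∈ U, ∃ m : ℕ, analyticOrderAt f z = ((p * m : ℕ) : ℕ∞)) :
    ∃ A : ℂ → ℂ, DifferentiableOn ℂ A U ∧ ∀ z ∈ U, A z ^ p = f z := by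
  classical
  have hfa : AnalyticOnNhd ℂ f U := hf.analyticOnNhd hU
  have hz₁U : z₁ ∈ U := hsub 0 (ball_subset_closedBall (hWsub 0 (mem_of_mem_nhds hW)))
  -- a base point where `f` does not vanish
  obtain ⟨z₀, hz₀W, hfz₀⟩ : ∃ z₀ ∈ W, f z₀ ≠ 0 := by
    by_contra hcon
    push Not at hcon
    obtain ⟨m, hm⟩ := hord z₁ hz₁U
    have : analyticOrderAt f z₁ = ⊤ := by
      rw [analyticOrderAt_eq_top]
      filter_upwards [hW] with z hz using hcon z hz
    rw [this] at hm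
    exact ENat.top_ne_natCast _ hm
  have hz₀ : ∀ n, z₀ ∈ ball (cn n) (rn n) := fun n => hWsub n hz₀W
  -- local roots
  have hloc : ∀ n, ∃ A : ℂ → ℂ, DifferentiableOn ℂ A (ball (cn n) (rn n)) ∧
      ∀ z ∈ ball (cn n) (rn n), A z ^ p = f z := fun n =>
    s29r_root_ball hp (hfa.mono (hsub n)) (fun z hz => hord z (hsub n hz))
  choose A₀ hA₀d hA₀p using hloc
  -- normalisation at `z₀`
  set a₀ : ℂ := A₀ 0 z₀ with ha₀
  have ha₀p : a₀ ^ p = f z₀ := hA₀p 0 z₀ (hz₀ 0)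
  have ha₀0 : a₀ ≠ 0 := fun h => hfz₀ (by rw [← ha₀p, h, zero_pow hp])
  have hA₀z₀ : ∀ n, A₀ n z₀ ≠ 0 := fun n h =>
    hfz₀ (by rw [← hA₀p n z₀ (hz₀ n), h, zero_pow hp])
  set A₁ : ℕ → ℂ → ℂ := fun n z => (a₀ / A₀ n z₀) * A₀ n z with hA₁
  have hA₁d : ∀ n, DifferentiableOn ℂ (A₁ n) (ball (cn n) (rn n)) := fun n =>
    (hA₀d n).const_mul _
  have hA₁p : ∀ n, ∀ z ∈ ball (cn n) (rn n), A₁ n z ^ p = f z := by
    intro n z hz
    simp only [hA₁]
    rw [mul_pow, div_pow, ha₀p, hA₀p n z₀ (hz₀ n), div_self hfz₀, one_mul, hA₀p n z hz]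
  have hA₁z₀ : ∀ n, A₁ n z₀ = a₀ := by
    intro n
    simp only [hA₁]
    rw [div_mul_cancel₀ _ (hA₀z₀ n)]
  -- compatibility
  have hcompat : ∀ m n, ∀ z ∈ ball (cn m) (rn m) ∩ ball (cn n) (rn n), A₁ m z = A₁ n z := by
    intro m n z hz
    have hVo : IsOpen (ball (cn m) (rn m) ∩ ball (cn n) (rn n)) := isOpen_ball.inter isOpen_ball
    have hVc : IsPreconnected (ball (cn m) (rn m) ∩ ball (cn n) (rn n)) :=
      ((convex_ball _ _).inter (convex_ball _ _)).isPreconnected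
    obtain ⟨ζ, -, hζ⟩ := s29r_root_unique hp hVo hVc ((hA₁d m).mono inter_subset_left)
      ((hA₁d n).mono inter_subset_right)
      (fun w hw => by rw [hA₁p m w hw.1, hA₁p n w hw.2]) (z₀ := z₀) ⟨hz₀ m, hz₀ n⟩
      (by rw [hA₁z₀ n]; exact ha₀0)
    have h1 := hζ z₀ ⟨hz₀ m, hz₀ n⟩
    rw [hA₁z₀ m, hA₁z₀ n] at h1
    have hζ1 : ζ = 1 := by
      have : (ζ - 1) * a₀ = 0 := by rw [sub_mul, one_mul, ← h1, sub_self]
      rcases mul_eq_zero.mp this with h | h
      · exact sub_eq_zero.mp h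
      · exact absurd h ha₀0
    rw [hζ z hz, hζ1, one_mul]
  -- the glued function
  set A : ℂ → ℂ := fun z => if h : ∃ n, z ∈ ball (cn n) (rn n) then A₁ (Nat.find h) z else 0
    with hA
  have hAeq : ∀ n, ∀ z ∈ ball (cn n) (rn n), A z = A₁ n z := by
    intro n z hz
    have h : ∃ n, z ∈ ball (cn n) (rn n) := ⟨n, hz⟩
    simp only [hA, dif_pos h]
    exact hcompat _ _ z ⟨Nat.find_spec h, hz⟩
  refine ⟨A, fun z hz => ?_, fun z hz => ?_⟩
  · obtain ⟨n, hn⟩ := hcov z hz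
    have h1 : DifferentiableAt ℂ (A₁ n) z := (hA₁d n).differentiableAt (isOpen_ball.mem_nhds hn)
    have h2 : A =ᶠ[𝓝 z] A₁ n := by
      filter_upwards [isOpen_ball.mem_nhds hn] with w hw using hAeq n w hw
    exact (h2.differentiableAt_iff.mpr h1).differentiableWithinAt
  · obtain ⟨n, hn⟩ := hcov z hz
    rw [hAeq n z hn, hA₁p n z hn]

/-- **Lemma R1** (set form).  A holomorphic function on the upper half-plane all of whose orders
are finite and divisible by `p` has a holomorphic `p`-th root. -/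
theorem s29r_exists_root_set {p : ℕ} (hp : p ≠ 0) {f : ℂ → ℂ}
    (hf : DifferentiableOn ℂ f {z : ℂ | 0 < z.im})
    (hord : ∀ z : ℂ, 0 < z.im → ∃ m : ℕ, analyticOrderAt f z = ((p * m : ℕ) : ℕ∞)) :
    ∃ A : ℂ → ℂ, DifferentiableOn ℂ A {z : ℂ | 0 < z.im} ∧ ∀ z : ℂ, 0 < z.im → A z ^ p = f z := by
  have hU : IsOpen {z : ℂ | 0 < z.im} := isOpen_lt continuous_const Complex.continuous_im
  -- the exhaustion: centre `(n+2) i`, radius `(n+2) - 1/(n+2)`
  set cn : ℕ → ℂ := fun n => ((n : ℝ) + 2 : ℝ) * Complex.I with hcn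
  set rn : ℕ → ℝ := fun n => ((n : ℝ) + 2) - 1 / ((n : ℝ) + 2) with hrn
  have ht : ∀ n : ℕ, (0 : ℝ) < (n : ℝ) + 2 := fun n => by positivity
  have hsub : ∀ n, closedBall (cn n) (rn n) ⊆ {z : ℂ | 0 < z.im} := by
    intro n z hz
    rw [mem_closedBall, Complex.dist_eq] at hz
    have h1 : |(z - cn n).im| ≤ ‖z - cn n‖ := Complex.abs_im_le_norm _
    have h2 : (z - cn n).im = z.im - ((n : ℝ) + 2) := by
      simp [hcn]
    rw [h2] at h1
    have h3 := (abs_le.mp (h1.trans hz)).1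
    simp only [hrn] at h3
    have h4 : (0 : ℝ) < 1 / ((n : ℝ) + 2) := by have := ht n; positivity
    show 0 < z.im
    linarith
  have hcov : ∀ z ∈ {z : ℂ | 0 < z.im}, ∃ n, z ∈ ball (cn n) (rn n) := by
    intro z hz
    have hy : 0 < z.im := hz
    obtain ⟨n, hn⟩ := exists_nat_gt ((z.re ^ 2 + z.im ^ 2 + 2) / (2 * z.im))
    refine ⟨n, ?_⟩
    rw [mem_ball, Complex.dist_eq]
    have htn := ht n
    have h1 : z.re ^ 2 + z.im ^ 2 + 2 < 2 * z.im * ((n : ℝ) + 2) := by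
      rw [div_lt_iff₀ (by positivity)] at hn
      nlinarith
    have hrpos : 0 < rn n := by
      simp only [hrn]
      have : 1 / ((n : ℝ) + 2) ≤ 1 / 2 := by
        apply one_div_le_one_div_of_le (by norm_num)
        have : (0 : ℝ) ≤ n := Nat.cast_nonneg n
        linarith
      have : (0 : ℝ) ≤ n := Nat.cast_nonneg n
      linarith
    have h2 : ‖z - cn n‖ ^ 2 < rn n ^ 2 := by
      rw [Complex.sq_norm, Complex.normSq_apply]
      have hre : (z - cn n).re = z.re := by simp [hcn]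
      have him : (z - cn n).im = z.im - ((n : ℝ) + 2) := by simp [hcn]
      rw [hre, him]
      simp only [hrn]
      have h3 : (((n : ℝ) + 2) - 1 / ((n : ℝ) + 2)) ^ 2 =
          ((n : ℝ) + 2) ^ 2 - 2 + (1 / ((n : ℝ) + 2)) ^ 2 := by
        field_simp
        ring
      rw [h3]
      have h4 : 0 ≤ (1 / ((n : ℝ) + 2)) ^ 2 := sq_nonneg _
      nlinarith
    exact lt_of_pow_lt_pow_left₀ 2 hrpos.le h2
  have hW : ball (2 * Complex.I) (1 / 2 : ℝ) ∈ 𝓝 (2 * Complex.I) := ball_mem_nhds _ (by norm_num)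
  have hWsub : ∀ n, ball (2 * Complex.I) (1 / 2 : ℝ) ⊆ ball (cn n) (rn n) := by
    intro n z hz
    rw [mem_ball] at hz ⊢
    have h1 : dist (2 * Complex.I) (cn n) = n := by
      rw [Complex.dist_eq]
      have : 2 * Complex.I - cn n = -((n : ℝ) : ℂ) * Complex.I := by
        simp only [hcn]
        push_cast
        ring
      rw [this]
      simp
    have h2 : dist z (cn n) < 1 / 2 + n :=
      lt_of_le_of_lt (dist_triangle _ _ _) (by rw [h1]; linarith)
    have h3 : 1 / ((n : ℝ) + 2) ≤ 1 / 2 := by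
      apply one_div_le_one_div_of_le (by norm_num)
      have : (0 : ℝ) ≤ n := Nat.cast_nonneg n
      linarith
    simp only [hrn]
    linarith
  obtain ⟨A, hA, hAp⟩ := s29r_root_exhaustion hp hU cn rn hsub hcov hW hWsub hf
    (fun z hz => hord z hz)
  exact ⟨A, hA, fun z hz => hAp z hz⟩



/-- **Lemma R1** (`ℍ`-form): a holomorphic function on `ℍ`, all of whose orders are finite and
divisible by `p`, has a holomorphic `p`-th root. -/
theorem s29r_exists_root {p : ℕ} (hp : p ≠ 0) {F : ℍ → ℂ} (hF : MDiff F)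
    (hord : ∀ τ : ℍ, ∃ m : ℕ, analyticOrderAt (F ∘ ofComplex) (τ : ℂ) = ((p * m : ℕ) : ℕ∞)) :
    ∃ A : ℍ → ℂ, MDiff A ∧ ∀ τ, A τ ^ p = F τ := by
  obtain ⟨A, hA, hAp⟩ := s29r_exists_root_set hp (mdifferentiable_iff.mp hF)
    (fun z hz => hord ⟨z, hz⟩)
  refine ⟨fun τ => A τ, ?_, fun τ => ?_⟩
  · rw [mdifferentiable_iff]
    refine hA.congr fun z hz => ?_
    have hz' : 0 < z.im := hz
    simp [Function.comp, ofComplex_apply_of_im_pos hz']
  · have := hAp τ τ.im_pos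
    rw [this]
    simp [Function.comp, ofComplex_apply]

/-- Two holomorphic functions on `ℍ` with the same `p`-th power, one of them not identically zero,
differ by a constant `p`-th root of unity. -/
theorem s29r_root_unique_uhp {p : ℕ} (hp : p ≠ 0) {B C : ℍ → ℂ} (hB : MDiff B) (hC : MDiff C)
    (hBC : ∀ τ, B τ ^ p = C τ ^ p) (hC0 : ∃ τ, C τ ≠ 0) :
    ∃ ζ : ℂ, ζ ^ p = 1 ∧ ∀ τ, B τ = ζ * C τ := by
  obtain ⟨τ₀, hτ₀⟩ := hC0
  have hU : IsOpen {z : ℂ | 0 < z.im} := isOpen_upperHalfPlaneSet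
  have hUc : IsPreconnected {z : ℂ | 0 < z.im} :=
    (convex_halfSpace_im_gt 0).isPreconnected
  obtain ⟨ζ, hζ, h⟩ := s29r_root_unique hp hU hUc (mdifferentiable_iff.mp hB)
    (mdifferentiable_iff.mp hC) (fun z hz => by
      have hz' : 0 < z.im := hz
      simp only [Function.comp, ofComplex_apply_of_im_pos hz']
      exact hBC _) (z₀ := (τ₀ : ℂ)) τ₀.im_pos (by simpa [Function.comp, ofComplex_apply] using hτ₀)
  refine ⟨ζ, hζ, fun τ => ?_⟩
  have := h τ τ.im_pos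
  simpa [Function.comp, ofComplex_apply] using this



theorem s29r_denom_cocycle_SL (γ δ : SL(2, ℤ)) (τ : ℍ) :
    denom ((γ * δ : SL(2,ℤ)) : GL (Fin 2) ℝ) τ =
      denom (γ : GL (Fin 2) ℝ) ((δ • τ : ℍ)) * denom (δ : GL (Fin 2) ℝ) τ := by
  have := denom_cocycle_σ (γ : GL (Fin 2) ℝ) (δ : GL (Fin 2) ℝ) τ
  simp [σ] at this
  rw [ModularGroup.sl_moeb δ τ, ← this]
  congr 1
  simp [map_mul]

/-- **Lemma R2** (multiplier system of a root).  If `A` is holomorphic on `ℍ`, not identically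
zero, and `A ∘ γ` and `denom γ ^ K * A` have the same `p`-th power for all `γ ∈ Γ`, then
`A ∘ γ = χ γ * denom γ ^ K * A` for a character `χ` of `Γ` with values in the `p`-th roots of
unity. -/
theorem s29r_exists_multiplier {p : ℕ} (hp : p ≠ 0) (Γ : Subgroup SL(2, ℤ)) (K : ℤ) {A : ℍ → ℂ}
    (hA : MDiff A) (hA0 : ∃ τ, A τ ≠ 0)
    (h : ∀ γ ∈ Γ, ∀ τ : ℍ, A (γ • τ) ^ p = (denom (γ : GL (Fin 2) ℝ) τ ^ K * A τ) ^ p) :
    ∃ χ : Γ →* ℂˣ, (∀ γ, χ γ ^ p = 1) ∧ ∀ (γ : Γ) (τ : ℍ),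
      A ((γ : SL(2, ℤ)) • τ) = χ γ * denom ((γ : SL(2, ℤ)) : GL (Fin 2) ℝ) τ ^ K * A τ := by
  obtain ⟨τ₀, hτ₀⟩ := hA0
  have hex : ∀ γ : Γ, ∃ ζ : ℂ, ζ ^ p = 1 ∧ ∀ τ : ℍ,
      A ((γ : SL(2, ℤ)) • τ) = ζ * (denom ((γ : SL(2, ℤ)) : GL (Fin 2) ℝ) τ ^ K * A τ) := by
    intro γ
    have hB : MDiff (fun τ : ℍ => A ((γ : SL(2, ℤ)) • τ)) := by
      have h1 : MDiff (fun τ : ℍ => (((γ : SL(2, ℤ)) : GL (Fin 2) ℝ)) • τ) :=
        UpperHalfPlane.mdifferentiable_smul (by simp)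
      have h2 : (fun τ : ℍ => A ((γ : SL(2, ℤ)) • τ)) =
          A ∘ (fun τ : ℍ => (((γ : SL(2, ℤ)) : GL (Fin 2) ℝ)) • τ) := by
        funext τ
        simp [Function.comp, ModularGroup.sl_moeb]
      rw [h2]
      exact hA.comp h1
    have hC : MDiff (fun τ : ℍ => denom ((γ : SL(2, ℤ)) : GL (Fin 2) ℝ) τ ^ K * A τ) :=
      (mdifferentiable_denom_zpow _ K).mul hA
    exact s29r_root_unique_uhp hp hB hC (fun τ => h γ γ.2 τ)
      ⟨τ₀, mul_ne_zero (zpow_ne_zero _ (denom_ne_zero _ _)) hτ₀⟩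
  choose ζ hζp hζ using hex
  have hζ0 : ∀ γ, ζ γ ≠ 0 := fun γ h0 => by
    have := hζp γ
    rw [h0, zero_pow hp] at this
    exact zero_ne_one this
  have hmul : ∀ γ δ : Γ, ζ (γ * δ) = ζ γ * ζ δ := by
    intro γ δ
    have h1 := hζ (γ * δ) τ₀
    have h2 := hζ γ ((δ : SL(2, ℤ)) • τ₀)
    have h3 := hζ δ τ₀
    have h4 : (((γ * δ : Γ) : SL(2, ℤ))) • τ₀ = (γ : SL(2, ℤ)) • ((δ : SL(2, ℤ)) • τ₀) := by
      rw [Subgroup.coe_mul, mul_smul]
    rw [h4, h2, h3, Subgroup.coe_mul, s29r_denom_cocycle_SL, mul_zpow] at h1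
    have hd1 : denom ((γ : SL(2, ℤ)) : GL (Fin 2) ℝ) (((δ : SL(2, ℤ)) • τ₀ : ℍ)) ^ K ≠ 0 :=
      zpow_ne_zero _ (denom_ne_zero _ _)
    have hd2 : denom ((δ : SL(2, ℤ)) : GL (Fin 2) ℝ) τ₀ ^ K ≠ 0 :=
      zpow_ne_zero _ (denom_ne_zero _ _)
    have h5 : (ζ γ * ζ δ - ζ (γ * δ)) *
        (denom ((γ : SL(2, ℤ)) : GL (Fin 2) ℝ) (((δ : SL(2, ℤ)) • τ₀ : ℍ)) ^ K *
          denom ((δ : SL(2, ℤ)) : GL (Fin 2) ℝ) τ₀ ^ K * A τ₀) = 0 := by
      linear_combination h1
    rcases mul_eq_zero.mp h5 with h6 | h6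
    · exact (sub_eq_zero.mp h6).symm
    · exact absurd h6 (mul_ne_zero (mul_ne_zero hd1 hd2) hτ₀)
  refine ⟨MonoidHom.mk' (fun γ => Units.mk0 (ζ γ) (hζ0 γ)) (fun γ δ => ?_), fun γ => ?_,
    fun γ τ => ?_⟩
  · ext
    simp [hmul γ δ]
  · ext
    simp [hζp γ]
  · simp only [MonoidHom.mk'_apply, Units.val_mk0]
    rw [hζ γ τ, mul_assoc]



/-- Characters with values in `p`-th roots of unity are `exp (2πi/p)`-powers of additive characters
to `ZMod p`. -/
theorem s29r_zmod_of_multiplier {p : ℕ} [NeZero p] {G : Type*} [Group G] (χ : G →* ℂˣ)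
    (hχ : ∀ g, χ g ^ p = 1) :
    ∃ ψ : Additive G →+ ZMod p, ∀ g : G,
      ((χ g : ℂˣ) : ℂ) = Complex.exp (2 * Real.pi * Complex.I / p) ^ (ψ (Additive.ofMul g)).val := by
  have hp : p ≠ 0 := NeZero.ne p
  have hprim : IsPrimitiveRoot (Complex.exp (2 * Real.pi * Complex.I / p)) p :=
    Complex.isPrimitiveRoot_exp p hp
  have hex : ∀ g : G, ∃ i : ℕ, i < p ∧
      Complex.exp (2 * Real.pi * Complex.I / p) ^ i = ((χ g : ℂˣ) : ℂ) := by
    intro g
    have h1 : ((χ g : ℂˣ) : ℂ) ^ p = 1 := by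
      have := congrArg (fun u : ℂˣ => (u : ℂ)) (hχ g)
      simpa using this
    obtain ⟨i, hi, hi'⟩ := hprim.eq_pow_of_pow_eq_one h1
    exact ⟨i, hi, hi'⟩
  choose k hk hkχ using hex
  have hval : ∀ g, ((k g : ℕ) : ZMod p).val = k g := fun g => ZMod.val_natCast_of_lt (hk g)
  have hadd : ∀ g h : G, ((k (g * h) : ℕ) : ZMod p) = (k g : ZMod p) + (k h : ZMod p) := by
    intro g h
    apply ZMod.val_injective p
    rw [hval, ZMod.val_add, hval, hval]
    apply hprim.pow_inj (hk _) (Nat.mod_lt _ (Nat.pos_of_ne_zero hp))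
    rw [← pow_eq_pow_mod _ hprim.pow_eq_one, pow_add, hkχ, hkχ, hkχ, map_mul, Units.val_mul]
  refine ⟨AddMonoidHom.mk' (fun g => ((k (Additive.toMul g) : ℕ) : ZMod p)) (fun a b => ?_),
    fun g => ?_⟩
  · exact hadd (Additive.toMul a) (Additive.toMul b)
  · simp only [AddMonoidHom.mk'_apply, toMul_ofMul]
    rw [hval, hkχ]



/-- Analyticity of the germ of a holomorphic function on `ℍ`. -/
theorem s29r_analyticAt_comp_ofComplex {f : ℍ → ℂ} (hf : MDiff f) (τ : ℍ) :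
    AnalyticAt ℂ (f ∘ ofComplex) (τ : ℂ) :=
  DifferentiableOn.analyticAt (UpperHalfPlane.mdifferentiable_iff.mp hf)
    (isOpen_upperHalfPlaneSet.mem_nhds τ.im_pos)

/-- **Lemma R1** (ratio form).  If `F`, `G` are holomorphic on `ℍ` with finite orders everywhere
and `ord_τ F - ord_τ G` is divisible by `p` for every `τ`, then `F * G ^ (p - 1)` has a holomorphic
`p`-th root `A`; so `(A / G) ^ p = F / G` wherever `G ≠ 0`. -/
theorem s29r_exists_root_ratio {p : ℕ} (hp : p ≠ 0) {F G : ℍ → ℂ} (hF : MDiff F) (hG : MDiff G)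
    (hord : ∀ τ : ℍ, ∃ a b : ℕ, analyticOrderAt (F ∘ ofComplex) (τ : ℂ) = (a : ℕ∞) ∧
      analyticOrderAt (G ∘ ofComplex) (τ : ℂ) = (b : ℕ∞) ∧ (p : ℤ) ∣ (a : ℤ) - b) :
    ∃ A : ℍ → ℂ, MDiff A ∧ ∀ τ, A τ ^ p = F τ * G τ ^ (p - 1) := by
  have hH : MDiff (fun τ => F τ * G τ ^ (p - 1)) := hF.mul (hG.pow (p - 1))
  refine s29r_exists_root hp hH fun τ => ?_
  obtain ⟨a, b, ha, hb, hab⟩ := hord τ
  have hcomp : ((fun τ => F τ * G τ ^ (p - 1)) ∘ ofComplex) =
      (F ∘ ofComplex) * (G ∘ ofComplex) ^ (p - 1) := rfl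
  rw [hcomp, analyticOrderAt_mul (s29r_analyticAt_comp_ofComplex hF τ)
    ((s29r_analyticAt_comp_ofComplex hG τ).pow (p - 1)),
    analyticOrderAt_pow (s29r_analyticAt_comp_ofComplex hG τ), ha, hb]
  obtain ⟨q, hq⟩ := hab
  have h1 : ((a + (p - 1) * b : ℕ) : ℤ) = p * (q + b) := by
    have hp1 : ((p - 1 : ℕ) : ℤ) = (p : ℤ) - 1 := by
      rw [Nat.cast_sub (Nat.one_le_iff_ne_zero.mpr hp)]; simp
    push_cast
    rw [hp1]
    linear_combination hq
  have h2 : (0 : ℤ) ≤ q + b := by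
    by_contra hneg
    push Not at hneg
    have hp0 : (0 : ℤ) < p := by exact_mod_cast Nat.pos_of_ne_zero hp
    have : (p : ℤ) * (q + b) < 0 := mul_neg_of_pos_of_neg hp0 hneg
    rw [← h1] at this
    exact absurd this (not_lt.mpr (Int.natCast_nonneg _))
  refine ⟨(q + b).toNat, ?_⟩
  have h3 : a + (p - 1) * b = p * (q + b).toNat := by
    apply Int.ofNat_injective
    show ((a + (p - 1) * b : ℕ) : ℤ) = ((p * (q + b).toNat : ℕ) : ℤ)
    rw [h1]
    push_cast
    rw [Int.toNat_of_nonneg h2]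
  rw [← h3]
  push_cast
  rfl



/-- **Lemma R2** (`ZMod p`-form). -/
theorem s29r_exists_character {p : ℕ} [NeZero p] (Γ : Subgroup SL(2, ℤ)) (K : ℤ) {A : ℍ → ℂ}
    (hA : MDiff A) (hA0 : ∃ τ, A τ ≠ 0)
    (h : ∀ γ ∈ Γ, ∀ τ : ℍ, A (γ • τ) ^ p = (denom (γ : GL (Fin 2) ℝ) τ ^ K * A τ) ^ p) :
    ∃ ψ : Additive Γ →+ ZMod p, ∀ (γ : Γ) (τ : ℍ), A ((γ : SL(2, ℤ)) • τ) =
      Complex.exp (2 * Real.pi * Complex.I / p) ^ (ψ (Additive.ofMul γ)).val *
        denom ((γ : SL(2, ℤ)) : GL (Fin 2) ℝ) τ ^ K * A τ := by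
  obtain ⟨χ, hχp, hχ⟩ := s29r_exists_multiplier (NeZero.ne p) Γ K hA hA0 h
  obtain ⟨ψ, hψ⟩ := s29r_zmod_of_multiplier χ hχp
  exact ⟨ψ, fun γ τ => by rw [hχ γ τ, hψ γ]⟩

/-- **Lemma R** (root and character of a ratio of two weight-`K` forms).  Let `F`, `G` be
holomorphic on `ℍ`, not identically zero, both transforming with the weight-`K` automorphy factor
under `Γ`, with finite orders everywhere such that `ord_τ F - ord_τ G` is always divisible by `p`.
Then there are a holomorphic `A` with `A ^ p = F * G ^ (p - 1)` (so `(A / G) ^ p = F / G`) and an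
additive character `ψ : Γ → ZMod p` with `A ∘ γ = exp (2πi/p) ^ ψ γ * denom γ ^ K * A`
(so `(A / G) ∘ γ = exp (2πi/p) ^ ψ γ * (A / G)`). -/
theorem s29r_root_character {p : ℕ} [NeZero p] (Γ : Subgroup SL(2, ℤ)) (K : ℤ) {F G : ℍ → ℂ}
    (hF : MDiff F) (hG : MDiff G) (hG0 : ∃ τ, G τ ≠ 0)
    (hFΓ : ∀ γ ∈ Γ, ∀ τ : ℍ, F (γ • τ) = denom (γ : GL (Fin 2) ℝ) τ ^ K * F τ)
    (hGΓ : ∀ γ ∈ Γ, ∀ τ : ℍ, G (γ • τ) = denom (γ : GL (Fin 2) ℝ) τ ^ K * G τ)
    (hord : ∀ τ : ℍ, ∃ a b : ℕ, analyticOrderAt (F ∘ ofComplex) (τ : ℂ) = (a : ℕ∞) ∧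
      analyticOrderAt (G ∘ ofComplex) (τ : ℂ) = (b : ℕ∞) ∧ (p : ℤ) ∣ (a : ℤ) - b) :
    ∃ (A : ℍ → ℂ) (ψ : Additive Γ →+ ZMod p), MDiff A ∧ (∃ τ, A τ ≠ 0) ∧
      (∀ τ, A τ ^ p = F τ * G τ ^ (p - 1)) ∧
      ∀ (γ : Γ) (τ : ℍ), A ((γ : SL(2, ℤ)) • τ) =
        Complex.exp (2 * Real.pi * Complex.I / p) ^ (ψ (Additive.ofMul γ)).val *
          denom ((γ : SL(2, ℤ)) : GL (Fin 2) ℝ) τ ^ K * A τ := by
  have hp : p ≠ 0 := NeZero.ne p
  obtain ⟨A, hA, hAp⟩ := s29r_exists_root_ratio hp hF hG hord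
  -- `A` is not identically zero: `F * G ^ (p - 1)` is not (identity theorem)
  have hA0 : ∃ τ, A τ ≠ 0 := by
    by_contra hcon
    push Not at hcon
    have hFG : ∀ τ, F τ * G τ ^ (p - 1) = 0 := fun τ => by rw [← hAp τ, hcon τ, zero_pow hp]
    obtain ⟨τ₁, hτ₁⟩ := hG0
    -- near `τ₁`, `G ≠ 0`, so `F = 0` near `τ₁`, so `F` has infinite order there
    obtain ⟨a, b, ha, -, -⟩ := hord τ₁
    have hGc : ContinuousAt (G ∘ ofComplex) (τ₁ : ℂ) :=
      (DifferentiableOn.analyticAt (UpperHalfPlane.mdifferentiable_iff.mp hG)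
        (isOpen_upperHalfPlaneSet.mem_nhds τ₁.im_pos)).continuousAt
    have hG1 : (G ∘ ofComplex) (τ₁ : ℂ) ≠ 0 := by simpa [Function.comp, ofComplex_apply] using hτ₁
    have : analyticOrderAt (F ∘ ofComplex) (τ₁ : ℂ) = ⊤ := by
      rw [analyticOrderAt_eq_top]
      filter_upwards [hGc.eventually_ne hG1] with z hz
      have := hFG (ofComplex z)
      rcases mul_eq_zero.mp this with h0 | h0
      · exact h0
      · exact absurd (eq_zero_of_pow_eq_zero h0) hz
    rw [this] at ha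
    exact ENat.top_ne_natCast _ ha
  have hmul : ∀ γ ∈ Γ, ∀ τ : ℍ,
      A (γ • τ) ^ p = (denom (γ : GL (Fin 2) ℝ) τ ^ K * A τ) ^ p := by
    intro γ hγ τ
    rw [mul_pow, hAp, hAp, hFΓ γ hγ, hGΓ γ hγ, mul_pow]
    have h1 : (denom (γ : GL (Fin 2) ℝ) τ ^ K) ^ p =
        denom (γ : GL (Fin 2) ℝ) τ ^ K * (denom (γ : GL (Fin 2) ℝ) τ ^ K) ^ (p - 1) := by
      rw [← pow_succ', Nat.sub_add_cancel (Nat.one_le_iff_ne_zero.mpr hp)]
    rw [h1]
    ring
  obtain ⟨ψ, hψ⟩ := s29r_exists_character Γ K hA hA0 hmul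
  exact ⟨A, ψ, hA, hA0, hAp, hψ⟩

end
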