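/-
Plan K (S29), package [KAP], part 5 (owner: helper5): the concrete `κ`.

`F` is a field over a constant field `K` (generic, to avoid the instance diamonds of `ℂ`; in the
application `K ≃ ℂ`) with a ring hom `φ : F →+* ffm_E N` (in the application `F = s29bp_FK K N`,
`φ = s29bp_phi ι N`) satisfying the *bridge hypotheses* `s29m_BridgeHyp` (to be supplied by [BR]):

* `inv`   : `φ F` is fixed by `Γ₀(N)`;
* `fixed` : every `Γ₀(N)`-fixed element of `ffm_E N` is in `φ F`;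
* `ord`   : if `div h = p • D` then the order of `φ h` at every `τ ∈ ℍ` is divisible by `p`;
* `const` : if `div h = 0` then `φ h` is constant.

Output: `s29m_kappaC : Pic0.torsion K F p →+ (Additive Γ₀(N) →+ ZMod p)`, injective, so
`Pic0.torsion K F p` is finite, with the function-level characterisations
`s29m_kappaC_fun_spec` / `s29m_kappaC_eq_of_fun`.
-/
import Mathlib
import Fermat.Agent.Lib.FF.ModelVal
import Fermat.Agent.Lib.S29.RRoot
import Fermat.Agent.Lib.S29.KMero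
import Fermat.Agent.Lib.S29.KKappa
import Fermat.Agent.Lib.S29.KFinite

set_option autoImplicit false

open AlgebraicCurve

namespace Fermat.Agent.Lib.S29

open Fermat.Agent.Lib.FF
open UpperHalfPlane hiding I
open Complex CongruenceSubgroup
open scoped MatrixGroups Manifold

noncomputable section

/-- The bridge hypotheses on `φ : F →+* ffm_E N`. -/
structure s29m_BridgeHyp (K : Type*) (N p : ℕ) {F : Type*} [Field K] [Field F] [Algebra K F]
    (φ : F →+* ffm_E N) : Prop where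
  inv : ∀ (h : F) (γ : SL(2, ℤ)), γ ∈ Gamma0 N → γ • φ h = φ h
  fixed : ∀ x : ffm_E N, (∀ γ : SL(2, ℤ), γ ∈ Gamma0 N → γ • x = x) → ∃ h : F, φ h = x
  ord : ∀ h : F, h ≠ 0 → ∀ D : Divisor K F, (∀ v : Place K F, v.ord h = (p : ℤ) * D v) →
    ∀ τ : ℍ, ∃ k : ℤ, ffm_ordAt N τ (φ h) = WithZero.exp ((p : ℤ) * k)
  const : ∀ h : F, h ≠ 0 → (∀ v : Place K F, v.ord h = 0) →
    ∃ c : ℂ, φ h = algebraMap ℂ (ffm_E N) c

/-- `ζ_p = exp (2πi/p)` in the field `s29m_M`. -/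
def s29m_zetaM (p : ℕ) : s29m_M := algebraMap ℂ s29m_M (cexp (2 * Real.pi * I / p))

theorem s29m_zetaM_prim (p : ℕ) [NeZero p] : IsPrimitiveRoot (s29m_zetaM p) p :=
  (Complex.isPrimitiveRoot_exp p (NeZero.ne p)).map_of_injective
    (algebraMap ℂ s29m_M).injective

theorem s29m_zetaM_pow (p i : ℕ) :
    s29m_zetaM p ^ i = algebraMap ℂ s29m_M (cexp (2 * Real.pi * I / p) ^ i) := by
  rw [s29m_zetaM, map_pow]

/-- Elements of `s29m_M` coming from functions. -/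
def s29m_ofFun (f : ℍ → ℂ) (hf : MDiff f) : s29m_M := algebraMap s29m_O s29m_M (s29m_mkO f hf)

theorem s29m_ofFun_ne_zero {f : ℍ → ℂ} (hf : MDiff f) (h : ∃ τ, f τ ≠ 0) :
    s29m_ofFun f hf ≠ 0 := by
  intro h0
  obtain ⟨τ, hτ⟩ := h
  have h1 : s29m_mkO f hf = 0 := s29m_algebraMap_injective (by rw [map_zero]; exact h0)
  exact hτ (congrFun (congrArg Subtype.val h1) τ)

theorem s29m_inclE_div (N : ℕ) (a b : ffm_R N) :
    s29m_inclE N (algebraMap (ffm_R N) (ffm_E N) a / algebraMap (ffm_R N) (ffm_E N) b) =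
      s29m_ofFun (a : ℍ → ℂ) a.2.mdiff / s29m_ofFun (b : ℍ → ℂ) b.2.mdiff := by
  rw [map_div₀, s29m_inclE_algebraMap, s29m_inclE_algebraMap]
  rfl

theorem s29m_Gamma_le_Gamma0 (N : ℕ) : CongruenceSubgroup.Gamma N ≤ Gamma0 N := by
  intro γ hγ
  rw [Gamma_mem] at hγ
  rw [Gamma0_mem]
  exact hγ.2.2.1

/-- Finite order of vanishing of a nonzero element of `ffm_R N`. -/
theorem s29m_exists_order {N : ℕ} (a : ffm_R N) (ha : a ≠ 0) (τ : ℍ) :
    ∃ m : ℕ, analyticOrderAt ((a : ℍ → ℂ) ∘ ofComplex) (τ : ℂ) = (m : ℕ∞) ∧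
      ffm_ordAt N τ (algebraMap (ffm_R N) (ffm_E N) a) = WithZero.exp (-(m : ℤ)) := by
  have h1 := ffm_ordAt_algebraMap_eq_analyticOrderAt N τ a
  have h0 : ffm_ordAt N τ (algebraMap (ffm_R N) (ffm_E N) a) ≠ 0 := by
    rw [Ne, map_eq_zero]
    intro h
    exact ha (ffm_algebraMap_injective N (by rw [h, map_zero]))
  cases hn : analyticOrderAt (ffm_germAt N a) (τ : ℂ) with
  | top =>
    rw [hn] at h1
    exact absurd h1 h0
  | coe m =>
    refine ⟨m, hn, ?_⟩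
    rw [h1, hn]
    rfl

section

variable {K : Type*} {N p : ℕ} [NeZero p] {F : Type*} [Field K] [Field F] [Algebra K F]
  {φ : F →+* ffm_E N}

/-- Root data: `φ h = a / b` and a holomorphic `A` with `A ^ p = a * b ^ (p - 1)`. -/
theorem s29m_exists_root_data (hB : s29m_BridgeHyp K N p φ) (h : F) (hh : h ≠ 0) (D : Divisor K F)
    (hD : ∀ v : Place K F, v.ord h = (p : ℤ) * D v) :
    ∃ (a b : ffm_R N) (A : ℍ → ℂ), b ≠ 0 ∧
      φ h = algebraMap (ffm_R N) (ffm_E N) a / algebraMap (ffm_R N) (ffm_E N) b ∧ MDiff A ∧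
      ∀ τ, A τ ^ p = (a : ℍ → ℂ) τ * (b : ℍ → ℂ) τ ^ (p - 1) := by
  obtain ⟨a, b, hb, hab⟩ := IsFractionRing.div_surjective (A := ffm_R N) (φ h)
  have hb0 : b ≠ 0 := nonZeroDivisors.ne_zero hb
  have hφh : φ h ≠ 0 := (map_ne_zero φ).mpr hh
  have ha0 : a ≠ 0 := by
    rintro rfl
    rw [map_zero, zero_div] at hab
    exact hφh hab.symm
  have hord : ∀ τ : ℍ, ∃ m n : ℕ, analyticOrderAt ((a : ℍ → ℂ) ∘ ofComplex) (τ : ℂ) = (m : ℕ∞) ∧
      analyticOrderAt ((b : ℍ → ℂ) ∘ ofComplex) (τ : ℂ) = (n : ℕ∞) ∧ (p : ℤ) ∣ (m : ℤ) - n := by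
    intro τ
    obtain ⟨m, hm, hm'⟩ := s29m_exists_order a ha0 τ
    obtain ⟨n, hn, hn'⟩ := s29m_exists_order b hb0 τ
    refine ⟨m, n, hm, hn, ?_⟩
    obtain ⟨k, hk⟩ := hB.ord h hh D hD τ
    rw [← hab, map_div₀, hm', hn', ← WithZero.exp_sub, WithZero.exp_inj] at hk
    exact ⟨-k, by linarith⟩
  obtain ⟨A, hA, hAp⟩ := s29r_exists_root_ratio (NeZero.ne p) a.2.mdiff b.2.mdiff hord
  exact ⟨a, b, A, hb0, hab.symm, hA, hAp⟩

theorem s29m_ofFun_root_pow {a b A : ℍ → ℂ} (ha : MDiff a) (hb : MDiff b) (hA : MDiff A)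
    (hb0 : ∃ τ, b τ ≠ 0) (hAp : ∀ τ, A τ ^ p = a τ * b τ ^ (p - 1)) :
    (s29m_ofFun A hA / s29m_ofFun b hb) ^ p = s29m_ofFun a ha / s29m_ofFun b hb := by
  have hbM : s29m_ofFun b hb ≠ 0 := s29m_ofFun_ne_zero hb hb0
  have h1 : s29m_ofFun A hA ^ p = s29m_ofFun a ha * s29m_ofFun b hb ^ (p - 1) := by
    unfold s29m_ofFun
    rw [← map_pow, ← map_pow, ← map_mul]
    congr 1
    apply Subtype.ext
    funext τ
    exact hAp τ
  have hp : p - 1 + 1 = p := Nat.sub_add_cancel (Nat.pos_of_ne_zero (NeZero.ne p))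
  rw [div_pow, h1, div_eq_div_iff (pow_ne_zero _ hbM) hbM, mul_assoc, ← pow_succ, hp]

theorem s29m_ne_zero_of_R {N : ℕ} (b : ffm_R N) (hb : b ≠ 0) : ∃ τ, (b : ℍ → ℂ) τ ≠ 0 := by
  by_contra hcon
  push Not at hcon
  exact hb (Subtype.ext (funext hcon))

/-- **The abstract hypotheses of `KKappa` hold in the concrete situation.** -/
theorem s29m_kappaHyp_of_bridge (hB : s29m_BridgeHyp K N p φ) :
    s29m_KappaHyp K (Gamma0 N) p (s29m_zetaM p) ((s29m_inclE N).comp φ) where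
  prim := s29m_zetaM_prim p
  fix g := s29m_smul_const (g : SL(2, ℤ)) _
  inv h g := by
    show (g : SL(2, ℤ)) • s29m_inclE N (φ h) = s29m_inclE N (φ h)
    rw [← s29m_inclE_smul, hB.inv h g g.2]
  root h hh D hD := by
    obtain ⟨a, b, A, hb0, hab, hA, hAp⟩ := s29m_exists_root_data hB h hh D hD
    refine ⟨s29m_ofFun A hA / s29m_ofFun (b : ℍ → ℂ) b.2.mdiff, ?_⟩
    rw [s29m_ofFun_root_pow a.2.mdiff b.2.mdiff hA (s29m_ne_zero_of_R b hb0) hAp]
    show _ = s29m_inclE N (φ h)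
    rw [hab, s29m_inclE_div]
  desc h hh D hD u hu hfix := by
    obtain ⟨a, b, A, hb0, hab, hA, hAp⟩ := s29m_exists_root_data hB h hh D hD
    have hbτ := s29m_ne_zero_of_R b hb0
    have hbM : s29m_ofFun (b : ℍ → ℂ) b.2.mdiff ≠ 0 := s29m_ofFun_ne_zero b.2.mdiff hbτ
    set u₀ : s29m_M := s29m_ofFun A hA / s29m_ofFun (b : ℍ → ℂ) b.2.mdiff with hu₀
    have hu₀p : u₀ ^ p = s29m_inclE N (φ h) := by
      rw [hu₀, s29m_ofFun_root_pow a.2.mdiff b.2.mdiff hA hbτ hAp, hab, s29m_inclE_div]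
    have hφ0 : s29m_inclE N (φ h) ≠ 0 :=
      (map_ne_zero (s29m_inclE N)).mpr ((map_ne_zero φ).mpr hh)
    have hu₀0 : u₀ ≠ 0 := by
      intro h0
      rw [h0, zero_pow (NeZero.ne p)] at hu₀p
      exact hφ0 hu₀p.symm
    have hu' : u ^ p = s29m_inclE N (φ h) := hu
    have hξ : (u / u₀) ^ p = 1 := by
      rw [div_pow, hu', hu₀p, div_self hφ0]
    obtain ⟨i, -, hi⟩ := (s29m_zetaM_prim p).eq_pow_of_pow_eq_one hξ
    -- the holomorphic function `w = ζ ^ i * A`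
    set c : ℂ := cexp (2 * Real.pi * I / p) ^ i with hc
    have hcp : c ^ p = 1 := by
      rw [hc, pow_right_comm, (Complex.isPrimitiveRoot_exp p (NeZero.ne p)).pow_eq_one, one_pow]
    set w : ℍ → ℂ := fun τ => c * A τ with hw
    have hwM : MDiff w := mdifferentiable_const.mul hA
    have hwu : s29m_ofFun w hwM = u * s29m_ofFun (b : ℍ → ℂ) b.2.mdiff := by
      have h1 : u = s29m_zetaM p ^ i * u₀ := by
        rw [hi, div_mul_cancel₀ _ hu₀0]
      have h2 : s29m_ofFun w hwM = s29m_zetaM p ^ i * s29m_ofFun A hA := by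
        rw [s29m_zetaM_pow, ← hc, IsScalarTower.algebraMap_apply ℂ s29m_O s29m_M]
        unfold s29m_ofFun
        rw [← map_mul]
        rfl
      rw [h2, h1, hu₀, mul_assoc, div_mul_cancel₀ _ hbM]
    have hwp : ∀ τ, w τ ^ p = (a : ℍ → ℂ) τ * (b : ℍ → ℂ) τ ^ (p - 1) := by
      intro τ
      rw [hw]
      simp only
      rw [mul_pow, hcp, one_mul, hAp]
    -- `w` is `Γ(N)`-invariant
    have hwinv : ∀ γ ∈ CongruenceSubgroup.Gamma N, ∀ z : ℍ, w (γ • z) = w z := by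
      intro γ hγ z
      have hγ0 : γ⁻¹ ∈ Gamma0 N := (Gamma0 N).inv_mem (s29m_Gamma_le_Gamma0 N hγ)
      have h1 : (γ⁻¹ : SL(2, ℤ)) • s29m_ofFun w hwM = s29m_ofFun w hwM := by
        rw [hwu, smul_mul']
        have h2 : (γ⁻¹ : SL(2, ℤ)) • u = u := hfix ⟨γ⁻¹, hγ0⟩
        have h3 : (γ⁻¹ : SL(2, ℤ)) • s29m_ofFun (b : ℍ → ℂ) b.2.mdiff =
            s29m_ofFun (b : ℍ → ℂ) b.2.mdiff := by
          unfold s29m_ofFun
          rw [s29m_smul_algebraMap]
          congr 1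
          apply Subtype.ext
          funext z
          show (b : ℍ → ℂ) ((γ⁻¹)⁻¹ • z) = (b : ℍ → ℂ) z
          rw [inv_inv]
          exact b.2.inv γ hγ z
        rw [h2, h3]
      unfold s29m_ofFun at h1
      rw [s29m_smul_algebraMap] at h1
      have h4 := s29m_algebraMap_injective h1
      have h5 := congrFun (congrArg Subtype.val h4) z
      simpa using h5
    have hwWH : ffm_IsWH N w := by
      refine s29m_root_mem_R (Nat.pos_of_ne_zero (NeZero.ne p)) hwM hwinv ?_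
      have : (fun z => w z ^ p) = ((a * b ^ (p - 1) : ffm_R N) : ℍ → ℂ) := by
        funext z
        rw [hwp z]
        rfl
      rw [this]
      exact (a * b ^ (p - 1) : ffm_R N).2
    set W : ffm_R N := ffm_mk w hwWH with hW
    set x : ffm_E N := algebraMap (ffm_R N) (ffm_E N) W / algebraMap (ffm_R N) (ffm_E N) b
      with hx
    have hxu : s29m_inclE N x = u := by
      rw [hx, s29m_inclE_div]
      have : s29m_ofFun (W : ℍ → ℂ) W.2.mdiff = s29m_ofFun w hwM := rfl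
      rw [this, hwu, mul_div_assoc, div_self hbM, mul_one]
    have hxfix : ∀ γ : SL(2, ℤ), γ ∈ Gamma0 N → γ • x = x := by
      intro γ hγ
      apply s29m_inclE_injective N
      rw [s29m_inclE_smul, hxu]
      exact hfix ⟨γ, hγ⟩
    obtain ⟨g', hg'⟩ := hB.fixed x hxfix
    exact ⟨g', by show s29m_inclE N (φ g') = u; rw [hg', hxu]⟩
  const h hh hord := by
    obtain ⟨c, hc⟩ := hB.const h hh hord
    obtain ⟨r, hr⟩ := IsAlgClosed.exists_pow_nat_eq c (Nat.pos_of_ne_zero (NeZero.ne p))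
    refine ⟨algebraMap ℂ s29m_M r, ?_, fun g => s29m_smul_const (g : SL(2, ℤ)) r⟩
    show _ = s29m_inclE N (φ h)
    rw [hc, s29m_inclE_const, ← map_pow, hr]

/-- **The concrete `κ`.** -/
def s29m_kappaC (hB : s29m_BridgeHyp K N p φ) :
    Pic0.torsion K F p →+ (Additive (Gamma0 N) →+ ZMod p) :=
  s29m_kappa ((s29m_inclE N).comp φ) (s29m_kappaHyp_of_bridge hB)

theorem s29m_kappaC_injective (hB : s29m_BridgeHyp K N p φ) :
    Function.Injective (s29m_kappaC hB) :=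
  s29m_kappa_injective (s29m_kappaHyp_of_bridge hB)

/-- **Finiteness of the `p`-torsion.** -/
theorem s29m_finite_torsion [NeZero N] (hB : s29m_BridgeHyp K N p φ) :
    Finite (Pic0.torsion K F p) :=
  s29m_finite_of_injective N p (s29m_kappaC hB) (s29m_kappaC_injective hB)

/-- **Function-level characterisation of `κ`**: for `x = [D]`, `div h = p • D`, any holomorphic
data `φ h = a / b` with `b` invariant under `Γ₀(N)` and any holomorphic `p`-th root `A` of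
`a * b ^ (p - 1)`:  `A (γ τ) = ζ_p ^ κ(x)(γ) · A τ`. -/
theorem s29m_kappaC_fun_spec (hB : s29m_BridgeHyp K N p φ) (x : Pic0.torsion K F p)
    (D : Divisor.degZero (K := K) (F := F)) (hDx : Pic0.mk D = (x : Pic0 K F)) (h : F)
    (hh : h ≠ 0) (hD : ∀ v : Place K F, v.ord h = (p : ℤ) * (D : Divisor K F) v)
    {a b A : ℍ → ℂ} (ha : MDiff a) (hb : MDiff b) (hA : MDiff A) (hb0 : ∃ τ, b τ ≠ 0)
    (hab : s29m_inclE N (φ h) * s29m_ofFun b hb = s29m_ofFun a ha)
    (hbinv : ∀ γ : SL(2, ℤ), γ ∈ Gamma0 N → ∀ z : ℍ, b (γ • z) = b z)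
    (hAp : ∀ τ, A τ ^ p = a τ * b τ ^ (p - 1)) (γ : Gamma0 N) (τ : ℍ) :
    A ((γ : SL(2, ℤ)) • τ) =
      cexp (2 * Real.pi * I / p) ^ (s29m_kappaC hB x (Additive.ofMul γ)).val * A τ := by
  have hbM : s29m_ofFun b hb ≠ 0 := s29m_ofFun_ne_zero hb hb0
  set u : s29m_M := s29m_ofFun A hA / s29m_ofFun b hb with hu
  have hup : u ^ p = s29m_inclE N (φ h) := by
    rw [hu, s29m_ofFun_root_pow ha hb hA hb0 hAp, ← hab, mul_div_assoc, div_self hbM, mul_one]
  have hdata : s29m_IsKData p ((s29m_inclE N).comp φ) (x : Pic0 K F) u :=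
    ⟨D, h, hh, hDx, hD, hup⟩
  have H := s29m_kappaHyp_of_bridge hB
  have hspec := s29m_kummerFun_spec H.prim hdata.ne_zero (hdata.smul_pow H) γ
  rw [← s29m_kappa_apply H x hdata γ] at hspec
  change (γ⁻¹ : Gamma0 N) • u = s29m_zetaM p ^ (s29m_kappaC hB x (Additive.ofMul γ)).val * u
    at hspec
  -- multiply by `b`
  have hbfix : ((γ⁻¹ : Gamma0 N) : SL(2, ℤ)) • s29m_ofFun b hb = s29m_ofFun b hb := by
    unfold s29m_ofFun
    rw [s29m_smul_algebraMap]
    congr 1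
    apply Subtype.ext
    funext z
    show b ((((γ⁻¹ : Gamma0 N) : SL(2, ℤ)))⁻¹ • z) = b z
    rw [Subgroup.coe_inv, inv_inv]
    exact hbinv γ γ.2 z
  have h1 : ((γ⁻¹ : Gamma0 N) : SL(2, ℤ)) • s29m_ofFun A hA =
      s29m_zetaM p ^ (s29m_kappaC hB x (Additive.ofMul γ)).val * s29m_ofFun A hA := by
    have hAu : s29m_ofFun A hA = u * s29m_ofFun b hb := by
      rw [hu, div_mul_cancel₀ _ hbM]
    rw [hAu, smul_mul', hbfix]
    have : ((γ⁻¹ : Gamma0 N) : SL(2, ℤ)) • u = (γ⁻¹ : Gamma0 N) • u := rfl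
    rw [this, hspec, mul_assoc]
  rw [s29m_zetaM_pow, IsScalarTower.algebraMap_apply ℂ s29m_O s29m_M] at h1
  unfold s29m_ofFun at h1
  rw [s29m_smul_algebraMap, ← map_mul] at h1
  have h2 := s29m_algebraMap_injective h1
  have h3 := congrFun (congrArg Subtype.val h2) τ
  simpa using h3

/-- Converse form: if `A (γ τ) = ζ_p ^ ψ(γ) · A τ` then `κ(x)(γ) = ψ(γ)`. -/
theorem s29m_kappaC_eq_of_fun (hB : s29m_BridgeHyp K N p φ) (x : Pic0.torsion K F p)
    (D : Divisor.degZero (K := K) (F := F)) (hDx : Pic0.mk D = (x : Pic0 K F)) (h : F)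
    (hh : h ≠ 0) (hD : ∀ v : Place K F, v.ord h = (p : ℤ) * (D : Divisor K F) v)
    {a b A : ℍ → ℂ} (ha : MDiff a) (hb : MDiff b) (hA : MDiff A) (hb0 : ∃ τ, b τ ≠ 0)
    (hab : s29m_inclE N (φ h) * s29m_ofFun b hb = s29m_ofFun a ha)
    (hbinv : ∀ γ : SL(2, ℤ), γ ∈ Gamma0 N → ∀ z : ℍ, b (γ • z) = b z)
    (hAp : ∀ τ, A τ ^ p = a τ * b τ ^ (p - 1)) (γ : Gamma0 N) (e : ZMod p)
    (hAγ : ∀ τ, A ((γ : SL(2, ℤ)) • τ) = cexp (2 * Real.pi * I / p) ^ e.val * A τ) :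
    s29m_kappaC hB x (Additive.ofMul γ) = e := by
  have hspec := s29m_kappaC_fun_spec hB x D hDx h hh hD ha hb hA hb0 hab hbinv hAp γ
  -- `A ≢ 0`
  have hA0 : ∃ τ, A τ ≠ 0 := by
    by_contra hcon
    push Not at hcon
    have ha0 : s29m_ofFun a ha = 0 := by
      have : s29m_mkO a ha = 0 := by
        apply Subtype.ext
        obtain ⟨τ₀, hτ₀⟩ := hb0
        -- `a * b ^ (p - 1) = 0` as functions, `b ≠ 0`
        have hprod : (a * b ^ (p - 1) : ℍ → ℂ) = 0 := by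
          funext z
          have := hAp z
          rw [hcon z, zero_pow (NeZero.ne p)] at this
          exact this.symm
        rcases (UpperHalfPlane.mul_eq_zero_iff ha (hb.pow (p - 1))).mp hprod with h0 | h0
        · exact h0
        · exfalso
          have := congrFun h0 τ₀
          simp only [Pi.pow_apply, Pi.zero_apply] at this
          exact pow_ne_zero _ hτ₀ this
      unfold s29m_ofFun
      rw [this, map_zero]
    rw [ha0] at hab
    have hbM : s29m_ofFun b hb ≠ 0 := s29m_ofFun_ne_zero hb hb0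
    have hφ0 : s29m_inclE N (φ h) ≠ 0 :=
      (map_ne_zero (s29m_inclE N)).mpr ((map_ne_zero φ).mpr hh)
    exact (mul_ne_zero hφ0 hbM) hab
  obtain ⟨τ, hτ⟩ := hA0
  have h1 := hspec τ
  rw [hAγ τ] at h1
  have h2 := mul_right_cancel₀ hτ h1
  exact (ZMod.val_injective p ((Complex.isPrimitiveRoot_exp p (NeZero.ne p)).pow_inj
    (ZMod.val_lt _) (ZMod.val_lt _) h2)).symm

end

end

end Fermat.Agent.Lib.S29
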