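/-
Plan K (S29), package [EQ], part 8 (owner: helper6): the equivariance of `κ₀ = κ ∘ c`.

Inputs (abstract, to be supplied by [BR], [KAP], [DC]):
* `φ : F →+* ffm_E N`, `hB : s29m_BridgeHyp K N p φ` (the bridge over a constant field `K`, in the
  application `K ≃ ℂ`; gives `κ = s29m_kappaC hB`);
* `j : ℚ̄(X₀(N)) →+* F` with `φ (j f) = s29bp_phi ι N f` (the bridge over `ℂ` restricted to `ℚ̄(X₀(N))` is
  the bridge over `ℚ̄`);
* `c : J₀(N)(ℚ̄) →+ Pic0 K F` with: if `div f = p • D` then `c [D] = [D']` with `div (j f) = p • D'`.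

Output: `s29q_EQ : κ (c (T_ℓ x)) = T_ℓ^H (κ (c x))` for `x ∈ J₀(N)(ℚ̄)[p]`, `ℓ ∤ N`.
-/
import Fermat.Agent.Lib.S29.EQData
import Fermat.Agent.Lib.S29.BPPhi
import Fermat.Agent.Lib.S29.KConcrete

set_option autoImplicit false
set_option linter.unusedSectionVars false
set_option linter.style.haveILetI false

namespace Fermat.Agent.Lib.S29

open UpperHalfPlane hiding I
open Complex Filter Topology ModularForm Function ModularCurve AlgebraicCurve
open Matrix.SpecialLinearGroup CongruenceSubgroup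
open Fermat.Agent.Lib.FF Fermat.Agent.Lib.S28 Fermat.Agent.Lib.S37 Fermat.Agent.Lib.ES
open scoped Manifold MatrixGroups OnePoint

noncomputable section

local notation "Kb" => AlgebraicClosure ℚ

/-! ### Glue: from `q`-expansion identities to identities in `ffm_E N` and `s29m_M` -/

section Glue

variable {K : Type*} [Field K] [Algebra ℚ K] (ι : K →+* ℂ) (N : ℕ)

/-- If `a, b ∈ ffm_R N` have `q`-expansions `xa, xb` with `ι h · xb = xa`, then `φ h · b = a`. -/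
theorem s29q_phi_mul_of_isLaurent (h : ↥(s29bp_FK K N)) (a b : ffm_R N) {xa xb : LaurentSeries ℂ}
    (ha : ffb_IsLaurent (a : ℍ → ℂ) xa) (hb : ffb_IsLaurent (b : ℍ → ℂ) xb)
    (hab : coeffMap ι (h : LaurentSeries K) * xb = xa) :
    s29bp_phi ι N h * algebraMap (ffm_R N) (ffm_E N) b = algebraMap (ffm_R N) (ffm_E N) a := by
  obtain ⟨a', b', hb', h1, h2⟩ := s29bp_exists_frac ι N h
  have hψb' : algebraMap (ffm_R N) (ffm_E N) (s29bp_psi ι N b') ≠ 0 := by
    intro h0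
    apply hb'
    apply s29bp_psi_injective ι N
    apply IsFractionRing.injective (ffm_R N) (ffm_E N)
    rw [h0, map_zero, map_zero]
  -- `ψ a' * b = a * ψ b'` as functions
  have h3 : s29bp_psi ι N a' * b = a * s29bp_psi ι N b' := by
    apply Subtype.ext
    have e1 : ffb_IsLaurent ((s29bp_psi ι N a' * b : ffm_R N) : ℍ → ℂ)
        (coeffMap ι (a' : LaurentSeries K) * xb) := (s29bp_psi_isLaurent ι N a').mul hb
    have e2 : ffb_IsLaurent ((a * s29bp_psi ι N b' : ffm_R N) : ℍ → ℂ)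
        (xa * coeffMap ι (b' : LaurentSeries K)) := ha.mul (s29bp_psi_isLaurent ι N b')
    have e3 : coeffMap ι (a' : LaurentSeries K) * xb = xa * coeffMap ι (b' : LaurentSeries K) := by
      rw [← h1, map_mul, ← hab]
      ring
    rw [e3] at e1
    exact e1.ext e2
  apply mul_right_cancel₀ hψb'
  rw [mul_right_comm, h2, ← map_mul, ← map_mul, h3]

theorem s29q_ofFun_mul {f g : ℍ → ℂ} (hf : MDiff f) (hg : MDiff g) :
    s29m_ofFun f hf * s29m_ofFun g hg = s29m_ofFun (f * g) (hf.mul hg) := by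
  unfold s29m_ofFun
  rw [← map_mul]
  rfl

theorem s29q_ofFun_congr {f g : ℍ → ℂ} (hf : MDiff f) (hg : MDiff g) (h : f = g) :
    s29m_ofFun f hf = s29m_ofFun g hg := by
  subst h
  rfl

/-- The same in `s29m_M`, for arbitrary holomorphic `a, b` with `q`-expansions. -/
theorem s29q_inclE_phi_mul_of_isLaurent (h : ↥(s29bp_FK K N)) {a b : ℍ → ℂ} (hma : MDiff a)
    (hmb : MDiff b) {xa xb : LaurentSeries ℂ} (ha : ffb_IsLaurent a xa) (hb : ffb_IsLaurent b xb)
    (hab : coeffMap ι (h : LaurentSeries K) * xb = xa) :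
    s29m_inclE N (s29bp_phi ι N h) * s29m_ofFun b hmb = s29m_ofFun a hma := by
  obtain ⟨a', b', hb', h1, h2⟩ := s29bp_exists_frac ι N h
  have hψb0 : s29bp_psi ι N b' ≠ 0 := by
    intro h0
    apply hb'
    apply s29bp_psi_injective ι N
    rw [h0, map_zero]
  have hψb' : s29m_ofFun ((s29bp_psi ι N b' : ffm_R N) : ℍ → ℂ) (s29bp_psi ι N b').2.mdiff ≠ 0 :=
    s29m_ofFun_ne_zero _ (s29m_ne_zero_of_R _ hψb0)
  -- `ψ a' * b = a * ψ b'` as functions
  have h3 : ((s29bp_psi ι N a' : ffm_R N) : ℍ → ℂ) * b =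
      a * ((s29bp_psi ι N b' : ffm_R N) : ℍ → ℂ) := by
    have e1 : ffb_IsLaurent (((s29bp_psi ι N a' : ffm_R N) : ℍ → ℂ) * b)
        (coeffMap ι (a' : LaurentSeries K) * xb) := (s29bp_psi_isLaurent ι N a').mul hb
    have e2 : ffb_IsLaurent (a * ((s29bp_psi ι N b' : ffm_R N) : ℍ → ℂ))
        (xa * coeffMap ι (b' : LaurentSeries K)) := ha.mul (s29bp_psi_isLaurent ι N b')
    have e3 : coeffMap ι (a' : LaurentSeries K) * xb = xa * coeffMap ι (b' : LaurentSeries K) := by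
      rw [← h1, map_mul, ← hab]
      ring
    rw [e3] at e1
    exact e1.ext e2
  have h4 := congrArg (s29m_inclE N) h2
  rw [map_mul, s29m_inclE_algebraMap, s29m_inclE_algebraMap] at h4
  change s29m_inclE N (s29bp_phi ι N h) *
      s29m_ofFun ((s29bp_psi ι N b' : ffm_R N) : ℍ → ℂ) (s29bp_psi ι N b').2.mdiff =
    s29m_ofFun ((s29bp_psi ι N a' : ffm_R N) : ℍ → ℂ) (s29bp_psi ι N a').2.mdiff at h4
  apply mul_right_cancel₀ hψb'
  rw [mul_right_comm, h4, s29q_ofFun_mul, s29q_ofFun_mul]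
  exact s29q_ofFun_congr _ _ h3

/-- **Compatibility of the bridges**: if `j : ℚ̄(X₀(N)) → K(X₀(N))` is compatible with the
coefficient embeddings (`ιK (j f) = ι f` on `q`-expansions), then `φ_K ∘ j = φ_ℚ̄`. -/
theorem s29q_phi_comp_eq (ι' : AlgebraicClosure ℚ →+* ℂ)
    (j : ↥(s29bp_FK (AlgebraicClosure ℚ) N) →+* ↥(s29bp_FK K N))
    (hj : ∀ f : ↥(s29bp_FK (AlgebraicClosure ℚ) N), coeffMap ι ((j f : ↥(s29bp_FK K N)) :
      LaurentSeries K) = coeffMap ι' (f : LaurentSeries (AlgebraicClosure ℚ)))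
    (f : ↥(s29bp_FK (AlgebraicClosure ℚ) N)) :
    s29bp_phi ι N (j f) = s29bp_phi ι' N f := by
  obtain ⟨a', b', hb', h1, h2⟩ := s29bp_exists_frac ι' N f
  have hψb' : algebraMap (ffm_R N) (ffm_E N) (s29bp_psi ι' N b') ≠ 0 := by
    intro h0
    apply hb'
    apply s29bp_psi_injective ι' N
    apply IsFractionRing.injective (ffm_R N) (ffm_E N)
    rw [h0, map_zero, map_zero]
  have h3 := s29q_phi_mul_of_isLaurent ι N (j f) (s29bp_psi ι' N a') (s29bp_psi ι' N b')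
    (s29bp_psi_isLaurent ι' N a') (s29bp_psi_isLaurent ι' N b')
    (by rw [hj, ← map_mul, h1])
  apply mul_right_cancel₀ hψb'
  rw [h3, h2]

end Glue

/-! ### Existence and characterisation of function-level data -/

section Main

variable {N p : ℕ} [NeZero N] [NeZero p] (ι : Kb →+* ℂ)
  {K : Type*} [Field K] {F : Type*} [Field F] [Algebra K F] {φ : F →+* ffm_E N}
  (hB : s29m_BridgeHyp K N p φ)
  (j : ffi_F N →+* F) (hjφ : ∀ f : ffi_F N, φ (j f) = s29bp_phi ι N f)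

include hB hjφ

/-- **Existence of function-level data** for `f ∈ ℚ̄(X₀(N))` with `div (j f) = p • D'` over `K`. -/
theorem s29q_exists_funData (f : ffi_F N) (hf : f ≠ 0) (D' : Divisor K F)
    (hD' : ∀ w : Place K F, w.ord (j f) = (p : ℤ) * D' w) :
    ∃ ψ : Additive (Gamma0 N) →+ ZMod p, s29q_FunData ι N p f ψ := by
  obtain ⟨a', b', hb', h1, h2⟩ := s29bp_exists_frac ι N f
  set a : ffm_R N := s29bp_psi ι N a' with ha
  set b : ffm_R N := s29bp_psi ι N b' with hb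
  have hb0 : b ≠ 0 := by
    intro h0
    apply hb'
    apply s29bp_psi_injective ι N
    rw [← hb, h0, map_zero]
  have hbE : algebraMap (ffm_R N) (ffm_E N) b ≠ 0 := by
    intro h0
    apply hb0
    apply IsFractionRing.injective (ffm_R N) (ffm_E N)
    rw [h0, map_zero]
  have hφf : s29bp_phi ι N f ≠ 0 := (map_ne_zero (s29bp_phi ι N)).mpr hf
  have ha0 : a ≠ 0 := by
    intro h0
    rw [h0, map_zero] at h2
    exact (mul_ne_zero hφf hbE) h2
  have hjf : j f ≠ 0 := (map_ne_zero j).mpr hf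
  have hab : φ (j f) = algebraMap (ffm_R N) (ffm_E N) a / algebraMap (ffm_R N) (ffm_E N) b := by
    rw [hjφ, eq_div_iff hbE, h2]
  have hainv : ∀ γ ∈ Gamma0 N, ∀ z : ℍ, (a : ℍ → ℂ) (γ • z) = (a : ℍ → ℂ) z := by
    intro γ hγ z
    have h3 := s29bp_psi_smul ι N (inv_mem hγ) a'
    have h4 := congrFun (congrArg Subtype.val h3) z
    have h5 : ((γ⁻¹ • s29bp_psi ι N a' : ffm_R N) : ℍ → ℂ) z =
        (s29bp_psi ι N a' : ℍ → ℂ) ((γ⁻¹)⁻¹ • z) := rfl
    rw [h5, inv_inv] at h4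
    exact h4
  have hbinv : ∀ γ ∈ Gamma0 N, ∀ z : ℍ, (b : ℍ → ℂ) (γ • z) = (b : ℍ → ℂ) z := by
    intro γ hγ z
    have h3 := s29bp_psi_smul ι N (inv_mem hγ) b'
    have h4 := congrFun (congrArg Subtype.val h3) z
    have h5 : ((γ⁻¹ • s29bp_psi ι N b' : ffm_R N) : ℍ → ℂ) z =
        (s29bp_psi ι N b' : ℍ → ℂ) ((γ⁻¹)⁻¹ • z) := rfl
    rw [h5, inv_inv] at h4
    exact h4
  have hord : ∀ τ : ℍ, ∃ m n : ℕ, analyticOrderAt ((a : ℍ → ℂ) ∘ ofComplex) (τ : ℂ) = (m : ℕ∞) ∧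
      analyticOrderAt ((b : ℍ → ℂ) ∘ ofComplex) (τ : ℂ) = (n : ℕ∞) ∧ (p : ℤ) ∣ (m : ℤ) - n := by
    intro τ
    obtain ⟨m, hm, hm'⟩ := s29m_exists_order a ha0 τ
    obtain ⟨n, hn, hn'⟩ := s29m_exists_order b hb0 τ
    refine ⟨m, n, hm, hn, ?_⟩
    obtain ⟨k, hk⟩ := hB.ord (j f) hjf D' hD' τ
    rw [hab, map_div₀, hm', hn', ← WithZero.exp_sub, WithZero.exp_inj] at hk
    exact ⟨-k, by linarith⟩
  obtain ⟨A, ψ, hA, -, hAp, hAψ⟩ := s29r_root_character (p := p) (Gamma0 N) 0 a.2.mdiff b.2.mdiff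
    (s29m_ne_zero_of_R b hb0) (fun γ hγ τ => by rw [zpow_zero, one_mul]; exact hainv γ hγ τ)
    (fun γ hγ τ => by rw [zpow_zero, one_mul]; exact hbinv γ hγ τ) hord
  refine ⟨ψ, (a : ℍ → ℂ), (b : ℍ → ℂ), A, coeffMap ι (a' : LaurentSeries Kb),
    coeffMap ι (b' : LaurentSeries Kb), a.2.mdiff, b.2.mdiff, hA, ?_, hainv, hbinv,
    s29bp_psi_isLaurent ι N a', s29bp_psi_isLaurent ι N b', ?_, hAp, ?_⟩
  · intro h0
    apply hb0
    exact Subtype.ext h0
  · rw [← map_mul, h1]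
  · intro γ τ
    have := hAψ γ τ
    rw [zpow_zero, mul_one] at this
    exact this

/-- **Characterisation**: function-level data of `f` computes `κ` of the class of `D'`,
`div (j f) = p • D'`. -/
theorem s29q_kappaC_eq_of_funData (f : ffi_F N) (hf : f ≠ 0)
    (D' : Divisor.degZero (K := K) (F := F))
    (hD' : ∀ w : Place K F, w.ord (j f) = (p : ℤ) * (D' : Divisor K F) w)
    (y : Pic0.torsion K F p) (hy : Pic0.mk D' = (y : Pic0 K F))
    {ψ : Additive (Gamma0 N) →+ ZMod p} (hψ : s29q_FunData ι N p f ψ) :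
    s29m_kappaC hB y = ψ := by
  obtain ⟨a, b, A, xa, xb, ha, hb, hA, hb0, -, hbinv, hxa, hxb, hab, hAp, hAψ⟩ := hψ
  have hjf : j f ≠ 0 := (map_ne_zero j).mpr hf
  have hb0' : ∃ τ, b τ ≠ 0 := by
    by_contra hcon
    push Not at hcon
    exact hb0 (funext hcon)
  have habM : s29m_inclE N (φ (j f)) * s29m_ofFun b hb = s29m_ofFun a ha := by
    rw [hjφ]
    exact s29q_inclE_phi_mul_of_isLaurent ι N f ha hb hxa hxb hab
  refine AddMonoidHom.ext fun γ => ?_
  obtain ⟨γ, rfl⟩ := Additive.ofMul.surjective γ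
  exact s29m_kappaC_eq_of_fun hB y D' hy (j f) hjf hD' ha hb hA hb0' habM hbinv hAp γ
    (ψ (Additive.ofMul γ)) (fun τ => hAψ γ τ)

/-- **[EQ], final form**: `κ (c (T_ℓ x)) = T_ℓ^H (κ (c x))` for `x ∈ J₀(N)(ℚ̄)[p]` and a prime
`ℓ ∤ N`.  Here `c : J₀(N)(ℚ̄) →+ Pic0 K F` is any additive map such that, whenever `div f = p • D`
over `ℚ̄`, `c [D] = [D']` for some `D'` with `div (j f) = p • D'` over `K`; and `ct` is its
restriction to the `p`-torsion. -/
theorem s29q_EQ (c : JZero N →+ Pic0 K F)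
    (hc : ∀ (D : Divisor.degZero (K := Kb) (F := ffi_F N)) (f : ffi_F N), f ≠ 0 →
      (∀ v : Place Kb (ffi_F N), v.ord f = (p : ℤ) * (D : Divisor Kb (ffi_F N)) v) →
      ∃ D' : Divisor.degZero (K := K) (F := F), c (Pic0.mk D) = Pic0.mk D' ∧
        ∀ w : Place K F, w.ord (j f) = (p : ℤ) * (D' : Divisor K F) w)
    (ct : s29k_Jp N p → Pic0.torsion K F p)
    (hct : ∀ x : s29k_Jp N p, (ct x : Pic0 K F) = c (x : JZero N))
    (ℓ : ℕ) [hℓ : Fact ℓ.Prime] (hℓN : ¬ ℓ ∣ N) (x : s29k_Jp N p) :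
    s29m_kappaC hB (ct (s29k_Tl N p ⟨ℓ, hℓ.out⟩ x)) =
      s29h_heckeHom N ℓ (ZMod p) (s29m_kappaC hB (ct x)) := by
  refine s29q_equivariant ℓ ι hℓN (fun x => s29m_kappaC hB (ct x)) ?_ ?_ x
  · intro D f hf hDf
    obtain ⟨D', -, hD'⟩ := hc D f hf hDf
    exact s29q_exists_funData ι hB j hjφ f hf D' hD'
  · intro D f hf hDf ψ hψ x hx
    obtain ⟨D', hcD, hD'⟩ := hc D f hf hDf
    exact s29q_kappaC_eq_of_funData ι hB j hjφ f hf D' hD' (ct x) (by rw [hct, hx, hcD]) hψ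

end Main

end

end Fermat.Agent.Lib.S29
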