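/-
S29 (Plan K), package [BR] (helper1): the `Γ₀(N)`-invariants of the analytic model field
`ffm_E N` are exactly the image of the bridge `φ = s29bp_phi ι N : FK → ffm_E N` (helper4's
`BPPhi.lean`), i.e. `ℂ(j, j_N)`; degrees over `ℂ(j)`.

* `s29b_E0 N : IntermediateField ℂ (ffm_E N)` — the `Γ₀(N)`-invariants;
* `s29b_finrank_E0` : `[E₀ : ℂ(j)] = #(SL₂(ℤ)/Γ₀(N))` (abstract degree theorem `ffg_finrank_eq`);
* `s29b_finrank_FK` : `[FK : K(J)] = #(SL₂(ℤ)/Γ₀(N))` for every constant field `K ⊆ ℂ`;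
* `s29b_phi_surjective_invariants` (BR2-model) : if `ι : K →+* ℂ` is surjective, every
  `Γ₀(N)`-invariant `x : ffm_E N` is `φ h` for some `h ∈ FK`.
-/
import Fermat.Agent.Lib.S29.BPPhi
import Fermat.Agent.Lib.FF.FFBasicDedekind

set_option autoImplicit false

namespace Fermat.Agent.Lib.S29

open UpperHalfPlane hiding I
open ModularCurve IntermediateField Matrix.SpecialLinearGroup CongruenceSubgroup Polynomial
open Fermat.Agent.Lib.FF
open scoped MatrixGroups

noncomputable section

variable (N : ℕ)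

/-- `j` as an element of the model field. -/
def s29b_jE : ffm_E N := algebraMap (ffm_R N) (ffm_E N) (ffg_jR N)

theorem s29b_jE_smul (γ : SL(2, ℤ)) : γ • s29b_jE N = s29b_jE N := by
  rw [s29b_jE, ffm_smul_algebraMap, ffg_jR_smul]

/-- `j` is transcendental over `ℂ` in the model field. -/
theorem s29b_transcendental_jE : Transcendental ℂ (s29b_jE N) := by
  rw [transcendental_iff]
  intro P hP
  rw [s29b_jE, Polynomial.aeval_algebraMap_apply] at hP
  have h1 : aeval (ffg_jR N) P = 0 :=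
    (map_eq_zero_iff _ (ffm_algebraMap_injective N)).mp hP
  -- `P` vanishes at every value of `j`, i.e. everywhere
  by_contra hP0
  have hfin : (P.rootSet ℂ).Finite := Polynomial.rootSet_finite P ℂ
  apply Set.infinite_univ (α := ℂ)
  refine hfin.subset fun c _ => ?_
  obtain ⟨z, hz⟩ := ffj_surjective c
  rw [Polynomial.mem_rootSet]
  refine ⟨hP0, ?_⟩
  have h2 := congrArg (fun f : ffm_R N => (f : ℍ → ℂ) z) h1
  simp only [ffg_aeval_jR_apply] at h2
  rw [hz] at h2
  rw [Polynomial.coe_aeval_eq_eval]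
  exact h2

/-- The `Γ₀(N)`-invariants of the model field. -/
def s29b_E0 : IntermediateField ℂ (ffm_E N) where
  carrier := {x | ∀ γ ∈ Gamma0 N, γ • x = x}
  mul_mem' := fun {a b} ha hb γ hγ => by rw [smul_mul', ha γ hγ, hb γ hγ]
  one_mem' := fun γ _ => smul_one γ
  add_mem' := fun {a b} ha hb γ hγ => by rw [smul_add, ha γ hγ, hb γ hγ]
  zero_mem' := fun γ _ => smul_zero γ
  algebraMap_mem' := fun c γ _ => smul_algebraMap γ c
  inv_mem' := fun a ha γ hγ => by rw [smul_inv'', ha γ hγ]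

theorem s29b_mem_E0 {x : ffm_E N} : x ∈ s29b_E0 N ↔ ∀ γ ∈ Gamma0 N, γ • x = x := Iff.rfl

theorem s29b_jE_mem_E0 : s29b_jE N ∈ s29b_E0 N := fun γ _ => s29b_jE_smul N γ

section Generic

variable {K : Type*} [Field K] [Algebra ℚ K] (ι : K →+* ℂ)

theorem s29b_phi_mem_E0 (h : ↥(s29bp_FK K N)) : s29bp_phi ι N h ∈ s29b_E0 N :=
  fun _ hγ => s29bp_phi_smul ι N hγ h

theorem s29b_phi_jK : s29bp_phi ι N (s29bp_jK K N) = s29b_jE N := s29bp_phi_j ι N

/-- The inclusion `FK → K((q))` as a `K`-linear map (coefficientwise module structure). -/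
def s29b_ex (K : Type*) [Field K] [Algebra ℚ K] (N : ℕ) :
    ↥(s29bp_FK K N) →ₗ[K] LaurentSeries K where
  toFun x := (x : LaurentSeries K)
  map_add' _ _ := rfl
  map_smul' c x := by
    simp only [RingHom.id_apply]
    rw [IntermediateField.coe_smul, Algebra.smul_def, algebraMap_laurentSeries_eq_single]
    exact HahnSeries.C_mul_eq_smul

theorem s29b_ex_injective : Function.Injective (s29b_ex K N) :=
  fun _ _ h => Subtype.ext h

/-- **Linear disjointness**: `φ` maps `K`-linearly independent families to `ℂ`-linearly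
independent families. -/
theorem s29b_phi_linearIndependent {I : Type*} (x : I → ↥(s29bp_FK K N))
    (hx : LinearIndependent K x) : LinearIndependent ℂ (fun i => s29bp_phi ι N (x i)) := by
  refine ffg_linearIndependent_lift ι (s29bp_psi ι N) (s29bp_phi ι N) (s29bp_phi_algebraMap ι N)
    (s29b_ex K N) (s29b_ex_injective N)
    (fun r y => ffb_IsLaurent (r : ℍ → ℂ) y) ?_ ?_ ffg_isLaurent_zero ?_
    (fun a => s29bp_psi_isLaurent ι N a) x hx
  · intro r s y z hr hs
    exact hr.add hs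
  · intro c r y hr
    have h1 := (ffb_IsLaurent.const c).mul hr
    rw [HahnSeries.C_mul_eq_smul] at h1
    exact h1
  · intro y hy
    exact ffb_IsLaurent.unique hy ffg_isLaurent_zero

end Generic

variable [NeZero N]

/-- `z ↦ j (N z)` as an element of the model ring. -/
def s29b_jNR : ffm_R N := ⟨ffb_jd N, ffb_jd_isWH N dvd_rfl⟩

/-- `z ↦ j (N z)` as an element of the model field. -/
def s29b_jNE : ffm_E N := algebraMap (ffm_R N) (ffm_E N) (s29b_jNR N)

theorem s29b_jNE_eq {K : Type*} [Field K] [Algebra ℚ K] (ι : K →+* ℂ) :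
    s29b_jNE N = s29bp_phi ι N (s29bp_jdK K N dvd_rfl) := by
  rw [s29bp_phi_jd]
  rfl

theorem s29b_jNE_mem_E0 : s29b_jNE N ∈ s29b_E0 N := by
  intro γ hγ
  rw [s29b_jNE, ffm_smul_algebraMap]
  congr 1
  ext z
  show ffb_jd N (γ⁻¹ • z) = ffb_jd N z
  exact ffb_jd_smul_of_mem_Gamma0 N dvd_rfl (inv_mem hγ) z

/-- DIST: an element of `SL(2, ℤ)` fixing `j_N` lies in `Γ₀(N)`. -/
theorem s29b_mem_Gamma0_of_smul_jNE (γ : SL(2, ℤ)) (h : γ • s29b_jNE N = s29b_jNE N) :
    γ ∈ Gamma0 N := by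
  have h1 : γ • s29b_jNR N = s29b_jNR N := by
    apply ffm_algebraMap_injective N
    rw [← ffm_smul_algebraMap]
    exact h
  refine ffg_mem_Gamma0_of_j_scale_eq (NeZero.ne N) (ffb_dmul N) (fun z => ffb_dmul_coe N z) γ
    fun z => ?_
  have := congrArg (fun g : ffm_R N => (g : ℍ → ℂ) z) h1
  simpa [s29b_jNR, ffb_jd_apply] using this

/-- `j` as an element of the invariant field. -/
def s29b_j0 : s29b_E0 N := ⟨s29b_jE N, s29b_jE_mem_E0 N⟩

/-- `j_N` as an element of the invariant field. -/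
def s29b_jN0 : s29b_E0 N := ⟨s29b_jNE N, s29b_jNE_mem_E0 N⟩

omit [NeZero N] in
theorem s29b_transcendental_j0 : Transcendental ℂ (s29b_j0 N) := by
  have h := s29b_transcendental_jE N
  rw [transcendental_iff] at h ⊢
  intro P hP
  apply h P
  have := congrArg (algebraMap (s29b_E0 N) (ffm_E N)) hP
  rw [map_zero, ← Polynomial.aeval_algebraMap_apply] at this
  exact this

/-- **The degree of the invariant field**: `[E₀ : ℂ(j)] = #(SL₂(ℤ)/Γ₀(N))`. -/
theorem s29b_finrank_E0 :
    FiniteDimensional (ℂ⟮s29b_j0 N⟯) (s29b_E0 N) ∧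
      Module.finrank (ℂ⟮s29b_j0 N⟯) (s29b_E0 N) = Fintype.card (Fermat.Agent.Lib.RR.Q N) := by
  refine ffg_finrank_eq (K := ℂ) (C := ℂ) (F := s29b_E0 N) (E := ffm_E N) (G := SL(2, ℤ))
    (algebraMap (s29b_E0 N) (ffm_E N)) (Gamma0 N) (s29b_j0 N)
    (fun h hh x => x.2 h hh) (fun g c => smul_algebraMap g c) (fun g => s29b_jE_smul N g)
    (fun g hg => s29b_mem_Gamma0_of_smul_jNE N g (hg (s29b_jN0 N)))
    (s29b_transcendental_j0 N) (fun x hx => ffg_model_invariants N x hx) ?_
  intro ι x hx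
  exact hx.map' (s29b_E0 N).val.toLinearMap
    (LinearMap.ker_eq_bot.mpr (s29b_E0 N).val.injective)

section Generic

variable {K : Type*} [Field K] [Algebra ℚ K] (ι : K →+* ℂ)

omit [NeZero N] in
include ι in
theorem s29b_transcendental_jK : Transcendental K (s29bp_jK K N) := by
  have h := s29b_transcendental_jE N
  rw [transcendental_iff] at h ⊢
  intro P hP
  have h1 : P.map ι = 0 := by
    apply h
    have h2 := congrArg (s29bp_phi ι N) hP
    rw [map_zero] at h2
    rw [← h2, ← s29b_phi_jK N ι, Polynomial.aeval_def, Polynomial.aeval_def,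
      Polynomial.eval₂_map, Polynomial.hom_eval₂]
    congr 1
    ext c
    simp only [RingHom.comp_apply]
    exact (s29bp_phi_const ι N c).symm
  exact (Polynomial.map_eq_zero_iff ι.injective).mp h1

include ι in
/-- **The degree of `FK`**: `[FK : K(J)] = #(SL₂(ℤ)/Γ₀(N))`. -/
theorem s29b_finrank_FK :
    FiniteDimensional (K⟮s29bp_jK K N⟯) ↥(s29bp_FK K N) ∧
      Module.finrank (K⟮s29bp_jK K N⟯) ↥(s29bp_FK K N) =
        Fintype.card (Fermat.Agent.Lib.RR.Q N) := by
  have hchar : CharZero K := algebraRat.charZero K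
  refine ffg_finrank_eq (K := K) (C := ℂ) (F := ↥(s29bp_FK K N)) (E := ffm_E N) (G := SL(2, ℤ))
    (s29bp_phi ι N) (Gamma0 N) (s29bp_jK K N)
    (fun h hh x => s29bp_phi_smul ι N hh x)
    (fun g c => s29bp_phi_const_smul ι N g c)
    (fun g => s29bp_phi_j_smul ι N g)
    (fun g hg => s29b_mem_Gamma0_of_smul_jNE N g (by rw [s29b_jNE_eq N ι]; exact hg _))
    (s29b_transcendental_jK N ι)
    (fun x hx => by rw [s29b_phi_jK]; exact ffg_model_invariants N x hx)
    (fun I x hx => s29b_phi_linearIndependent N ι x hx)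

include ι in
/-- `j` generates `FK` as a function field: transcendental, and `FK` is finite over `K(j)`. -/
theorem s29b_ffGen : FFGen K (s29bp_jK K N) where
  transc := s29b_transcendental_jK N ι
  finite := (s29b_finrank_FK N ι).1

/-- DIST for the bridge: an element of `SL(2, ℤ)` fixing `φ FK` pointwise lies in `Γ₀(N)`. -/
theorem s29b_dist (γ : SL(2, ℤ))
    (h : ∀ x : ↥(s29bp_FK K N), γ • s29bp_phi ι N x = s29bp_phi ι N x) : γ ∈ Gamma0 N :=
  s29b_mem_Gamma0_of_smul_jNE N γ (by rw [s29b_jNE_eq N ι]; exact h _)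

/-- The twisted embeddings `σ_q = q.out • φ ·` are pairwise distinct. -/
theorem s29b_sigma_injective :
    Function.Injective (fun q : Fermat.Agent.Lib.RR.Q N =>
      (MulSemiringAction.toRingHom SL(2, ℤ) (ffm_E N) q.out).comp (s29bp_phi ι N)) := by
  intro q q' hqq'
  have h1 : ∀ x : ↥(s29bp_FK K N),
      (q'.out⁻¹ * q.out) • s29bp_phi ι N x = s29bp_phi ι N x := by
    intro x
    have h2 : q.out • s29bp_phi ι N x = q'.out • s29bp_phi ι N x :=
      congrArg (fun f : ↥(s29bp_FK K N) →+* ffm_E N => f x) hqq'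
    rw [mul_smul, h2, inv_smul_smul]
  have h3 := s29b_dist N ι _ h1
  rw [← QuotientGroup.out_eq' q, ← QuotientGroup.out_eq' q']
  exact (QuotientGroup.eq.mpr h3).symm

end Generic

end

end Fermat.Agent.Lib.S29
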