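/-
S29 (Plan K), package [BR] (helper1): **BR2-model** — every `Γ₀(N)`-invariant element of the
analytic model field `ffm_E N` lies in the image of the bridge `φ = s29bp_phi ι N` (when
`ι : K →+* ℂ` is surjective, e.g. `K = ℂ`, `ι = id`).

Route: `E₀ = ℂ(j)(j_N)` because `j_N` has `#(SL₂(ℤ)/Γ₀(N)) = [E₀ : ℂ(j)]` distinct conjugates
`g • j_N`; both generators are in the image of `φ`.
-/
import Fermat.Agent.Lib.S29.BModel

set_option autoImplicit false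

namespace Fermat.Agent.Lib.S29

open UpperHalfPlane hiding I
open ModularCurve IntermediateField Matrix.SpecialLinearGroup CongruenceSubgroup Polynomial
open Fermat.Agent.Lib.FF
open scoped MatrixGroups

noncomputable section

variable (N : ℕ) [NeZero N]

/-- `E₀ = ℂ(j)(j_N)`: the invariant field is generated over `ℂ(j)` by `j_N`. -/
theorem s29b_adjoin_jN0_eq_top : (ℂ⟮s29b_j0 N⟯)⟮s29b_jN0 N⟯ = ⊤ := by
  classical
  obtain ⟨hfd, hrank⟩ := s29b_finrank_E0 N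
  let _ : Algebra ℂ⟮s29b_j0 N⟯ (ffm_E N) :=
    ((algebraMap (s29b_E0 N) (ffm_E N)).comp (algebraMap ℂ⟮s29b_j0 N⟯ (s29b_E0 N))).toAlgebra
  have hLE : ∀ x : ℂ⟮s29b_j0 N⟯, algebraMap ℂ⟮s29b_j0 N⟯ (ffm_E N) x =
      algebraMap (s29b_E0 N) (ffm_E N) (x : s29b_E0 N) := fun _ => rfl
  have hH : ∀ h ∈ Gamma0 N, ∀ x : s29b_E0 N,
      h • algebraMap (s29b_E0 N) (ffm_E N) x = algebraMap (s29b_E0 N) (ffm_E N) x :=
    fun h hh x => x.2 h hh
  have hGK : ∀ (g : SL(2, ℤ)) (c : ℂ),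
      g • algebraMap (s29b_E0 N) (ffm_E N) (algebraMap ℂ (s29b_E0 N) c) =
        algebraMap (s29b_E0 N) (ffm_E N) (algebraMap ℂ (s29b_E0 N) c) :=
    fun g c => smul_algebraMap g c
  have hjinv : ∀ g : SL(2, ℤ), g • algebraMap (s29b_E0 N) (ffm_E N) (s29b_j0 N) =
      algebraMap (s29b_E0 N) (ffm_E N) (s29b_j0 N) := fun g => s29b_jE_smul N g
  let σ : Fermat.Agent.Lib.RR.Q N → (s29b_E0 N →ₐ[ℂ⟮s29b_j0 N⟯] ffm_E N) :=
    ffg_sigma (algebraMap (s29b_E0 N) (ffm_E N)) (Gamma0 N) (s29b_j0 N) hLE hH hGK hjinv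
  let σ' : Fermat.Agent.Lib.RR.Q N →
      ((ℂ⟮s29b_j0 N⟯)⟮s29b_jN0 N⟯ →ₐ[ℂ⟮s29b_j0 N⟯] ffm_E N) :=
    fun q => (σ q).comp (IntermediateField.val _)
  have hσ' : Function.Injective σ' := by
    intro q q' hqq'
    have h1 := congrArg (fun f : (ℂ⟮s29b_j0 N⟯)⟮s29b_jN0 N⟯ →ₐ[ℂ⟮s29b_j0 N⟯] ffm_E N =>
      f (AdjoinSimple.gen ℂ⟮s29b_j0 N⟯ (s29b_jN0 N))) hqq'
    induction q using QuotientGroup.induction_on with
    | H g =>
      induction q' using QuotientGroup.induction_on with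
      | H g' =>
        have h2 : g • s29b_jNE N = g' • s29b_jNE N := h1
        rw [QuotientGroup.eq]
        apply s29b_mem_Gamma0_of_smul_jNE N
        rw [mul_smul, ← h2, inv_smul_smul]
  have hcard := ffg_card_le_finrank σ' hσ'
  refine IntermediateField.eq_of_le_of_finrank_le le_top ?_
  rw [IntermediateField.finrank_top', hrank]
  exact hcard

section Generic

variable {K : Type*} [Field K] [Algebra ℚ K] (ι : K →+* ℂ)

/-- **BR2-model**: every `Γ₀(N)`-invariant element of the model field is in the image of `φ`. -/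
theorem s29b_phi_surjective_invariants (hι : Function.Surjective ι) (x : ffm_E N)
    (hx : ∀ γ : SL(2, ℤ), γ ∈ Gamma0 N → γ • x = x) :
    ∃ h : ↥(s29bp_FK K N), s29bp_phi ι N h = x := by
  -- the statement for elements of `ℂ(j)`
  have hk : ∀ c : ℂ⟮s29b_j0 N⟯, ∃ h : ↥(s29bp_FK K N),
      s29bp_phi ι N h = ((c : s29b_E0 N) : ffm_E N) := by
    rintro ⟨c, hc⟩
    induction hc using IntermediateField.adjoin_induction with
    | mem y hy =>
      rw [Set.mem_singleton_iff] at hy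
      subst hy
      exact ⟨s29bp_jK K N, s29b_phi_jK N ι⟩
    | algebraMap c =>
      obtain ⟨c', rfl⟩ := hι c
      exact ⟨algebraMap K _ c', s29bp_phi_const ι N c'⟩
    | add y z _ _ ihy ihz =>
      obtain ⟨a, ha⟩ := ihy
      obtain ⟨b, hb⟩ := ihz
      exact ⟨a + b, by rw [map_add, ha, hb]; rfl⟩
    | inv y _ ihy =>
      obtain ⟨a, ha⟩ := ihy
      exact ⟨a⁻¹, by rw [map_inv₀, ha]; rfl⟩
    | mul y z _ _ ihy ihz =>
      obtain ⟨a, ha⟩ := ihy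
      obtain ⟨b, hb⟩ := ihz
      exact ⟨a * b, by rw [map_mul, ha, hb]; rfl⟩
  have hmem : (⟨x, hx⟩ : s29b_E0 N) ∈ (ℂ⟮s29b_j0 N⟯)⟮s29b_jN0 N⟯ := by
    rw [s29b_adjoin_jN0_eq_top]
    exact IntermediateField.mem_top
  suffices H : ∀ y : s29b_E0 N, y ∈ (ℂ⟮s29b_j0 N⟯)⟮s29b_jN0 N⟯ →
      ∃ h : ↥(s29bp_FK K N), s29bp_phi ι N h = (y : ffm_E N) from H _ hmem
  intro y hy
  induction hy using IntermediateField.adjoin_induction with
  | mem y hy =>
    rw [Set.mem_singleton_iff] at hy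
    subst hy
    exact ⟨s29bp_jdK K N dvd_rfl, (s29b_jNE_eq N ι).symm⟩
  | algebraMap c => exact hk c
  | add y z _ _ ihy ihz =>
    obtain ⟨a, ha⟩ := ihy
    obtain ⟨b, hb⟩ := ihz
    exact ⟨a + b, by rw [map_add, ha, hb]; rfl⟩
  | inv y _ ihy =>
    obtain ⟨a, ha⟩ := ihy
    exact ⟨a⁻¹, by rw [map_inv₀, ha]; rfl⟩
  | mul y z _ _ ihy ihz =>
    obtain ⟨a, ha⟩ := ihy
    obtain ⟨b, hb⟩ := ihz
    exact ⟨a * b, by rw [map_mul, ha, hb]; rfl⟩

/-- The image of `φ` is exactly the field of `Γ₀(N)`-invariants. -/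
theorem s29b_range_phi_eq (hι : Function.Surjective ι) (x : ffm_E N) :
    (∃ h : ↥(s29bp_FK K N), s29bp_phi ι N h = x) ↔ ∀ γ : SL(2, ℤ), γ ∈ Gamma0 N → γ • x = x :=
  ⟨fun ⟨h, hh⟩ _ hγ => hh ▸ s29bp_phi_smul ι N hγ h,
    s29b_phi_surjective_invariants N ι hι x⟩

end Generic

end

end Fermat.Agent.Lib.S29
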