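/-
Plan K (S29), package [KAP], FINAL (owner: helper5): the unconditional Kummer map over `K ≃ ℂ`.

For `K` an algebraically closed field of characteristic zero with a SURJECTIVE `ι : K →+* ℂ`
(in the application `K = ℂ`, `ι = id`), `FK = s29bp_FK K N`, `φ = s29bp_phi ι N`:

* `s29m_bridgeHypK ι N hι p : s29m_BridgeHyp K N p (s29bp_phi ι N)`  (helper1's `s29b_ffGen`,
  `s29b_phi_surjective_invariants` + helper4's `s29bp_phi_smul`, `s29bp_phi_const` + `KBridge`);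
* `s29m_kappaK ι N hι p : Pic0.torsion K FK p →+ (Additive (Gamma0 N) →+ ZMod p)`, injective;
* `s29m_finite_torsionK : Finite (Pic0.torsion K FK p)`;
* the function-level characterisations are `s29m_kappaC_fun_spec` / `s29m_kappaC_eq_of_fun` applied to
  `s29m_bridgeHypK ι N hι p` (restated here as `s29m_kappaK_fun_spec` / `s29m_kappaK_eq_of_fun`).
-/
import Mathlib
import Fermat.Agent.Lib.S29.BModel
import Fermat.Agent.Lib.S29.BFixed
import Fermat.Agent.Lib.S29.KBridge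

set_option autoImplicit false

open AlgebraicCurve

namespace Fermat.Agent.Lib.S29

open Fermat.Agent.Lib.FF
open UpperHalfPlane hiding I
open Complex CongruenceSubgroup
open scoped MatrixGroups Manifold

noncomputable section

variable {K : Type*} [Field K] [Algebra ℚ K] [CharZero K] [IsAlgClosed K] (ι : K →+* ℂ)
  (N : ℕ) [NeZero N]

/-- **The bridge hypotheses hold for helper4's bridge `s29bp_phi ι N`** (`ι` surjective). -/
theorem s29m_bridgeHypK (hι : Function.Surjective ι) (p : ℕ) :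
    s29m_BridgeHyp K N p (s29bp_phi ι N) :=
  haveI : FFGen K (s29bp_jK K N) := s29b_ffGen N ι
  s29m_bridgeHyp ι N p (s29bp_jK K N) (fun y hy => s29b_phi_surjective_invariants N ι hι y hy)

variable (p : ℕ) [NeZero p]

/-- **The Kummer map `κ : J(K)[p] →+ Hom(Γ₀(N), 𝔽_p)`**, `K ≃ ℂ`. -/
def s29m_kappaK (hι : Function.Surjective ι) :
    Pic0.torsion K ↥(s29bp_FK K N) p →+ (Additive (Gamma0 N) →+ ZMod p) :=
  s29m_kappaC (s29m_bridgeHypK ι N hι p)

theorem s29m_kappaK_injective (hι : Function.Surjective ι) :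
    Function.Injective (s29m_kappaK ι N p hι) :=
  s29m_kappaC_injective (s29m_bridgeHypK ι N hι p)

/-- **`J(K)[p]` is finite** (`K ≃ ℂ`). -/
theorem s29m_finite_torsionK (hι : Function.Surjective ι) :
    Finite (Pic0.torsion K ↥(s29bp_FK K N) p) :=
  s29m_finite_torsion (s29m_bridgeHypK ι N hι p)

/-- Function-level characterisation of `κ` (see `s29m_kappaC_fun_spec`). -/
theorem s29m_kappaK_fun_spec (hι : Function.Surjective ι)
    (x : Pic0.torsion K ↥(s29bp_FK K N) p)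
    (D : Divisor.degZero (K := K) (F := ↥(s29bp_FK K N)))
    (hDx : Pic0.mk D = (x : Pic0 K ↥(s29bp_FK K N))) (h : ↥(s29bp_FK K N)) (hh : h ≠ 0)
    (hD : ∀ v : Place K ↥(s29bp_FK K N),
      v.ord h = (p : ℤ) * (D : Divisor K ↥(s29bp_FK K N)) v)
    {a b A : ℍ → ℂ} (ha : MDiff a) (hb : MDiff b) (hA : MDiff A) (hb0 : ∃ τ, b τ ≠ 0)
    (hab : s29m_inclE N (s29bp_phi ι N h) * s29m_ofFun b hb = s29m_ofFun a ha)
    (hbinv : ∀ γ : SL(2, ℤ), γ ∈ Gamma0 N → ∀ z : ℍ, b (γ • z) = b z)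
    (hAp : ∀ τ, A τ ^ p = a τ * b τ ^ (p - 1)) (γ : Gamma0 N) (τ : ℍ) :
    A ((γ : SL(2, ℤ)) • τ) =
      cexp (2 * Real.pi * I / p) ^ (s29m_kappaK ι N p hι x (Additive.ofMul γ)).val * A τ :=
  s29m_kappaC_fun_spec (s29m_bridgeHypK ι N hι p) x D hDx h hh hD ha hb hA hb0 hab hbinv hAp γ τ

/-- Converse function-level characterisation of `κ` (see `s29m_kappaC_eq_of_fun`). -/
theorem s29m_kappaK_eq_of_fun (hι : Function.Surjective ι)
    (x : Pic0.torsion K ↥(s29bp_FK K N) p)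
    (D : Divisor.degZero (K := K) (F := ↥(s29bp_FK K N)))
    (hDx : Pic0.mk D = (x : Pic0 K ↥(s29bp_FK K N))) (h : ↥(s29bp_FK K N)) (hh : h ≠ 0)
    (hD : ∀ v : Place K ↥(s29bp_FK K N),
      v.ord h = (p : ℤ) * (D : Divisor K ↥(s29bp_FK K N)) v)
    {a b A : ℍ → ℂ} (ha : MDiff a) (hb : MDiff b) (hA : MDiff A) (hb0 : ∃ τ, b τ ≠ 0)
    (hab : s29m_inclE N (s29bp_phi ι N h) * s29m_ofFun b hb = s29m_ofFun a ha)
    (hbinv : ∀ γ : SL(2, ℤ), γ ∈ Gamma0 N → ∀ z : ℍ, b (γ • z) = b z)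
    (hAp : ∀ τ, A τ ^ p = a τ * b τ ^ (p - 1)) (γ : Gamma0 N) (e : ZMod p)
    (hAγ : ∀ τ, A ((γ : SL(2, ℤ)) • τ) = cexp (2 * Real.pi * I / p) ^ e.val * A τ) :
    s29m_kappaK ι N p hι x (Additive.ofMul γ) = e :=
  s29m_kappaC_eq_of_fun (s29m_bridgeHypK ι N hι p) x D hDx h hh hD ha hb hA hb0 hab hbinv hAp γ e
    hAγ

end

end Fermat.Agent.Lib.S29
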