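/-
Plan K (S29), package [KAP], part 6 (owner: helper5): the bridge hypotheses `s29m_BridgeHyp`
for `F = s29bp_FK K N`, `φ = s29bp_phi ι N` (helper4's bridge).

* `s29m_place_of_valuation` : a nontrivial `ℤᵐ⁰`-valued valuation on `F`, `≤ 1` on `K`, is a positive
  multiple of the order function of a place of `F / K` (generic);
* `s29m_bridge_ord` : the `ord` field, for any `φ : F →+* ffm_E N` sending constants to constants;
* `s29m_bridge_const` : the `const` field, from `FFGen K x` (`K` algebraically closed, char. 0);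
* `s29m_bridgeHyp` : the structure, given the `fixed` field ([BR2]) and `FFGen K j`.
-/
import Mathlib
import Fermat.Agent.Lib.S18.EConst
import Fermat.Agent.Lib.S29.BPPhi
import Fermat.Agent.Lib.S29.KConcrete

set_option autoImplicit false

open AlgebraicCurve WithZero

namespace Fermat.Agent.Lib.S29

open Fermat.Agent.Lib.FF Fermat.Agent.Lib.S18
open UpperHalfPlane hiding I
open CongruenceSubgroup
open scoped MatrixGroups

instance s29m_isCyclic_units_intWithZero : IsCyclic (ℤᵐ⁰)ˣ :=
  isCyclic_of_surjective (WithZero.unitsWithZeroEquiv (α := Multiplicative ℤ)).symm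
    (WithZero.unitsWithZeroEquiv (α := Multiplicative ℤ)).symm.surjective

section Generic

variable {K F : Type*} [Field K] [Field F] [Algebra K F]

theorem s29m_nontrivial_valueGroup (w : Valuation F ℤᵐ⁰) (hnt : ∃ t : F, t ≠ 0 ∧ w t < 1) :
    Nontrivial (MonoidWithZeroHom.valueGroup (MonoidWithZeroHom.ofClass w)) := by
  obtain ⟨t, ht0, ht⟩ := hnt
  have hwt0 : w t ≠ 0 := (Valuation.ne_zero_iff w).mpr ht0
  refine ⟨⟨⟨Units.mk0 (w t) hwt0, MonoidWithZeroHom.mem_valueGroup _ ⟨t, rfl⟩⟩, 1, ?_⟩⟩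
  intro h
  have h1 : (Units.mk0 (w t) hwt0 : (ℤᵐ⁰)ˣ) = 1 := congrArg Subtype.val h
  have h2 : w t = 1 := congrArg Units.val h1
  rw [h2] at ht
  exact lt_irrefl _ ht

/-- A nontrivial `ℤᵐ⁰`-valued valuation on `F`, trivial on `K`, defines a place of `F / K`; its
order function is a positive multiple of the order function of the place. -/
theorem s29m_place_of_valuation (w : Valuation F ℤᵐ⁰)
    (hK : ∀ c : K, w (algebraMap K F c) ≤ 1) (hnt : ∃ t : F, t ≠ 0 ∧ w t < 1) :
    ∃ (v : Place K F) (m : ℤ), 0 < m ∧ ∀ f : F, f ≠ 0 → -(WithZero.log (w f)) = m * v.ord f := by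
  have := s29m_nontrivial_valueGroup w hnt
  have : IsCyclic (MonoidWithZeroHom.valueGroup (MonoidWithZeroHom.ofClass w)) := inferInstance
  have hPID : IsPrincipalIdealRing w.valuationSubring :=
    Valuation.valuationSubring_isPrincipalIdealRing w
  obtain ⟨t, ht0, ht⟩ := hnt
  let v : Place K F :=
    { toValuationSubring := w.valuationSubring
      algebraMap_mem' := fun a => (Valuation.mem_valuationSubring_iff w _).mpr (hK a)
      ne_top' := by
        intro htop
        have : t⁻¹ ∈ w.valuationSubring := by rw [htop]; exact ValuationSubring.mem_top _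
        rw [Valuation.mem_valuationSubring_iff, map_inv₀] at this
        have hwt0 : w t ≠ 0 := (Valuation.ne_zero_iff w).mpr ht0
        have h1 : 1 < (w t)⁻¹ := (one_lt_inv₀ (zero_lt_iff.mpr hwt0)).mpr ht
        exact absurd this (not_le.mpr h1)
      isPrincipalIdealRing' := hPID }
  obtain ⟨π, hπ⟩ := IsDiscreteValuationRing.exists_irreducible v.toValuationSubring
  have hπF : (π : F) ≠ 0 := by
    simpa [ne_eq, ZeroMemClass.coe_eq_zero] using hπ.ne_zero
  -- units of the valuation ring have `w = 1`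
  have hunit : ∀ u : v.toValuationSubringˣ, w ((u : v.toValuationSubring) : F) = 1 := by
    intro u
    have h1 : w ((u : v.toValuationSubring) : F) ≤ 1 :=
      (Valuation.mem_valuationSubring_iff w _).mp (u : v.toValuationSubring).2
    have h2 : w (((u⁻¹ : v.toValuationSubringˣ) : v.toValuationSubring) : F) ≤ 1 :=
      (Valuation.mem_valuationSubring_iff w _).mp ((u⁻¹ : v.toValuationSubringˣ) :
        v.toValuationSubring).2
    have h3 : w ((u : v.toValuationSubring) : F) *
        w (((u⁻¹ : v.toValuationSubringˣ) : v.toValuationSubring) : F) = 1 := by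
      rw [← map_mul, ← MulMemClass.coe_mul, ← Units.val_mul, mul_inv_cancel]
      simp
    by_contra hne
    have hlt : w ((u : v.toValuationSubring) : F) < 1 := lt_of_le_of_ne h1 hne
    have : w ((u : v.toValuationSubring) : F) *
        w (((u⁻¹ : v.toValuationSubringˣ) : v.toValuationSubring) : F) < 1 := by
      calc _ ≤ w ((u : v.toValuationSubring) : F) * 1 := mul_le_mul_right h2 _
        _ = _ := mul_one _
        _ < 1 := hlt
    rw [h3] at this
    exact lt_irrefl _ this
  -- `π` is not a unit, so `w π < 1`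
  have hwπ : w (π : F) < 1 := by
    have h1 : w (π : F) ≤ 1 := (Valuation.mem_valuationSubring_iff w _).mp π.2
    refine lt_of_le_of_ne h1 fun h => hπ.not_isUnit ?_
    have hinv : (π : F)⁻¹ ∈ w.valuationSubring := by
      rw [Valuation.mem_valuationSubring_iff, map_inv₀, h, inv_one]
    exact ⟨⟨π, ⟨(π : F)⁻¹, hinv⟩, Subtype.ext (mul_inv_cancel₀ hπF),
      Subtype.ext (inv_mul_cancel₀ hπF)⟩, rfl⟩
  have hwπ0 : w (π : F) ≠ 0 := (Valuation.ne_zero_iff w).mpr hπF
  set m : ℤ := -(WithZero.log (w (π : F))) with hm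
  have hm0 : 0 < m := by
    have : WithZero.log (w (π : F)) < 0 := by
      rw [← WithZero.log_one]
      exact (WithZero.log_lt_log hwπ0 one_ne_zero).mpr hwπ
    omega
  refine ⟨v, m, hm0, fun f hf => ?_⟩
  obtain ⟨u, hu⟩ := v.exists_unit_mul_zpow hf hπ
  have hwf : w f = w (π : F) ^ (v.ord f) := by
    conv_lhs => rw [hu]
    rw [map_mul, hunit, one_mul, map_zpow₀]
  rw [hwf, WithZero.log_zpow, hm]
  simp only [smul_eq_mul]
  ring

/-- **Orders divisible by `p`**: if `div h = p • D` then every `ℤᵐ⁰`-valued valuation which is `≤ 1`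
on the constants takes a value `exp (p * k)` at `h`. -/
theorem s29m_valuation_of_div (w : Valuation F ℤᵐ⁰) (hK : ∀ c : K, w (algebraMap K F c) ≤ 1)
    (p : ℕ) (h : F) (hh : h ≠ 0) (D : Divisor K F)
    (hD : ∀ v : Place K F, v.ord h = (p : ℤ) * D v) :
    ∃ k : ℤ, w h = WithZero.exp ((p : ℤ) * k) := by
  have hwh0 : w h ≠ 0 := (Valuation.ne_zero_iff w).mpr hh
  by_cases hnt : ∃ t : F, t ≠ 0 ∧ w t < 1
  · obtain ⟨v, m, -, hv⟩ := s29m_place_of_valuation w hK hnt
    have h1 := hv h hh
    rw [hD v] at h1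
    refine ⟨-(m * D v), ?_⟩
    have h2 : WithZero.log (w h) = (p : ℤ) * -(m * D v) := by linarith
    rw [← h2, WithZero.exp_log hwh0]
  · push Not at hnt
    refine ⟨0, ?_⟩
    rw [mul_zero, WithZero.exp_zero]
    apply le_antisymm
    · have h1 := hnt h⁻¹ (inv_ne_zero hh)
      rw [map_inv₀] at h1
      exact (one_le_inv₀ (zero_lt_iff.mpr hwh0)).mp h1
    · exact hnt h hh

end Generic

section Bridge

variable {K : Type*} [Field K] {F : Type*} [Field F] [Algebra K F] {N : ℕ}

/-- The `ord` field of `s29m_BridgeHyp`, for any `φ` sending constants to constants. -/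
theorem s29m_bridge_ord (φ : F →+* ffm_E N)
    (hφK : ∀ c : K, ∃ c' : ℂ, φ (algebraMap K F c) = algebraMap ℂ (ffm_E N) c') (p : ℕ)
    (h : F) (hh : h ≠ 0) (D : Divisor K F) (hD : ∀ v : Place K F, v.ord h = (p : ℤ) * D v)
    (τ : ℍ) : ∃ k : ℤ, ffm_ordAt N τ (φ h) = WithZero.exp ((p : ℤ) * k) := by
  refine s29m_valuation_of_div ((ffm_ordAt N τ).comap φ) (fun c => ?_) p h hh D hD
  obtain ⟨c', hc'⟩ := hφK c
  show ffm_ordAt N τ (φ (algebraMap K F c)) ≤ 1
  rw [hc', IsScalarTower.algebraMap_apply ℂ (ffm_R N) (ffm_E N)]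
  exact ffm_ordAt_algebraMap_le_one N τ _

/-- The `const` field of `s29m_BridgeHyp`, from a function-field generator. -/
theorem s29m_bridge_const [CharZero K] [IsAlgClosed K] (x : F) [FFGen K x] (φ : F →+* ffm_E N)
    (hφK : ∀ c : K, ∃ c' : ℂ, φ (algebraMap K F c) = algebraMap ℂ (ffm_E N) c')
    (h : F) (hord : ∀ v : Place K F, v.ord h = 0) :
    ∃ c : ℂ, φ h = algebraMap ℂ (ffm_E N) c := by
  obtain ⟨c, rfl⟩ := s18e_const_of_no_zero (K := K) x h (fun P => (hord P).le)
  exact hφK c

end Bridge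

section Final

variable {K : Type*} [Field K] [Algebra ℚ K] (ι : K →+* ℂ) (N : ℕ)

/-- **The bridge hypotheses for helper4's `s29bp_phi`**, given the fixed-field statement ([BR2]) and
that `FK` is a function field in one variable (`FFGen`). -/
theorem s29m_bridgeHyp [CharZero K] [IsAlgClosed K] (p : ℕ) (x : ↥(s29bp_FK K N)) [FFGen K x]
    (hfixed : ∀ y : ffm_E N, (∀ γ : SL(2, ℤ), γ ∈ Gamma0 N → γ • y = y) →
      ∃ h : ↥(s29bp_FK K N), s29bp_phi ι N h = y) :
    s29m_BridgeHyp K N p (s29bp_phi ι N) where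
  inv h _ hγ := s29bp_phi_smul ι N hγ h
  fixed := hfixed
  ord h hh D hD τ :=
    s29m_bridge_ord (s29bp_phi ι N) (fun c => ⟨ι c, s29bp_phi_const ι N c⟩) p h hh D hD τ
  const h _ hord :=
    s29m_bridge_const x (s29bp_phi ι N) (fun c => ⟨ι c, s29bp_phi_const ι N c⟩) h hord

end Final

end Fermat.Agent.Lib.S29
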