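/-
Plan K, package [LAM] (lead), local lemmas.

* `s29l_exists_hasExp`: a holomorphic, `N`-periodic function on `ℍ` of moderate growth at `i∞`,
  not identically zero, has a leading exponent in `q_N` (`ffc_HasExp N g n` for some `n : ℤ`).
  (Generalises `ffm_hasExp` of `Lib/FF/ModelInf` from `ffm_R N` to arbitrary such functions.)
-/
import Fermat.Agent.Lib.FF.ModelInf

set_option autoImplicit false

namespace Fermat.Agent.Lib.S29

open UpperHalfPlane hiding I
open Filter Matrix.SpecialLinearGroup Function Fermat.Agent.Lib.FF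
open scoped MatrixGroups Manifold Topology WithZero Real

noncomputable section

local notation "𝕢" => Periodic.qParam

/-- `N`-periodicity on `ℍ` gives periodicity of `g ∘ ofComplex`. -/
theorem s29l_periodic {N : ℕ} {g : ℍ → ℂ} (hper : ∀ z : ℍ, g ((N : ℝ) +ᵥ z) = g z) :
    Periodic (g ∘ ofComplex) (N : ℝ) := by
  intro w
  by_cases hw : 0 < Complex.im w
  · have hw' : 0 < Complex.im (w + (N : ℝ)) := by simpa using hw
    simp only [comp_apply, ofComplex_apply_of_im_pos hw', ofComplex_apply_of_im_pos hw]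
    rw [← hper ⟨w, hw⟩]
    have : (⟨w + (N : ℝ), hw'⟩ : ℍ) = (N : ℝ) +ᵥ (⟨w, hw⟩ : ℍ) := by
      apply UpperHalfPlane.ext
      simp [add_comm]
    rw [this]
  · have hw0 : Complex.im w ≤ 0 := not_lt.mp hw
    have hw' : Complex.im (w + (N : ℝ)) ≤ 0 := by simpa using hw0
    simp only [comp_apply, ofComplex_apply_of_im_nonpos hw', ofComplex_apply_of_im_nonpos hw0]

/-- The germ at `i∞` (in `q_N`) of an `N`-periodic function. -/
theorem s29l_cuspFunction_qParam {N : ℕ} [NeZero N] {g : ℍ → ℂ}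
    (hper : ∀ z : ℍ, g ((N : ℝ) +ᵥ z) = g z) (τ : ℍ) :
    cuspFunction (N : ℝ) g (𝕢 (N : ℝ) τ) = g τ :=
  eq_cuspFunction τ (by exact_mod_cast NeZero.ne N) (s29l_periodic hper)

theorem s29l_cuspFunction_of_ne_zero (N : ℕ) (g : ℍ → ℂ) {q : ℂ} (hq : q ≠ 0) :
    cuspFunction (N : ℝ) g q = g (ofComplex (Periodic.invQParam (N : ℝ) q)) := by
  simp only [cuspFunction, Periodic.cuspFunction_eq_of_nonzero _ _ hq, comp_apply]

/-- The germ at `i∞` of a holomorphic `N`-periodic function of moderate growth is meromorphic. -/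
theorem s29l_cuspFunction_meromorphicAt {N : ℕ} [NeZero N] {f : ℍ → ℂ} (hf : MDiff f)
    (hper : ∀ z : ℍ, f ((N : ℝ) +ᵥ z) = f z) (hgr : ffm_ModerateGrowth f) :
    MeromorphicAt (cuspFunction (N : ℝ) f) 0 := by
  obtain ⟨M, hM⟩ := hgr
  -- the bounded function `g = f · exp(2πiMz)`
  set g : ℍ → ℂ := fun z => f z * Complex.exp (2 * π * Complex.I * M * z) with hg
  have hgper : Periodic (g ∘ ofComplex) (N : ℝ) := by
    intro w
    have h1 := s29l_periodic hper w
    simp only [comp_apply] at h1 ⊢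
    by_cases hw : 0 < Complex.im w
    · have hw' : 0 < Complex.im (w + (N : ℝ)) := by simpa using hw
      simp only [hg]
      rw [h1, ofComplex_apply_of_im_pos hw', ofComplex_apply_of_im_pos hw]
      congr 1
      rw [ffm_cexp_eq_qParam_pow N, ffm_cexp_eq_qParam_pow N]
      congr 1
      simp only [Periodic.qParam]
      have hN : ((N : ℝ) : ℂ) ≠ 0 := by exact_mod_cast NeZero.ne N
      have : 2 * (π : ℂ) * Complex.I * (w + ((N : ℝ) : ℂ)) / ((N : ℝ) : ℂ) =
          2 * π * Complex.I * w / ((N : ℝ) : ℂ) + 2 * π * Complex.I := by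
        field_simp
      rw [this, Complex.exp_add, Complex.exp_two_pi_mul_I, mul_one]
    · have hw0 : Complex.im w ≤ 0 := not_lt.mp hw
      have hw' : Complex.im (w + (N : ℝ)) ≤ 0 := by simpa using hw0
      simp only [ofComplex_apply_of_im_nonpos hw', ofComplex_apply_of_im_nonpos hw0]
  have hghol : MDiff g := by
    refine hf.mul ?_
    have hd : Differentiable ℂ (fun w : ℂ => Complex.exp (2 * π * Complex.I * M * w)) := by
      fun_prop
    exact hd.comp_mdifferentiable mdifferentiable_coe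
  have han : AnalyticAt ℂ (cuspFunction (N : ℝ) g) 0 :=
    analyticAt_cuspFunction_zero (ffm_N_pos N) hgper hghol hM
  have hev : cuspFunction (N : ℝ) f =ᶠ[𝓝[≠] 0]
      fun q => cuspFunction (N : ℝ) g q * (q ^ (N * M))⁻¹ := by
    have hball : Metric.ball (0 : ℂ) 1 ∈ 𝓝 (0 : ℂ) := Metric.ball_mem_nhds 0 one_pos
    filter_upwards [nhdsWithin_le_nhds hball, self_mem_nhdsWithin] with q hq1 hq0
    have hq0' : q ≠ 0 := hq0
    have hq1' : ‖q‖ < 1 := by simpa using hq1
    have him : 0 < Complex.im (Periodic.invQParam (N : ℝ) q) :=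
      Periodic.im_invQParam_pos_of_norm_lt_one (ffm_N_pos N) hq1' hq0'
    rw [s29l_cuspFunction_of_ne_zero N f hq0']
    simp only [cuspFunction, Periodic.cuspFunction_eq_of_nonzero _ _ hq0', comp_apply, hg]
    rw [ofComplex_apply_of_im_pos him]
    rw [ffm_cexp_eq_qParam_pow N, Periodic.qParam_right_inv (ffm_N_pos N).ne' hq0',
      mul_assoc, mul_inv_cancel₀ (pow_ne_zero _ hq0'), mul_one]
  refine MeromorphicAt.congr ?_ hev.symm
  exact han.meromorphicAt.mul ((MeromorphicAt.id 0).pow _).inv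

/-- **Existence of a leading exponent**: a holomorphic `N`-periodic function of moderate growth,
not identically zero, has a leading exponent in `q_N` at `i∞`. -/
theorem s29l_exists_hasExp {N : ℕ} [NeZero N] {f : ℍ → ℂ} (hf : MDiff f)
    (hper : ∀ z : ℍ, f ((N : ℝ) +ᵥ z) = f z) (hgr : ffm_ModerateGrowth f)
    (hne : ∃ z, f z ≠ 0) : ∃ n : ℤ, ffc_HasExp N f n := by
  have hmero := s29l_cuspFunction_meromorphicAt hf hper hgr
  -- the order is finite
  have hord : meromorphicOrderAt (cuspFunction (N : ℝ) f) 0 ≠ ⊤ := by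
    intro h
    rw [meromorphicOrderAt_eq_top_iff] at h
    have h2 : ∀ᶠ τ : ℍ in atImInfty, f τ = 0 := by
      filter_upwards [(ffm_tendsto_qParam N).eventually h] with τ hτ
      rwa [s29l_cuspFunction_qParam hper] at hτ
    rw [Filter.eventually_iff, atImInfty_mem] at h2
    obtain ⟨A, hA⟩ := h2
    set τ₀ : ℍ := ⟨⟨0, max A 0 + 1⟩, by simp; positivity⟩ with hτ₀
    obtain ⟨z, hz⟩ := hne
    apply hz
    have hzero : f = 0 := by
      apply UpperHalfPlane.eq_zero_of_frequently (τ := τ₀) hf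
      apply Eventually.frequently
      apply eventually_nhdsWithin_of_eventually_nhds
      have hopen : IsOpen {z : ℍ | A < z.im} :=
        isOpen_lt continuous_const UpperHalfPlane.continuous_im
      have hmem : τ₀ ∈ {z : ℍ | A < z.im} := by
        show A < τ₀.im
        have : τ₀.im = max A 0 + 1 := rfl
        rw [this]
        linarith [le_max_left A 0]
      filter_upwards [hopen.mem_nhds hmem] with z hz
      exact hA z (le_of_lt hz)
    rw [hzero]
    rfl
  obtain ⟨n, hn⟩ := WithTop.ne_top_iff_exists.mp hord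
  refine ⟨n, ?_⟩
  obtain ⟨g, hg, hg0, hev⟩ := (meromorphicOrderAt_eq_int_iff hmero).mp hn.symm
  refine ⟨g 0, hg0, ?_⟩
  have h1 : Tendsto (fun τ : ℍ => g (𝕢 (N : ℝ) τ)) atImInfty (𝓝 (g 0)) :=
    hg.continuousAt.tendsto.comp ((ffm_tendsto_qParam N).mono_right nhdsWithin_le_nhds)
  refine h1.congr' ?_
  filter_upwards [(ffm_tendsto_qParam N).eventually hev] with τ hτ
  rw [s29l_cuspFunction_qParam hper, sub_zero, smul_eq_mul] at hτ
  rw [hτ]
  have hq : 𝕢 (N : ℝ) τ ≠ 0 := Periodic.qParam_ne_zero _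
  have hexp : Complex.exp (-(2 * π * Complex.I * n * τ / N)) = (𝕢 (N : ℝ) τ ^ n)⁻¹ := by
    rw [Periodic.qParam, ← Complex.exp_int_mul, ← Complex.exp_neg]
    congr 1
    push_cast
    ring
  rw [hexp, mul_comm (𝕢 (N : ℝ) τ ^ n), mul_assoc, mul_inv_cancel₀ (zpow_ne_zero _ hq), mul_one]

end

end Fermat.Agent.Lib.S29
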