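/-
Plan K, package [LAM] (lead): the local divisibility statements.

Setting: `A B : ffm_R N` nonzero, `ga gb : ℍ → ℂ` holomorphic "`χ`-functions"
(`s29l_IsChiFun`: invariant under the finite-order and the parabolic elements of `Γ₀(N)`, all
`SL₂(ℤ)`-translates of moderate growth) with `A * gb ^ p = B * ga ^ p`.  Then the order of
`σ • (A / B)` at a point `P` is `p * m * c`, where `m` is the order of the stabiliser of `P` in
`σ Γ₀(N) σ⁻¹` (mod `±1`): `P = i` (`m = 2` if `σ⁻¹ S σ ∈ Γ₀(N)`), `P = ρ` (`m = 3` if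
`σ⁻¹ S T σ ∈ Γ₀(N)`), `P = ∞` (`m = N / k` if `σ⁻¹ T ^ k σ ∈ Γ₀(N)`, in the parameter `q_N`), and
`m = 1` without hypothesis.
-/
import Fermat.Agent.Lib.S29.LamLocal
import Fermat.Agent.Lib.FF.FibreModels
import Fermat.Agent.Lib.FF.CuspsT3
import Fermat.Agent.Lib.FF.CuspsInf

set_option autoImplicit false
set_option linter.unusedSectionVars false

namespace Fermat.Agent.Lib.S29

open UpperHalfPlane hiding I
open Filter Matrix.SpecialLinearGroup Function CongruenceSubgroup ModularGroup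
open Fermat.Agent.Lib.FF
open scoped MatrixGroups Manifold Topology WithZero Real

noncomputable section

/-! ### Orders at points of `ℍ` -/

/-- A holomorphic function on `ℍ`, not identically zero, has finite order everywhere. -/
theorem s29l_exists_order {f : ℍ → ℂ} (hf : MDiff f) (hne : ∃ z, f z ≠ 0) (τ : ℍ) :
    ∃ n : ℕ, analyticOrderAt (f ∘ ofComplex) (τ : ℂ) = n := by
  have h2 : analyticOrderAt (f ∘ ofComplex) (τ : ℂ) ≠ ⊤ := by
    intro h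
    rw [analyticOrderAt_eq_top] at h
    obtain ⟨z, hz⟩ := hne
    apply hz
    have hzero : f = 0 := by
      apply UpperHalfPlane.eq_zero_of_frequently (τ := τ) hf
      apply Eventually.frequently
      apply eventually_nhdsWithin_of_eventually_nhds
      rw [← isOpenEmbedding_coe.map_nhds_eq, eventually_map] at h
      filter_upwards [h] with a ha
      simpa using ha
    rw [hzero]
    rfl
  exact ⟨(analyticOrderAt (f ∘ ofComplex) (τ : ℂ)).toNat, (ENat.natCast_toNat h2).symm⟩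

/-- Order calculus at a point: from `X * V ^ p = Y * U ^ p`. -/
theorem s29l_order_calc {p : ℕ} {X Y U V : ℍ → ℂ} (hX : MDiff X) (hY : MDiff Y) (hU : MDiff U)
    (hV : MDiff V) (h : ∀ z, X z * V z ^ p = Y z * U z ^ p) (τ : ℍ) {nX nY nU nV : ℕ}
    (hnX : analyticOrderAt (X ∘ ofComplex) (τ : ℂ) = nX)
    (hnY : analyticOrderAt (Y ∘ ofComplex) (τ : ℂ) = nY)
    (hnU : analyticOrderAt (U ∘ ofComplex) (τ : ℂ) = nU)
    (hnV : analyticOrderAt (V ∘ ofComplex) (τ : ℂ) = nV) :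
    (nX : ℤ) - nY = p * ((nU : ℤ) - nV) := by
  have aX := ffc_analyticAt hX τ
  have aY := ffc_analyticAt hY τ
  have aU := ffc_analyticAt hU τ
  have aV := ffc_analyticAt hV τ
  have hfun : (X ∘ ofComplex) * (V ∘ ofComplex) ^ p = (Y ∘ ofComplex) * (U ∘ ofComplex) ^ p := by
    funext w
    simp only [Pi.mul_apply, Pi.pow_apply, comp_apply]
    exact h _
  have h1 := congrArg (fun F => analyticOrderAt F (τ : ℂ)) hfun
  beta_reduce at h1
  rw [analyticOrderAt_mul aX (aV.pow p), analyticOrderAt_mul aY (aU.pow p),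
    analyticOrderAt_pow aV, analyticOrderAt_pow aU, hnX, hnY, hnU, hnV] at h1
  have h2 : nX + p * nV = nY + p * nU := by
    have : ((nX + p * nV : ℕ) : ℕ∞) = ((nY + p * nU : ℕ) : ℕ∞) := by
      push_cast
      simpa [nsmul_eq_mul] using h1
    exact_mod_cast this
  have h3 : ((nX + p * nV : ℕ) : ℤ) = ((nY + p * nU : ℕ) : ℤ) := by rw [h2]
  push_cast at h3
  linear_combination h3

/-! ### `χ`-functions -/

/-- The holomorphic functions to which the local lemmas apply. -/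
structure s29l_IsChiFun (N : ℕ) (g : ℍ → ℂ) : Prop where
  mdiff : MDiff g
  ne_zero : ∃ z, g z ≠ 0
  inv_finOrd : ∀ γ : Gamma0 N, IsOfFinOrder γ → ∀ z : ℍ, g ((γ : SL(2, ℤ)) • z) = g z
  inv_par : ∀ (σ : SL(2, ℤ)) (k : ℕ), σ⁻¹ * T ^ k * σ ∈ Gamma0 N →
    ∀ z : ℍ, g ((σ⁻¹ * T ^ k * σ) • z) = g z
  growth : ∀ σ : SL(2, ℤ), ffm_ModerateGrowth (fun z : ℍ => g (σ • z))

/-- The translate `z ↦ g (σ⁻¹ • z)` of a function. -/
def s29l_tr (σ : SL(2, ℤ)) (g : ℍ → ℂ) : ℍ → ℂ := fun z => g (σ⁻¹ • z)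

theorem s29l_tr_apply (σ : SL(2, ℤ)) (g : ℍ → ℂ) (z : ℍ) : s29l_tr σ g z = g (σ⁻¹ • z) := rfl

theorem s29l_tr_mdiff (σ : SL(2, ℤ)) {g : ℍ → ℂ} (hg : MDiff g) : MDiff (s29l_tr σ g) := by
  have h1 : MDiff (fun τ : ℍ => ((σ⁻¹ : SL(2, ℤ)) : GL (Fin 2) ℝ) • τ) :=
    UpperHalfPlane.mdifferentiable_smul (by simp)
  exact hg.comp h1

theorem s29l_tr_ne_zero (σ : SL(2, ℤ)) {g : ℍ → ℂ} (hg : ∃ z, g z ≠ 0) :
    ∃ z, s29l_tr σ g z ≠ 0 := by
  obtain ⟨z, hz⟩ := hg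
  exact ⟨σ • z, by rwa [s29l_tr_apply, inv_smul_smul]⟩

/-- If `σ⁻¹ δ σ ∈ Γ₀(N)` leaves `g` invariant, then `δ` leaves the `σ`-translate invariant. -/
theorem s29l_tr_invariant (σ δ : SL(2, ℤ)) {g : ℍ → ℂ}
    (h : ∀ z : ℍ, g ((σ⁻¹ * δ * σ) • z) = g z) (z : ℍ) :
    s29l_tr σ g (δ • z) = s29l_tr σ g z := by
  rw [s29l_tr_apply, s29l_tr_apply]
  have := h (σ⁻¹ • z)
  rw [mul_smul, mul_smul, smul_inv_smul] at this
  exact this

/-- The translate of an element of `ffm_R N`, as a function. -/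
theorem s29l_coe_smul {N : ℕ} (σ : SL(2, ℤ)) (A : ffm_R N) :
    ((σ • A : ffm_R N) : ℍ → ℂ) = s29l_tr σ (A : ℍ → ℂ) := rfl

/-! ### The local statements -/

section Local

variable {N : ℕ} [NeZero N] {p : ℕ} {ga gb : ℍ → ℂ} (hga : s29l_IsChiFun N ga)
  (hgb : s29l_IsChiFun N gb) (A B : ffm_R N) (hA : A ≠ 0) (hB : B ≠ 0)
  (hrel : ∀ z : ℍ, (A : ℍ → ℂ) z * gb z ^ p = (B : ℍ → ℂ) z * ga z ^ p) (σ : SL(2, ℤ))

include hrel in
theorem s29l_rel_tr (z : ℍ) :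
    ((σ • A : ffm_R N) : ℍ → ℂ) z * s29l_tr σ gb z ^ p =
      ((σ • B : ffm_R N) : ℍ → ℂ) z * s29l_tr σ ga z ^ p := by
  rw [ffm_smul_apply, ffm_smul_apply, s29l_tr_apply, s29l_tr_apply]
  exact hrel _

include hA in
theorem s29l_smul_ne_zero : σ • A ≠ 0 := by
  rw [Ne, smul_eq_zero_iff_eq]
  exact hA

include hA hB in
theorem s29l_smul_div :
    σ • (algebraMap (ffm_R N) (ffm_E N) A / algebraMap (ffm_R N) (ffm_E N) B) =
      algebraMap (ffm_R N) (ffm_E N) (σ • A) / algebraMap (ffm_R N) (ffm_E N) (σ • B) := by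
  rw [smul_div₀', ffm_smul_algebraMap, ffm_smul_algebraMap]

theorem s29l_algebraMap_ne_zero {f : ffm_R N} (hf : f ≠ 0) :
    algebraMap (ffm_R N) (ffm_E N) f ≠ 0 := by
  rw [Ne, map_eq_zero_iff _ (IsFractionRing.injective (ffm_R N) (ffm_E N))]
  exact hf

include hga hgb hA hB hrel in
/-- At an arbitrary point: the order of `σ • (A / B)` is `p * (ord ga' - ord gb')`. -/
theorem s29l_ord_point_eq (τ : ℍ) {nU nV : ℕ}
    (hnU : analyticOrderAt (s29l_tr σ ga ∘ ofComplex) (τ : ℂ) = nU)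
    (hnV : analyticOrderAt (s29l_tr σ gb ∘ ofComplex) (τ : ℂ) = nV) :
    ffi_ord (ffm_ordAt N τ)
      (σ • (algebraMap (ffm_R N) (ffm_E N) A / algebraMap (ffm_R N) (ffm_E N) B)) =
        p * ((nU : ℤ) - nV) := by
  have hA' := s29l_smul_ne_zero A hA σ
  have hB' := s29l_smul_ne_zero B hB σ
  obtain ⟨nA, hnA⟩ := ffi_exists_order τ (σ • A) hA'
  obtain ⟨nB, hnB⟩ := ffi_exists_order τ (σ • B) hB'
  rw [s29l_smul_div A B hA hB σ, ffc_ord_div _ (s29l_algebraMap_ne_zero hA')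
    (s29l_algebraMap_ne_zero hB'), ffi_ord_ordAt_algebraMap τ _ hnA,
    ffi_ord_ordAt_algebraMap τ _ hnB]
  exact s29l_order_calc (ffm_R_mdiff _) (ffm_R_mdiff _) (s29l_tr_mdiff σ hga.mdiff)
    (s29l_tr_mdiff σ hgb.mdiff) (s29l_rel_tr A B hrel σ) τ hnA hnB hnU hnV

include hga hgb hA hB hrel in
/-- **Generic point** (`m = 1`). -/
theorem s29l_ord_point (τ : ℍ) : ∃ c : ℤ, ffi_ord (ffm_ordAt N τ)
    (σ • (algebraMap (ffm_R N) (ffm_E N) A / algebraMap (ffm_R N) (ffm_E N) B)) = p * c := by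
  obtain ⟨nU, hnU⟩ := s29l_exists_order (s29l_tr_mdiff σ hga.mdiff) (s29l_tr_ne_zero σ hga.ne_zero) τ
  obtain ⟨nV, hnV⟩ := s29l_exists_order (s29l_tr_mdiff σ hgb.mdiff) (s29l_tr_ne_zero σ hgb.ne_zero) τ
  exact ⟨_, s29l_ord_point_eq hga hgb A B hA hB hrel σ τ hnU hnV⟩

theorem s29l_isOfFinOrder_conj {δ : SL(2, ℤ)} {n : ℕ} (hn : 0 < n) (hδ : δ ^ n = 1)
    (h : σ⁻¹ * δ * σ ∈ Gamma0 N) : IsOfFinOrder (⟨σ⁻¹ * δ * σ, h⟩ : Gamma0 N) := by
  rw [isOfFinOrder_iff_pow_eq_one]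
  refine ⟨n, hn, ?_⟩
  apply Subtype.ext
  rw [SubgroupClass.coe_pow, Subgroup.coe_one]
  show (σ⁻¹ * δ * σ) ^ n = 1
  have : σ⁻¹ * δ * σ = σ⁻¹ * δ * σ⁻¹⁻¹ := by rw [inv_inv]
  rw [this, conj_pow, hδ]
  group

theorem s29l_S_pow_four : (S : SL(2, ℤ)) ^ 4 = 1 := by
  have h : (S : SL(2, ℤ)) ^ 4 = (S ^ 2) ^ 2 := by rw [← pow_mul]
  rw [h, ffi_S_sq]
  simp

theorem s29l_ST_pow_six : ((S * T : SL(2, ℤ))) ^ 6 = 1 := by
  have h : ((S * T : SL(2, ℤ))) ^ 6 = ((S * T) ^ 3) ^ 2 := by rw [← pow_mul]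
  rw [h, ffi_ST_cube]
  simp

include hga hgb hA hB hrel in
/-- **The point `i`**, when `σ⁻¹ S σ ∈ Γ₀(N)` (`m = 2`). -/
theorem s29l_ord_I (hσ : σ⁻¹ * S * σ ∈ Gamma0 N) : ∃ c : ℤ, ffi_ord (ffm_ordAt N UpperHalfPlane.I)
    (σ • (algebraMap (ffm_R N) (ffm_E N) A / algebraMap (ffm_R N) (ffm_E N) B)) =
      p * (2 * c) := by
  have hfin := s29l_isOfFinOrder_conj σ (by norm_num : 0 < 4) s29l_S_pow_four hσ
  obtain ⟨nU, hnU⟩ := s29l_exists_order (s29l_tr_mdiff σ hga.mdiff)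
    (s29l_tr_ne_zero σ hga.ne_zero) UpperHalfPlane.I
  obtain ⟨nV, hnV⟩ := s29l_exists_order (s29l_tr_mdiff σ hgb.mdiff)
    (s29l_tr_ne_zero σ hgb.ne_zero) UpperHalfPlane.I
  obtain ⟨cU, hcU⟩ := ffc_two_dvd_order_I (s29l_tr_mdiff σ hga.mdiff)
    (s29l_tr_invariant σ S (hga.inv_finOrd ⟨_, hσ⟩ hfin)) hnU
  obtain ⟨cV, hcV⟩ := ffc_two_dvd_order_I (s29l_tr_mdiff σ hgb.mdiff)
    (s29l_tr_invariant σ S (hgb.inv_finOrd ⟨_, hσ⟩ hfin)) hnV
  refine ⟨(cU : ℤ) - cV, ?_⟩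
  rw [s29l_ord_point_eq hga hgb A B hA hB hrel σ _ hnU hnV, hcU, hcV]
  push_cast
  ring

include hga hgb hA hB hrel in
/-- **The point `ρ`**, when `σ⁻¹ (S T) σ ∈ Γ₀(N)` (`m = 3`). -/
theorem s29l_ord_rho (hσ : σ⁻¹ * (S * T) * σ ∈ Gamma0 N) :
    ∃ c : ℤ, ffi_ord (ffm_ordAt N RR.Ramanujan.rho)
      (σ • (algebraMap (ffm_R N) (ffm_E N) A / algebraMap (ffm_R N) (ffm_E N) B)) =
        p * (3 * c) := by
  have hfin := s29l_isOfFinOrder_conj σ (by norm_num : 0 < 6) s29l_ST_pow_six hσ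
  obtain ⟨nU, hnU⟩ := s29l_exists_order (s29l_tr_mdiff σ hga.mdiff)
    (s29l_tr_ne_zero σ hga.ne_zero) RR.Ramanujan.rho
  obtain ⟨nV, hnV⟩ := s29l_exists_order (s29l_tr_mdiff σ hgb.mdiff)
    (s29l_tr_ne_zero σ hgb.ne_zero) RR.Ramanujan.rho
  obtain ⟨cU, hcU⟩ := ffc_three_dvd_order_rho (s29l_tr_mdiff σ hga.mdiff)
    (s29l_tr_invariant σ (S * T) (hga.inv_finOrd ⟨_, hσ⟩ hfin)) hnU
  obtain ⟨cV, hcV⟩ := ffc_three_dvd_order_rho (s29l_tr_mdiff σ hgb.mdiff)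
    (s29l_tr_invariant σ (S * T) (hgb.inv_finOrd ⟨_, hσ⟩ hfin)) hnV
  refine ⟨(cU : ℤ) - cV, ?_⟩
  rw [s29l_ord_point_eq hga hgb A B hA hB hrel σ _ hnU hnV, hcU, hcV]
  push_cast
  ring

end Local

/-! ### The cusp `∞` -/

theorem s29l_hasExp_pow {N : ℕ} {g : ℍ → ℂ} {n : ℤ} (h : ffc_HasExp N g n) (p : ℕ) :
    ffc_HasExp N (g ^ p) (p * n) := by
  induction p with
  | zero =>
    simp only [pow_zero, Nat.cast_zero, zero_mul]
    exact ffc_hasExp_one N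
  | succ p ih =>
    have := ih.mul h
    rw [pow_succ]
    convert this using 1
    push_cast
    ring

/-- `k`-periodicity implies `m k`-periodicity. -/
theorem s29l_periodic_mul {g : ℍ → ℂ} {k : ℕ} (hper : ∀ z : ℍ, g ((k : ℝ) +ᵥ z) = g z) (m : ℕ)
    (z : ℍ) : g (((m * k : ℕ) : ℝ) +ᵥ z) = g z := by
  induction m with
  | zero => simp
  | succ m ih =>
    have h1 : (((m + 1) * k : ℕ) : ℝ) +ᵥ z = (k : ℝ) +ᵥ (((m * k : ℕ) : ℝ) +ᵥ z) := by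
      rw [vadd_vadd]
      congr 1
      push_cast
      ring
    rw [h1, hper, ih]

/-- Moderate growth of a `p`-th root. -/
theorem s29l_moderateGrowth_of_pow {p : ℕ} (hp : p ≠ 0) {g F : ℍ → ℂ}
    (hF : ffm_ModerateGrowth F) (hgF : ∀ z, g z ^ p = F z) : ffm_ModerateGrowth g := by
  obtain ⟨M, hM⟩ := hF
  refine ⟨M, ?_⟩
  rw [UpperHalfPlane.isBoundedAtImInfty_iff] at hM ⊢
  obtain ⟨C, Y, hC⟩ := hM
  refine ⟨max C 1, Y, fun z hz => ?_⟩
  have h1 := hC z hz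
  have hE : ‖Complex.exp (2 * π * Complex.I * M * z)‖ ≤ 1 := ffm_norm_cexp_le_one M z
  set x : ℝ := ‖g z * Complex.exp (2 * π * Complex.I * M * z)‖ with hx
  have hx0 : 0 ≤ x := norm_nonneg _
  -- `x ^ p ≤ C`
  have h2 : x ^ p ≤ C := by
    have : x ^ p = ‖F z * Complex.exp (2 * π * Complex.I * M * z)‖ *
        ‖Complex.exp (2 * π * Complex.I * M * z)‖ ^ (p - 1) := by
      have hp1 : p = (p - 1) + 1 := (Nat.sub_add_cancel (Nat.one_le_iff_ne_zero.mpr hp)).symm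
      rw [hx, ← norm_pow, mul_pow, hgF, norm_mul, norm_mul, norm_pow]
      generalize ‖Complex.exp (2 * π * Complex.I * M * z)‖ = e
      conv_lhs => rw [hp1, pow_succ]
      ring
    rw [this]
    calc _ ≤ C * 1 := by
          apply mul_le_mul h1 (pow_le_one₀ (norm_nonneg _) hE) (by positivity)
            ((norm_nonneg _).trans h1)
      _ = C := mul_one C
  by_contra hcon
  push Not at hcon
  have hx1 : 1 < x := lt_of_le_of_lt (le_max_right _ _) hcon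
  have hxC : C < x := lt_of_le_of_lt (le_max_left _ _) hcon
  have : x ≤ x ^ p := le_self_pow₀ hx1.le hp
  linarith

section Cusp

variable {N : ℕ} [NeZero N] {p : ℕ} {ga gb : ℍ → ℂ} (hga : s29l_IsChiFun N ga)
  (hgb : s29l_IsChiFun N gb) (A B : ffm_R N) (hA : A ≠ 0) (hB : B ≠ 0)
  (hrel : ∀ z : ℍ, (A : ℍ → ℂ) z * gb z ^ p = (B : ℍ → ℂ) z * ga z ^ p) (σ : SL(2, ℤ))

include hga in
/-- The translate of a `χ`-function is `k`-periodic if `σ⁻¹ T ^ k σ ∈ Γ₀(N)`. -/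
theorem s29l_tr_periodic {k : ℕ} (hσ : σ⁻¹ * T ^ k * σ ∈ Gamma0 N) (z : ℍ) :
    s29l_tr σ ga ((k : ℝ) +ᵥ z) = s29l_tr σ ga z := by
  rw [← ffc_T_pow_smul_eq_vadd]
  exact s29l_tr_invariant σ (T ^ k) (hga.inv_par σ k hσ) z

include hga in
/-- Leading exponent of the translate of a `χ`-function, with the divisibility. -/
theorem s29l_tr_hasExp {k : ℕ} (hk : k ∣ N) (hσ : σ⁻¹ * T ^ k * σ ∈ Gamma0 N) :
    ∃ c : ℤ, ffc_HasExp N (s29l_tr σ ga) (((N / k : ℕ) : ℤ) * c) := by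
  have hper := s29l_tr_periodic hga σ hσ
  have hperN : ∀ z : ℍ, s29l_tr σ ga ((N : ℝ) +ᵥ z) = s29l_tr σ ga z := by
    intro z
    obtain ⟨m, hm⟩ := hk
    have := s29l_periodic_mul hper m z
    rwa [mul_comm, ← hm] at this
  obtain ⟨n, hn⟩ := s29l_exists_hasExp (s29l_tr_mdiff σ hga.mdiff) hperN (hga.growth σ⁻¹)
    (s29l_tr_ne_zero σ hga.ne_zero)
  obtain ⟨c, hc⟩ := hn.dvd_of_periodic (NeZero.ne N) hk hper
  exact ⟨c, hc ▸ hn⟩

include hga hgb hA hB hrel in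
/-- **The cusp `∞`**, when `σ⁻¹ T ^ k σ ∈ Γ₀(N)`, `k ∣ N` (`m = N / k`, parameter `q_N`). -/
theorem s29l_ord_inf {k : ℕ} (hk : k ∣ N) (hσ : σ⁻¹ * T ^ k * σ ∈ Gamma0 N) :
    ∃ c : ℤ, ffi_ord (ffm_ordInf N)
      (σ • (algebraMap (ffm_R N) (ffm_E N) A / algebraMap (ffm_R N) (ffm_E N) B)) =
        p * (((N / k : ℕ) : ℤ) * c) := by
  have hA' := s29l_smul_ne_zero A hA σ
  have hB' := s29l_smul_ne_zero B hB σ
  obtain ⟨cU, hU⟩ := s29l_tr_hasExp hga σ hk hσ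
  obtain ⟨cV, hV⟩ := s29l_tr_hasExp hgb σ hk hσ
  have hAe := ffm_hasExp N hA'
  have hBe := ffm_hasExp N hB'
  -- compare the two sides of the relation
  have h1 := hAe.mul (s29l_hasExp_pow hV p)
  have h2 := hBe.mul (s29l_hasExp_pow hU p)
  have h3 : ffm_expInf N (σ • A) + p * (((N / k : ℕ) : ℤ) * cV) =
      ffm_expInf N (σ • B) + p * (((N / k : ℕ) : ℤ) * cU) := by
    refine h1.unique (NeZero.ne N) (h2.congr fun z => ?_)
    simp only [Pi.mul_apply, Pi.pow_apply]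
    exact (s29l_rel_tr A B hrel σ z).symm
  refine ⟨cU - cV, ?_⟩
  rw [s29l_smul_div A B hA hB σ, ffc_ord_div _ (s29l_algebraMap_ne_zero hA')
    (s29l_algebraMap_ne_zero hB')]
  have e1 : ffi_ord (ffm_ordInf N) (algebraMap (ffm_R N) (ffm_E N) (σ • A)) =
      ffm_expInf N (σ • A) := rfl
  have e2 : ffi_ord (ffm_ordInf N) (algebraMap (ffm_R N) (ffm_E N) (σ • B)) =
      ffm_expInf N (σ • B) := rfl
  rw [e1, e2]
  linear_combination h3

end Cusp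

end

end Fermat.Agent.Lib.S29
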