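/-
Plan K (S29), package [LAMF] (owner: helper6): the functions behind `λ : H_p → J₀(N)(ℂ)[p]`.

For `χ ∈ H_p = s29h_Hp N p` (parabolic homomorphisms `Γ₀(N) → 𝔽_p` vanishing on finite-order elements):

* `s29lf_chiC χ : Γ₀(N) →* ℂˣ`, `γ ↦ ζ_p ^ χ(γ)`; it is a parabolic character of exponent `p`
  (`s29lf_isParChar`), trivial on the elements of finite order (`s29lf_chiC_finOrd`);
* `E_χ = s29lf_Echi χ`, `E_1 = s29lf_Eone N` : the weight-`4` Eisenstein series of `EisGamma0.lean`;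
* `ga = s29lf_ga χ = E_χ · E_1² / Δ`, `gb = s29lf_gb N = E_1³ / Δ` : holomorphic on `ℍ`,
  `ga ∘ γ = chiC χ γ · ga`, `gb ∘ γ = gb` for `γ ∈ Γ₀(N)`, both `χ`-functions (`s29l_IsChiFun`);
* `A = s29lf_A hχ = ga ^ p`, `B = s29lf_B N p = gb ^ p` : nonzero `Γ₀(N)`-invariant elements of `ffm_R N`;
* `s29lf_root χ = ga · gb ^ (p - 1)` : a holomorphic `p`-th root of `A · B ^ (p - 1)` with
  `root ∘ γ = ζ_p ^ χ(γ) · root`.
-/
import Fermat.Agent.Lib.S29.EisGamma0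
import Fermat.Agent.Lib.S29.LamOrd
import Fermat.Agent.Lib.S29.EQChar
import Fermat.Agent.Lib.FF.JAnalytic

set_option autoImplicit false
set_option linter.unusedSectionVars false

namespace Fermat.Agent.Lib.S29

open UpperHalfPlane hiding I
open Filter Matrix.SpecialLinearGroup Function CongruenceSubgroup ModularGroup ModularForm
open Fermat.Agent.Lib.FF Fermat.Agent.Lib.RR ModularCurve.Period
open scoped MatrixGroups Manifold Topology Real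

noncomputable section

/-! ### The character `ζ_p ^ χ` -/

/-- `ζ_p` as a unit of `ℂ`. -/
def s29lf_zetaU (p : ℕ) : ℂˣ := Units.mk0 (s29q_zetaP p) (Complex.exp_ne_zero _)

@[simp] theorem s29lf_zetaU_coe (p : ℕ) : ((s29lf_zetaU p : ℂˣ) : ℂ) = s29q_zetaP p := rfl

variable {N p : ℕ} [NeZero p]

/-- The complex character `γ ↦ ζ_p ^ χ(γ)` attached to `χ : Γ₀(N) → 𝔽_p`. -/
def s29lf_chiC (χ : Additive (Gamma0 N) →+ ZMod p) : Gamma0 N →* ℂˣ where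
  toFun γ := s29lf_zetaU p ^ (χ (Additive.ofMul γ)).val
  map_one' := by
    rw [ofMul_one, map_zero, ZMod.val_zero, pow_zero]
  map_mul' γ δ := by
    apply Units.ext
    rw [ofMul_mul, map_add, Units.val_mul, Units.val_pow_eq_pow_val, Units.val_pow_eq_pow_val,
      Units.val_pow_eq_pow_val, s29lf_zetaU_coe, s29q_zetaP_pow_val_add]

theorem s29lf_chiC_coe (χ : Additive (Gamma0 N) →+ ZMod p) (γ : Gamma0 N) :
    ((s29lf_chiC χ γ : ℂˣ) : ℂ) = s29q_zetaP p ^ (χ (Additive.ofMul γ)).val := by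
  show ((s29lf_zetaU p ^ (χ (Additive.ofMul γ)).val : ℂˣ) : ℂ) = _
  rw [Units.val_pow_eq_pow_val, s29lf_zetaU_coe]

theorem s29lf_chiC_eq_one {χ : Additive (Gamma0 N) →+ ZMod p} {γ : Gamma0 N}
    (h : χ (Additive.ofMul γ) = 0) : s29lf_chiC χ γ = 1 := by
  show s29lf_zetaU p ^ (χ (Additive.ofMul γ)).val = 1
  rw [h, ZMod.val_zero, pow_zero]

theorem s29lf_chiC_pow (χ : Additive (Gamma0 N) →+ ZMod p) (γ : Gamma0 N) :
    s29lf_chiC χ γ ^ p = 1 := by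
  apply Units.ext
  rw [Units.val_pow_eq_pow_val, s29lf_chiC_coe, ← pow_mul, mul_comm, pow_mul, s29q_zetaP_pow_self,
    one_pow, Units.val_one]

theorem s29lf_trace_conj_T_zpow (σ : SL(2, ℤ)) (n : ℤ) :
    ((σ * T ^ n * σ⁻¹ : SL(2, ℤ)) : Matrix (Fin 2) (Fin 2) ℤ).trace = 2 := by
  rw [Matrix.SpecialLinearGroup.coe_mul, Matrix.SpecialLinearGroup.coe_mul, Matrix.trace_mul_comm,
    ← Matrix.mul_assoc, ← Matrix.SpecialLinearGroup.coe_mul, inv_mul_cancel,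
    Matrix.SpecialLinearGroup.coe_one, Matrix.one_mul, ModularGroup.coe_T_zpow,
    Matrix.trace_fin_two]
  simp

/-- For `χ ∈ H_p` the character `ζ_p ^ χ` is a parabolic character of exponent `p`. -/
theorem s29lf_isParChar {χ : Additive (Gamma0 N) →+ ZMod p} (hχ : χ ∈ s29h_Hp N p) :
    s29e_IsParChar N (s29lf_chiC χ) p where
  pow_eq_one γ := s29lf_chiC_pow χ γ
  neg_one γ h := by
    apply s29lf_chiC_eq_one
    apply (s29h_mem_Hpar_iff.mp hχ).1 γ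
    rw [h, Matrix.SpecialLinearGroup.coe_neg, Matrix.SpecialLinearGroup.coe_one,
      Matrix.trace_neg, Matrix.trace_one]
    simp
  parabolic γ σ n h := by
    apply s29lf_chiC_eq_one
    apply (s29h_mem_Hpar_iff.mp hχ).1 γ
    rw [h, s29lf_trace_conj_T_zpow]
    norm_num

/-- For `χ ∈ H_p` the character `ζ_p ^ χ` is trivial on the elements of finite order. -/
theorem s29lf_chiC_finOrd {χ : Additive (Gamma0 N) →+ ZMod p} (hχ : χ ∈ s29h_Hp N p)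
    (γ : Gamma0 N) (hγ : IsOfFinOrder γ) : s29lf_chiC χ γ = 1 :=
  s29lf_chiC_eq_one ((s29h_mem_Hpar_iff.mp hχ).2 γ hγ)

/-! ### The functions `E_χ`, `E_1`, `ga`, `gb` -/

/-- `E_χ`: the weight-`4` Eisenstein series on `Γ₀(N)` with character `ζ_p ^ χ`. -/
def s29lf_Echi (χ : Additive (Gamma0 N) →+ ZMod p) : ℍ → ℂ := s29e_G0 N (s29lf_chiC χ) 4

variable (N) in
/-- `E_1`: the weight-`4` Eisenstein series on `Γ₀(N)` with trivial character. -/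
def s29lf_Eone : ℍ → ℂ := s29e_G0 N (1 : Gamma0 N →* ℂˣ) 4

/-- `ga = E_χ · E_1² / Δ` (weight `0`, character `ζ_p ^ χ`). -/
def s29lf_ga (χ : Additive (Gamma0 N) →+ ZMod p) : ℍ → ℂ :=
  fun z => s29lf_Echi χ z * s29lf_Eone N z ^ 2 / Dl z

variable (N) in
/-- `gb = E_1³ / Δ` (weight `0`, trivial character). -/
def s29lf_gb : ℍ → ℂ := fun z => s29lf_Eone N z ^ 3 / Dl z

theorem s29lf_hp : 0 < p := Nat.pos_of_ne_zero (NeZero.ne p)

theorem s29lf_Echi_mdiff {χ : Additive (Gamma0 N) →+ ZMod p} (hχ : χ ∈ s29h_Hp N p) :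
    MDiff (s29lf_Echi χ) :=
  s29e_G0_mdifferentiable (s29lf_isParChar hχ) s29lf_hp (by norm_num)

variable (N) in
theorem s29lf_Eone_mdiff : MDiff (s29lf_Eone N) :=
  s29e_G0_mdifferentiable (s29e_isParChar_one N 1) one_pos (by norm_num)

theorem s29lf_mdiff_div_Dl {f : ℍ → ℂ} (hf : MDiff f) : MDiff (fun z => f z / Dl z) := by
  rw [UpperHalfPlane.mdifferentiable_iff]
  have h1 : DifferentiableOn ℂ (f ∘ ofComplex) upperHalfPlaneSet :=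
    UpperHalfPlane.mdifferentiable_iff.mp hf
  have hD : DifferentiableOn ℂ (Dl ∘ ofComplex) upperHalfPlaneSet :=
    UpperHalfPlane.mdifferentiable_iff.mp mdifferentiable_Dl
  have : ((fun z => f z / Dl z) ∘ ofComplex) = (f ∘ ofComplex) / (Dl ∘ ofComplex) := rfl
  rw [this]
  exact h1.div hD fun z _ => Dl_ne_zero _

theorem s29lf_ga_mdiff {χ : Additive (Gamma0 N) →+ ZMod p} (hχ : χ ∈ s29h_Hp N p) :
    MDiff (s29lf_ga χ) :=
  s29lf_mdiff_div_Dl ((s29lf_Echi_mdiff hχ).mul ((s29lf_Eone_mdiff N).pow 2))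

variable (N) in
theorem s29lf_gb_mdiff : MDiff (s29lf_gb N) :=
  s29lf_mdiff_div_Dl ((s29lf_Eone_mdiff N).pow 3)

/-- `Δ (γ z) = j(γ, z) ^ 12 · Δ z`. -/
theorem s29lf_Dl_smul (γ : SL(2, ℤ)) (z : ℍ) : Dl (γ • z) = denom γ z ^ (12 : ℤ) * Dl z :=
  ffj_apply_smul_of_mem_MF1 Dl_mem_MF1 γ z

theorem s29lf_aux1 (c d e1 e2 D : ℂ) (hd : d ≠ 0) (hD : D ≠ 0) :
    (c * d ^ (4 : ℤ) * e1) * (d ^ (4 : ℤ) * e2) ^ 2 / (d ^ (12 : ℤ) * D) =
      c * (e1 * e2 ^ 2 / D) := by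
  rw [zpow_ofNat, zpow_ofNat]
  field_simp

theorem s29lf_aux2 (d e2 D : ℂ) (hd : d ≠ 0) (hD : D ≠ 0) :
    (d ^ (4 : ℤ) * e2) ^ 3 / (d ^ (12 : ℤ) * D) = e2 ^ 3 / D := by
  rw [zpow_ofNat, zpow_ofNat]
  field_simp

/-- `ga (γ z) = ζ_p ^ χ(γ) · ga z` for `γ ∈ Γ₀(N)`. -/
theorem s29lf_ga_smul {χ : Additive (Gamma0 N) →+ ZMod p} (hχ : χ ∈ s29h_Hp N p) (γ : Gamma0 N)
    (z : ℍ) : s29lf_ga χ ((γ : SL(2, ℤ)) • z) = ((s29lf_chiC χ γ : ℂˣ) : ℂ) * s29lf_ga χ z := by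
  have h1 := s29e_G0_smul (s29lf_isParChar hχ) 4 γ z
  have h2 := s29e_G0_smul (s29e_isParChar_one N 1) 4 γ z
  have h3 := s29lf_Dl_smul (γ : SL(2, ℤ)) z
  have hd : denom ((γ : SL(2, ℤ)) : GL (Fin 2) ℝ) z ≠ 0 := denom_ne_zero _ z
  have hD := Dl_ne_zero z
  rw [MonoidHom.one_apply, Units.val_one, one_mul] at h2
  change s29lf_Echi χ ((γ : SL(2, ℤ)) • z) = ((s29lf_chiC χ γ : ℂˣ) : ℂ) *
    denom ((γ : SL(2, ℤ)) : GL (Fin 2) ℝ) z ^ (4 : ℤ) * s29lf_Echi χ z at h1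
  change s29lf_Eone N ((γ : SL(2, ℤ)) • z) =
    denom ((γ : SL(2, ℤ)) : GL (Fin 2) ℝ) z ^ (4 : ℤ) * s29lf_Eone N z at h2
  unfold s29lf_ga
  rw [h1, h2, h3]
  exact s29lf_aux1 _ _ _ _ _ hd hD

/-- `gb (γ z) = gb z` for `γ ∈ Γ₀(N)`. -/
theorem s29lf_gb_smul (γ : Gamma0 N) (z : ℍ) :
    s29lf_gb N ((γ : SL(2, ℤ)) • z) = s29lf_gb N z := by
  have h2 := s29e_G0_smul (s29e_isParChar_one N 1) 4 γ z
  have h3 := s29lf_Dl_smul (γ : SL(2, ℤ)) z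
  have hd : denom ((γ : SL(2, ℤ)) : GL (Fin 2) ℝ) z ≠ 0 := denom_ne_zero _ z
  have hD := Dl_ne_zero z
  rw [MonoidHom.one_apply, Units.val_one, one_mul] at h2
  change s29lf_Eone N ((γ : SL(2, ℤ)) • z) =
    denom ((γ : SL(2, ℤ)) : GL (Fin 2) ℝ) z ^ (4 : ℤ) * s29lf_Eone N z at h2
  unfold s29lf_gb
  rw [h2, h3]
  exact s29lf_aux2 _ _ _ hd hD

/-! ### Translates and growth -/

theorem s29lf_aux3 (d a b D : ℂ) (hd : d ≠ 0) (hD : D ≠ 0) :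
    (a * d ^ (4 : ℤ)) * (b * d ^ (4 : ℤ)) ^ 2 / (d ^ (12 : ℤ) * D) = a * b ^ 2 * D⁻¹ := by
  rw [zpow_ofNat, zpow_ofNat]
  field_simp

theorem s29lf_aux4 (d b D : ℂ) (hd : d ≠ 0) (hD : D ≠ 0) :
    (b * d ^ (4 : ℤ)) ^ 3 / (d ^ (12 : ℤ) * D) = b ^ 3 * D⁻¹ := by
  rw [zpow_ofNat, zpow_ofNat]
  field_simp

/-- `f (σ z) = (f ∣[k] σ) z · j(σ, z) ^ k`. -/
theorem s29lf_apply_smul_eq_slash (f : ℍ → ℂ) (k : ℤ) (σ : SL(2, ℤ)) (z : ℍ) :
    f (σ • z) = (f ∣[k] σ) z * denom σ z ^ k := by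
  rw [SL_slash_apply, mul_assoc, ← zpow_add₀ (denom_ne_zero _ z), neg_add_cancel, zpow_zero,
    mul_one]

/-- The translate of `ga` by an arbitrary `σ ∈ SL₂(ℤ)`. -/
theorem s29lf_ga_translate (χ : Additive (Gamma0 N) →+ ZMod p) (σ : SL(2, ℤ)) (z : ℍ) :
    s29lf_ga χ (σ • z) =
      (s29lf_Echi χ ∣[(4 : ℤ)] σ) z * (s29lf_Eone N ∣[(4 : ℤ)] σ) z ^ 2 * (Dl z)⁻¹ := by
  unfold s29lf_ga
  rw [s29lf_apply_smul_eq_slash (s29lf_Echi χ) 4 σ z, s29lf_apply_smul_eq_slash (s29lf_Eone N) 4 σ z,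
    s29lf_Dl_smul σ z]
  exact s29lf_aux3 _ _ _ _ (denom_ne_zero _ z) (Dl_ne_zero z)

/-- The translate of `gb` by an arbitrary `σ ∈ SL₂(ℤ)`. -/
theorem s29lf_gb_translate (σ : SL(2, ℤ)) (z : ℍ) :
    s29lf_gb N (σ • z) = (s29lf_Eone N ∣[(4 : ℤ)] σ) z ^ 3 * (Dl z)⁻¹ := by
  unfold s29lf_gb
  rw [s29lf_apply_smul_eq_slash (s29lf_Eone N) 4 σ z, s29lf_Dl_smul σ z]
  exact s29lf_aux4 _ _ _ (denom_ne_zero _ z) (Dl_ne_zero z)

theorem s29lf_moderateGrowth_of_bdd {f : ℍ → ℂ} (h : IsBoundedAtImInfty f) :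
    ffm_ModerateGrowth f := by
  refine ⟨0, ?_⟩
  refine h.congr' (Eventually.of_forall fun z => ?_) (EventuallyEq.refl _ _)
  simp

/-- `1 / Δ` has moderate growth at `i∞`. -/
theorem s29lf_moderateGrowth_inv_Dl : ffm_ModerateGrowth (fun z : ℍ => (Dl z)⁻¹) := by
  refine ⟨1, ?_⟩
  have h1 := g2a_tendsto_Dl_mul_exp.inv₀ one_ne_zero
  rw [inv_one] at h1
  have h := h1.isBigO_one ℝ
  refine h.congr' (Eventually.of_forall fun z => ?_) (Eventually.of_forall fun z => rfl)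
  have he : Complex.exp (-2 * π * Complex.I * z) * Complex.exp (2 * π * Complex.I * z) = 1 := by
    rw [← Complex.exp_add]; simp
  have hne : Complex.exp (-2 * π * Complex.I * z) ≠ 0 := Complex.exp_ne_zero _
  have hD := Dl_ne_zero z
  show (Dl z * Complex.exp (-2 * π * Complex.I * z))⁻¹ =
    (Dl z)⁻¹ * Complex.exp (2 * π * Complex.I * ((1 : ℕ) : ℂ) * z)
  rw [Nat.cast_one, mul_one, mul_inv]
  congr 1
  exact inv_eq_of_mul_eq_one_right he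

theorem s29lf_moderateGrowth_pow {f : ℍ → ℂ} (hf : ffm_ModerateGrowth f) (n : ℕ) :
    ffm_ModerateGrowth (f ^ n) := by
  induction n with
  | zero =>
    rw [pow_zero]
    exact ffm_ModerateGrowth.const 1
  | succ n ih =>
    rw [pow_succ]
    exact ih.mul hf

/-- All `SL₂(ℤ)`-translates of `ga` have moderate growth. -/
theorem s29lf_ga_growth [NeZero N] {χ : Additive (Gamma0 N) →+ ZMod p} (hχ : χ ∈ s29h_Hp N p)
    (σ : SL(2, ℤ)) : ffm_ModerateGrowth (fun z : ℍ => s29lf_ga χ (σ • z)) := by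
  have h1 : IsBoundedAtImInfty (s29lf_Echi χ ∣[(4 : ℤ)] σ) :=
    s29e_G0_slash_isBoundedAtImInfty (s29lf_isParChar hχ) s29lf_hp (by norm_num) σ
  have h2 : IsBoundedAtImInfty (s29lf_Eone N ∣[(4 : ℤ)] σ) :=
    s29e_G0_slash_isBoundedAtImInfty (s29e_isParChar_one N 1) one_pos (by norm_num) σ
  have h3 := ((s29lf_moderateGrowth_of_bdd h1).mul
    (s29lf_moderateGrowth_pow (s29lf_moderateGrowth_of_bdd h2) 2)).mul s29lf_moderateGrowth_inv_Dl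
  have : (fun z : ℍ => s29lf_ga χ (σ • z)) =
      (s29lf_Echi χ ∣[(4 : ℤ)] σ) * (s29lf_Eone N ∣[(4 : ℤ)] σ) ^ 2 * fun z : ℍ => (Dl z)⁻¹ := by
    funext z
    rw [s29lf_ga_translate]
    rfl
  rw [this]
  exact h3

/-- All `SL₂(ℤ)`-translates of `gb` have moderate growth. -/
theorem s29lf_gb_growth [NeZero N] (σ : SL(2, ℤ)) :
    ffm_ModerateGrowth (fun z : ℍ => s29lf_gb N (σ • z)) := by
  have h2 : IsBoundedAtImInfty (s29lf_Eone N ∣[(4 : ℤ)] σ) :=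
    s29e_G0_slash_isBoundedAtImInfty (s29e_isParChar_one N 1) one_pos (by norm_num) σ
  have h3 := (s29lf_moderateGrowth_pow (s29lf_moderateGrowth_of_bdd h2) 3).mul
    s29lf_moderateGrowth_inv_Dl
  have : (fun z : ℍ => s29lf_gb N (σ • z)) =
      (s29lf_Eone N ∣[(4 : ℤ)] σ) ^ 3 * fun z : ℍ => (Dl z)⁻¹ := by
    funext z
    rw [s29lf_gb_translate]
    rfl
  rw [this]
  exact h3

/-! ### `ga`, `gb` are `χ`-functions -/

theorem s29lf_Echi_ne_zero [NeZero N] {χ : Additive (Gamma0 N) →+ ZMod p} (hχ : χ ∈ s29h_Hp N p) :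
    ∃ z, s29lf_Echi χ z ≠ 0 :=
  s29e_G0_ne_zero (s29lf_isParChar hχ) s29lf_hp (by norm_num) ⟨2, by norm_num⟩

variable (N) in
theorem s29lf_Eone_ne_zero [NeZero N] : ∃ z, s29lf_Eone N z ≠ 0 :=
  s29e_G0_ne_zero (s29e_isParChar_one N 1) one_pos (by norm_num) ⟨2, by norm_num⟩

theorem s29lf_ne_zero_of_fun {f : ℍ → ℂ} (h : f ≠ 0) : ∃ z, f z ≠ 0 := by
  by_contra hcon
  push Not at hcon
  exact h (funext hcon)

theorem s29lf_fun_ne_zero {f : ℍ → ℂ} (h : ∃ z, f z ≠ 0) : f ≠ 0 := by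
  rintro rfl
  obtain ⟨z, hz⟩ := h
  exact hz rfl

theorem s29lf_ga_ne_zero [NeZero N] {χ : Additive (Gamma0 N) →+ ZMod p} (hχ : χ ∈ s29h_Hp N p) :
    ∃ z, s29lf_ga χ z ≠ 0 := by
  have h1 : s29lf_Echi χ * s29lf_Eone N ^ 2 ≠ 0 := by
    intro h0
    rcases (UpperHalfPlane.mul_eq_zero_iff (s29lf_Echi_mdiff hχ)
      ((s29lf_Eone_mdiff N).pow 2)).mp h0 with h | h
    · exact s29lf_fun_ne_zero (s29lf_Echi_ne_zero hχ) h
    · obtain ⟨z1, hz1⟩ := s29lf_Eone_ne_zero N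
      have h2 := congrFun h z1
      rw [Pi.pow_apply, Pi.zero_apply] at h2
      exact hz1 (pow_eq_zero_iff two_ne_zero |>.mp h2)
  obtain ⟨z, hz⟩ := s29lf_ne_zero_of_fun h1
  exact ⟨z, div_ne_zero hz (Dl_ne_zero z)⟩

variable (N) in
theorem s29lf_gb_ne_zero [NeZero N] : ∃ z, s29lf_gb N z ≠ 0 := by
  obtain ⟨z, hz⟩ := s29lf_Eone_ne_zero N
  exact ⟨z, div_ne_zero (pow_ne_zero 3 hz) (Dl_ne_zero z)⟩

/-- `ga` is a `χ`-function. -/
theorem s29lf_ga_isChiFun [NeZero N] {χ : Additive (Gamma0 N) →+ ZMod p} (hχ : χ ∈ s29h_Hp N p) :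
    s29l_IsChiFun N (s29lf_ga χ) where
  mdiff := s29lf_ga_mdiff hχ
  ne_zero := s29lf_ga_ne_zero hχ
  inv_finOrd γ hγ z := by
    rw [s29lf_ga_smul hχ, s29lf_chiC_finOrd hχ γ hγ, Units.val_one, one_mul]
  inv_par σ k hk z := by
    have h1 := s29lf_ga_smul hχ ⟨σ⁻¹ * T ^ k * σ, hk⟩ z
    have h2 : s29lf_chiC χ ⟨σ⁻¹ * T ^ k * σ, hk⟩ = 1 :=
      (s29lf_isParChar hχ).parabolic ⟨σ⁻¹ * T ^ k * σ, hk⟩ σ⁻¹ (k : ℤ) (by
        rw [inv_inv, zpow_natCast])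
    rw [h2, Units.val_one, one_mul] at h1
    exact h1
  growth σ := s29lf_ga_growth hχ σ

variable (N) in
/-- `gb` is a `χ`-function. -/
theorem s29lf_gb_isChiFun [NeZero N] : s29l_IsChiFun N (s29lf_gb N) where
  mdiff := s29lf_gb_mdiff N
  ne_zero := s29lf_gb_ne_zero N
  inv_finOrd γ _ z := s29lf_gb_smul γ z
  inv_par σ k hk z := s29lf_gb_smul ⟨σ⁻¹ * T ^ k * σ, hk⟩ z
  growth σ := s29lf_gb_growth σ

/-! ### The elements `A = ga ^ p`, `B = gb ^ p` of `ffm_R N` -/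

theorem s29lf_isWH_ga_pow [NeZero N] {χ : Additive (Gamma0 N) →+ ZMod p} (hχ : χ ∈ s29h_Hp N p) :
    ffm_IsWH N (fun z => s29lf_ga χ z ^ p) where
  mdiff := (s29lf_ga_mdiff hχ).pow p
  inv γ hγ z := by
    have h1 := s29lf_ga_smul hχ ⟨γ, s29e_Gamma_le_Gamma0 N hγ⟩ z
    show s29lf_ga χ (γ • z) ^ p = s29lf_ga χ z ^ p
    rw [h1, mul_pow, ← Units.val_pow_eq_pow_val, s29lf_chiC_pow, Units.val_one, one_mul]
  growth σ := s29lf_moderateGrowth_pow (s29lf_ga_growth hχ σ) p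

variable (N p) in
theorem s29lf_isWH_gb_pow [NeZero N] : ffm_IsWH N (fun z => s29lf_gb N z ^ p) where
  mdiff := (s29lf_gb_mdiff N).pow p
  inv γ hγ z := by
    have h1 := s29lf_gb_smul ⟨γ, s29e_Gamma_le_Gamma0 N hγ⟩ z
    show s29lf_gb N (γ • z) ^ p = s29lf_gb N z ^ p
    rw [h1]
  growth σ := s29lf_moderateGrowth_pow (s29lf_gb_growth σ) p

/-- `A = ga ^ p ∈ ffm_R N`. -/
def s29lf_A [NeZero N] {χ : Additive (Gamma0 N) →+ ZMod p} (hχ : χ ∈ s29h_Hp N p) : ffm_R N :=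
  ffm_mk (fun z => s29lf_ga χ z ^ p) (s29lf_isWH_ga_pow hχ)

variable (N p) in
/-- `B = gb ^ p ∈ ffm_R N`. -/
def s29lf_B [NeZero N] : ffm_R N :=
  ffm_mk (fun z => s29lf_gb N z ^ p) (s29lf_isWH_gb_pow N p)

@[simp] theorem s29lf_A_apply [NeZero N] {χ : Additive (Gamma0 N) →+ ZMod p}
    (hχ : χ ∈ s29h_Hp N p) (z : ℍ) : (s29lf_A hχ : ℍ → ℂ) z = s29lf_ga χ z ^ p := rfl

@[simp] theorem s29lf_B_apply [NeZero N] (z : ℍ) :
    (s29lf_B N p : ℍ → ℂ) z = s29lf_gb N z ^ p := rfl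

theorem s29lf_A_ne_zero [NeZero N] {χ : Additive (Gamma0 N) →+ ZMod p} (hχ : χ ∈ s29h_Hp N p) :
    s29lf_A hχ ≠ 0 := by
  intro h0
  obtain ⟨z, hz⟩ := s29lf_ga_ne_zero hχ
  have h1 := congrFun (congrArg Subtype.val h0) z
  exact pow_ne_zero p hz h1

variable (N p) in
theorem s29lf_B_ne_zero [NeZero N] : s29lf_B N p ≠ 0 := by
  intro h0
  obtain ⟨z, hz⟩ := s29lf_gb_ne_zero N
  have h1 := congrFun (congrArg Subtype.val h0) z
  exact pow_ne_zero p hz h1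

/-- `A` is `Γ₀(N)`-invariant. -/
theorem s29lf_A_smul [NeZero N] {χ : Additive (Gamma0 N) →+ ZMod p} (hχ : χ ∈ s29h_Hp N p)
    (γ : SL(2, ℤ)) (hγ : γ ∈ Gamma0 N) : γ • s29lf_A hχ = s29lf_A hχ := by
  ext z
  rw [ffm_smul_apply, s29lf_A_apply, s29lf_A_apply]
  have h1 := s29lf_ga_smul hχ ⟨γ⁻¹, inv_mem hγ⟩ z
  rw [h1, mul_pow, ← Units.val_pow_eq_pow_val, s29lf_chiC_pow, Units.val_one, one_mul]

variable (N p) in
/-- `B` is `Γ₀(N)`-invariant. -/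
theorem s29lf_B_smul [NeZero N] (γ : SL(2, ℤ)) (hγ : γ ∈ Gamma0 N) :
    γ • s29lf_B N p = s29lf_B N p := by
  ext z
  rw [ffm_smul_apply, s29lf_B_apply, s29lf_B_apply]
  have h1 := s29lf_gb_smul ⟨γ⁻¹, inv_mem hγ⟩ z
  rw [h1]

/-- `A / B` is a `Γ₀(N)`-invariant element of `ffm_E N`. -/
theorem s29lf_div_smul [NeZero N] {χ : Additive (Gamma0 N) →+ ZMod p} (hχ : χ ∈ s29h_Hp N p)
    (γ : SL(2, ℤ)) (hγ : γ ∈ Gamma0 N) :
    γ • (algebraMap (ffm_R N) (ffm_E N) (s29lf_A hχ) /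
        algebraMap (ffm_R N) (ffm_E N) (s29lf_B N p)) =
      algebraMap (ffm_R N) (ffm_E N) (s29lf_A hχ) /
        algebraMap (ffm_R N) (ffm_E N) (s29lf_B N p) := by
  rw [smul_div₀', ffm_smul_algebraMap, ffm_smul_algebraMap, s29lf_A_smul hχ γ hγ,
    s29lf_B_smul N p γ hγ]

/-- The relation `A · gb ^ p = B · ga ^ p` (hypothesis `hrel` of `LamOrd.lean`). -/
theorem s29lf_rel [NeZero N] {χ : Additive (Gamma0 N) →+ ZMod p} (hχ : χ ∈ s29h_Hp N p) (z : ℍ) :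
    (s29lf_A hχ : ℍ → ℂ) z * s29lf_gb N z ^ p = (s29lf_B N p : ℍ → ℂ) z * s29lf_ga χ z ^ p := by
  rw [s29lf_A_apply, s29lf_B_apply, mul_comm]

/-! ### The `p`-th root -/

/-- `ga · gb ^ (p - 1)`: a holomorphic `p`-th root of `A · B ^ (p - 1)`. -/
def s29lf_root (χ : Additive (Gamma0 N) →+ ZMod p) : ℍ → ℂ :=
  fun z => s29lf_ga χ z * s29lf_gb N z ^ (p - 1)

theorem s29lf_root_mdiff {χ : Additive (Gamma0 N) →+ ZMod p} (hχ : χ ∈ s29h_Hp N p) :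
    MDiff (s29lf_root χ) :=
  (s29lf_ga_mdiff hχ).mul ((s29lf_gb_mdiff N).pow (p - 1))

theorem s29lf_root_pow [NeZero N] {χ : Additive (Gamma0 N) →+ ZMod p} (hχ : χ ∈ s29h_Hp N p)
    (z : ℍ) : s29lf_root χ z ^ p =
      (s29lf_A hχ : ℍ → ℂ) z * (s29lf_B N p : ℍ → ℂ) z ^ (p - 1) := by
  rw [s29lf_A_apply, s29lf_B_apply, s29lf_root, mul_pow, ← pow_mul, ← pow_mul, mul_comm (p - 1) p]

/-- `root (γ z) = ζ_p ^ χ(γ) · root z` for `γ ∈ Γ₀(N)`. -/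
theorem s29lf_root_smul {χ : Additive (Gamma0 N) →+ ZMod p} (hχ : χ ∈ s29h_Hp N p)
    (γ : Gamma0 N) (z : ℍ) :
    s29lf_root χ ((γ : SL(2, ℤ)) • z) =
      s29q_zetaP p ^ (χ (Additive.ofMul γ)).val * s29lf_root χ z := by
  unfold s29lf_root
  rw [s29lf_ga_smul hχ, s29lf_gb_smul, s29lf_chiC_coe, mul_assoc]

end

end Fermat.Agent.Lib.S29
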