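/-
Plan K (S29/S42), package [BR], step (iii) (helper4): the DEGREE of the function field
`FK = K(j(q^d) : d ∣ N)` over `K(j)`, for a generic constant field `K` of characteristic zero with
an embedding `ι : K →+* ℂ`:  `[FK : K(j)] = #(SL₂(ℤ)/Γ₀(N))`, `j` transcendental over `K`
(`FFGen K j`), and the injectivity of `q ↦ σ_q = (q.out • ·) ∘ φ`.
Port of `Lib/FF/Degree.lean` (S24, constant field `Q̄`) on top of the bridge `BPPhi.lean`; the
abstract degree theorem `ffg_finrank_eq`, the linear disjointness `ffg_linearIndependent_lift`,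
the distinctness lemma `ffg_mem_Gamma0_of_j_scale_eq` and the invariants of the model
`ffg_model_invariants` are used as they are.
-/
import Fermat.Agent.Lib.S29.BPPhi
import Fermat.Agent.Lib.FF.Degree
import Fermat.Agent.Lib.FF.FFBasicDedekind

set_option autoImplicit false
set_option linter.unusedSectionVars false

namespace Fermat.Agent.Lib.S29

open UpperHalfPlane hiding I
open AlgebraicCurve ModularCurve IntermediateField Matrix.SpecialLinearGroup CongruenceSubgroup
open Polynomial
open Fermat.Agent.Lib.FF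
open Fermat.Agent.Lib.RR (Q)
open scoped MatrixGroups

noncomputable section

variable (K : Type*) [Field K] [Algebra ℚ K]

/-! ### `j` is transcendental over `K` -/

theorem s29bp_jSeries_pow_coeff (n : ℕ) (m : ℤ) :
    ((coeffEmb K jq : LaurentSeries K) ^ n).coeff m = algebraMap ℚ K ((jq ^ n).coeff m) := by
  rw [← map_pow, coeffEmb_coeff]

theorem s29bp_aeval_jSeries_eq_zero {p : Polynomial K}
    (hp : aeval (coeffEmb K jq : LaurentSeries K) p = 0) : p = 0 := by
  by_contra hp0
  set n := p.natDegree with hn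
  have hcoeff : (aeval (coeffEmb K jq : LaurentSeries K) p).coeff (-(n : ℤ)) = p.coeff n := by
    rw [aeval_def, eval₂_eq_sum_range, HahnSeries.coeff_sum, Finset.sum_eq_single n]
    · rw [ModularCurve.algebraMap_laurentSeries_eq_single, HahnSeries.coeff_single_zero_mul,
        s29bp_jSeries_pow_coeff, coeff_jq_pow_self, map_one, mul_one]
    · intro i hi hin
      have hilt : i < n := lt_of_le_of_ne (Nat.lt_succ_iff.mp (Finset.mem_range.mp hi)) hin
      rw [ModularCurve.algebraMap_laurentSeries_eq_single, HahnSeries.coeff_single_zero_mul,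
        s29bp_jSeries_pow_coeff, coeff_jq_pow_of_lt (by omega), map_zero, mul_zero]
    · intro hn'
      exact absurd (Finset.self_mem_range_succ n) hn'
  rw [hp] at hcoeff
  simp only [HahnSeries.coeff_zero] at hcoeff
  exact hp0 (leadingCoeff_eq_zero.mp hcoeff.symm)

theorem s29bp_transcendental_jSeries : Transcendental K (coeffEmb K jq : LaurentSeries K) :=
  transcendental_iff.mpr fun _ hp => s29bp_aeval_jSeries_eq_zero K hp

theorem s29bp_transcendental_jK (N : ℕ) : Transcendental K (s29bp_jK K N) := by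
  have h : Transcendental K
      (algebraMap ↥(s29bp_FK K N) (LaurentSeries K) (s29bp_jK K N)) :=
    s29bp_transcendental_jSeries K
  exact (transcendental_algebraMap_iff
    (algebraMap ↥(s29bp_FK K N) (LaurentSeries K)).injective).mp h

variable {K} (ι : K →+* ℂ) (N : ℕ)

/-! ### Distinctness, linear disjointness -/

/-- DIST: an element of `SL₂(ℤ)` fixing `φ(FK)` pointwise lies in `Γ₀(N)`. -/
theorem s29bp_dist [NeZero N] (γ : SL(2, ℤ))
    (hγ : ∀ x : ↥(s29bp_FK K N), γ • s29bp_phi ι N x = s29bp_phi ι N x) : γ ∈ Gamma0 N := by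
  have h1 : γ • (⟨ffb_jd N, ffb_jd_isWH N (dvd_refl N)⟩ : ffm_R N) =
      ⟨ffb_jd N, ffb_jd_isWH N (dvd_refl N)⟩ := by
    apply ffm_algebraMap_injective N
    rw [← ffm_smul_algebraMap, ← s29bp_phi_jd ι N (dvd_refl N), hγ]
  refine ffg_mem_Gamma0_of_j_scale_eq (NeZero.ne N) (ffb_dmul N) (fun z => ffb_dmul_coe N z) γ
    fun z => ?_
  have h2 := congrArg (fun g : ffm_R N => (g : ℍ → ℂ) z) h1
  have h3 : ∀ w : ℍ, ((⟨ffb_jd N, ffb_jd_isWH N (dvd_refl N)⟩ : ffm_R N) : ℍ → ℂ) w =
      ffj_j (ffb_dmul N w) := fun w => ffb_jd_apply N w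
  rw [← h3, ← h3]
  simpa using h2

/-- The inclusion `FK → K((q))` as a linear map for the coefficientwise module structure. -/
def s29bp_ex : ↥(s29bp_FK K N) →ₗ[K] LaurentSeries K where
  toFun x := (x : LaurentSeries K)
  map_add' _ _ := rfl
  map_smul' c x := by
    simp only [RingHom.id_apply]
    rw [IntermediateField.coe_smul, Algebra.smul_def, algebraMap_laurentSeries_eq_single]
    exact HahnSeries.C_mul_eq_smul

theorem s29bp_ex_injective : Function.Injective (s29bp_ex (K := K) N) :=
  fun _ _ h => Subtype.ext h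

/-- Linear disjointness: `φ` maps `K`-independent families to `ℂ`-independent families. -/
theorem s29bp_phi_linearIndependent {I : Type*} (x : I → ↥(s29bp_FK K N))
    (hx : LinearIndependent K x) : LinearIndependent ℂ (fun i => s29bp_phi ι N (x i)) := by
  refine ffg_linearIndependent_lift ι (s29bp_psi ι N) (s29bp_phi ι N) (s29bp_phi_algebraMap ι N)
    (s29bp_ex N) (s29bp_ex_injective N)
    (fun r y => ffb_IsLaurent (r : ℍ → ℂ) y) ?_ ?_ ffg_isLaurent_zero ?_
    (fun a => s29bp_psi_isLaurent ι N a) x hx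
  · intro r s y z hr hs
    exact hr.add hs
  · intro c r y hr
    have h1 := (ffb_IsLaurent.const c).mul hr
    rw [HahnSeries.C_mul_eq_smul] at h1
    exact h1
  · intro y hy
    exact ffb_IsLaurent.unique hy ffg_isLaurent_zero

/-! ### The degree -/

/-- INV in the form needed by the abstract degree theorem. -/
theorem s29bp_invariants (x : ffm_E N) [NeZero N] (hx : ∀ γ : SL(2, ℤ), γ • x = x) :
    ∃ P Q : ℂ[X], Q ≠ 0 ∧
      x * aeval (s29bp_phi ι N (s29bp_jK K N)) Q = aeval (s29bp_phi ι N (s29bp_jK K N)) P := by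
  rw [s29bp_phi_j]
  exact ffg_model_invariants N x hx

include ι in
/-- **The degree**: `FK` is finite over `K(j)` of degree `#(SL₂(ℤ)/Γ₀(N))`. -/
theorem s29bp_degree [NeZero N] :
    FiniteDimensional K⟮s29bp_jK K N⟯ ↥(s29bp_FK K N) ∧
      Module.finrank K⟮s29bp_jK K N⟯ ↥(s29bp_FK K N) = Fintype.card (Q N) := by
  have : CharZero K := algebraRat.charZero K
  exact ffg_finrank_eq (K := K) (C := ℂ) (s29bp_phi ι N) (Gamma0 N) (s29bp_jK K N)
    (fun γ hγ x => s29bp_phi_smul ι N hγ x) (s29bp_phi_const_smul ι N) (s29bp_phi_j_smul ι N)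
    (s29bp_dist ι N) (s29bp_transcendental_jK K N) (fun x hx => s29bp_invariants ι N x hx)
    (fun I x hx => s29bp_phi_linearIndependent ι N x hx)

include ι in
theorem s29bp_finiteDimensional [NeZero N] :
    FiniteDimensional K⟮s29bp_jK K N⟯ ↥(s29bp_FK K N) := (s29bp_degree ι N).1

include ι in
theorem s29bp_finrank [NeZero N] :
    Module.finrank K⟮s29bp_jK K N⟯ ↥(s29bp_FK K N) = Fintype.card (Q N) := (s29bp_degree ι N).2

include ι in
/-- `j` is a separating transcendental generator of `FK / K` (helper6's `FFGen`). -/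
theorem s29bp_ffGen [NeZero N] : FFGen K (s29bp_jK K N) :=
  ⟨s29bp_transcendental_jK K N, s29bp_finiteDimensional ι N⟩

/-- **Distinctness**: the twisted embeddings `σ_q = (q.out • ·) ∘ φ` are pairwise distinct. -/
theorem s29bp_sigma_injective [NeZero N] :
    Function.Injective (fun q : Q N =>
      (MulSemiringAction.toRingHom SL(2, ℤ) (ffm_E N) q.out).comp (s29bp_phi ι N)) := by
  intro q q' hqq'
  have h1 : ∀ x : ↥(s29bp_FK K N), (q'.out⁻¹ * q.out) • s29bp_phi ι N x = s29bp_phi ι N x := by
    intro x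
    have := congrArg (fun f : ↥(s29bp_FK K N) →+* ffm_E N => f x) hqq'
    simp only [RingHom.comp_apply, MulSemiringAction.toRingHom_apply] at this
    rw [mul_smul, this, ← mul_smul, inv_mul_cancel, one_smul]
  have h2 := s29bp_dist ι N _ h1
  rw [← QuotientGroup.out_eq' q, ← QuotientGroup.out_eq' q']
  exact (QuotientGroup.eq.mpr h2).symm

end

end Fermat.Agent.Lib.S29
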