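/-
Plan K (S29/S42), package [BR3X] (helper9): exact ramification of the places of
`FK = K(j(q^d) : d ∣ N)` over a generic algebraically closed constant field `K ⊆ ℂ`.

Part 1: the `φ`-free local models (the analytic part of S24's `IsFibreModel`): a valuation `w` on
`ffm_E N` (order at a point above the centre), an element `g ∈ SL₂(ℤ)` fixing that point, the local
order `e₀` of the coordinate `t` and the divisibility statement T3.  The four models: a generic
point of `ℍ`, `i`, `ρ`, `∞`.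
-/
import Fermat.Agent.Lib.FF.CuspsModelInf
import Fermat.Agent.Lib.FF.CuspsFibre

set_option autoImplicit false

namespace Fermat.Agent.Lib.S29

open UpperHalfPlane hiding I
open Matrix.SpecialLinearGroup CongruenceSubgroup ModularGroup
open Fermat.Agent.Lib.FF
open Fermat.Agent.Lib.RR (E4 E6 div_ord)
open scoped MatrixGroups
open WithZero

noncomputable section

/-- A local model for the coordinate `tE ∈ ffm_E N` (the image of `t = j - c` or `t = j⁻¹`). -/
structure s29bx_IsModel (N : ℕ) (w : Valuation (ffm_E N) ℤᵐ⁰) (g : SL(2, ℤ)) (e₀ : ℕ)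
    (tE : ffm_E N) : Prop where
  /-- the valuation is trivial on the constants -/
  w_const : ∀ c : ℂ, c ≠ 0 → w (algebraMap ℂ (ffm_E N) c) = 1
  /-- `g` fixes the point -/
  w_smul : ∀ x : ffm_E N, w (g • x) = w x
  /-- the coordinate is `SL₂(ℤ)`-invariant -/
  t_inv : ∀ γ : SL(2, ℤ), γ • tE = tE
  /-- the coordinate vanishes at the point ... -/
  t_lt : w tE < 1
  /-- ... to order at most `e₀` -/
  t_ub : ffi_ord w tE ≤ e₀
  /-- T3 -/
  t3 : ∀ x : ffm_E N, x ≠ 0 → ∀ k : ℕ, g ^ k • x = x → (e₀ : ℤ) ∣ k * ffi_ord w x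

variable {N : ℕ}

/-- the coordinate `j - a` in the model field -/
def s29bx_jSub (N : ℕ) (a : ℂ) : ffm_E N :=
  algebraMap (ffm_R N) (ffm_E N) (ffc_J N - algebraMap ℂ (ffm_R N) a)

theorem s29bx_jSub_smul (a : ℂ) (γ : SL(2, ℤ)) : γ • s29bx_jSub N a = s29bx_jSub N a := by
  rw [s29bx_jSub, ffm_smul_algebraMap, smul_sub, ffc_smul_J, ffm_smul_algebraMap_C]

/-- The model at a point `τ₀` of the upper half plane. -/
theorem s29bx_model_at (τ₀ : ℍ) (g : SL(2, ℤ)) (hg : g • τ₀ = τ₀) (e₀ : ℕ)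
    (hord : div_ord (fun z => ffj_j z - ffj_j τ₀) τ₀ = e₀)
    (ht3 : ∀ x : ffm_E N, x ≠ 0 → ∀ k : ℕ, g ^ k • x = x →
      (e₀ : ℤ) ∣ k * ffi_ord (ffm_ordAt N τ₀) x) :
    s29bx_IsModel N (ffm_ordAt N τ₀) g e₀ (s29bx_jSub N (ffj_j τ₀)) where
  w_const := fun c hc => ffm_ordAt_const N τ₀ hc
  w_smul := fun x => by
    rw [ffm_ordAt_smul]
    have : g⁻¹ • τ₀ = τ₀ := by rw [inv_smul_eq_iff, hg]
    rw [this]
  t_inv := fun γ => s29bx_jSub_smul _ γ
  t_lt := by
    rw [s29bx_jSub]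
    apply ffm_ordAt_algebraMap_lt_one
    rw [ffc_J_sub_apply, sub_self]
  t_ub := by
    rw [s29bx_jSub]
    have hfun : ((ffc_J N - algebraMap ℂ (ffm_R N) (ffj_j τ₀) : ffm_R N) : ℍ → ℂ) =
        fun z => ffj_j z - ffj_j τ₀ := by
      funext z
      rw [ffc_J_sub_apply]
    have hne : (ffc_J N - algebraMap ℂ (ffm_R N) (ffj_j τ₀) : ffm_R N) ≠ 0 := by
      intro h0
      have h2 : div_ord (fun z => ffj_j z - ffj_j τ₀) τ₀ = ⊤ := by
        have : (fun z => ffj_j z - ffj_j τ₀) = fun _ => (0 : ℂ) := by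
          rw [← hfun, h0]
          rfl
        rw [this, div_ord]
        have h3 : ((fun _ : ℍ => (0 : ℂ)) ∘ ofComplex) = fun _ => (0 : ℂ) := rfl
        rw [h3, analyticOrderAt_eq_top]
        exact Filter.Eventually.of_forall fun _ => rfl
      rw [h2] at hord
      exact absurd hord (by simp)
    have hn : analyticOrderAt
        (((ffc_J N - algebraMap ℂ (ffm_R N) (ffj_j τ₀) : ffm_R N) : ℍ → ℂ) ∘ ofComplex)
        (τ₀ : ℂ) = (e₀ : ℕ∞) := by
      rw [hfun]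
      exact hord
    rw [(ffc_isOrdAt N τ₀).ord_eq hne hn]
  t3 := ht3

/-- The model at a generic point (`E4 τ₀ ≠ 0`, `E6 τ₀ ≠ 0`): `g = 1`, `e₀ = 1`. -/
theorem s29bx_model_generic (τ₀ : ℍ) (h4 : E4 τ₀ ≠ 0) (h6 : E6 τ₀ ≠ 0) :
    s29bx_IsModel N (ffm_ordAt N τ₀) 1 1 (s29bx_jSub N (ffj_j τ₀)) :=
  s29bx_model_at τ₀ 1 (one_smul _ _) 1 (by rw [ffj_div_ord_generic h4 h6]; rfl)
    (fun x _ k _ => ffc_t3_generic _ x k)

/-- The model at `i` (`g = S`, `e₀ = 2`, `j(i) = 1728`). -/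
theorem s29bx_model_I :
    s29bx_IsModel N (ffm_ordAt N UpperHalfPlane.I) S 2 (s29bx_jSub N 1728) := by
  have h6 : E6 UpperHalfPlane.I = 0 := RR.Ramanujan.E₆_I
  have hj : ffj_j UpperHalfPlane.I = 1728 := (ffj_eq_1728_iff _).mpr h6
  have := s29bx_model_at (N := N) UpperHalfPlane.I S RR.Ramanujan.S_smul_I 2
    (by rw [ffj_div_ord_of_E6_eq_zero h6]; rfl) (ffc_t3_I (ffc_isOrdAt N _))
  rwa [hj] at this

/-- The model at `ρ` (`g = S T`, `e₀ = 3`, `j(ρ) = 0`). -/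
theorem s29bx_model_rho :
    s29bx_IsModel N (ffm_ordAt N RR.Ramanujan.rho) (S * T) 3 (s29bx_jSub N 0) := by
  have h4 : E4 RR.Ramanujan.rho = 0 := RR.Ramanujan.E₄_rho
  have hj : ffj_j RR.Ramanujan.rho = 0 := (ffj_eq_zero_iff _).mpr h4
  have := s29bx_model_at (N := N) RR.Ramanujan.rho (S * T) RR.Ramanujan.ST_smul_rho 3
    (by rw [ffj_div_ord_of_E4_eq_zero h4]; rfl) (ffc_t3_rho (ffc_isOrdAt N _))
  rwa [hj] at this

/-- The model at `∞` (`g = T`, `e₀ = N`, coordinate `j⁻¹`). -/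
theorem s29bx_model_inf [NeZero N] :
    s29bx_IsModel N (ffm_ordInf N) T N (algebraMap (ffm_R N) (ffm_E N) (ffc_J N))⁻¹ := by
  have hN : N ≠ 0 := NeZero.ne N
  have hw := ffc_isOrdInf N
  have hJE := ffc_algebraMap_ne_zero (ffc_J_ne_zero (N := N) hN)
  have hord : ffi_ord (ffm_ordInf N) (algebraMap (ffm_R N) (ffm_E N) (ffc_J N))⁻¹ = (N : ℤ) := by
    rw [ffc_ord_inv, hw.ord_J hN, neg_neg]
  exact
  { w_const := fun c hc => hw.const hN hc
    w_smul := hw.T_smul hN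
    t_inv := fun γ => by rw [smul_inv'', ffm_smul_algebraMap, ffc_smul_J]
    t_lt := by
      apply ffc_val_lt_one_of_ord_pos
      · exact inv_ne_zero hJE
      · rw [hord]
        exact_mod_cast Nat.pos_of_ne_zero hN
    t_ub := by rw [hord]
    t3 := fun x hx k hk =>
      ffc_t3_cusp (ffm_ordInf N) ffc_T_pow_smul_E
        (fun h hh x hx hTx => hw.dvd hN h hh x hx hTx) x hx k hk }

end

end Fermat.Agent.Lib.S29
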