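/-
Plan K (S29/S42), package [BR3X] (helper9), part 2: the fibre engine.  For the bridge
`φ = s29bp_phi ι N : FK → ffm_E N` (helper4) over a generic algebraically closed constant field `K`,
a local model `s29bx_IsModel N w g e₀ (φ t)` and the degree hypotheses `s29bx_DegHyp`, every place
`v` of `FK` above `t = 0` is realised by a coset `q`, with `ord_w (q.out • φ f) = m * v.ord f`,
and the ramification is EXACT: `m * k = e₀`, `k` the size of the `⟨g⟩`-orbit of `q`
(norm trick + counting squeeze).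
-/
import Fermat.Agent.Lib.S29.BXModel
import Fermat.Agent.Lib.S29.BPPhi
import Fermat.Agent.Lib.FF.NormTrickPlace
import Fermat.Agent.Lib.FF.FFBasicIface
import Fermat.Agent.Lib.FF.Squeeze
import Fermat.Agent.Lib.FF.Fibres

set_option autoImplicit false
set_option linter.unusedSectionVars false

namespace Fermat.Agent.Lib.S29

open UpperHalfPlane hiding I
open AlgebraicCurve IntermediateField Matrix.SpecialLinearGroup CongruenceSubgroup ModularGroup
open Fermat.Agent.Lib.FF
open Fermat.Agent.Lib.RR (Q)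
open scoped MatrixGroups
open WithZero

noncomputable section

variable {K : Type*} [Field K] [Algebra ℚ K] (ι : K →+* ℂ) (N : ℕ)

/-- The embedding `σ_q = (q.out • ·) ∘ φ` attached to the coset `q`. -/
def s29bx_sigma (q : Q N) : ↥(s29bp_FK K N) →+* ffm_E N :=
  (MulSemiringAction.toRingHom SL(2, ℤ) (ffm_E N) q.out).comp (s29bp_phi ι N)

@[simp] theorem s29bx_sigma_apply (q : Q N) (f : ↥(s29bp_FK K N)) :
    s29bx_sigma ι N q f = q.out • s29bp_phi ι N f := rfl

/-- The degree package over `K` consumed by the engine: `j` is a separating coordinate of degree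
`#(SL₂(ℤ)/Γ₀(N))` and the embeddings `σ_q` are pairwise distinct. -/
structure s29bx_DegHyp [NeZero N] : Prop where
  gen : FFGen K (s29bp_jK K N)
  finrank : Module.finrank K⟮s29bp_jK K N⟯ ↥(s29bp_FK K N) = Fintype.card (Q N)
  inj : Function.Injective (s29bx_sigma ι N)

/-- `σ_{γ • q} f = γ • σ_q f`. -/
theorem s29bx_sigma_smul (γ : SL(2, ℤ)) (q : Q N) (f : ↥(s29bp_FK K N)) :
    s29bx_sigma ι N (γ • q) f = γ • s29bx_sigma ι N q f := by
  simp only [s29bx_sigma_apply]
  have hq : γ • q = ((γ * q.out : SL(2, ℤ)) : Q N) := by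
    conv_lhs => rw [← QuotientGroup.out_eq' q]
    rfl
  obtain ⟨h, hh⟩ := QuotientGroup.mk_out_eq_mul (Gamma0 N) (γ * q.out)
  rw [hq, hh, mul_smul, mul_smul, s29bp_phi_smul ι N h.2]

/-- If `γ • q = q` then `σ_q f` is `γ`-invariant. -/
theorem s29bx_smul_sigma_of_fixed {γ : SL(2, ℤ)} {q : Q N} (hq : γ • q = q)
    (f : ↥(s29bp_FK K N)) : γ • s29bx_sigma ι N q f = s29bx_sigma ι N q f := by
  rw [← s29bx_sigma_smul, hq]

/-- `γ • q = q` in terms of representatives. -/
theorem s29bx_mem_Gamma0_of_smul_eq {γ : SL(2, ℤ)} {q : Q N} (hq : γ • q = q) :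
    q.out⁻¹ * γ * q.out ∈ Gamma0 N := by
  have h1 : ((γ * q.out : SL(2, ℤ)) : Q N) = ((q.out : SL(2, ℤ)) : Q N) := by
    have : γ • q = ((γ * q.out : SL(2, ℤ)) : Q N) := by
      conv_lhs => rw [← QuotientGroup.out_eq' q]
      rfl
    rw [← this, hq, QuotientGroup.out_eq']
  have h2 := QuotientGroup.eq.mp h1.symm
  rwa [← mul_assoc] at h2

variable {N}

/-- **The fibre engine with exact ramification.** -/
theorem s29bx_fibre [NeZero N] [IsAlgClosed K] (hdeg : s29bx_DegHyp ι N)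
    (t : ↥(s29bp_FK K N)) [FFGen K t]
    (hrank : Module.finrank K⟮t⟯ ↥(s29bp_FK K N) = Fintype.card (Q N))
    {w : Valuation (ffm_E N) ℤᵐ⁰} {g : SL(2, ℤ)} {e₀ : ℕ}
    (hM : s29bx_IsModel N w g e₀ (s29bp_phi ι N t))
    (v : Place K ↥(s29bp_FK K N)) (hv : 0 < v.ord t) :
    ∃ (q : Q N) (m k : ℕ), 0 < m ∧ m * k = e₀ ∧ g ^ k • q = q ∧
      ∀ f : ↥(s29bp_FK K N), f ≠ 0 →
        ffi_ord w (s29bx_sigma ι N q f) = (m : ℤ) * v.ord f := by
  classical
  haveI : CharZero K := algebraRat.charZero K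
  set δ : Equiv.Perm (Q N) := MulAction.toPerm g with hδdef
  set ν : Q N → ↥(s29bp_FK K N) → ℤ := fun q f => ffi_ord w (s29bx_sigma ι N q f) with hν
  have ht_inv : ∀ q : Q N, s29bx_sigma ι N q t = s29bp_phi ι N t := fun q => by
    rw [s29bx_sigma_apply, hM.t_inv]
  have hconst : ∀ (q : Q N) (c : K), s29bx_sigma ι N q (algebraMap K ↥(s29bp_FK K N) c)
      = algebraMap ℂ (ffm_E N) (ι c) := fun q c => by
    rw [s29bx_sigma_apply, s29bp_phi_const, smul_algebraMap]
  -- the hypotheses of the squeeze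
  have hδ : ∀ q, ν (δ q) = ν q := by
    intro q
    funext f
    show ffi_ord w (s29bx_sigma ι N (g • q) f) = ffi_ord w (s29bx_sigma ι N q f)
    rw [s29bx_sigma_smul, ffi_ord, ffi_ord, hM.w_smul]
  have hub : ∀ q, ν q t ≤ e₀ := by
    intro q
    show ffi_ord w (s29bx_sigma ι N q t) ≤ e₀
    rw [ht_inv]
    exact hM.t_ub
  have hdiv : ∀ q f, f ≠ 0 →
      (e₀ : ℤ) ∣ (Nat.card (MulAction.orbit (Subgroup.zpowers δ) q) : ℤ) * ν q f := by
    intro q f hf
    have hfix := ffi_pow_card_orbit_smul g q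
    have hx : s29bx_sigma ι N q f ≠ 0 := (map_ne_zero _).mpr hf
    exact hM.t3 _ hx _ (s29bx_smul_sigma_of_fixed ι N hfix f)
  have hNT := ffn_ifaceNormTrick (K := K) (F := ↥(s29bp_FK K N)) t
  have hsurj : ∀ v : Place K ↥(s29bp_FK K N), 0 < v.ord t →
      ∃ q, ∃ m : ℤ, 0 < m ∧ ∀ f, f ≠ 0 → ν q f = m * v.ord f := by
    intro v hv
    refine hNT (ffm_E N) (Q N) (s29bx_sigma ι N) w hdeg.inj hrank.symm ?_ ?_ ?_ ?_ v hv
    · intro x y
      rw [ht_inv, ht_inv]
    · intro x y c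
      rw [hconst, hconst]
    · intro x c hc
      rw [hconst]
      exact hM.w_const _ ((map_ne_zero ι).mpr hc)
    · intro x
      rw [ht_inv]
      exact hM.t_lt
  -- the fundamental identity
  obtain ⟨P, hP, hsum⟩ := ff_fibreSum K t
  rw [hrank] at hsum
  have hsq := ffs_card_places t δ ν e₀ P (fun v hv => (hP v).mp hv) hsum hδ hub hdiv
    (fun v hv => hsurj v ((hP v).mp hv))
  -- exactness
  obtain ⟨q, m, hm, hq⟩ := hsurj v hv
  have hk := hsq.2 v ((hP v).mpr hv) q ⟨m, hm, hq⟩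
  set k : ℕ := Nat.card (MulAction.orbit (Subgroup.zpowers δ) q) with hkdef
  have ht0 : t ≠ 0 := by
    rintro rfl
    rw [Place.ord_zero] at hv
    exact lt_irrefl _ hv
  have h1 : m * (k : ℤ) ≤ e₀ := by
    have := hub q
    rw [hq t ht0, hk] at this
    exact this
  obtain ⟨π, hπ0, hπ⟩ := ffs_exists_ord_eq_one v
  have h2 : (e₀ : ℤ) ≤ (k : ℤ) * m := by
    have hd := hdiv q π hπ0
    rw [hq π hπ0, hπ, mul_one] at hd
    have hkpos : 0 < k := by
      have : 0 < v.ord t := hv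
      rw [hk] at this
      exact_mod_cast this
    exact Int.le_of_dvd (by positivity) hd
  have h3 : m * (k : ℤ) = e₀ := le_antisymm h1 (by rw [mul_comm]; exact h2)
  refine ⟨q, m.toNat, k, ?_, ?_, ?_, ?_⟩
  · omega
  · have hm' : ((m.toNat : ℕ) : ℤ) = m := Int.toNat_of_nonneg hm.le
    have : ((m.toNat * k : ℕ) : ℤ) = (e₀ : ℤ) := by
      push_cast
      rw [hm', h3]
    exact_mod_cast this
  · exact ffi_pow_card_orbit_smul g q
  · intro f hf
    have hm' : ((m.toNat : ℕ) : ℤ) = m := Int.toNat_of_nonneg hm.le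
    rw [hm']
    exact hq f hf

end

end Fermat.Agent.Lib.S29
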