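/-
Plan K (S29/S42), package [BR3X] (helper9), part 3: EVERY place of `FK` comes from a point of
`ℍ ∪ {∞}` and a coset `q ∈ SL₂(ℤ)/Γ₀(N)`, with exact ramification index.
-/
import Fermat.Agent.Lib.S29.BXSqueeze

set_option autoImplicit false
set_option linter.unusedSectionVars false

namespace Fermat.Agent.Lib.S29

open UpperHalfPlane hiding I
open AlgebraicCurve IntermediateField Matrix.SpecialLinearGroup CongruenceSubgroup ModularGroup
open Fermat.Agent.Lib.FF
open Fermat.Agent.Lib.RR (Q E4 E6)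
open scoped MatrixGroups
open WithZero

noncomputable section

variable {K : Type*} [Field K] [Algebra ℚ K] (ι : K →+* ℂ) {N : ℕ}

theorem s29bx_jR_eq (N : ℕ) : ffg_jR N = ffc_J N := rfl

/-- the image of `j - c` under the bridge -/
theorem s29bx_phi_j_sub (c : K) :
    s29bp_phi ι N (s29bp_jK K N - algebraMap K ↥(s29bp_FK K N) c) = s29bx_jSub N (ι c) := by
  rw [map_sub, s29bp_phi_j, s29bp_phi_const, s29bx_jSub, map_sub, s29bx_jR_eq,
    ← IsScalarTower.algebraMap_apply ℂ (ffm_R N) (ffm_E N)]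

/-- the image of `j⁻¹` under the bridge -/
theorem s29bx_phi_j_inv :
    s29bp_phi ι N (s29bp_jK K N)⁻¹ = (algebraMap (ffm_R N) (ffm_E N) (ffc_J N))⁻¹ := by
  rw [map_inv₀, s29bp_phi_j, s29bx_jR_eq]

variable [NeZero N] [IsAlgClosed K]

/-- **[BR3X]** every place of `FK` is realised by a point of `ℍ ∪ {∞}` and a coset, with exact
ramification: at a generic point `m = 1`; at `i`, `ρ`, `∞` one has `m * k = 2, 3, N` where `g ^ k`
(`g = S, ST, T`) fixes the coset `q`. -/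
theorem s29bx_places (hdeg : s29bx_DegHyp ι N) (v : Place K ↥(s29bp_FK K N)) :
    (∃ (τ : ℍ) (q : Q N), E4 τ ≠ 0 ∧ E6 τ ≠ 0 ∧ ∀ f : ↥(s29bp_FK K N), f ≠ 0 →
        ffi_ord (ffm_ordAt N τ) (q.out • s29bp_phi ι N f) = v.ord f) ∨
    (∃ (q : Q N) (m k : ℕ), m * k = 2 ∧ (S : SL(2, ℤ)) ^ k • q = q ∧
      ∀ f : ↥(s29bp_FK K N), f ≠ 0 →
        ffi_ord (ffm_ordAt N UpperHalfPlane.I) (q.out • s29bp_phi ι N f) = (m : ℤ) * v.ord f) ∨
    (∃ (q : Q N) (m k : ℕ), m * k = 3 ∧ (S * T : SL(2, ℤ)) ^ k • q = q ∧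
      ∀ f : ↥(s29bp_FK K N), f ≠ 0 →
        ffi_ord (ffm_ordAt N RR.Ramanujan.rho) (q.out • s29bp_phi ι N f) = (m : ℤ) * v.ord f) ∨
    (∃ (q : Q N) (m k : ℕ), m * k = N ∧ (T : SL(2, ℤ)) ^ k • q = q ∧
      ∀ f : ↥(s29bp_FK K N), f ≠ 0 →
        ffi_ord (ffm_ordInf N) (q.out • s29bp_phi ι N f) = (m : ℤ) * v.ord f) := by
  haveI : CharZero K := algebraRat.charZero K
  haveI := hdeg.gen
  have hrank_sub : ∀ c : K, Module.finrank K⟮s29bp_jK K N - algebraMap K ↥(s29bp_FK K N) c⟯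
      ↥(s29bp_FK K N) = Fintype.card (Q N) := fun c => by
    rw [ffi_finrank_sub_const, hdeg.finrank]
  have hrank_inv : Module.finrank K⟮(s29bp_jK K N)⁻¹⟯ ↥(s29bp_FK K N) = Fintype.card (Q N) := by
    rw [ffi_finrank_inv, hdeg.finrank]
  rcases ff_centre K (s29bp_jK K N) v with ⟨c, hc⟩ | hinf
  · by_cases hc0 : c = 0
    · -- the point `ρ`
      subst hc0
      right; right; left
      have hM : s29bx_IsModel N (ffm_ordAt N RR.Ramanujan.rho) (S * T) 3
          (s29bp_phi ι N (s29bp_jK K N - algebraMap K ↥(s29bp_FK K N) 0)) := by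
        rw [s29bx_phi_j_sub, map_zero]
        exact s29bx_model_rho
      obtain ⟨q, m, k, -, hmk, hgk, hq⟩ := s29bx_fibre ι hdeg _ (hrank_sub 0) hM v hc
      exact ⟨q, m, k, hmk, hgk, hq⟩
    by_cases hc1 : c = 1728
    · -- the point `i`
      subst hc1
      right; left
      have hM : s29bx_IsModel N (ffm_ordAt N UpperHalfPlane.I) S 2
          (s29bp_phi ι N (s29bp_jK K N - algebraMap K ↥(s29bp_FK K N) 1728)) := by
        rw [s29bx_phi_j_sub, map_ofNat]
        exact s29bx_model_I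
      obtain ⟨q, m, k, -, hmk, hgk, hq⟩ := s29bx_fibre ι hdeg _ (hrank_sub 1728) hM v hc
      exact ⟨q, m, k, hmk, hgk, hq⟩
    · -- a generic point
      left
      obtain ⟨τ₀, hτ⟩ := ffj_surjective (ι c)
      have h4 : E4 τ₀ ≠ 0 := by
        rw [Ne, ← ffj_eq_zero_iff, hτ, map_eq_zero]
        exact hc0
      have h6 : E6 τ₀ ≠ 0 := by
        rw [Ne, ← ffj_eq_1728_iff, hτ]
        intro h
        apply hc1
        apply ι.injective
        rw [h, map_ofNat]
      have hM : s29bx_IsModel N (ffm_ordAt N τ₀) 1 1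
          (s29bp_phi ι N (s29bp_jK K N - algebraMap K ↥(s29bp_FK K N) c)) := by
        rw [s29bx_phi_j_sub, ← hτ]
        exact s29bx_model_generic τ₀ h4 h6
      obtain ⟨q, m, k, -, hmk, -, hq⟩ := s29bx_fibre ι hdeg _ (hrank_sub c) hM v hc
      refine ⟨τ₀, q, h4, h6, fun f hf => ?_⟩
      have hm1 : m = 1 := Nat.eq_one_of_mul_eq_one_right hmk
      have := hq f hf
      rw [hm1, Nat.cast_one, one_mul] at this
      exact this
  · -- the cusp `∞`
    right; right; right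
    have hM : s29bx_IsModel N (ffm_ordInf N) T N (s29bp_phi ι N (s29bp_jK K N)⁻¹) := by
      rw [s29bx_phi_j_inv]
      exact s29bx_model_inf
    have hv : 0 < v.ord (s29bp_jK K N)⁻¹ := by
      rw [v.ord_inv]
      omega
    obtain ⟨q, m, k, -, hmk, hgk, hq⟩ := s29bx_fibre ι hdeg _ hrank_inv hM v hv
    exact ⟨q, m, k, hmk, hgk, hq⟩

end

end Fermat.Agent.Lib.S29
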