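/-
Plan K, package [LAM] (lead): divisors `D` with `p • D = div h` (generic function field).

* `s29l_exists_principal_divisor`: over an algebraically closed constant field of characteristic
  zero, every nonzero function of a function field `F ⊇ K(x)` has a divisor, of degree zero
  (generic version of `s18r_exists_divisor`).
* `s29l_exists_divisor_of_dvd`: if `p ∣ v.ord h` for every place `v`, there is a degree-zero
  divisor `D` with `v.ord h = p * D v`.
* `s29l_mk_mem_torsion`: its class is `p`-torsion.
-/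
import Fermat.Agent.Lib.FF.FFBasicIface

set_option autoImplicit false

namespace Fermat.Agent.Lib.S29

open AlgebraicCurve IntermediateField Fermat.Agent.Lib.FF

noncomputable section

variable {K F : Type*} [Field K] [Field F] [Algebra K F]

/-- Every nonzero function has a divisor, of degree zero. -/
theorem s29l_exists_principal_divisor (x : F) [FFGen K x] [CharZero K] [IsAlgClosed K]
    (f : F) (hf : f ≠ 0) :
    ∃ D : Divisor K F, (∀ v : Place K F, D v = v.ord f) ∧ Divisor.degree D = 0 := by
  classical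
  have hprin := ff_ifacePrincipal K x
  by_cases halg : IsAlgebraic K f
  · obtain ⟨a, rfl⟩ := ff_mem_range_of_isAlgebraic halg
    refine ⟨0, fun v => ?_, map_zero _⟩
    rw [ff_ord_algebraMap]
    rfl
  · have hgen : FFGen K f := ff_gen_of_transcendental (x := x) halg
    have hgeninv : FFGen K f⁻¹ := ff_gen_inv
    obtain ⟨P₁, hP₁, -⟩ := @ff_fibreSum K F _ _ _ f hgen _ _
    obtain ⟨P₂, hP₂, -⟩ := @ff_fibreSum K F _ _ _ f⁻¹ hgeninv _ _
    let D : Divisor K F := Finsupp.onFinset (P₁ ∪ P₂) (fun v => v.ord f) (by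
      intro v hv
      rw [Finset.mem_union, hP₁, hP₂, v.ord_inv]
      omega)
    have hD : ∀ v : Place K F, D v = v.ord f := fun v => rfl
    exact ⟨D, hD, hprin f hf D hD⟩

/-- `HasPrincipalDivisors` for a function field over an algebraically closed field of
characteristic zero. -/
theorem s29l_hasPrincipalDivisors (x : F) [FFGen K x] [CharZero K] [IsAlgClosed K] :
    HasPrincipalDivisors K F :=
  ⟨s29l_exists_principal_divisor (K := K) x⟩

/-- If all orders of `h` are divisible by `p`, then `div h = p • D` for a divisor `D` of degree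
zero. -/
theorem s29l_exists_divisor_of_dvd (x : F) [FFGen K x] [CharZero K] [IsAlgClosed K] {p : ℕ}
    (hp : p ≠ 0) (h : F) (hh : h ≠ 0) (hdvd : ∀ v : Place K F, (p : ℤ) ∣ v.ord h) :
    ∃ D : Divisor.degZero (K := K) (F := F),
      ∀ v : Place K F, v.ord h = (p : ℤ) * (D : Divisor K F) v := by
  classical
  obtain ⟨D', hD', hdeg'⟩ := s29l_exists_principal_divisor (K := K) x h hh
  have hp' : (p : ℤ) ≠ 0 := by exact_mod_cast hp
  let D : Divisor K F := D'.mapRange (fun n => n / (p : ℤ)) (by simp)
  have hD : ∀ v : Place K F, v.ord h = (p : ℤ) * D v := by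
    intro v
    show v.ord h = (p : ℤ) * (D' v / (p : ℤ))
    rw [hD' v, Int.mul_ediv_cancel' (hdvd v)]
  have hsmul : (p : ℤ) • D = D' := by
    ext v
    rw [Finsupp.smul_apply, smul_eq_mul, ← hD v, hD' v]
  have hdeg : Divisor.degree D = 0 := by
    have h1 : (p : ℤ) • Divisor.degree D = 0 := by rw [← map_zsmul, hsmul, hdeg']
    rcases smul_eq_zero.mp h1 with h2 | h2
    · exact absurd h2 hp'
    · exact h2
  exact ⟨⟨D, hdeg⟩, hD⟩

/-- The class of a degree-zero divisor `D` with `p • D = div h` is `p`-torsion. -/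
theorem s29l_mk_mem_torsion {p : ℕ} (D : Divisor.degZero (K := K) (F := F)) (h : F) (hh : h ≠ 0)
    (hD : ∀ v : Place K F, v.ord h = (p : ℤ) * (D : Divisor K F) v) :
    Pic0.mk D ∈ Pic0.torsion K F p := by
  rw [Pic0.mem_torsion]
  have h1 : (p : ℤ) • Pic0.mk D = Pic0.mk ((p : ℤ) • D) := rfl
  rw [h1]
  show (QuotientAddGroup.mk ((p : ℤ) • D) : Pic0 K F) = 0
  rw [QuotientAddGroup.eq_zero_iff, AddSubgroup.mem_addSubgroupOf]
  refine ⟨h, hh, fun v => ?_⟩
  rw [hD v]
  simp

end

end Fermat.Agent.Lib.S29
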