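/-
Plan K, package [LAM] (lead): **Lemma Λ** — every `χ ∈ H_p` for which "`χ`-data" exist is `κ` of a
`p`-torsion class.

Inputs (all as hypotheses, generic in the function field `F / K` with `φ : F →+* ffm_E N`):
* `hB : s29m_BridgeHyp K N p φ` ([KAP]);
* `s29l_PlacesHyp K N φ` — the classification of the places of `F` ([BR3X], in `σ`-form);
* `s29l_ChiData N p χ ga gb A B` — holomorphic functions `ga`, `gb` (`ga ∘ γ = ζ_p ^ χ(γ) · ga`,
  `gb` invariant) with `A = ga ^ p`, `B = gb ^ p ∈ ffm_R N` ([LAMF]).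

Output: `s29l_lambda : ∃ y : Pic0.torsion K F p, s29m_kappaC hB y = χ`.
-/
import Fermat.Agent.Lib.S29.LamOrd
import Fermat.Agent.Lib.S29.LamDiv
import Fermat.Agent.Lib.S29.KConcrete

set_option autoImplicit false
set_option linter.unusedSectionVars false

namespace Fermat.Agent.Lib.S29

open UpperHalfPlane hiding I
open Filter Matrix.SpecialLinearGroup Function CongruenceSubgroup ModularGroup AlgebraicCurve
open Fermat.Agent.Lib.FF
open scoped MatrixGroups Manifold Topology WithZero Real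

noncomputable section

/-- The classification of the places of `F` in terms of the points of `ℍ ∪ {∞}` and translates
(`σ`-form of `s29bx_places`). -/
def s29l_PlacesHyp (K : Type*) {F : Type*} [Field K] [Field F] [Algebra K F] (N : ℕ) [NeZero N]
    (φ : F →+* ffm_E N) : Prop :=
  ∀ v : Place K F,
    (∃ (τ : ℍ) (σ : SL(2, ℤ)), ∀ f : F, f ≠ 0 →
        ffi_ord (ffm_ordAt N τ) (σ • φ f) = v.ord f)
    ∨ (∃ (σ : SL(2, ℤ)) (m k : ℕ), m * k = 2 ∧ σ⁻¹ * S ^ k * σ ∈ Gamma0 N ∧ ∀ f : F, f ≠ 0 →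
        ffi_ord (ffm_ordAt N UpperHalfPlane.I) (σ • φ f) = (m : ℤ) * v.ord f)
    ∨ (∃ (σ : SL(2, ℤ)) (m k : ℕ), m * k = 3 ∧ σ⁻¹ * (S * T) ^ k * σ ∈ Gamma0 N ∧
        ∀ f : F, f ≠ 0 →
        ffi_ord (ffm_ordAt N RR.Ramanujan.rho) (σ • φ f) = (m : ℤ) * v.ord f)
    ∨ (∃ (σ : SL(2, ℤ)) (m k : ℕ), m * k = N ∧ σ⁻¹ * T ^ k * σ ∈ Gamma0 N ∧ ∀ f : F, f ≠ 0 →
        ffi_ord (ffm_ordInf N) (σ • φ f) = (m : ℤ) * v.ord f)

/-- The function-theoretic data attached to `χ : Γ₀(N) → ZMod p`. -/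
structure s29l_ChiData (N p : ℕ) (χ : Additive (Gamma0 N) →+ ZMod p) (ga gb : ℍ → ℂ)
    (A B : ffm_R N) : Prop where
  chi_a : s29l_IsChiFun N ga
  chi_b : s29l_IsChiFun N gb
  law_a : ∀ (γ : Gamma0 N) (z : ℍ), ga ((γ : SL(2, ℤ)) • z) =
    Complex.exp (2 * Real.pi * Complex.I / p) ^ (χ (Additive.ofMul γ)).val * ga z
  law_b : ∀ (γ : Gamma0 N) (z : ℍ), gb ((γ : SL(2, ℤ)) • z) = gb z
  coe_A : ∀ z : ℍ, (A : ℍ → ℂ) z = ga z ^ p
  coe_B : ∀ z : ℍ, (B : ℍ → ℂ) z = gb z ^ p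

section

variable {N p : ℕ} {χ : Additive (Gamma0 N) →+ ZMod p} {ga gb : ℍ → ℂ} {A B : ffm_R N}

theorem s29l_ChiData.A_ne_zero (hd : s29l_ChiData N p χ ga gb A B) : A ≠ 0 := by
  obtain ⟨z, hz⟩ := hd.chi_a.ne_zero
  intro h
  have h1 := hd.coe_A z
  rw [h] at h1
  exact pow_ne_zero p hz h1.symm

theorem s29l_ChiData.B_ne_zero (hd : s29l_ChiData N p χ ga gb A B) : B ≠ 0 := by
  obtain ⟨z, hz⟩ := hd.chi_b.ne_zero
  intro h
  have h1 := hd.coe_B z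
  rw [h] at h1
  exact pow_ne_zero p hz h1.symm

theorem s29l_ChiData.rel (hd : s29l_ChiData N p χ ga gb A B) (z : ℍ) :
    (A : ℍ → ℂ) z * gb z ^ p = (B : ℍ → ℂ) z * ga z ^ p := by
  rw [hd.coe_A, hd.coe_B, mul_comm]

theorem s29l_zeta_pow_pow (p : ℕ) [NeZero p] (n : ℕ) :
    (Complex.exp (2 * Real.pi * Complex.I / p) ^ n) ^ p = 1 := by
  rw [pow_right_comm, (Complex.isPrimitiveRoot_exp p (NeZero.ne p)).pow_eq_one, one_pow]

theorem s29l_ChiData.smul_A [NeZero p] (hd : s29l_ChiData N p χ ga gb A B) (γ : SL(2, ℤ))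
    (hγ : γ ∈ Gamma0 N) : γ • A = A := by
  apply Subtype.ext
  funext z
  rw [ffm_smul_apply, hd.coe_A, hd.coe_A]
  have h1 := hd.law_a ⟨γ⁻¹, (Gamma0 N).inv_mem hγ⟩ z
  simp only at h1
  rw [h1, mul_pow, s29l_zeta_pow_pow, one_mul]

theorem s29l_ChiData.smul_B (hd : s29l_ChiData N p χ ga gb A B) (γ : SL(2, ℤ))
    (hγ : γ ∈ Gamma0 N) : γ • B = B := by
  apply Subtype.ext
  funext z
  rw [ffm_smul_apply, hd.coe_B, hd.coe_B]
  have h1 := hd.law_b ⟨γ⁻¹, (Gamma0 N).inv_mem hγ⟩ z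
  simp only at h1
  rw [h1]

theorem s29l_ChiData.smul_ratio [NeZero p] (hd : s29l_ChiData N p χ ga gb A B) (γ : SL(2, ℤ))
    (hγ : γ ∈ Gamma0 N) :
    γ • (algebraMap (ffm_R N) (ffm_E N) A / algebraMap (ffm_R N) (ffm_E N) B) =
      algebraMap (ffm_R N) (ffm_E N) A / algebraMap (ffm_R N) (ffm_E N) B := by
  rw [smul_div₀', ffm_smul_algebraMap, ffm_smul_algebraMap, hd.smul_A γ hγ, hd.smul_B γ hγ]

end

section Main

variable {K F : Type*} [Field K] [Field F] [Algebra K F] {N p : ℕ} [NeZero N] [NeZero p]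
  {φ : F →+* ffm_E N} {χ : Additive (Gamma0 N) →+ ZMod p} {ga gb : ℍ → ℂ} {A B : ffm_R N}

/-- All orders of a function `h` with `φ h = A / B` are divisible by `p`. -/
theorem s29l_dvd_ord (hpl : s29l_PlacesHyp K N φ) (hd : s29l_ChiData N p χ ga gb A B) (h : F)
    (hh : h ≠ 0)
    (hφ : φ h = algebraMap (ffm_R N) (ffm_E N) A / algebraMap (ffm_R N) (ffm_E N) B)
    (v : Place K F) : (p : ℤ) ∣ v.ord h := by
  have hA := hd.A_ne_zero
  have hB := hd.B_ne_zero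
  have hp0 : (p : ℤ) ≠ 0 := by exact_mod_cast NeZero.ne p
  rcases hpl v with ⟨τ, σ, hv⟩ | ⟨σ, m, k, hmk, hσ, hv⟩ | ⟨σ, m, k, hmk, hσ, hv⟩ |
    ⟨σ, m, k, hmk, hσ, hv⟩
  · obtain ⟨c, hc⟩ := s29l_ord_point hd.chi_a hd.chi_b A B hA hB hd.rel σ τ
    rw [← hφ, hv h hh] at hc
    exact ⟨c, hc⟩
  · have hm : m = 1 ∧ k = 2 ∨ m = 2 ∧ k = 1 := by
      have hm2 : m ∣ 2 := ⟨k, hmk.symm⟩
      have : m ≤ 2 := Nat.le_of_dvd (by norm_num) hm2
      interval_cases m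
      · omega
      · left; omega
      · right; omega
    rcases hm with ⟨rfl, rfl⟩ | ⟨rfl, rfl⟩
    · obtain ⟨c, hc⟩ := s29l_ord_point hd.chi_a hd.chi_b A B hA hB hd.rel σ UpperHalfPlane.I
      rw [← hφ, hv h hh] at hc
      exact ⟨c, by simpa using hc⟩
    · rw [pow_one] at hσ
      obtain ⟨c, hc⟩ := s29l_ord_I hd.chi_a hd.chi_b A B hA hB hd.rel σ hσ
      rw [← hφ, hv h hh] at hc
      refine ⟨c, ?_⟩
      have : (2 : ℤ) * v.ord h = 2 * ((p : ℤ) * c) := by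
        push_cast at hc; rw [hc]; ring
      exact mul_left_cancel₀ (by norm_num) this
  · have hm : m = 1 ∧ k = 3 ∨ m = 3 ∧ k = 1 := by
      have hm3 : m ∣ 3 := ⟨k, hmk.symm⟩
      have : m ≤ 3 := Nat.le_of_dvd (by norm_num) hm3
      interval_cases m
      · omega
      · left; omega
      · omega
      · right; omega
    rcases hm with ⟨rfl, rfl⟩ | ⟨rfl, rfl⟩
    · obtain ⟨c, hc⟩ := s29l_ord_point hd.chi_a hd.chi_b A B hA hB hd.rel σ RR.Ramanujan.rho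
      rw [← hφ, hv h hh] at hc
      exact ⟨c, by simpa using hc⟩
    · rw [pow_one] at hσ
      obtain ⟨c, hc⟩ := s29l_ord_rho hd.chi_a hd.chi_b A B hA hB hd.rel σ hσ
      rw [← hφ, hv h hh] at hc
      refine ⟨c, ?_⟩
      have : (3 : ℤ) * v.ord h = 3 * ((p : ℤ) * c) := by
        push_cast at hc; rw [hc]; ring
      exact mul_left_cancel₀ (by norm_num) this
  · have hk : k ∣ N := ⟨m, by rw [← hmk, mul_comm]⟩
    have hN : N ≠ 0 := NeZero.ne N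
    have hk0 : 0 < k := by
      rcases Nat.eq_zero_or_pos k with rfl | h0
      · rw [mul_zero] at hmk; exact absurd hmk.symm hN
      · exact h0
    have hm0 : m ≠ 0 := by
      rintro rfl
      rw [zero_mul] at hmk; exact hN hmk.symm
    have hNk : N / k = m := by
      rw [← hmk, Nat.mul_div_cancel _ hk0]
    obtain ⟨c, hc⟩ := s29l_ord_inf hd.chi_a hd.chi_b A B hA hB hd.rel σ hk hσ
    rw [← hφ, hv h hh, hNk] at hc
    refine ⟨c, ?_⟩
    have : (m : ℤ) * v.ord h = m * ((p : ℤ) * c) := by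
      rw [hc]; ring
    exact mul_left_cancel₀ (by exact_mod_cast hm0) this

/-- **Lemma Λ.** -/
theorem s29l_lambda [CharZero K] [IsAlgClosed K] (x : F) [FFGen K x]
    (hB : s29m_BridgeHyp K N p φ) (hpl : s29l_PlacesHyp K N φ)
    (hd : s29l_ChiData N p χ ga gb A B) :
    ∃ y : Pic0.torsion K F p, s29m_kappaC hB y = χ := by
  have hA := hd.A_ne_zero
  have hB0 := hd.B_ne_zero
  have hAE := s29l_algebraMap_ne_zero hA
  have hBE := s29l_algebraMap_ne_zero hB0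
  obtain ⟨h, hφ⟩ := hB.fixed _ (fun γ hγ => hd.smul_ratio γ hγ)
  have hh : h ≠ 0 := by
    rintro rfl
    rw [map_zero] at hφ
    exact div_ne_zero hAE hBE hφ.symm
  obtain ⟨D, hD⟩ := s29l_exists_divisor_of_dvd (K := K) x (NeZero.ne p) h hh
    (s29l_dvd_ord hpl hd h hh hφ)
  refine ⟨⟨Pic0.mk D, s29l_mk_mem_torsion D h hh hD⟩, ?_⟩
  -- the holomorphic data
  have hmA : MDiff (fun z => ga z * gb z ^ (p - 1)) :=
    hd.chi_a.mdiff.mul (hd.chi_b.mdiff.pow (p - 1))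
  have hbM : s29m_ofFun (B : ℍ → ℂ) B.2.mdiff ≠ 0 :=
    s29m_ofFun_ne_zero B.2.mdiff (s29m_ne_zero_of_R B hB0)
  have hab : s29m_inclE N (φ h) * s29m_ofFun (B : ℍ → ℂ) B.2.mdiff =
      s29m_ofFun (A : ℍ → ℂ) A.2.mdiff := by
    rw [hφ, s29m_inclE_div, div_mul_cancel₀ _ hbM]
  have hbinv : ∀ γ : SL(2, ℤ), γ ∈ Gamma0 N → ∀ z : ℍ, (B : ℍ → ℂ) (γ • z) = (B : ℍ → ℂ) z := by
    intro γ hγ z
    rw [hd.coe_B, hd.coe_B]
    have := hd.law_b ⟨γ, hγ⟩ z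
    simp only at this
    rw [this]
  have hp1 : p - 1 + 1 = p := Nat.sub_add_cancel (Nat.pos_of_ne_zero (NeZero.ne p))
  have hAp : ∀ τ : ℍ, (ga τ * gb τ ^ (p - 1)) ^ p =
      (A : ℍ → ℂ) τ * (B : ℍ → ℂ) τ ^ (p - 1) := by
    intro τ
    rw [hd.coe_A, hd.coe_B, mul_pow, ← pow_mul, ← pow_mul, mul_comm (p - 1) p]
  apply AddMonoidHom.ext
  intro γ'
  obtain ⟨γ, rfl⟩ : ∃ γ : Gamma0 N, Additive.ofMul γ = γ' := ⟨Additive.toMul γ', rfl⟩
  refine s29m_kappaC_eq_of_fun hB _ D rfl h hh hD A.2.mdiff B.2.mdiff hmA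
    (s29m_ne_zero_of_R B hB0) hab hbinv hAp γ _ ?_
  intro τ
  have h1 := hd.law_a γ τ
  have h2 := hd.law_b γ τ
  show ga ((γ : SL(2, ℤ)) • τ) * gb ((γ : SL(2, ℤ)) • τ) ^ (p - 1) = _
  rw [h1, h2, mul_assoc]

end Main

end

end Fermat.Agent.Lib.S29
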