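/-
Plan K, package [LAM] (lead): the places hypothesis of `LamMain` for the concrete function field
`s29bp_FK K N` with `φ = s29bp_phi ι N`, from [BR3X] (`s29bx_places`) and the degree package
(`BPDeg`).
-/
import Fermat.Agent.Lib.S29.LamMain
import Fermat.Agent.Lib.S29.BXMain
import Fermat.Agent.Lib.S29.BPDeg

set_option autoImplicit false
set_option linter.unusedSectionVars false

namespace Fermat.Agent.Lib.S29

open UpperHalfPlane hiding I
open AlgebraicCurve IntermediateField Matrix.SpecialLinearGroup CongruenceSubgroup ModularGroup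
open Fermat.Agent.Lib.FF
open Fermat.Agent.Lib.RR (Q E4 E6)
open scoped MatrixGroups

noncomputable section

variable {K : Type*} [Field K] [Algebra ℚ K] (ι : K →+* ℂ) (N : ℕ) [NeZero N]

/-- The degree hypothesis of [BR3X], from `BPDeg`. -/
theorem s29l_degHyp : s29bx_DegHyp ι N :=
  ⟨s29bp_ffGen ι N, s29bp_finrank ι N, s29bp_sigma_injective ι N⟩

/-- **The classification of the places of `s29bp_FK K N`**, in `σ`-form. -/
theorem s29l_placesHyp [IsAlgClosed K] : s29l_PlacesHyp K N (s29bp_phi ι N) := by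
  intro v
  rcases s29bx_places ι (s29l_degHyp ι N) v with ⟨τ, q, -, -, hv⟩ | ⟨q, m, k, hmk, hq, hv⟩ |
    ⟨q, m, k, hmk, hq, hv⟩ | ⟨q, m, k, hmk, hq, hv⟩
  · exact Or.inl ⟨τ, q.out, hv⟩
  · exact Or.inr (Or.inl ⟨q.out, m, k, hmk, s29bx_mem_Gamma0_of_smul_eq N hq, hv⟩)
  · exact Or.inr (Or.inr (Or.inl ⟨q.out, m, k, hmk, s29bx_mem_Gamma0_of_smul_eq N hq, hv⟩))
  · exact Or.inr (Or.inr (Or.inr ⟨q.out, m, k, hmk, s29bx_mem_Gamma0_of_smul_eq N hq, hv⟩))

/-- **Lemma Λ for `s29bp_FK K N`.** -/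
theorem s29l_lambda_FK [IsAlgClosed K] {p : ℕ} [NeZero p]
    (hB : s29m_BridgeHyp K N p (s29bp_phi ι N)) {χ : Additive (Gamma0 N) →+ ZMod p}
    {ga gb : ℍ → ℂ} {A B : ffm_R N} (hd : s29l_ChiData N p χ ga gb A B) :
    ∃ y : Pic0.torsion K ↥(s29bp_FK K N) p, s29m_kappaC hB y = χ := by
  haveI : CharZero K := algebraRat.charZero K
  haveI := s29bp_ffGen ι N
  exact s29l_lambda (s29bp_jK K N) hB (s29l_placesHyp ι N) hd

end

end Fermat.Agent.Lib.S29
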