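/-
Plan K, package [LAM] (lead): glue of `LamFun` (helper6: the Eisenstein `χ`-data) with `LamMain` /
`LamPlaces` (Lemma Λ) and `KBridge` / `BFixed` (the bridge hypotheses for a surjective
`ι : K →+* ℂ`):  **every `χ ∈ H_p = s29h_Hp N p` is `κ` of a `p`-torsion class of
`s29bp_FK K N`**.
-/
import Fermat.Agent.Lib.S29.LamPlaces
import Fermat.Agent.Lib.S29.LamFun
import Fermat.Agent.Lib.S29.KBridge
import Fermat.Agent.Lib.S29.BFixed

set_option autoImplicit false
set_option linter.unusedSectionVars false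

namespace Fermat.Agent.Lib.S29

open UpperHalfPlane hiding I
open AlgebraicCurve IntermediateField Matrix.SpecialLinearGroup CongruenceSubgroup ModularGroup
open Fermat.Agent.Lib.FF
open scoped MatrixGroups

noncomputable section

variable {N p : ℕ} [NeZero N] [NeZero p]

/-- The `χ`-data of `LamMain` from the Eisenstein functions of `LamFun`. -/
theorem s29l_chiData {χ : Additive (Gamma0 N) →+ ZMod p} (hχ : χ ∈ s29h_Hp N p) :
    s29l_ChiData N p χ (s29lf_ga χ) (s29lf_gb N) (s29lf_A hχ) (s29lf_B N p) where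
  chi_a := s29lf_ga_isChiFun hχ
  chi_b := s29lf_gb_isChiFun N
  law_a γ z := by
    rw [s29lf_ga_smul hχ γ z, s29lf_chiC_coe]
    rfl
  law_b γ z := s29lf_gb_smul γ z
  coe_A z := s29lf_A_apply hχ z
  coe_B z := s29lf_B_apply z

variable {K : Type*} [Field K] [Algebra ℚ K] (ι : K →+* ℂ) (N)

/-- The bridge hypotheses for `s29bp_FK K N`, `φ = s29bp_phi ι N`, when `ι` is surjective. -/
theorem s29l_bridgeHyp [IsAlgClosed K] (hι : Function.Surjective ι) (p : ℕ) :
    s29m_BridgeHyp K N p (s29bp_phi ι N) := by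
  haveI : CharZero K := algebraRat.charZero K
  haveI := s29bp_ffGen ι N
  exact s29m_bridgeHyp ι N p (s29bp_jK K N) (s29b_phi_surjective_invariants N ι hι)

/-- **Lemma Λ, final form**: `κ` hits every element of `H_p`. -/
theorem s29l_lambda_Hp [IsAlgClosed K] (hB : s29m_BridgeHyp K N p (s29bp_phi ι N))
    (χ : Additive (Gamma0 N) →+ ZMod p) (hχ : χ ∈ s29h_Hp N p) :
    ∃ y : Pic0.torsion K ↥(s29bp_FK K N) p, s29m_kappaC hB y = χ :=
  s29l_lambda_FK ι N hB (s29l_chiData hχ)

end

end Fermat.Agent.Lib.S29
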