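/-
Plan K, assembly (lead): the contract `s29a_KappaCore` from [KAP] (`KFinal`), [LAM] (`LamGlue`),
[EQ] (`EQInst`) and [DC] (`DCGalois`, `DCInj`, `DCMain`).

Generic part: `K1` an algebraically closed field with `ι1 : K1 →+* ℂ` surjective and an algebra
structure over `ℚ̄`; `c = s29c_c : J₀(N)(ℚ̄) →+ Pic0 K1 (s29bp_FK K1 N)`.  If `c` is injective and
hits every `p`-torsion class, then `κ₀ = κ ∘ c` is injective, hits `H_p` and is Hecke-equivariant.
-/
import Fermat.Agent.Lib.S29.EigenCore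
import Fermat.Agent.Lib.S29.LamGlue
import Fermat.Agent.Lib.S29.EQInst
import Fermat.Agent.Lib.S29.DCGalois
import Fermat.Agent.Lib.S29.KFinal

set_option autoImplicit false
set_option linter.unusedSectionVars false

namespace Fermat.Agent.Lib.S29

open UpperHalfPlane hiding I
open AlgebraicCurve ModularCurve IntermediateField CongruenceSubgroup
open Fermat.Agent.Lib.FF Fermat.Agent.Lib.S18
open scoped MatrixGroups

noncomputable section

local notation "Kb" => AlgebraicClosure ℚ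

section Generic

variable {K1 : Type*} [Field K1] [Algebra ℚ K1] [CharZero K1] [IsAlgClosed K1] [Algebra Kb K1]
  (ι1 : K1 →+* ℂ) (hι1 : Function.Surjective ι1) (N : ℕ) [NeZero N] (p : ℕ) [NeZero p]
  [FFGen Kb (s29bp_jK Kb N)] [FFGen K1 (s29bp_jK K1 N)]

/-- The base-change map `J₀(N)(ℚ̄) →+ Pic0 K1 (s29bp_FK K1 N)` of [DC]. -/
abbrev s29a_c : JZero N →+ Pic0 K1 ↥(s29bp_FK K1 N) :=
  s29c_c (K0 := Kb) (K1 := K1) (modularFunctionFieldFull N) (s29bp_jK Kb N) (s29bp_jK K1 N)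

/-- The coefficientwise embedding of function fields. -/
abbrev s29a_j : ffi_F N →+* ↥(s29bp_FK K1 N) :=
  s18q_map (algebraMap Kb K1) (modularFunctionFieldFull N)

/-- `c` restricted to the `p`-torsion. -/
def s29a_ct : s29k_Jp N p →+ Pic0.torsion K1 ↥(s29bp_FK K1 N) p :=
  ((s29a_c (K1 := K1) N).comp (Pic0.torsion Kb (modularFunctionFieldBar N) p).subtype).codRestrict
    _ (fun x => by
      rw [Pic0.mem_torsion]
      show (p : ℤ) • (s29a_c (K1 := K1) N) (x : JZero N) = 0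
      rw [← map_zsmul, Pic0.mem_torsion.mp x.2, map_zero])

theorem s29a_ct_coe (x : s29k_Jp N p) :
    ((s29a_ct (K1 := K1) N p x : Pic0.torsion K1 ↥(s29bp_FK K1 N) p) : Pic0 K1 ↥(s29bp_FK K1 N)) =
      s29a_c (K1 := K1) N (x : JZero N) := rfl

/-- The compatibility of the bridges over `ℚ̄` and over `K1`. -/
theorem s29a_phi_j (f : ffi_F N) :
    s29bp_phi ι1 N (s29a_j (K1 := K1) N f) = s29bp_phi (ι1.comp (algebraMap Kb K1)) N f := by
  refine s29q_phi_comp_eq ι1 N (ι1.comp (algebraMap Kb K1)) (s29a_j (K1 := K1) N) (fun g => ?_) f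
  rw [s18q_map_coe, coeffMap_coeffMap]

/-- The hypothesis `hc` of `s29q_EQ` for the base-change map. -/
theorem s29a_hc (D : Divisor.degZero (K := Kb) (F := ffi_F N)) (f : ffi_F N) (hf : f ≠ 0)
    (hD : ∀ v : Place Kb (ffi_F N), v.ord f = (p : ℤ) * (D : Divisor Kb (ffi_F N)) v) :
    ∃ D' : Divisor.degZero (K := K1) (F := ↥(s29bp_FK K1 N)),
      s29a_c (K1 := K1) N (Pic0.mk D) = Pic0.mk D' ∧
        ∀ w : Place K1 ↥(s29bp_FK K1 N),
          w.ord (s29a_j (K1 := K1) N f) = (p : ℤ) * (D' : Divisor K1 ↥(s29bp_FK K1 N)) w := by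
  refine ⟨s29c_degZeroMap (K1 := K1) (modularFunctionFieldFull N) (s29bp_jK Kb N) (s29bp_jK K1 N) D,
    s29c_c_mk _ _ _ D, fun w => ?_⟩
  have hD2 : ∀ v : Place Kb (ffi_F N),
      ((p : ℤ) • (D : Divisor Kb (ffi_F N))) v = v.ord f := by
    intro v
    rw [Finsupp.smul_apply, smul_eq_mul, hD v]
  have h1 := s29c_divMap_principal (K1 := K1) (modularFunctionFieldFull N) (s29bp_jK Kb N) hf hD2 w
  rw [s29c_coe_degZeroMap, ← h1, map_zsmul, Finsupp.smul_apply, smul_eq_mul]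

include hι1 in
/-- **The contract `s29a_KappaCore` at `(N, p)`**, from injectivity and surjectivity on
`p`-torsion of the base-change map. -/
theorem s29a_kappaCore_of [Fact p.Prime]
    (hinj : Function.Injective (s29a_c (K1 := K1) N))
    (hsurj : ∀ y : Pic0 K1 ↥(s29bp_FK K1 N), y ∈ Pic0.torsion K1 ↥(s29bp_FK K1 N) p →
      ∃ x : JZero N, s29a_c (K1 := K1) N x = y) :
    ∃ κ0 : s29k_Jp N p →+ (Additive (Gamma0 N) →+ ZMod p),
      Function.Injective κ0 ∧ (∀ χ ∈ s29h_Hp N p, ∃ x, κ0 x = χ) ∧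
      ∀ ℓ : Nat.Primes, ¬ (ℓ : ℕ) ∣ N * p → ∀ x : s29k_Jp N p,
        κ0 (s29k_Tl N p ℓ x) =
          (haveI : Fact (ℓ : ℕ).Prime := ⟨ℓ.2⟩
           s29h_heckeHom N (ℓ : ℕ) (ZMod p) (κ0 x)) := by
  have hB := s29m_bridgeHypK ι1 N hι1 p
  refine ⟨(s29m_kappaC hB).comp (s29a_ct (K1 := K1) N p), ?_, ?_, ?_⟩
  · -- injectivity
    intro x y hxy
    have h1 := s29m_kappaC_injective hB hxy
    have h2 := congrArg Subtype.val h1
    rw [s29a_ct_coe, s29a_ct_coe] at h2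
    exact Subtype.ext (hinj h2)
  · -- every `χ ∈ H_p` is hit
    intro χ hχ
    obtain ⟨y, hy⟩ := s29l_lambda_Hp N ι1 hB χ hχ
    obtain ⟨x, hx⟩ := hsurj (y : Pic0 K1 ↥(s29bp_FK K1 N)) y.2
    have hxt : x ∈ Pic0.torsion Kb (modularFunctionFieldBar N) p := by
      rw [Pic0.mem_torsion]
      apply hinj
      rw [map_zsmul, hx, map_zero]
      exact Pic0.mem_torsion.mp y.2
    refine ⟨⟨x, hxt⟩, ?_⟩
    rw [AddMonoidHom.comp_apply]
    have : s29a_ct (K1 := K1) N p ⟨x, hxt⟩ = y := Subtype.ext hx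
    rw [this, hy]
  · -- equivariance
    intro ℓ hℓ x
    haveI : Fact (ℓ : ℕ).Prime := ⟨ℓ.2⟩
    have hℓN : ¬ (ℓ : ℕ) ∣ N := fun h => hℓ (Dvd.dvd.mul_right h p)
    exact s29q_EQ (ι1.comp (algebraMap Kb K1)) hB (s29a_j (K1 := K1) N) (s29a_phi_j ι1 N)
      (s29a_c (K1 := K1) N) (s29a_hc N p) (fun x => s29a_ct (K1 := K1) N p x)
      (fun x => s29a_ct_coe N p x) (ℓ : ℕ) hℓN x

end Generic

end

end Fermat.Agent.Lib.S29
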