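/-
Plan K, assembly (lead): **`s29a_kappaCore : s29a_KappaCore`** and the resulting
`s29a_eigenSupportFinal : s29k_EigenSupport`.

`K1 := ℂ` with `ι1 := RingHom.id ℂ` and the `ℚ̄`-algebra structure given by the Prelude's
`complexEmbedding`; injectivity of the base-change map from `DCInj`, surjectivity on `p`-torsion
from `DCSurjC`, everything else from `KappaAsm`.
-/
import Fermat.Agent.Lib.S29.KappaAsm
import Fermat.Agent.Lib.S29.DCInj
import Fermat.Agent.Lib.S29.DCSurjC
import Fermat.Agent.Lib.S29.DSMain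
import Fermat.Prelude.Def_GaloisRep_ComplexConjugation

set_option autoImplicit false
set_option linter.unusedSectionVars false
set_option linter.style.haveILetI false

namespace Fermat.Agent.Lib.S29

open UpperHalfPlane hiding I
open AlgebraicCurve ModularCurve IntermediateField CongruenceSubgroup
open Fermat.Agent.Lib.FF Fermat.Agent.Lib.S18
open scoped MatrixGroups

noncomputable section

local notation "Kb" => AlgebraicClosure ℚ

section Generic

variable {K1 : Type*} [Field K1] [Algebra ℚ K1] [CharZero K1] [IsAlgClosed K1] [Algebra Kb K1]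
  (ι1 : K1 →+* ℂ) (hι1 : Function.Surjective ι1) (N : ℕ) [NeZero N] (p : ℕ) [NeZero p]
  [FFGen Kb (s29bp_jK Kb N)] [FFGen K1 (s29bp_jK K1 N)]

/-- The coefficientwise embedding maps `j` to `j`. -/
theorem s29a_j_jK : s29a_j (K1 := K1) N (s29bp_jK Kb N) = s29bp_jK K1 N := by
  apply Subtype.ext
  rw [s18q_map_coe, s29bp_jK_coe, s29bp_jK_coe, coeffEmb, coeffEmb, coeffMap_coeffMap]
  exact coeffMap_congr (Subsingleton.elim _ _) _

include hι1 in
/-- **The contract `s29a_KappaCore` at `(N, p)`** for a general `K1`. -/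
theorem s29a_kappaCore_K1 [Fact p.Prime] :
    ∃ κ0 : s29k_Jp N p →+ (Additive (Gamma0 N) →+ ZMod p),
      Function.Injective κ0 ∧ (∀ χ ∈ s29h_Hp N p, ∃ x, κ0 x = χ) ∧
      ∀ ℓ : Nat.Primes, ¬ (ℓ : ℕ) ∣ N * p → ∀ x : s29k_Jp N p,
        κ0 (s29k_Tl N p ℓ x) =
          (haveI : Fact (ℓ : ℕ).Prime := ⟨ℓ.2⟩
           s29h_heckeHom N (ℓ : ℕ) (ZMod p) (κ0 x)) :=
  s29a_kappaCore_of ι1 hι1 N p
    (s29c_c_injective (K1 := K1) (modularFunctionFieldFull N) (s29bp_jK Kb N) (s29bp_jK K1 N))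
    (s29cs_surj_torsion' (K1 := K1) (modularFunctionFieldFull N) (s29bp_jK Kb N) (s29bp_jK K1 N)
      (s29a_j_jK N) p (s29m_finite_torsionK ι1 N p hι1))

end Generic

/-- `ℂ` as a `ℚ̄`-algebra, through the Prelude's `complexEmbedding`. -/
@[reducible] def s29a_algebraC : Algebra Kb ℂ := (complexEmbedding : Kb →+* ℂ).toAlgebra

attribute [local instance] s29a_algebraC

/-- **[KAP + DC + LAM + EQ]** the Kummer map on `J₀(N)(ℚ̄)[p]`. -/
theorem s29a_kappaCore : s29a_KappaCore := by
  intro N _ p _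
  haveI : NeZero p := ⟨(Fact.out : p.Prime).ne_zero⟩
  haveI : FFGen Kb (s29bp_jK Kb N) := s29bp_ffGen (algebraMap Kb ℂ) N
  haveI : FFGen ℂ (s29bp_jK ℂ N) := s29bp_ffGen (RingHom.id ℂ) N
  exact s29a_kappaCore_K1 (K1 := ℂ) (RingHom.id ℂ) Function.surjective_id N p

/-- **[EigenSupport]**, unconditionally. -/
theorem s29a_eigenSupportFinal : s29k_EigenSupport :=
  s29a_eigenSupport s29a_kappaCore s29s_dsCore

end

end Fermat.Agent.Lib.S29
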