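/-
Plan K (S29/S42), package [BR], part (BR3), step (ii) (helper4): points of `ℍ` and cusps give
PLACES of the function field `FK = K(j(q^d) : d ∣ N)` (generic constant field `K`, embedding
`ι : K →+* ℂ`, to be used with `K = ℂ`, `ι = id`).

* `s29bp_exists_place_of_valuation` (generic function fields): a `ℤᵐ⁰`-valued valuation, `≤ 1` on
  the constants and nontrivial, is a positive multiple of (the order function of) a place.
* `s29bp_exists_place_of_model`: a valuation `W` of the analytic model `ffm_E N`, trivial on `ℂ`,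
  and a twist `σ ∈ SL₂(ℤ)` give a place `v` of `FK` with `ord_W (σ • φ f) = m * v.ord f`.
* `s29bp_exists_place_at` (a point `z ∈ ℍ`; needs `ι` surjective), `s29bp_exists_place_cusp`
  (the cusp `σ⁻¹ ∞`).
* `s29bp_dvd_ord_at`, `s29bp_dvd_order_frac`: if `div h = p • D` then all orders of `φ h` on `ℍ` are
  divisible by `p` (second form: the hypothesis of Lemma R, `s29r_exists_root_ratio`).
* `s29bp_const_of_ord_eq_zero` (generic): a function without zeros is constant.
-/
import Fermat.Agent.Lib.S29.BPPhi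
import Fermat.Agent.Lib.FF.Squeeze
import Fermat.Agent.Lib.FF.FibreModels
import Fermat.Agent.Lib.FF.CuspsModelInf
import Fermat.Agent.Lib.FF.FFBasicIdentity

set_option autoImplicit false
set_option linter.unusedSectionVars false

namespace Fermat.Agent.Lib.S29

open UpperHalfPlane hiding I
open AlgebraicCurve WithZero ModularCurve IntermediateField Matrix.SpecialLinearGroup
  CongruenceSubgroup
open Fermat.Agent.Lib.FF
open scoped MatrixGroups

noncomputable section

/-! ### Generic function fields -/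

section Generic

variable {K F : Type*} [Field K] [Field F] [Algebra K F]

/-- The valuation ring of a `ℤᵐ⁰`-valued valuation is a principal ideal ring. -/
theorem s29bp_isPrincipalIdealRing_valuationSubring (w : Valuation F ℤᵐ⁰) :
    IsPrincipalIdealRing w.valuationSubring := by
  classical
  refine ⟨fun I => ?_⟩
  by_cases hI : I = ⊥
  · rw [hI]; exact bot_isPrincipal
  obtain ⟨a₀, ha₀I, ha₀⟩ := Submodule.exists_mem_ne_zero_of_ne_bot hI
  have hord_nonneg : ∀ a : w.valuationSubring, a ≠ 0 → 0 ≤ -(log (w (a : F))) := by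
    intro a ha
    have h1 : w (a : F) ≤ 1 := (Valuation.mem_valuationSubring_iff w _).mp a.2
    have h0 : w (a : F) ≠ 0 := (Valuation.ne_zero_iff w).mpr (by
      intro h; exact ha (Subtype.ext h))
    have := (WithZero.log_le_log h0 one_ne_zero).mpr h1
    simp only [log_one] at this
    omega
  let P : ℕ → Prop := fun n => ∃ a : w.valuationSubring, a ∈ I ∧ a ≠ 0 ∧ -(log (w (a : F))) = n
  have hP : ∃ n, P n := by
    refine ⟨(-(log (w (a₀ : F)))).toNat, a₀, ha₀I, ha₀, ?_⟩
    rw [Int.toNat_of_nonneg (hord_nonneg a₀ ha₀)]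
  obtain ⟨a, haI, ha0, han⟩ := Nat.find_spec hP
  refine ⟨a, le_antisymm ?_ ?_⟩
  · intro b hbI
    rw [Submodule.mem_span_singleton]
    by_cases hb0 : b = 0
    · exact ⟨0, by rw [hb0, zero_smul]⟩
    have haF : (a : F) ≠ 0 := fun h => ha0 (Subtype.ext h)
    have hbF : (b : F) ≠ 0 := fun h => hb0 (Subtype.ext h)
    have hmin : (Nat.find hP : ℤ) ≤ -(log (w (b : F))) := by
      have hb' : P (-(log (w (b : F)))).toNat :=
        ⟨b, hbI, hb0, by rw [Int.toNat_of_nonneg (hord_nonneg b hb0)]⟩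
      have := Nat.find_min' hP hb'
      have h2 : ((-(log (w (b : F)))).toNat : ℤ) = -(log (w (b : F))) :=
        Int.toNat_of_nonneg (hord_nonneg b hb0)
      rw [← h2]
      exact_mod_cast this
    have hle : w ((b : F) / (a : F)) ≤ 1 := by
      rw [map_div₀]
      have h0a : w (a : F) ≠ 0 := (Valuation.ne_zero_iff w).mpr haF
      have h0b : w (b : F) ≠ 0 := (Valuation.ne_zero_iff w).mpr hbF
      rw [div_le_one₀ (zero_lt_iff.mpr h0a)]
      rw [← WithZero.log_le_log h0b h0a]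
      omega
    refine ⟨⟨(b : F) / (a : F), (Valuation.mem_valuationSubring_iff w _).mpr hle⟩, ?_⟩
    apply Subtype.ext
    show (b : F) / (a : F) * (a : F) = (b : F)
    field_simp
  · rw [Submodule.span_singleton_le_iff_mem]
    exact haI

/-- A `ℤᵐ⁰`-valued valuation on `F`, at most one on the constants and nontrivial, is a positive
multiple of (the order function of) a place. -/
theorem s29bp_exists_place_of_valuation (w : Valuation F ℤᵐ⁰)
    (hK : ∀ c : K, w (algebraMap K F c) ≤ 1) {t : F} (ht0 : t ≠ 0) (ht : w t < 1) :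
    ∃ v : Place K F, ∃ m : ℤ, 0 < m ∧ ∀ f : F, f ≠ 0 → ffi_ord w f = m * v.ord f := by
  let v : Place K F :=
    { toValuationSubring := w.valuationSubring
      algebraMap_mem' := fun c => (Valuation.mem_valuationSubring_iff w _).mpr (hK c)
      ne_top' := by
        intro htop
        have : t⁻¹ ∈ w.valuationSubring := by rw [htop]; exact ValuationSubring.mem_top _
        rw [Valuation.mem_valuationSubring_iff, map_inv₀] at this
        have h0 : w t ≠ 0 := (Valuation.ne_zero_iff w).mpr ht0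
        have h1 : 1 ≤ w t := by
          have := mul_le_mul_left this (w t)
          rwa [inv_mul_cancel₀ h0, one_mul] at this
        exact absurd ht (not_lt.mpr h1)
      isPrincipalIdealRing' := s29bp_isPrincipalIdealRing_valuationSubring w }
  exact ⟨v, ffs_exists_proportional w v rfl⟩

/-- A function without zeros (`ord = 0` at every place; positivity nowhere suffices) is a
constant. -/
theorem s29bp_const_of_ord_le_zero (x : F) [FFGen K x] [CharZero K] [IsAlgClosed K] (h : F)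
    (hh : ∀ v : Place K F, v.ord h ≤ 0) : h ∈ Set.range (algebraMap K F) := by
  classical
  by_cases halg : IsAlgebraic K h
  · exact ff_mem_range_of_isAlgebraic halg
  · exfalso
    have hgen : FFGen K h := ff_gen_of_transcendental (x := x) halg
    obtain ⟨P, hP, hsum⟩ := ff_fibreSum K h
    have hPempty : P = ∅ := by
      rw [Finset.eq_empty_iff_forall_notMem]
      intro v hv
      have := (hP v).mp hv
      have := hh v
      omega
    rw [hPempty, Finset.sum_empty] at hsum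
    have : FiniteDimensional K⟮h⟯ F := hgen.finite
    have hpos : 0 < Module.finrank K⟮h⟯ F := Module.finrank_pos
    omega

/-- A function with trivial divisor is a constant. -/
theorem s29bp_const_of_ord_eq_zero (x : F) [FFGen K x] [CharZero K] [IsAlgClosed K] (h : F)
    (hh : ∀ v : Place K F, v.ord h = 0) : h ∈ Set.range (algebraMap K F) :=
  s29bp_const_of_ord_le_zero x h fun v => (hh v).le

end Generic

/-! ### Places of `FK` from valuations of the analytic model -/

variable {K : Type*} [Field K] [Algebra ℚ K] (ι : K →+* ℂ) (N : ℕ)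

/-- A valuation `W` of the analytic model, trivial on `ℂ`, and a twist `σ ∈ SL₂(ℤ)` give a place
`v` of `FK` with `ord_W (σ • φ f) = m * v.ord f`, as soon as `W (σ • φ t) < 1` for some `t ≠ 0`. -/
theorem s29bp_exists_place_of_model (W : Valuation (ffm_E N) ℤᵐ⁰)
    (hW : ∀ c : ℂ, c ≠ 0 → W (algebraMap ℂ (ffm_E N) c) = 1) (σ : SL(2, ℤ))
    {t : ↥(s29bp_FK K N)} (ht0 : t ≠ 0) (ht : W (σ • s29bp_phi ι N t) < 1) :
    ∃ v : Place K ↥(s29bp_FK K N), ∃ m : ℤ, 0 < m ∧
      ∀ f : ↥(s29bp_FK K N), f ≠ 0 → ffi_ord W (σ • s29bp_phi ι N f) = m * v.ord f := by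
  let w : Valuation ↥(s29bp_FK K N) ℤᵐ⁰ :=
    W.comap ((MulSemiringAction.toRingHom SL(2, ℤ) (ffm_E N) σ).comp (s29bp_phi ι N))
  have hw : ∀ f, w f = W (σ • s29bp_phi ι N f) := fun f => rfl
  have hK : ∀ c : K, w (algebraMap K ↥(s29bp_FK K N) c) ≤ 1 := by
    intro c
    rw [hw, s29bp_phi_const_smul, s29bp_phi_const]
    by_cases hc : c = 0
    · rw [hc, map_zero, map_zero, map_zero]
      exact zero_le_one
    · exact (hW _ ((map_ne_zero ι).mpr hc)).le
  obtain ⟨v, m, hm, hv⟩ := s29bp_exists_place_of_valuation (K := K) w hK ht0 (by rw [hw]; exact ht)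
  exact ⟨v, m, hm, fun f hf => hv f hf⟩

include ι in
/-- `j - c ≠ 0` in `FK`. -/
theorem s29bp_jK_sub_ne_zero (c : K) :
    s29bp_jK K N - algebraMap K ↥(s29bp_FK K N) c ≠ 0 := by
  intro h
  have h1 := congrArg (s29bp_phi ι N) h
  rw [map_sub, s29bp_phi_j, s29bp_phi_const, map_zero,
    IsScalarTower.algebraMap_apply ℂ (ffm_R N) (ffm_E N), ← map_sub,
    map_eq_zero_iff _ (ffm_algebraMap_injective N)] at h1
  obtain ⟨z, hz⟩ := ffj_surjective (ι c + 1)
  have h2 := congrArg (fun g : ffm_R N => (g : ℍ → ℂ) z) h1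
  have h3 : ((ffg_jR N - algebraMap ℂ (ffm_R N) (ι c) : ffm_R N) : ℍ → ℂ) z
      = ffj_j z - ι c := rfl
  have h4 : ((0 : ffm_R N) : ℍ → ℂ) z = 0 := rfl
  simp only [h3, h4, hz] at h2
  simp at h2

/-- `φ (j - c) = (z ↦ j z - ι c)`. -/
theorem s29bp_phi_jK_sub (c : K) :
    s29bp_phi ι N (s29bp_jK K N - algebraMap K ↥(s29bp_FK K N) c) =
      algebraMap (ffm_R N) (ffm_E N) (ffg_jR N - algebraMap ℂ (ffm_R N) (ι c)) := by
  rw [map_sub, s29bp_phi_j, s29bp_phi_const,
    IsScalarTower.algebraMap_apply ℂ (ffm_R N) (ffm_E N), ← map_sub]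

/-- **Every point of `ℍ` is a place** (for `ι` surjective): for `z ∈ ℍ` there is a place `v` of
`FK` and `m > 0` with `ord_z (φ f) = m * v.ord f`. -/
theorem s29bp_exists_place_at (hι : Function.Surjective ι) (z : ℍ) :
    ∃ v : Place K ↥(s29bp_FK K N), ∃ m : ℤ, 0 < m ∧
      ∀ f : ↥(s29bp_FK K N), f ≠ 0 → ffi_ord (ffm_ordAt N z) (s29bp_phi ι N f) = m * v.ord f := by
  obtain ⟨c, hc⟩ := hι (ffj_j z)
  have ht : ffm_ordAt N z ((1 : SL(2, ℤ)) •
      s29bp_phi ι N (s29bp_jK K N - algebraMap K ↥(s29bp_FK K N) c)) < 1 := by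
    rw [one_smul, s29bp_phi_jK_sub]
    refine ffm_ordAt_algebraMap_lt_one N z _ ?_
    show ffj_j z - ι c = 0
    rw [hc, sub_self]
  obtain ⟨v, m, hm, hv⟩ := s29bp_exists_place_of_model ι N (ffm_ordAt N z)
    (fun c hc => ffm_ordAt_const N z hc) 1 (s29bp_jK_sub_ne_zero ι N c) ht
  refine ⟨v, m, hm, fun f hf => ?_⟩
  have := hv f hf
  rwa [one_smul] at this

/-- The same with a twist: `ord_z (σ • φ f) = m * v.ord f`. -/
theorem s29bp_exists_place_at_smul (hι : Function.Surjective ι) (z : ℍ) (σ : SL(2, ℤ)) :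
    ∃ v : Place K ↥(s29bp_FK K N), ∃ m : ℤ, 0 < m ∧
      ∀ f : ↥(s29bp_FK K N), f ≠ 0 →
        ffi_ord (ffm_ordAt N z) (σ • s29bp_phi ι N f) = m * v.ord f := by
  obtain ⟨v, m, hm, hv⟩ := s29bp_exists_place_at ι N hι (σ⁻¹ • z)
  refine ⟨v, m, hm, fun f hf => ?_⟩
  rw [← hv f hf, ffi_ord, ffi_ord, ffm_ordAt_smul]

include ι in
/-- `j ≠ 0` in `FK`. -/
theorem s29bp_jK_ne_zero : s29bp_jK K N ≠ 0 := by
  have := s29bp_jK_sub_ne_zero ι N (0 : K)
  rwa [map_zero, sub_zero] at this

/-- **Every cusp is a place**: for `σ ∈ SL₂(ℤ)` there is a place `v` of `FK` and `m > 0` with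
`ord_∞ (σ • φ f) = m * v.ord f`. -/
theorem s29bp_exists_place_cusp [NeZero N] (σ : SL(2, ℤ)) :
    ∃ v : Place K ↥(s29bp_FK K N), ∃ m : ℤ, 0 < m ∧
      ∀ f : ↥(s29bp_FK K N), f ≠ 0 →
        ffi_ord (ffm_ordInf N) (σ • s29bp_phi ι N f) = m * v.ord f := by
  have hN : N ≠ 0 := NeZero.ne N
  have hw := ffc_isOrdInf N
  have hJ : s29bp_phi ι N (s29bp_jK K N) = algebraMap (ffm_R N) (ffm_E N) (ffc_J N) :=
    s29bp_phi_j ι N
  have hJE := ffc_algebraMap_ne_zero (ffc_J_ne_zero (N := N) hN)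
  have ht : ffm_ordInf N (σ • s29bp_phi ι N (s29bp_jK K N)⁻¹) < 1 := by
    rw [map_inv₀, smul_inv'', s29bp_phi_j_smul, hJ]
    apply ffc_val_lt_one_of_ord_pos _ (inv_ne_zero hJE)
    rw [ffc_ord_inv, hw.ord_J hN, neg_neg]
    exact_mod_cast Nat.pos_of_ne_zero hN
  exact s29bp_exists_place_of_model ι N (ffm_ordInf N)
    (fun c hc => ffm_ordInf_const N hc) σ (inv_ne_zero (s29bp_jK_ne_zero ι N)) ht

/-! ### Divisibility of the orders on `ℍ` of a function whose divisor is divisible by `p` -/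

/-- If `div h = p • D` then the order of `φ h` at every point of `ℍ` is divisible by `p`. -/
theorem s29bp_dvd_ord_at (hι : Function.Surjective ι) (p : ℤ) {h : ↥(s29bp_FK K N)} (hh : h ≠ 0)
    (D : Place K ↥(s29bp_FK K N) → ℤ) (hD : ∀ v, v.ord h = p * D v) (z : ℍ) :
    p ∣ ffi_ord (ffm_ordAt N z) (s29bp_phi ι N h) := by
  obtain ⟨v, m, -, hv⟩ := s29bp_exists_place_at ι N hι z
  rw [hv h hh, hD v]
  exact ⟨m * D v, by ring⟩

/-- The same at the cusps. -/
theorem s29bp_dvd_ord_cusp [NeZero N] (p : ℤ) {h : ↥(s29bp_FK K N)} (hh : h ≠ 0)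
    (D : Place K ↥(s29bp_FK K N) → ℤ) (hD : ∀ v, v.ord h = p * D v) (σ : SL(2, ℤ)) :
    p ∣ ffi_ord (ffm_ordInf N) (σ • s29bp_phi ι N h) := by
  obtain ⟨v, m, -, hv⟩ := s29bp_exists_place_cusp ι N σ
  rw [hv h hh, hD v]
  exact ⟨m * D v, by ring⟩

/-- The hypothesis of Lemma R (`s29r_exists_root_ratio`, `s29r_root_character`): if `div h = p • D`
and `φ h = a / b` with `a b ∈ ffm_R N`, then at every `τ ∈ ℍ` the orders of `a` and `b` are finite
and their difference is divisible by `p`. -/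
theorem s29bp_dvd_order_frac (hι : Function.Surjective ι) (p : ℤ) {h : ↥(s29bp_FK K N)}
    (hh : h ≠ 0) (D : Place K ↥(s29bp_FK K N) → ℤ) (hD : ∀ v, v.ord h = p * D v)
    {a b : ffm_R N} (hb : b ≠ 0)
    (hab : s29bp_phi ι N h * algebraMap (ffm_R N) (ffm_E N) b = algebraMap (ffm_R N) (ffm_E N) a)
    (τ : ℍ) :
    ∃ na nb : ℕ, analyticOrderAt ((a : ℍ → ℂ) ∘ ofComplex) (τ : ℂ) = (na : ℕ∞) ∧
      analyticOrderAt ((b : ℍ → ℂ) ∘ ofComplex) (τ : ℂ) = (nb : ℕ∞) ∧ p ∣ (na : ℤ) - nb := by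
  have hφh : s29bp_phi ι N h ≠ 0 := (map_ne_zero _).mpr hh
  have hbE : algebraMap (ffm_R N) (ffm_E N) b ≠ 0 := by
    rw [Ne, map_eq_zero_iff _ (ffm_algebraMap_injective N)]; exact hb
  have ha : a ≠ 0 := by
    rintro rfl
    rw [map_zero] at hab
    exact mul_ne_zero hφh hbE hab
  obtain ⟨na, hna⟩ := ffi_exists_order τ a ha
  obtain ⟨nb, hnb⟩ := ffi_exists_order τ b hb
  refine ⟨na, nb, hna, hnb, ?_⟩
  have h1 := ffi_ord_ordAt_algebraMap τ a hna
  have h2 := ffi_ord_ordAt_algebraMap τ b hnb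
  have h3 := ffi_ord_mul (ffm_ordAt N τ) hφh hbE
  rw [hab, h1, h2] at h3
  have h4 := s29bp_dvd_ord_at ι N hι p hh D hD τ
  have h5 : (na : ℤ) - nb = ffi_ord (ffm_ordAt N τ) (s29bp_phi ι N h) := by omega
  rw [h5]
  exact h4

end

end Fermat.Agent.Lib.S29
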