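/-
Plan K (S29), package [DS] (helper3): `T_ℓ^H` PRESERVES `H(A) = s29h_Hpar R N A` (parabolic
homomorphisms vanishing on finite-order elements), and the restricted operators.

For `γ ∈ Γ₀(N)` with permutation `σ = heckePermT ℓ γ` and a point `x` with `σ^m x = x`:
`∑_{i<m} χ (γ'_{σ^i x}) = χ ((γ^m)'_x)` and `(γ^m)'_x = α_x γ^m α_x⁻¹` has the trace of `γ^m` and is of
finite order if `γ` is; summing over the cycles of `σ` gives `(T_ℓ^H χ)(γ) = 0`.
-/
import Mathlib
import Fermat.Agent.Lib.S29.HDefs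

set_option autoImplicit false
set_option linter.unusedSectionVars false

noncomputable section

namespace Fermat.Agent.Lib.S29

open CongruenceSubgroup ModularCurve.Period Fermat.Agent.Lib.ES
open P2MW.S_ModularForm_heckeT_slash_eq_self_of_mem_Gamma0.ModularForm.HeckeSlashInvariance
open scoped MatrixGroups

local notation "Mat2" => Matrix (Fin 2) (Fin 2) ℤ

/-! ### Sums over the cycles of a permutation -/

/-- If all sums of `f` over the closed `σ`-paths vanish, so does the total sum. -/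
theorem s29h_sum_eq_zero_of_cycle_sums {X A : Type*} [Fintype X]
    [AddCommMonoid A] (σ : Equiv.Perm X) (f : X → A)
    (h : ∀ (x : X) (m : ℕ), 0 < m → (σ ^ m) x = x →
      ∑ i ∈ Finset.range m, f ((σ ^ i) x) = 0) :
    ∑ x, f x = 0 := by
  classical
  have key : ∀ n : ℕ, ∀ S : Finset X, S.card ≤ n → (∀ x ∈ S, σ x ∈ S) →
      ∑ x ∈ S, f x = 0 := by
    intro n
    induction n with
    | zero =>
      intro S hS _
      rw [Finset.card_eq_zero.mp (Nat.le_zero.mp hS), Finset.sum_empty]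
    | succ n ih =>
      intro S hS hσ
      rcases S.eq_empty_or_nonempty with rfl | ⟨x₀, hx₀⟩
      · rw [Finset.sum_empty]
      -- a positive period exists
      have hex : ∃ m : ℕ, 0 < m ∧ (σ ^ m) x₀ = x₀ :=
        ⟨orderOf σ, orderOf_pos σ, by rw [pow_orderOf_eq_one]; rfl⟩
      set m := Nat.find hex with hm
      obtain ⟨hmpos, hmx⟩ := Nat.find_spec hex
      have hmin : ∀ j, 0 < j → j < m → (σ ^ j) x₀ ≠ x₀ := fun j hj hjm hjx =>
        Nat.find_min hex hjm ⟨hj, hjx⟩
      -- the orbit of `x₀`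
      have hpowS : ∀ i : ℕ, (σ ^ i) x₀ ∈ S := by
        intro i
        induction i with
        | zero => simpa using hx₀
        | succ i ihi =>
          rw [pow_succ', Equiv.Perm.mul_apply]
          exact hσ _ ihi
      have hinj : Set.InjOn (fun i : ℕ => (σ ^ i) x₀) (Finset.range m : Set ℕ) := by
        have aux : ∀ i j : ℕ, i < j → j < m → (σ ^ i) x₀ ≠ (σ ^ j) x₀ := by
          intro i j hij hjm heq
          have h1 : (σ ^ j) x₀ = (σ ^ i) ((σ ^ (j - i)) x₀) := by
            rw [← Equiv.Perm.mul_apply, ← pow_add, Nat.add_sub_cancel' hij.le]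
          rw [h1] at heq
          exact hmin (j - i) (by omega) (by omega) ((σ ^ i).injective heq).symm
        intro i hi j hj heq
        simp only [Finset.coe_range, Set.mem_Iio] at hi hj
        rcases lt_trichotomy i j with hlt | heq' | hgt
        · exact absurd heq (aux i j hlt hj)
        · exact heq'
        · exact absurd heq.symm (aux j i hgt hi)
      set O : Finset X := (Finset.range m).image (fun i : ℕ => (σ ^ i) x₀) with hO
      have hOS : O ⊆ S := by
        intro y hy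
        obtain ⟨i, -, rfl⟩ := Finset.mem_image.mp hy
        exact hpowS i
      have hx₀O : x₀ ∈ O := Finset.mem_image.mpr ⟨0, Finset.mem_range.mpr hmpos, by simp⟩
      -- the complement is stable
      have hstab : ∀ x ∈ S \ O, σ x ∈ S \ O := by
        intro x hx
        obtain ⟨hxS, hxO⟩ := Finset.mem_sdiff.mp hx
        refine Finset.mem_sdiff.mpr ⟨hσ x hxS, fun hσx => hxO ?_⟩
        obtain ⟨i, hi, hix⟩ := Finset.mem_image.mp hσx
        have hi' := Finset.mem_range.mp hi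
        rcases Nat.eq_zero_or_pos i with rfl | hipos
        · -- `σ x = x₀ = σ^m x₀`
          refine Finset.mem_image.mpr ⟨m - 1, Finset.mem_range.mpr (by omega), ?_⟩
          apply σ.injective
          show σ ((σ ^ (m - 1)) x₀) = σ x
          rw [← Equiv.Perm.mul_apply, ← pow_succ', Nat.sub_add_cancel hmpos, hmx, ← hix]
          simp
        · refine Finset.mem_image.mpr ⟨i - 1, Finset.mem_range.mpr (by omega), ?_⟩
          apply σ.injective
          show σ ((σ ^ (i - 1)) x₀) = σ x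
          rw [← Equiv.Perm.mul_apply, ← pow_succ', Nat.sub_add_cancel hipos]
          exact hix
      have hcard : (S \ O).card ≤ n := by
        have h1 : (S \ O).card < S.card :=
          Finset.card_lt_card (Finset.sdiff_ssubset hOS ⟨x₀, hx₀O⟩)
        omega
      rw [← Finset.sum_sdiff hOS, ih (S \ O) hcard hstab, zero_add, hO,
        Finset.sum_image hinj]
      exact h x₀ m hmpos hmx
  simpa using key (Finset.univ : Finset X).card Finset.univ le_rfl (fun x _ => Finset.mem_univ _)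

/-! ### Conjugation by a matrix of nonzero determinant -/

theorem s29h_trace_eq_of_conj {A B M : Mat2} (hM : M.det ≠ 0) (h : M * B = A * M) :
    A.trace = B.trace := by
  have h1 : M.det • A = M * B * M.adjugate := by
    rw [h, Matrix.mul_assoc, Matrix.mul_adjugate, Matrix.mul_smul, Matrix.mul_one]
  have h2 : M.det * A.trace = M.det * B.trace := by
    have := congrArg Matrix.trace h1
    rw [Matrix.trace_smul, smul_eq_mul, Matrix.mul_assoc, Matrix.trace_mul_comm,
      Matrix.mul_assoc, Matrix.adjugate_mul, Matrix.mul_smul, Matrix.mul_one,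
      Matrix.trace_smul, smul_eq_mul] at this
    exact this
  exact mul_left_cancel₀ hM h2

theorem s29h_pow_conj {A B M : Mat2} (h : M * B = A * M) (n : ℕ) : M * B ^ n = A ^ n * M := by
  induction n with
  | zero => simp
  | succ n ih => rw [pow_succ, ← Matrix.mul_assoc, ih, Matrix.mul_assoc, h, ← Matrix.mul_assoc,
      ← pow_succ]

/-! ### Traces of powers of parabolic elements -/

theorem s29h_sq_eq (g : SL(2, ℤ)) :
    (g : Mat2) * (g : Mat2) = (g : Mat2).trace • (g : Mat2) - 1 := by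
  have hdet := g.det_coe
  rw [Matrix.det_fin_two] at hdet
  ext i j
  rw [Matrix.sub_apply, Matrix.smul_apply, smul_eq_mul, Matrix.mul_apply, Fin.sum_univ_two,
    Matrix.trace_fin_two]
  fin_cases i <;> fin_cases j <;> simp <;>
    first | ring1 | linear_combination -hdet

theorem s29h_trace_pow_rec (g : SL(2, ℤ)) (m : ℕ) :
    ((g : Mat2) ^ (m + 2)).trace =
      (g : Mat2).trace * ((g : Mat2) ^ (m + 1)).trace - ((g : Mat2) ^ m).trace := by
  have h1 : (g : Mat2) ^ (m + 2) = (g : Mat2) ^ m * ((g : Mat2) * (g : Mat2)) := by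
    rw [pow_add, pow_two]
  rw [h1, s29h_sq_eq, Matrix.mul_sub, Matrix.mul_smul, Matrix.mul_one, Matrix.trace_sub,
    Matrix.trace_smul, smul_eq_mul, ← pow_succ]

theorem s29h_trace_pow_sq (g : SL(2, ℤ)) (hg : (g : Mat2).trace ^ 2 = 4) (m : ℕ) :
    ((g : Mat2) ^ m).trace ^ 2 = 4 := by
  have key : ∀ m : ℕ, ((g : Mat2) ^ m).trace ^ 2 = 4 ∧
      2 * ((g : Mat2) ^ (m + 1)).trace = (g : Mat2).trace * ((g : Mat2) ^ m).trace := by
    intro m
    induction m with
    | zero =>
      refine ⟨?_, ?_⟩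
      · rw [pow_zero, Matrix.trace_one]
        simp
      · rw [zero_add, pow_one, pow_zero, Matrix.trace_one]
        simp [mul_comm]
    | succ m ih =>
      obtain ⟨h1, h2⟩ := ih
      refine ⟨?_, ?_⟩
      · have : (2 * ((g : Mat2) ^ (m + 1)).trace) ^ 2 = 16 := by
          rw [h2, mul_pow, hg, h1]
          norm_num
        nlinarith
      · rw [s29h_trace_pow_rec]
        have h3 : 2 * ((g : Mat2).trace * ((g : Mat2) ^ (m + 1)).trace -
            2 * ((g : Mat2) ^ m).trace) = 0 := by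
          linear_combination (g : Mat2).trace * h2 + ((g : Mat2) ^ m).trace * hg
        have h4 : (g : Mat2).trace * ((g : Mat2) ^ (m + 1)).trace -
            2 * ((g : Mat2) ^ m).trace = 0 :=
          (mul_eq_zero.mp h3).resolve_left two_ne_zero
        linear_combination h4
  exact (key m).1

/-! ### Iterating the cocycle rule -/

section Iterate

variable {ℓ : ℕ} [Fact ℓ.Prime] {N : ℕ}

theorem s29h_permT_pow (γ : SL(2, ℤ)) (m : ℕ) (x : OnePoint (ZMod ℓ)) :
    heckePermT ℓ (γ ^ m) x = ((heckePermT ℓ γ) ^ m) x := by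
  induction m with
  | zero => rw [pow_zero, s29h_permT_one, pow_zero, Equiv.Perm.one_apply]
  | succ m ih => rw [pow_succ, s29h_permT_mul, ih, pow_succ', Equiv.Perm.mul_apply]

theorem s29h_map_fam_pow {A : Type*} [AddCommGroup A] (hℓN : ¬ ℓ ∣ N)
    (χ : Additive (Gamma0 N) →+ A) (γ : Gamma0 N) (m : ℕ) (x : OnePoint (ZMod ℓ)) :
    χ (Additive.ofMul (s29h_fam hℓN (γ ^ m) x)) =
      ∑ i ∈ Finset.range m,
        χ (Additive.ofMul (s29h_fam hℓN γ (((heckePermT ℓ (γ : SL(2, ℤ))) ^ i) x))) := by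
  induction m with
  | zero => rw [pow_zero, s29h_fam_one, ofMul_one, map_zero, Finset.sum_range_zero]
  | succ m ih =>
    rw [pow_succ, s29h_fam_mul, ofMul_mul, map_add, ih, Finset.sum_range_succ,
      SubgroupClass.coe_pow, s29h_permT_pow]

/-- For a period `m` of `x` under `σ_γ`: `α_x γ^m = (γ^m)'_x α_x`. -/
theorem s29h_fam_pow_spec (hℓN : ¬ ℓ ∣ N) (γ : Gamma0 N) (m : ℕ) (x : OnePoint (ZMod ℓ))
    (hx : ((heckePermT ℓ (γ : SL(2, ℤ))) ^ m) x = x) :
    heckeRepZ ℓ x * ((γ : SL(2, ℤ)) : Mat2) ^ m =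
      (((s29h_fam hℓN (γ ^ m) x : Gamma0 N) : SL(2, ℤ)) : Mat2) * heckeRepZ ℓ x := by
  have h := s29h_fam_spec hℓN (γ ^ m) x
  rw [SubgroupClass.coe_pow, s29h_permT_pow, hx, Matrix.SpecialLinearGroup.coe_pow] at h
  exact h

end Iterate

/-! ### Stability of `H(A)` -/

section Stab

variable {ℓ : ℕ} [Fact ℓ.Prime] {N : ℕ} {A : Type*} [AddCommGroup A]

/-- `T_ℓ^H` preserves parabolic homomorphisms. -/
theorem s29h_heckeHom_isParabolic {χ : Additive (Gamma0 N) →+ A}
    (hχ : IsParabolicHom (Gamma0 N) χ) : IsParabolicHom (Gamma0 N) (s29h_heckeHom N ℓ A χ) := by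
  by_cases hℓN : ℓ ∣ N
  · rw [s29h_heckeHom_of_dvd hℓN]
    intro γ _
    rfl
  intro γ hγ
  rw [s29h_heckeHom_apply hℓN]
  refine s29h_sum_eq_zero_of_cycle_sums (heckePermT ℓ (γ : SL(2, ℤ)))
    (fun x => χ (Additive.ofMul (s29h_fam hℓN γ x))) (fun x m _ hx => ?_)
  rw [← s29h_map_fam_pow hℓN χ γ m x]
  refine hχ _ ?_
  have hspec := s29h_fam_pow_spec hℓN γ m x hx
  rw [s29h_trace_eq_of_conj (s29h_det_heckeRepZ_ne_zero x) hspec]
  exact s29h_trace_pow_sq (γ : SL(2, ℤ)) hγ m

/-- `T_ℓ^H` preserves homomorphisms vanishing on finite-order elements. -/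
theorem s29h_heckeHom_finOrd {χ : Additive (Gamma0 N) →+ A}
    (hχ : ∀ γ : Gamma0 N, IsOfFinOrder γ → χ (Additive.ofMul γ) = 0) (γ : Gamma0 N)
    (hγ : IsOfFinOrder γ) : s29h_heckeHom N ℓ A χ (Additive.ofMul γ) = 0 := by
  by_cases hℓN : ℓ ∣ N
  · rw [s29h_heckeHom_of_dvd hℓN]
    rfl
  rw [s29h_heckeHom_apply hℓN]
  refine s29h_sum_eq_zero_of_cycle_sums (heckePermT ℓ (γ : SL(2, ℤ)))
    (fun x => χ (Additive.ofMul (s29h_fam hℓN γ x))) (fun x m _ hx => ?_)
  rw [← s29h_map_fam_pow hℓN χ γ m x]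
  refine hχ _ ?_
  obtain ⟨n, hn, hγn⟩ := hγ.exists_pow_eq_one
  refine isOfFinOrder_iff_pow_eq_one.mpr ⟨n, hn, ?_⟩
  have hspec := s29h_fam_pow_spec hℓN γ m x hx
  have h1 := s29h_pow_conj hspec n
  have h2 : (((γ : SL(2, ℤ)) : Mat2) ^ m) ^ n = 1 := by
    rw [← pow_mul, mul_comm, pow_mul, ← Matrix.SpecialLinearGroup.coe_pow,
      ← SubgroupClass.coe_pow, hγn, OneMemClass.coe_one, Matrix.SpecialLinearGroup.coe_one, one_pow]
  rw [h2, Matrix.mul_one] at h1
  have h3 : ((((s29h_fam hℓN (γ ^ m) x : Gamma0 N) : SL(2, ℤ)) : Mat2)) ^ n = 1 := by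
    refine s29h_mul_right_cancel (s29h_det_heckeRepZ_ne_zero x) ?_
    rw [← h1, Matrix.one_mul]
  apply Subtype.ext
  apply Subtype.ext
  rw [SubgroupClass.coe_pow, Matrix.SpecialLinearGroup.coe_pow, h3]
  rfl

/-- **`T_ℓ^H` preserves `H(A)`.** -/
theorem s29h_heckeHom_mem_Hpar (R : Type*) [Semiring R] [Module R A]
    {χ : Additive (Gamma0 N) →+ A} (hχ : χ ∈ s29h_Hpar R N A) :
    s29h_heckeHom N ℓ A χ ∈ s29h_Hpar R N A :=
  ⟨s29h_heckeHom_isParabolic hχ.1, s29h_heckeHom_finOrd hχ.2⟩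

end Stab

/-- `T_ℓ^H` as an `R`-linear endomorphism of `H(A)`. -/
def s29h_heckeHpar (N ℓ : ℕ) [Fact ℓ.Prime] (A : Type*) [AddCommGroup A] (R : Type*) [Semiring R]
    [Module R A] : Module.End R (s29h_Hpar R N A) :=
  (s29h_heckeLin N ℓ A R).restrict fun _ hχ => s29h_heckeHom_mem_Hpar R hχ

@[simp]
theorem s29h_heckeHpar_coe (N ℓ : ℕ) [Fact ℓ.Prime] (A : Type*) [AddCommGroup A] (R : Type*)
    [Semiring R] [Module R A] (χ : s29h_Hpar R N A) :
    ((s29h_heckeHpar N ℓ A R χ : s29h_Hpar R N A) : Additive (Gamma0 N) →+ A) =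
      s29h_heckeHom N ℓ A (χ : Additive (Gamma0 N) →+ A) := rfl

/-- **`T_ℓ^H` on `H_p`** (an `𝔽_p`-linear endomorphism). -/
def s29h_Tl (N p : ℕ) (ℓ : Nat.Primes) : Module.End (ZMod p) (s29h_Hp N p) :=
  haveI : Fact (ℓ : ℕ).Prime := ⟨ℓ.2⟩
  s29h_heckeHpar N (ℓ : ℕ) (ZMod p) (ZMod p)

theorem s29h_Tl_coe (N p : ℕ) (ℓ : Nat.Primes) (χ : s29h_Hp N p) :
    ((s29h_Tl N p ℓ χ : s29h_Hp N p) : Additive (Gamma0 N) →+ ZMod p) =
      (haveI : Fact (ℓ : ℕ).Prime := ⟨ℓ.2⟩
       s29h_heckeHom N (ℓ : ℕ) (ZMod p) (χ : Additive (Gamma0 N) →+ ZMod p)) := rfl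

end Fermat.Agent.Lib.S29
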