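/-
Plan K (S29), package [DS] (helper3): the LATTICE `M = H(ℤ) = s29h_Hpar ℤ N ℤ`.

* `M` is a finite free `ℤ`-module; for a basis `b` of `M` and every ring `R` put
  `s29s_castB R b i := (b i : Γ₀(N) → ℤ)` composed with `ℤ → R`.
* `s29s_heckeHom_castB` : `T_ℓ^H (castB R b j) = ∑ i, (t ℓ i j : R) • castB R b i` for the integer
  matrix `t ℓ = s29s_heckeMat b ℓ` of `T_ℓ^H` on `M`.
* `s29s_exists_coeffs` : every parabolic `ψ : Γ₀(N) → ℂ` is a `ℂ`-combination of the `castB ℂ b i`.
* `s29s_castB_linearIndependent_complex`, `s29s_castB_linearIndependent_zmod` : the `castB R b i`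
  are linearly independent over `R = ℂ` and over `R = ZMod p`.
-/
import Mathlib
import Fermat.Agent.Lib.S29.HStab
import Fermat.Agent.Lib.Integral.Lattice

set_option autoImplicit false
set_option linter.unusedSectionVars false

noncomputable section

namespace Fermat.Agent.Lib.S29

open CongruenceSubgroup ModularCurve ModularCurve.Period Fermat.Agent.Lib.Integral
open scoped MatrixGroups
open Matrix

/-! ### Generalities on `Hom(G, A)` for a finitely generated group `G` -/

section AbstractFG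

variable {G : Type*} [Group G]

theorem s29s_hom_ext_of_closure {A : Type*} [AddCommGroup A] {S : Set G}
    (hS : Subgroup.closure S = ⊤) {φ φ' : Additive G →+ A}
    (h : ∀ g ∈ S, φ (Additive.ofMul g) = φ' (Additive.ofMul g)) : φ = φ' := by
  refine AddMonoidHom.ext fun a => ?_
  obtain ⟨g, rfl⟩ : ∃ g : G, Additive.ofMul g = a := ⟨Additive.toMul a, rfl⟩
  have hg : g ∈ Subgroup.closure S := by rw [hS]; trivial
  induction hg using Subgroup.closure_induction with
  | mem x hx => exact h x hx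
  | one => rw [ofMul_one, map_zero, map_zero]
  | mul x y _ _ hx hy => rw [ofMul_mul, map_add, map_add, hx, hy]
  | inv x _ hx => rw [ofMul_inv, map_neg, map_neg, hx]

/-- `Hom(G, ℤ)` is a finite `ℤ`-module if `G` is finitely generated. -/
theorem s29s_finite_hom_int [Group.FG G] : Module.Finite ℤ (Additive G →+ ℤ) := by
  obtain ⟨S, hS⟩ := Group.fg_def.mp (inferInstance : Group.FG G)
  let ev : (Additive G →+ ℤ) →ₗ[ℤ] ({x // x ∈ S} → ℤ) :=
    { toFun := fun φ g => φ (Additive.ofMul (g : G))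
      map_add' := fun _ _ => rfl
      map_smul' := fun _ _ => rfl }
  have hinj : Function.Injective ev := by
    intro φ φ' h
    refine s29s_hom_ext_of_closure hS fun g hg => ?_
    exact congrFun h ⟨g, Finset.mem_coe.mp hg⟩
  exact Module.Finite.of_injective ev hinj

theorem s29s_isTorsionFree_hom_int : Module.IsTorsionFree ℤ (Additive G →+ ℤ) :=
  Function.Injective.moduleIsTorsionFree (fun f => (f : Additive G → ℤ)) DFunLike.coe_injective
    (fun _ _ => rfl)

end AbstractFG

/-! ### The lattice -/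

section Lattice

variable (N : ℕ) [NeZero N]

/-- The lattice `M = H(ℤ)`. -/
abbrev s29s_M : Submodule ℤ (Additive (Gamma0 N) →+ ℤ) := s29h_Hpar ℤ N ℤ

instance s29s_finite_M : Module.Finite ℤ (s29s_M N) := by
  haveI : Group.FG (Gamma0 N) := Fermat.Agent.Lib.ES.groupFG_Gamma0 N
  haveI : Module.Finite ℤ (Additive (Gamma0 N) →+ ℤ) := s29s_finite_hom_int
  infer_instance

instance s29s_free_M : Module.Free ℤ (s29s_M N) := by
  haveI : Module.IsTorsionFree ℤ (Additive (Gamma0 N) →+ ℤ) := s29s_isTorsionFree_hom_int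
  exact Module.free_of_finite_type_torsion_free'

end Lattice

/-! ### Extension of coefficients and the Hecke matrices -/

section Cast

variable {N : ℕ} (R : Type*) [Ring R]

/-- `χ ↦ (γ ↦ (χ γ : R))`. -/
def s29s_cast : (Additive (Gamma0 N) →+ ℤ) →+ (Additive (Gamma0 N) →+ R) :=
  AddMonoidHom.compHom (Int.castAddHom R)

@[simp]
theorem s29s_cast_apply (χ : Additive (Gamma0 N) →+ ℤ) (γ : Additive (Gamma0 N)) :
    s29s_cast R χ γ = ((χ γ : ℤ) : R) := rfl

theorem s29s_cast_zsmul (m : ℤ) (χ : Additive (Gamma0 N) →+ ℤ) :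
    s29s_cast (N := N) R (m • χ) = (m : R) • s29s_cast R χ := by
  refine AddMonoidHom.ext fun γ => ?_
  simp

theorem s29s_heckeHom_cast (ℓ : ℕ) [Fact ℓ.Prime] (χ : Additive (Gamma0 N) →+ ℤ) :
    s29h_heckeHom N ℓ R (s29s_cast R χ) = s29s_cast R (s29h_heckeHom N ℓ ℤ χ) :=
  s29h_heckeHom_comp (Int.castAddHom R) χ

theorem s29s_cast_isParabolic {χ : Additive (Gamma0 N) →+ ℤ} (hχ : IsParabolicHom (Gamma0 N) χ) :
    IsParabolicHom (Gamma0 N) (s29s_cast R χ) := by
  intro γ hγ
  rw [s29s_cast_apply, hχ γ hγ, Int.cast_zero]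

theorem s29s_cast_mem_Hpar (S : Type*) [Semiring S] [Module S R]
    {χ : Additive (Gamma0 N) →+ ℤ} (hχ : χ ∈ s29h_Hpar ℤ N ℤ) :
    s29s_cast R χ ∈ s29h_Hpar S N R := by
  refine ⟨s29s_cast_isParabolic R hχ.1, fun γ hγ => ?_⟩
  rw [s29s_cast_apply, hχ.2 γ hγ, Int.cast_zero]

end Cast

section Basis

variable {N : ℕ} [NeZero N] {ι : Type*} [Fintype ι] [DecidableEq ι] (b : Module.Basis ι ℤ (s29s_M N))

/-- The matrix of `T_ℓ^H` on the lattice `M` in the basis `b`. -/
def s29s_heckeMat (ℓ : ℕ) [Fact ℓ.Prime] : Matrix ι ι ℤ :=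
  LinearMap.toMatrix b b (s29h_heckeHpar N ℓ ℤ ℤ)

theorem s29s_heckeHom_basis (ℓ : ℕ) [Fact ℓ.Prime] (j : ι) :
    s29h_heckeHom N ℓ ℤ (b j : Additive (Gamma0 N) →+ ℤ) =
      ∑ i, s29s_heckeMat b ℓ i j • (b i : Additive (Gamma0 N) →+ ℤ) := by
  have h := b.sum_repr (s29h_heckeHpar N ℓ ℤ ℤ (b j))
  have h2 := congrArg (fun x : s29s_M N => (x : Additive (Gamma0 N) →+ ℤ)) h
  simp only [Submodule.coe_sum, Submodule.coe_smul, s29h_heckeHpar_coe] at h2
  rw [← h2]
  refine Finset.sum_congr rfl fun i _ => ?_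
  rw [s29s_heckeMat, LinearMap.toMatrix_apply]

variable (R : Type*) [CommRing R]

/-- The basis vectors with coefficients extended to `R`. -/
def s29s_castB (i : ι) : Additive (Gamma0 N) →+ R := s29s_cast R (b i : Additive (Gamma0 N) →+ ℤ)

/-- (★) `T_ℓ^H` on the `castB`: the same integer matrix for every coefficient ring. -/
theorem s29s_heckeHom_castB (ℓ : ℕ) [Fact ℓ.Prime] (j : ι) :
    s29h_heckeHom N ℓ R (s29s_castB b R j) =
      ∑ i, ((s29s_heckeMat b ℓ i j : ℤ) : R) • s29s_castB b R i := by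
  rw [s29s_castB, s29s_heckeHom_cast, s29s_heckeHom_basis, map_sum]
  refine Finset.sum_congr rfl fun i _ => ?_
  rw [s29s_cast_zsmul]
  rfl

/-- `T_ℓ^H (∑ c_j castB_j) = ∑ (t *ᵥ c)_i castB_i`. -/
theorem s29s_heckeHom_sum_castB (ℓ : ℕ) [Fact ℓ.Prime] (c : ι → R) :
    s29h_heckeHom N ℓ R (∑ j, c j • s29s_castB b R j) =
      ∑ i, ((s29s_heckeMat b ℓ).map (Int.cast : ℤ → R) *ᵥ c) i • s29s_castB b R i := by
  rw [map_sum]
  simp_rw [s29h_heckeHom_smul, s29s_heckeHom_castB, Finset.smul_sum, smul_smul]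
  rw [Finset.sum_comm]
  refine Finset.sum_congr rfl fun i _ => ?_
  rw [← Finset.sum_smul]
  congr 1
  show _ = ∑ j, ((s29s_heckeMat b ℓ).map (Int.cast : ℤ → R)) i j * c j
  refine Finset.sum_congr rfl fun j _ => ?_
  rw [Matrix.map_apply, mul_comm]

end Basis
/-! ### The complex span -/

section Span

variable {N : ℕ} [NeZero N] {ι : Type*} [Fintype ι] [DecidableEq ι] (b : Module.Basis ι ℤ (s29s_M N))

theorem s29s_castB_apply (R : Type*) [CommRing R] (i : ι) (γ : Additive (Gamma0 N)) :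
    s29s_castB b R i γ = (((b i : Additive (Gamma0 N) →+ ℤ) γ : ℤ) : R) := rfl

/-- Every parabolic `ψ : Γ₀(N) → ℂ` is a `ℂ`-linear combination of the `castB ℂ b i`. -/
theorem s29s_exists_coeffs (ψ : Additive (Gamma0 N) →+ ℂ) (hψ : IsParabolicHom (Gamma0 N) ψ) :
    ∃ c : ι → ℂ, ψ = ∑ i, c i • s29s_castB b ℂ i := by
  haveI : Group.FG (Gamma0 N) := Fermat.Agent.Lib.ES.groupFG_Gamma0 N
  obtain ⟨J, _, ω, χ, hsum, hvan⟩ := intL_exists_decomp ψ
  have hχM : ∀ j, χ j ∈ s29s_M N := fun j =>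
    s29h_mem_Hpar_of_parabolic (fun γ hγ => hvan j _ (hψ γ hγ))
  have hrepr : ∀ j, χ j = ∑ i, b.repr ⟨χ j, hχM j⟩ i • (b i : Additive (Gamma0 N) →+ ℤ) := by
    intro j
    have h := b.sum_repr ⟨χ j, hχM j⟩
    have h2 := congrArg (fun x : s29s_M N => (x : Additive (Gamma0 N) →+ ℤ)) h
    simp only [Submodule.coe_sum, Submodule.coe_smul] at h2
    exact h2.symm
  refine ⟨fun i => ∑ j, ω j * ((b.repr ⟨χ j, hχM j⟩ i : ℤ) : ℂ), ?_⟩
  refine AddMonoidHom.ext fun γ => ?_
  rw [hsum γ, AddMonoidHom.finsetSum_apply]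
  simp only [AddMonoidHom.smul_apply, s29s_castB_apply, smul_eq_mul, Finset.sum_mul]
  rw [Finset.sum_comm]
  refine Finset.sum_congr rfl fun j _ => ?_
  conv_lhs => rw [hrepr j]
  rw [AddMonoidHom.finsetSum_apply, Int.cast_sum, Finset.mul_sum]
  refine Finset.sum_congr rfl fun i _ => ?_
  rw [AddMonoidHom.smul_apply, smul_eq_mul, Int.cast_mul, mul_assoc]

end Span
/-! ### Linear independence over `ℂ` and over `ZMod p` -/

/-- `ℤ`-linearly independent integer valued functions are `ℂ`-linearly independent. -/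
theorem s29s_linearIndependent_complex_of_int {X ι : Type*} [Fintype ι] (u : ι → X → ℤ)
    (hu : LinearIndependent ℤ u) : LinearIndependent ℂ (fun i x => ((u i x : ℤ) : ℂ)) := by
  classical
  -- step a: independence over `ℚ`
  let castLin : (X → ℤ) →ₗ[ℤ] (X → ℚ) :=
    { toFun := fun f x => (f x : ℚ)
      map_add' := fun f g => by ext x; simp
      map_smul' := fun m f => by ext x; simp }
  have hker : LinearMap.ker castLin = ⊥ := by
    rw [LinearMap.ker_eq_bot]
    intro f g h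
    ext x
    exact Int.cast_injective (congrFun h x)
  have hq : LinearIndependent ℚ (fun i x => ((u i x : ℤ) : ℚ)) :=
    (LinearIndependent.iff_fractionRing ℤ ℚ).mp (hu.map' castLin hker)
  -- step b: independence over `ℂ` via `ℚ`-linear functionals on `ℂ`
  rw [Fintype.linearIndependent_iff] at hq ⊢
  intro c hc i
  rw [← Module.forall_dual_apply_eq_zero_iff ℚ]
  intro lam
  refine hq (fun i => lam (c i)) ?_ i
  ext x
  have h1 := congrFun hc x
  simp only [Finset.sum_apply, Pi.smul_apply, smul_eq_mul, Pi.zero_apply] at h1 ⊢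
  have h2 := congrArg lam h1
  rw [map_sum, map_zero] at h2
  rw [← h2]
  refine Finset.sum_congr rfl fun j _ => ?_
  have h3 : c j * ((u j x : ℤ) : ℂ) = (u j x : ℤ) • c j := by rw [zsmul_eq_mul, mul_comm]
  rw [h3, map_zsmul, zsmul_eq_mul, mul_comm]

section Indep

variable {N : ℕ} [NeZero N] {ι : Type*} [Fintype ι] [DecidableEq ι] (b : Module.Basis ι ℤ (s29s_M N))

/-- The basis vectors as integer valued functions are `ℤ`-linearly independent. -/
theorem s29s_basis_fun_linearIndependent :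
    LinearIndependent ℤ (fun i => ((b i : Additive (Gamma0 N) →+ ℤ) : Additive (Gamma0 N) → ℤ)) := by
  let coeLin : s29s_M N →ₗ[ℤ] (Additive (Gamma0 N) → ℤ) :=
    { toFun := fun χ => ((χ : Additive (Gamma0 N) →+ ℤ) : Additive (Gamma0 N) → ℤ)
      map_add' := fun _ _ => rfl
      map_smul' := fun _ _ => rfl }
  have hker : LinearMap.ker coeLin = ⊥ := by
    rw [LinearMap.ker_eq_bot]
    intro f g h
    exact Subtype.ext (DFunLike.coe_injective h)
  exact b.linearIndependent.map' coeLin hker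

theorem s29s_castB_linearIndependent_complex : LinearIndependent ℂ (s29s_castB b ℂ) := by
  let coeLin : (Additive (Gamma0 N) →+ ℂ) →ₗ[ℂ] (Additive (Gamma0 N) → ℂ) :=
    { toFun := fun χ => (χ : Additive (Gamma0 N) → ℂ)
      map_add' := fun _ _ => rfl
      map_smul' := fun _ _ => rfl }
  refine LinearIndependent.of_comp coeLin ?_
  exact s29s_linearIndependent_complex_of_int _ (s29s_basis_fun_linearIndependent b)

/-- `castB (ZMod p)` is linearly independent over `ZMod p`: the lattice `M` is saturated. -/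
theorem s29s_castB_linearIndependent_zmod (p : ℕ) [Fact p.Prime] :
    LinearIndependent (ZMod p) (s29s_castB b (ZMod p)) := by
  rw [Fintype.linearIndependent_iff]
  intro m hm
  -- lift the coefficients to integers
  have hlift : ∀ i, ∃ z : ℤ, (z : ZMod p) = m i := fun i => ZMod.intCast_surjective (m i)
  choose z hz using hlift
  -- `χ = ∑ z_i b_i` is divisible by `p`
  set χ : s29s_M N := ∑ i, z i • b i with hχ
  have hχval : ∀ γ : Additive (Gamma0 N), (p : ℤ) ∣ (χ : Additive (Gamma0 N) →+ ℤ) γ := by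
    intro γ
    rw [← ZMod.intCast_zmod_eq_zero_iff_dvd]
    have h1 := DFunLike.congr_fun hm γ
    rw [AddMonoidHom.finsetSum_apply] at h1
    simp only [AddMonoidHom.smul_apply, s29s_castB, s29s_cast_apply, smul_eq_mul,
      AddMonoidHom.zero_apply] at h1
    rw [hχ, Submodule.coe_sum, AddMonoidHom.finsetSum_apply, Int.cast_sum, ← h1]
    refine Finset.sum_congr rfl fun i _ => ?_
    rw [Submodule.coe_smul, AddMonoidHom.smul_apply, smul_eq_mul, Int.cast_mul, hz]
  -- the quotient `χ / p`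
  have hp0 : (p : ℤ) ≠ 0 := by exact_mod_cast (Fact.out : p.Prime).ne_zero
  let χ' : Additive (Gamma0 N) →+ ℤ :=
    { toFun := fun γ => (χ : Additive (Gamma0 N) →+ ℤ) γ / p
      map_zero' := by simp
      map_add' := fun γ δ => by
        rw [map_add, Int.add_ediv_of_dvd_left (hχval γ)] }
  have hχ'M : χ' ∈ s29s_M N := by
    refine ⟨fun γ hγ => ?_, fun γ hγ => ?_⟩
    · show (χ : Additive (Gamma0 N) →+ ℤ) (Additive.ofMul γ) / p = 0
      rw [χ.2.1 γ hγ, Int.zero_ediv]
    · show (χ : Additive (Gamma0 N) →+ ℤ) (Additive.ofMul γ) / p = 0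
      rw [χ.2.2 γ hγ, Int.zero_ediv]
  have hχeq : χ = (p : ℤ) • (⟨χ', hχ'M⟩ : s29s_M N) := by
    apply Subtype.ext
    refine AddMonoidHom.ext fun γ => ?_
    rw [Submodule.coe_smul, AddMonoidHom.smul_apply, smul_eq_mul]
    exact (Int.mul_ediv_cancel' (hχval γ)).symm
  intro i
  have h1 : b.repr χ i = z i := by
    rw [hχ, map_sum, Finset.sum_apply']
    simp [Finsupp.single_apply]
  have h2 : b.repr χ i = (p : ℤ) * b.repr ⟨χ', hχ'M⟩ i := by
    rw [hχeq, map_smul, Finsupp.smul_apply, smul_eq_mul]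
  rw [← hz i, ← h1, h2]
  simp

end Indep
end Fermat.Agent.Lib.S29
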