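/-
Plan K (S29 + S42), [CYC]: the mod-`p` cyclotomic character in the shape of the [PACK] contract
(owner: helper8).  Built on the landed `cff_chi p : G_ℚ →* (ZMod p)ˣ` (`Lib/CFT/GalRedChi`).

* `s29y_d p k : s29k_G →* kˣ`  (for a field `k` with `Algebra (ZMod p) k`);
* `s29y_chi_inertia`, `s29y_d_inertia` : trivial on inertia at places over `ℓ ≠ p`;
* `s29y_chi_frob`, `s29y_d_frob`       : `d (Frob_ℓ) = ℓ` at places over `ℓ ≠ p`;
* `s29y_exists_level`                  : a finite `G_ℚ`-stable level `L = ℚ(ζ_p)`;  `d` only depends on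
  the restriction to `L`.
-/
import Mathlib
import Fermat.Agent.Lib.S29.KIface
import Fermat.Agent.Lib.CFT.GalRedChi

set_option autoImplicit false

namespace Fermat.Agent.Lib.S29

open Fermat.Agent.Lib.CFT

local notation "Qbar" => AlgebraicClosure ℚ

/-- a `p`-th root of unity in a local domain which reduces to `1` is `1`, if `p` is invertible in
the residue field. -/
theorem s29y_eq_one_of_residue {R : Type*} [CommRing R] [IsDomain R] [IsLocalRing R] {p : ℕ}
    (hp : (p : IsLocalRing.ResidueField R) ≠ 0) {η : R} (hη : η ^ p = 1)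
    (h1 : IsLocalRing.residue R η = 1) : η = 1 := by
  by_contra hne
  have hgeom : (∑ i ∈ Finset.range p, η ^ i) * (η - 1) = 0 := by
    rw [geom_sum_mul, hη, sub_self]
  have hsum : ∑ i ∈ Finset.range p, η ^ i = 0 := by
    rcases mul_eq_zero.mp hgeom with h | h
    · exact h
    · exact absurd (sub_eq_zero.mp h) hne
  apply hp
  have := congrArg (IsLocalRing.residue R) hsum
  rw [map_sum, map_zero] at this
  simpa [map_pow, h1] using this

/-- two `p`-th roots of unity of a local domain with the same reduction are equal, if `p` is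
invertible in the residue field. -/
theorem s29y_eq_of_residue_eq {R : Type*} [CommRing R] [IsDomain R] [IsLocalRing R] {p : ℕ}
    (hp0 : p ≠ 0) (hp : (p : IsLocalRing.ResidueField R) ≠ 0) {x y : R} (hx : x ^ p = 1)
    (hy : y ^ p = 1) (h : IsLocalRing.residue R x = IsLocalRing.residue R y) : x = y := by
  have hyy : y ^ (p - 1) * y = 1 := by rw [← pow_succ, Nat.sub_add_cancel (Nat.pos_of_ne_zero hp0), hy]
  have hη : (x * y ^ (p - 1)) ^ p = 1 := by
    rw [mul_pow, hx, one_mul, ← pow_mul, mul_comm, pow_mul, hy, one_pow]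
  have h1 : IsLocalRing.residue R (x * y ^ (p - 1)) = 1 := by
    rw [map_mul, h, ← map_mul, mul_comm, hyy, map_one]
  have := s29y_eq_one_of_residue hp hη h1
  calc x = x * (y ^ (p - 1) * y) := by rw [hyy, mul_one]
    _ = (x * y ^ (p - 1)) * y := by ring
    _ = y := by rw [this, one_mul]

theorem s29y_natCast_residue_eq_zero {L : Type*} [Field L] (A : ValuationSubring L) {ℓ : ℕ}
    (hA : A.LiesOverPrime ℓ) : (ℓ : IsLocalRing.ResidueField A) = 0 := by
  have h1 : ((ℓ : A) : L) ∈ A.nonunits := by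
    have : ((ℓ : A) : L) = (ℓ : L) := by simp
    rw [this]; exact hA
  rw [ValuationSubring.coe_mem_nonunits_iff, ← IsLocalRing.residue_eq_zero_iff] at h1
  rw [← h1, map_natCast]

theorem s29y_natCast_residue_ne_zero {L : Type*} [Field L] (A : ValuationSubring L) {ℓ p : ℕ}
    (hℓ : ℓ.Prime) (hp : p.Prime) (hℓp : ℓ ≠ p) (hA : A.LiesOverPrime ℓ) :
    (p : IsLocalRing.ResidueField A) ≠ 0 := by
  intro h0
  have hℓ0 := s29y_natCast_residue_eq_zero A hA
  have hcop : Nat.Coprime ℓ p := (Nat.coprime_primes hℓ hp).mpr hℓp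
  have h1 : ((Nat.gcd ℓ p : ℕ) : IsLocalRing.ResidueField A) = 0 := by
    have := Nat.gcd_eq_gcd_ab ℓ p
    have h2 : (((Nat.gcd ℓ p : ℕ) : ℤ) : IsLocalRing.ResidueField A) = 0 := by
      rw [this]
      push_cast
      rw [hℓ0, h0]
      ring
    exact_mod_cast h2
  rw [hcop, Nat.cast_one] at h1
  exact one_ne_zero h1

/-- roots of unity lie in every valuation subring. -/
theorem s29y_mem_of_pow_eq_one {L : Type*} [Field L] (A : ValuationSubring L) {ζ : L} {n : ℕ}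
    (hn : n ≠ 0) (h : ζ ^ n = 1) : ζ ∈ A := by
  rcases A.mem_or_inv_mem ζ with h1 | h1
  · exact h1
  · have : ζ = ζ⁻¹ ^ (n - 1) := by
      have hζ0 : ζ ≠ 0 := by
        rintro rfl
        rw [zero_pow hn] at h
        exact zero_ne_one h
      have h2 : ζ ^ (n - 1) * ζ = 1 := by
        rw [← pow_succ, Nat.sub_add_cancel (Nat.pos_of_ne_zero hn), h]
      rw [inv_pow]
      exact (eq_inv_of_mul_eq_one_right h2)
    rw [this]
    exact A.pow_mem h1 _

section Action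

variable {L : Type*} [Field L] [Algebra ℚ L] (A : ValuationSubring L) {p : ℕ}

/-- an element of the decomposition group which acts on the residue field as `x ↦ x ^ m` sends
every `p`-th root of unity `ζ` to `ζ ^ m`, if `p` is invertible in the residue field. -/
theorem s29y_apply_root_of_residue (hp0 : p ≠ 0)
    (hp : (p : IsLocalRing.ResidueField A) ≠ 0) (g : A.decompositionSubgroup ℚ) (m : ℕ)
    (hg : ∀ x : IsLocalRing.ResidueField A, g • x = x ^ m) {ζ : L} (hζ : ζ ^ p = 1) :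
    (g : L ≃ₐ[ℚ] L) ζ = ζ ^ m := by
  have hζA : ζ ∈ A := s29y_mem_of_pow_eq_one A hp0 hζ
  have h1 : (⟨ζ, hζA⟩ : A) ^ p = 1 := Subtype.ext (by simpa using hζ)
  have h2 : (g • (⟨ζ, hζA⟩ : A)) ^ p = 1 := by rw [← smul_pow', h1, smul_one]
  have h3 : ((⟨ζ, hζA⟩ : A) ^ m) ^ p = 1 := by rw [← pow_mul, mul_comm, pow_mul, h1, one_pow]
  have h4 : IsLocalRing.residue A (g • (⟨ζ, hζA⟩ : A)) =
      IsLocalRing.residue A ((⟨ζ, hζA⟩ : A) ^ m) := by
    rw [IsLocalRing.ResidueField.residue_smul, hg, map_pow]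
  have h5 := s29y_eq_of_residue_eq hp0 hp h2 h3 h4
  have h6 := congrArg (fun a : A => (a : L)) h5
  exact h6

end Action

section Character

variable (p : ℕ) [Fact p.Prime]

/-- a primitive `p`-th root of unity in `ℚ̄`. -/
theorem s29y_exists_primitiveRoot : ∃ ζ : Qbar, IsPrimitiveRoot ζ p := by
  have : NeZero p := ⟨(Fact.out : p.Prime).ne_zero⟩
  exact HasEnoughRootsOfUnity.exists_primitiveRoot Qbar p

/-- **`χ_p(Frob_ℓ) = ℓ`** for `ℓ ≠ p`. -/
theorem s29y_chi_frob {ℓ : ℕ} (hℓ : ℓ.Prime) (hℓp : ℓ ≠ p) (A : ValuationSubring Qbar)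
    (hA : A.LiesOverPrime ℓ) (σ : s29k_G) (hσ : A.IsFrobeniusAt σ ℓ) :
    ((cff_chi p σ : (ZMod p)ˣ) : ZMod p) = (ℓ : ZMod p) := by
  obtain ⟨ζ, hζ⟩ := s29y_exists_primitiveRoot p
  have hp : p.Prime := Fact.out
  have h := s29y_apply_root_of_residue A hp.ne_zero
    (s29y_natCast_residue_ne_zero A hℓ hp hℓp hA) ⟨σ, hσ.mem_decompositionSubgroup⟩ ℓ
    (fun x => hσ.smul_residue_eq x) hζ.pow_eq_one
  exact (cff_chi_eq_of_pow hζ σ ℓ h).symm

/-- **`χ_p` is trivial on inertia at `ℓ ≠ p`.** -/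
theorem s29y_chi_inertia {ℓ : ℕ} (hℓ : ℓ.Prime) (hℓp : ℓ ≠ p) (A : ValuationSubring Qbar)
    (hA : A.LiesOverPrime ℓ) (σ : s29k_G) (hσ : σ ∈ A.inertiaSubgroupIn ℚ) :
    cff_chi p σ = 1 := by
  obtain ⟨ζ, hζ⟩ := s29y_exists_primitiveRoot p
  have hp : p.Prime := Fact.out
  obtain ⟨g, hg, rfl⟩ := Subgroup.mem_map.mp hσ
  have hg' : ∀ x : IsLocalRing.ResidueField A, g • x = x ^ 1 := by
    intro x
    have h1 : MulSemiringAction.toRingAut (A.decompositionSubgroup ℚ)
        (IsLocalRing.ResidueField A) g = 1 := hg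
    have h2 := congrArg (fun f : RingAut (IsLocalRing.ResidueField A) => f x) h1
    simpa using h2
  have h := s29y_apply_root_of_residue A hp.ne_zero
    (s29y_natCast_residue_ne_zero A hℓ hp hℓp hA) g 1 hg' hζ.pow_eq_one
  rw [pow_one] at h
  exact (cff_chi_eq_one_iff hζ _).mpr h

/-- `χ_p` only depends on the action on a primitive `p`-th root of unity. -/
theorem s29y_chi_eq_of_apply_eq {ζ : Qbar} (hζ : IsPrimitiveRoot ζ p) (σ τ : s29k_G)
    (h : σ ζ = τ ζ) : cff_chi p σ = cff_chi p τ := by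
  have h1 : (τ⁻¹ * σ) ζ = ζ := by
    show τ⁻¹ (σ ζ) = ζ
    rw [h]
    exact τ.symm_apply_apply ζ
  have h2 := (cff_chi_eq_one_iff hζ (τ⁻¹ * σ)).mpr h1
  rw [map_mul, map_inv, inv_mul_eq_one] at h2
  exact h2.symm

/-- **the level of `χ_p`**: `L = ℚ(ζ_p)` is finite over `ℚ`, stable under `G_ℚ`, contains the
`p`-th roots of unity, and `χ_p` only depends on the restriction to `L`. -/
theorem s29y_exists_level : ∃ L : IntermediateField ℚ Qbar, FiniteDimensional ℚ L ∧
    (∀ σ : s29k_G, ∀ x ∈ L, σ x ∈ L) ∧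
    (∀ ζ : Qbar, ζ ^ p = 1 → ζ ∈ L) ∧
    (∀ σ τ : s29k_G, (∀ x ∈ L, σ x = τ x) → cff_chi p σ = cff_chi p τ) ∧
    (∀ σ : s29k_G, (∀ x ∈ L, σ x = x) → cff_chi p σ = 1) := by
  obtain ⟨ζ, hζ⟩ := s29y_exists_primitiveRoot p
  have hp : p.Prime := Fact.out
  have : NeZero p := ⟨hp.ne_zero⟩
  have hint : IsIntegral ℚ ζ := hζ.isIntegral hp.pos |>.tower_top (R := ℤ)
  have hmem : ζ ∈ IntermediateField.adjoin ℚ {ζ} :=
    IntermediateField.subset_adjoin ℚ {ζ} (Set.mem_singleton ζ)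
  have hagree : ∀ σ τ : s29k_G, (∀ x ∈ IntermediateField.adjoin ℚ {ζ}, σ x = τ x) →
      cff_chi p σ = cff_chi p τ := fun σ τ h => s29y_chi_eq_of_apply_eq p hζ σ τ (h ζ hmem)
  refine ⟨IntermediateField.adjoin ℚ {ζ}, IntermediateField.adjoin.finiteDimensional hint, ?_, ?_,
    hagree, ?_⟩
  · intro σ x hx
    have h1 : σ x ∈ (IntermediateField.adjoin ℚ {ζ}).map (σ : Qbar →ₐ[ℚ] Qbar) :=
      ⟨x, hx, rfl⟩
    rw [IntermediateField.adjoin_map, Set.image_singleton] at h1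
    have h2 : IntermediateField.adjoin ℚ {(σ : Qbar →ₐ[ℚ] Qbar) ζ} ≤
        IntermediateField.adjoin ℚ {ζ} := by
      rw [IntermediateField.adjoin_le_iff]
      intro y hy
      rw [Set.mem_singleton_iff] at hy
      subst hy
      show σ ζ ∈ _
      rw [cff_chi_spec p σ hζ.pow_eq_one]
      exact pow_mem hmem _
    exact h2 h1
  · intro η hη
    obtain ⟨i, _, rfl⟩ := hζ.eq_pow_of_pow_eq_one hη
    exact pow_mem hmem _
  · intro σ hσ
    have := hagree σ 1 (fun x hx => by rw [hσ x hx]; rfl)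
    rwa [map_one] at this

variable (k : Type*) [Field k] [Algebra (ZMod p) k]

/-- the mod-`p` cyclotomic character with values in `kˣ`. -/
noncomputable def s29y_d : s29k_G →* kˣ :=
  (Units.map ((algebraMap (ZMod p) k : ZMod p →+* k) : ZMod p →* k)).comp (cff_chi p)

theorem s29y_d_coe (σ : s29k_G) :
    ((s29y_d p k σ : kˣ) : k) = algebraMap (ZMod p) k ((cff_chi p σ : (ZMod p)ˣ) : ZMod p) := rfl

/-- **`d(Frob_ℓ) = ℓ`** for `ℓ ≠ p`. -/
theorem s29y_d_frob {ℓ : ℕ} (hℓ : ℓ.Prime) (hℓp : ℓ ≠ p) (A : ValuationSubring Qbar)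
    (hA : A.LiesOverPrime ℓ) (σ : s29k_G) (hσ : A.IsFrobeniusAt σ ℓ) :
    ((s29y_d p k σ : kˣ) : k) = (ℓ : k) := by
  rw [s29y_d_coe, s29y_chi_frob p hℓ hℓp A hA σ hσ, map_natCast]

/-- **`d` is trivial on inertia at `ℓ ≠ p`.** -/
theorem s29y_d_inertia {ℓ : ℕ} (hℓ : ℓ.Prime) (hℓp : ℓ ≠ p) (A : ValuationSubring Qbar)
    (hA : A.LiesOverPrime ℓ) (σ : s29k_G) (hσ : σ ∈ A.inertiaSubgroupIn ℚ) :
    s29y_d p k σ = 1 := by
  show Units.map _ (cff_chi p σ) = 1
  rw [s29y_chi_inertia p hℓ hℓp A hA σ hσ, map_one]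

/-- `d` factors through the level of `χ_p`. -/
theorem s29y_d_eq_of_chi_eq {σ τ : s29k_G} (h : cff_chi p σ = cff_chi p τ) :
    s29y_d p k σ = s29y_d p k τ := by
  show Units.map _ (cff_chi p σ) = Units.map _ (cff_chi p τ)
  rw [h]

theorem s29y_d_eq_one_of_chi_eq_one {σ : s29k_G} (h : cff_chi p σ = 1) :
    s29y_d p k σ = 1 := by
  show Units.map _ (cff_chi p σ) = 1
  rw [h, map_one]

end Character

end Fermat.Agent.Lib.S29
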