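import Mathlib

set_option autoImplicit false

namespace Fermat.Agent.Lib.S29

open NumberField IsDedekindDomain Filter Topology

variable (E : Type*) [Field E] [NumberField E]

/-- number of ideals of norm `n` -/
noncomputable def s29d_a (n : ℕ) : ℕ := Nat.card {I : Ideal (𝓞 E) // Ideal.absNorm I = n}

theorem s29d_sum_a_tendsto :
    Tendsto (fun n : ℕ ↦ (∑ k ∈ Finset.Icc 1 n, (s29d_a E k : ℝ)) / (n : ℝ)) atTop
      (𝓝 (dedekindZeta_residue E)) := by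
  refine ((Ideal.tendsto_norm_le_div_atTop₀ E).comp tendsto_natCast_atTop_atTop).congr fun n ↦ ?_
  simp only [Function.comp_apply, Nat.cast_le, ← Nat.cast_sum, s29d_a]
  congr
  rw [← add_left_inj 1, ← Ideal.card_norm_le_eq_card_norm_le_add_one,
    show Finset.Icc 1 n = Finset.Ioc 0 n from Finset.Icc_succ_left_eq_Ioc _ _,
    show 1 = Nat.card {I : Ideal (𝓞 E) // Ideal.absNorm I = 0} by simp [Ideal.absNorm_eq_zero_iff],
    Finset.sum_Ioc_add_eq_sum_Icc (n.zero_le),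
    ← Finset.card_preimage_eq_sum_card_image_eq (fun k _ ↦ Ideal.finite_setOfPred_absNorm_eq k)]
  simp [Set.coe_eq_subtype]

theorem s29d_lseriesSummable {s : ℝ} (hs : 1 < s) :
    LSeriesSummable (fun n ↦ ((s29d_a E n : ℝ) : ℂ)) (s : ℂ) := by
  refine LSeriesSummable_of_sum_norm_bigO_and_nonneg (f := fun n ↦ (s29d_a E n : ℝ)) ?_
    (fun n ↦ Nat.cast_nonneg _) zero_le_one (by simpa using hs)
  exact Asymptotics.isBigO_atTop_natCast_rpow_of_tendsto_div_rpow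
    (by simpa using s29d_sum_a_tendsto E)

/-- the terms of the real Dedekind zeta series -/
noncomputable def s29d_zterm (s : ℝ) (n : ℕ) : ℝ :=
  if n = 0 then 0 else (s29d_a E n : ℝ) / (n : ℝ) ^ s

/-- the real Dedekind zeta function -/
noncomputable def s29d_Z (s : ℝ) : ℝ := ∑' n, s29d_zterm E s n

theorem s29d_zterm_nonneg (s : ℝ) (n : ℕ) : 0 ≤ s29d_zterm E s n := by
  unfold s29d_zterm
  split_ifs
  · exact le_rfl
  · positivity

theorem s29d_term_eq (s : ℝ) (n : ℕ) :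
    LSeries.term (fun n ↦ ((s29d_a E n : ℝ) : ℂ)) (s : ℂ) n = ((s29d_zterm E s n : ℝ) : ℂ) := by
  unfold s29d_zterm LSeries.term
  split_ifs with h
  · simp
  · rw [Complex.ofReal_div, Complex.ofReal_cpow (Nat.cast_nonneg n)]
    simp

theorem s29d_zterm_summable {s : ℝ} (hs : 1 < s) : Summable (s29d_zterm E s) := by
  have h := s29d_lseriesSummable E hs
  unfold LSeriesSummable at h
  rw [show LSeries.term (fun n ↦ ((s29d_a E n : ℝ) : ℂ)) (s : ℂ)
      = fun n ↦ ((s29d_zterm E s n : ℝ) : ℂ) from funext (s29d_term_eq E s)] at h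
  exact Complex.summable_ofReal.mp h

theorem s29d_dedekindZeta_eq (s : ℝ) :
    dedekindZeta E (s : ℂ) = ((s29d_Z E s : ℝ) : ℂ) := by
  unfold dedekindZeta LSeries s29d_Z
  rw [Complex.ofReal_tsum]
  refine tsum_congr fun n ↦ ?_
  rw [← s29d_term_eq]
  unfold s29d_a
  simp

theorem s29d_Z_tendsto :
    Tendsto (fun s : ℝ ↦ (s - 1) * s29d_Z E s) (𝓝[>] 1) (𝓝 (dedekindZeta_residue E)) := by
  have h := tendsto_sub_one_mul_dedekindZeta_nhdsGT E
  have h2 : (fun s : ℝ ↦ ((s : ℂ) - 1) * dedekindZeta E (s : ℂ))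
      = fun s : ℝ ↦ (((s - 1) * s29d_Z E s : ℝ) : ℂ) := by
    funext s
    rw [s29d_dedekindZeta_eq]
    push_cast
    ring
  rw [h2] at h
  exact Filter.tendsto_ofReal_iff.mp h


/-- the weight `N(I)^(-s)` of an ideal -/
noncomputable def s29d_w (s : ℝ) (I : Ideal (𝓞 E)) : ℝ := ((Ideal.absNorm I : ℕ) : ℝ) ^ (-s)

theorem s29d_w_nonneg (s : ℝ) (I : Ideal (𝓞 E)) : 0 ≤ s29d_w E s I := by
  unfold s29d_w; positivity

theorem s29d_w_mul (s : ℝ) (I J : Ideal (𝓞 E)) :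
    s29d_w E s (I * J) = s29d_w E s I * s29d_w E s J := by
  unfold s29d_w
  rw [map_mul, Nat.cast_mul, Real.mul_rpow (Nat.cast_nonneg _) (Nat.cast_nonneg _)]

theorem s29d_w_one (s : ℝ) : s29d_w E s (1 : Ideal (𝓞 E)) = 1 := by
  unfold s29d_w
  rw [map_one, Nat.cast_one, Real.one_rpow]

theorem s29d_w_prod {ι : Type*} (s : ℝ) (T : Finset ι) (f : ι → Ideal (𝓞 E)) :
    s29d_w E s (∏ i ∈ T, f i) = ∏ i ∈ T, s29d_w E s (f i) := by
  classical
  induction T using Finset.induction_on with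
  | empty => rw [Finset.prod_empty, Finset.prod_empty, s29d_w_one]
  | insert a T ha ih => rw [Finset.prod_insert ha, Finset.prod_insert ha, s29d_w_mul, ih]

theorem s29d_w_pow (s : ℝ) (I : Ideal (𝓞 E)) (k : ℕ) :
    s29d_w E s (I ^ k) = s29d_w E s I ^ k := by
  induction k with
  | zero => rw [pow_zero, pow_zero, s29d_w_one]
  | succ k ih => rw [pow_succ, pow_succ, s29d_w_mul, ih]

theorem s29d_a_eq_card (n : ℕ) :
    s29d_a E n = (Ideal.finite_setOfPred_absNorm_eq (S := 𝓞 E) n).toFinset.card := by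
  unfold s29d_a
  rw [← Set.ncard_eq_toFinset_card _ (Ideal.finite_setOfPred_absNorm_eq (S := 𝓞 E) n)]
  rfl

theorem s29d_sum_w_fibre (s : ℝ) (𝒮 : Finset (Ideal (𝓞 E))) (n : ℕ) :
    ∑ I ∈ 𝒮 with Ideal.absNorm I = n, s29d_w E s I
      = ((𝒮.filter fun I ↦ Ideal.absNorm I = n).card : ℝ) * (n : ℝ) ^ (-s) := by
  rw [Finset.sum_congr rfl (g := fun _ ↦ (n : ℝ) ^ (-s))]
  · rw [Finset.sum_const, nsmul_eq_mul]
  · intro I hI
    rw [Finset.mem_filter] at hI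
    unfold s29d_w
    rw [hI.2]

theorem s29d_sum_w_le_Z {s : ℝ} (hs : 1 < s) (𝒮 : Finset (Ideal (𝓞 E)))
    (h0 : ∀ I ∈ 𝒮, I ≠ ⊥) : ∑ I ∈ 𝒮, s29d_w E s I ≤ s29d_Z E s := by
  classical
  rw [← Finset.sum_fiberwise_of_maps_to (t := 𝒮.image fun I ↦ Ideal.absNorm I)
    (g := fun I ↦ Ideal.absNorm I) (fun I hI ↦ Finset.mem_image_of_mem _ hI)]
  refine le_trans (Finset.sum_le_sum (g := fun n ↦ s29d_zterm E s n) fun n hn ↦ ?_)
    ((s29d_zterm_summable E hs).sum_le_tsum _ fun n _ ↦ s29d_zterm_nonneg E s n)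
  rw [s29d_sum_w_fibre]
  have hn0 : n ≠ 0 := by
    obtain ⟨I, hI, rfl⟩ := Finset.mem_image.mp hn
    exact fun h ↦ h0 I hI (Ideal.absNorm_eq_zero_iff.mp h)
  unfold s29d_zterm
  rw [if_neg hn0, Real.rpow_neg (Nat.cast_nonneg n), div_eq_mul_inv]
  refine mul_le_mul_of_nonneg_right ?_ (by positivity)
  rw [s29d_a_eq_card]
  exact_mod_cast Finset.card_le_card fun I hI ↦ by
    rw [Finset.mem_filter] at hI
    simpa using hI.2


/-- the weight of a prime -/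
noncomputable def s29d_x (s : ℝ) (v : HeightOneSpectrum (𝓞 E)) : ℝ := s29d_w E s v.asIdeal

theorem s29d_two_le_absNorm (v : HeightOneSpectrum (𝓞 E)) : 2 ≤ Ideal.absNorm v.asIdeal := by
  have h0 : Ideal.absNorm v.asIdeal ≠ 0 := fun h ↦ v.ne_bot (Ideal.absNorm_eq_zero_iff.mp h)
  have h1 : Ideal.absNorm v.asIdeal ≠ 1 := fun h ↦
    v.isPrime.ne_top (Ideal.absNorm_eq_one_iff.mp h)
  omega

theorem s29d_x_nonneg (s : ℝ) (v : HeightOneSpectrum (𝓞 E)) : 0 ≤ s29d_x E s v :=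
  s29d_w_nonneg E s _

theorem s29d_x_anti {s t : ℝ} (hst : s ≤ t) (v : HeightOneSpectrum (𝓞 E)) :
    s29d_x E t v ≤ s29d_x E s v := by
  unfold s29d_x s29d_w
  refine Real.rpow_le_rpow_of_exponent_le ?_ (by linarith)
  have := s29d_two_le_absNorm E v
  exact_mod_cast (by omega : 1 ≤ Ideal.absNorm v.asIdeal)

theorem s29d_x_le_half {s : ℝ} (hs : 1 ≤ s) (v : HeightOneSpectrum (𝓞 E)) :
    s29d_x E s v ≤ 1 / 2 := by
  refine (s29d_x_anti E hs v).trans ?_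
  unfold s29d_x s29d_w
  rw [Real.rpow_neg_one, one_div]
  have := s29d_two_le_absNorm E v
  have h2 : (2 : ℝ) ≤ (Ideal.absNorm v.asIdeal : ℝ) := by exact_mod_cast this
  exact inv_anti₀ (by norm_num) h2

theorem s29d_x_sq_le {s : ℝ} (hs : 1 ≤ s) (v : HeightOneSpectrum (𝓞 E)) :
    s29d_x E s v ^ 2 ≤ s29d_x E 2 v := by
  unfold s29d_x s29d_w
  rw [← Real.rpow_mul_natCast (Nat.cast_nonneg _)]
  refine Real.rpow_le_rpow_of_exponent_le ?_ (by push_cast; linarith)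
  have := s29d_two_le_absNorm E v
  exact_mod_cast (by omega : 1 ≤ Ideal.absNorm v.asIdeal)

/-- the product map on finite sets of primes is injective -/
theorem s29d_prod_injective :
    Function.Injective fun A : Finset (HeightOneSpectrum (𝓞 E)) ↦ ∏ v ∈ A, v.asIdeal := by
  have key : ∀ (A : Finset (HeightOneSpectrum (𝓞 E))) (v : HeightOneSpectrum (𝓞 E)),
      v ∈ A ↔ ∏ u ∈ A, u.asIdeal ≤ v.asIdeal := by
    intro A v
    constructor
    · intro hv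
      exact Ideal.prod_le_inf.trans (Finset.inf_le hv)
    · intro h
      obtain ⟨u, hu, huv⟩ := (Ideal.IsPrime.prod_le v.isPrime).mp h
      have : u = v := HeightOneSpectrum.ext (u.isMaximal.eq_of_le v.isPrime.ne_top huv)
      exact this ▸ hu
  intro A B hAB
  have hAB' : ∏ v ∈ A, v.asIdeal = ∏ v ∈ B, v.asIdeal := hAB
  ext v
  rw [key A v, key B v, hAB']

omit [NumberField E] in
theorem s29d_prod_ne_bot (A : Finset (HeightOneSpectrum (𝓞 E))) :
    ∏ v ∈ A, v.asIdeal ≠ ⊥ := by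
  rw [← Ideal.zero_eq_bot, Finset.prod_ne_zero_iff]
  exact fun v _ ↦ v.ne_bot

theorem s29d_Z_two_nonneg : 0 ≤ s29d_Z E 2 :=
  tsum_nonneg fun n ↦ s29d_zterm_nonneg E 2 n

/-- (U), product form -/
theorem s29d_prod_one_add_le_Z {s : ℝ} (hs : 1 < s) (T : Finset (HeightOneSpectrum (𝓞 E))) :
    ∏ v ∈ T, (1 + s29d_x E s v) ≤ s29d_Z E s := by
  classical
  rw [Finset.prod_one_add]
  have h1 : ∀ A ∈ T.powerset, ∏ v ∈ A, s29d_x E s v = s29d_w E s (∏ v ∈ A, v.asIdeal) := by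
    intro A _
    rw [s29d_w_prod]
    rfl
  rw [Finset.sum_congr rfl h1,
    ← Finset.sum_image (f := fun I ↦ s29d_w E s I)
      (g := fun A : Finset (HeightOneSpectrum (𝓞 E)) ↦ ∏ v ∈ A, v.asIdeal)
      fun A _ B _ h ↦ s29d_prod_injective E h]
  refine s29d_sum_w_le_Z E hs _ fun I hI ↦ ?_
  obtain ⟨A, _, rfl⟩ := Finset.mem_image.mp hI
  exact s29d_prod_ne_bot E A

theorem s29d_one_le_Z {s : ℝ} (hs : 1 < s) : 1 ≤ s29d_Z E s := by
  simpa using s29d_prod_one_add_le_Z E hs ∅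

theorem s29d_sum_x_two_le (T : Finset (HeightOneSpectrum (𝓞 E))) :
    ∑ v ∈ T, s29d_x E 2 v ≤ s29d_Z E 2 := by
  classical
  have hinj : Set.InjOn (fun v : HeightOneSpectrum (𝓞 E) ↦ v.asIdeal) T :=
    fun u _ v _ h ↦ HeightOneSpectrum.ext h
  have := s29d_sum_w_le_Z E (s := 2) (by norm_num) (T.image fun v ↦ v.asIdeal) fun I hI ↦ by
    obtain ⟨v, _, rfl⟩ := Finset.mem_image.mp hI
    exact v.ne_bot
  rwa [Finset.sum_image hinj] at this

/-- (U), logarithmic form -/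
theorem s29d_sum_x_le {s : ℝ} (hs : 1 < s) (T : Finset (HeightOneSpectrum (𝓞 E))) :
    ∑ v ∈ T, s29d_x E s v ≤ Real.log (s29d_Z E s) + s29d_Z E 2 := by
  have hpos : ∀ v ∈ T, 0 < 1 + s29d_x E s v := fun v _ ↦ by
    have := s29d_x_nonneg E s v; linarith
  have h1 : Real.log (∏ v ∈ T, (1 + s29d_x E s v)) ≤ Real.log (s29d_Z E s) :=
    Real.log_le_log (Finset.prod_pos hpos) (s29d_prod_one_add_le_Z E hs T)
  rw [Real.log_prod fun v hv ↦ (hpos v hv).ne'] at h1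
  have h2 : ∀ v ∈ T, s29d_x E s v - s29d_x E 2 v ≤ Real.log (1 + s29d_x E s v) := by
    intro v hv
    have hx := s29d_x_nonneg E s v
    have hsq := s29d_x_sq_le E hs.le v
    have h3 := Real.one_sub_inv_le_log_of_pos (hpos v hv)
    refine le_trans ?_ h3
    have h4 : (1 + s29d_x E s v)⁻¹ ≤ 1 - s29d_x E s v + s29d_x E s v ^ 2 := by
      rw [inv_le_iff_one_le_mul₀ (hpos v hv)]
      nlinarith [pow_nonneg hx 3]
    linarith
  have h5 := Finset.sum_le_sum h2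
  rw [Finset.sum_sub_distrib] at h5
  have h6 := s29d_sum_x_two_le E T
  linarith

theorem s29d_x_summable {s : ℝ} (hs : 1 < s) : Summable (s29d_x E s) :=
  summable_of_sum_le (fun v ↦ s29d_x_nonneg E s v) fun T ↦ s29d_sum_x_le E hs T

/-- the prime zeta sum -/
noncomputable def s29d_F (s : ℝ) : ℝ := ∑' v : HeightOneSpectrum (𝓞 E), s29d_x E s v

theorem s29d_F_le {s : ℝ} (hs : 1 < s) :
    s29d_F E s ≤ Real.log (s29d_Z E s) + s29d_Z E 2 :=
  (s29d_x_summable E hs).tsum_le_of_sum_le fun T ↦ s29d_sum_x_le E hs T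


/-- abstract finite Euler-product inequality -/
theorem s29d_sum_prod_pow_le {α ι : Type*} [DecidableEq ι] (x : ι → ℝ) (hx0 : ∀ v, 0 ≤ x v)
    (hx1 : ∀ v, x v < 1) (e : α → ι → ℕ) (T : Finset ι) :
    ∀ (𝒮 : Finset α), (∀ I ∈ 𝒮, ∀ J ∈ 𝒮, (∀ v ∈ T, e I v = e J v) → I = J) →
      ∑ I ∈ 𝒮, ∏ v ∈ T, x v ^ e I v ≤ ∏ v ∈ T, (1 - x v)⁻¹ := by
  classical
  induction T using Finset.induction_on with
  | empty =>
    intro 𝒮 h
    simp only [Finset.prod_empty, Finset.sum_const, nsmul_eq_mul, mul_one]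
    have : 𝒮.card ≤ 1 := Finset.card_le_one.mpr fun I hI J hJ ↦ h I hI J hJ (by simp)
    exact_mod_cast this
  | insert a T ha ih =>
    intro 𝒮 h
    rw [Finset.prod_insert ha]
    have hpos : 0 ≤ ∏ v ∈ T, (1 - x v)⁻¹ :=
      Finset.prod_nonneg fun v _ ↦ inv_nonneg.mpr (sub_nonneg.mpr (hx1 v).le)
    calc ∑ I ∈ 𝒮, ∏ v ∈ insert a T, x v ^ e I v
        = ∑ I ∈ 𝒮, x a ^ e I a * ∏ v ∈ T, x v ^ e I v := by
          refine Finset.sum_congr rfl fun I _ ↦ ?_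
          rw [Finset.prod_insert ha]
      _ = ∑ k ∈ 𝒮.image (fun I ↦ e I a), ∑ I ∈ 𝒮 with e I a = k,
            x a ^ e I a * ∏ v ∈ T, x v ^ e I v := by
          rw [Finset.sum_fiberwise_of_maps_to fun I hI ↦ Finset.mem_image_of_mem _ hI]
      _ = ∑ k ∈ 𝒮.image (fun I ↦ e I a), x a ^ k * ∑ I ∈ 𝒮 with e I a = k,
            ∏ v ∈ T, x v ^ e I v := by
          refine Finset.sum_congr rfl fun k _ ↦ ?_
          rw [Finset.mul_sum]
          refine Finset.sum_congr rfl fun I hI ↦ ?_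
          rw [(Finset.mem_filter.mp hI).2]
      _ ≤ ∑ k ∈ 𝒮.image (fun I ↦ e I a), x a ^ k * ∏ v ∈ T, (1 - x v)⁻¹ := by
          refine Finset.sum_le_sum fun k _ ↦ mul_le_mul_of_nonneg_left ?_ (pow_nonneg (hx0 a) k)
          refine ih _ fun I hI J hJ hIJ ↦ ?_
          rw [Finset.mem_filter] at hI hJ
          refine h I hI.1 J hJ.1 fun v hv ↦ ?_
          rcases Finset.mem_insert.mp hv with rfl | hv
          · rw [hI.2, hJ.2]
          · exact hIJ v hv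
      _ = (∑ k ∈ 𝒮.image (fun I ↦ e I a), x a ^ k) * ∏ v ∈ T, (1 - x v)⁻¹ := by
          rw [Finset.sum_mul]
      _ ≤ (1 - x a)⁻¹ * ∏ v ∈ T, (1 - x v)⁻¹ := by
          refine mul_le_mul_of_nonneg_right ?_ hpos
          rw [← tsum_geometric_of_lt_one (hx0 a) (hx1 a)]
          exact (summable_geometric_of_lt_one (hx0 a) (hx1 a)).sum_le_tsum _
            fun k _ ↦ pow_nonneg (hx0 a) k


/-- exponent of `v` in `I` -/
noncomputable def s29d_c (v : HeightOneSpectrum (𝓞 E)) (I : Ideal (𝓞 E)) : ℕ :=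
  (Associates.mk v.asIdeal).count (Associates.mk I).factors

theorem s29d_factor_eq (I : Ideal (𝓞 E)) (hI : I ≠ ⊥) (T : Finset (HeightOneSpectrum (𝓞 E)))
    (hT : (Function.mulSupport fun v : HeightOneSpectrum (𝓞 E) ↦ v.maxPowDividing I) ⊆ T) :
    ∏ v ∈ T, v.asIdeal ^ s29d_c E v I = I := by
  have h := Ideal.finprod_heightOneSpectrum_factorization (I := I) hI
  rw [finprod_eq_prod_of_mulSupport_subset _ hT] at h
  exact h

theorem s29d_inv_one_sub_le_exp {x : ℝ} (h0 : 0 ≤ x) (h1 : x ≤ 1 / 2) :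
    (1 - x)⁻¹ ≤ Real.exp (x + 2 * x ^ 2) := by
  refine le_trans ?_ (Real.add_one_le_exp _)
  rw [inv_le_iff_one_le_mul₀ (by linarith)]
  nlinarith [mul_nonneg (pow_nonneg h0 2) (by linarith : (0:ℝ) ≤ 1 - 2 * x)]

theorem s29d_sum_w_le_prod (s : ℝ) (𝒮 : Finset (Ideal (𝓞 E))) (h0 : ∀ I ∈ 𝒮, I ≠ ⊥) :
    ∃ T : Finset (HeightOneSpectrum (𝓞 E)),
      ∑ I ∈ 𝒮, s29d_w E s I = ∑ I ∈ 𝒮, ∏ v ∈ T, s29d_x E s v ^ s29d_c E v I ∧
      ∀ I ∈ 𝒮, ∀ J ∈ 𝒮, (∀ v ∈ T, s29d_c E v I = s29d_c E v J) → I = J := by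
  classical
  have hfin : (⋃ I ∈ 𝒮, Function.mulSupport
      fun v : HeightOneSpectrum (𝓞 E) ↦ v.maxPowDividing I).Finite :=
    Set.Finite.biUnion (Finset.finite_toSet 𝒮) fun I hI ↦ Ideal.hasFiniteMulSupport (h0 I hI)
  have hsub : ∀ I ∈ 𝒮, (Function.mulSupport
      fun v : HeightOneSpectrum (𝓞 E) ↦ v.maxPowDividing I) ⊆ hfin.toFinset := by
    intro I hI v hv
    rw [Set.Finite.coe_toFinset]
    exact Set.mem_biUnion (Finset.mem_coe.mpr hI) hv
  refine ⟨hfin.toFinset, Finset.sum_congr rfl fun I hI ↦ ?_, fun I hI J hJ h ↦ ?_⟩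
  · conv_lhs => rw [← s29d_factor_eq E I (h0 I hI) _ (hsub I hI)]
    rw [s29d_w_prod]
    refine Finset.prod_congr rfl fun v _ ↦ ?_
    rw [s29d_w_pow]
    rfl
  · rw [← s29d_factor_eq E I (h0 I hI) _ (hsub I hI), ← s29d_factor_eq E J (h0 J hJ) _ (hsub J hJ)]
    exact Finset.prod_congr rfl fun v hv ↦ by rw [h v hv]

/-- (L), finite form -/
theorem s29d_sum_w_le_exp {s : ℝ} (hs : 1 < s) (𝒮 : Finset (Ideal (𝓞 E)))
    (h0 : ∀ I ∈ 𝒮, I ≠ ⊥) :
    ∑ I ∈ 𝒮, s29d_w E s I ≤ Real.exp (s29d_F E s + 2 * s29d_Z E 2) := by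
  classical
  obtain ⟨T, hT, hinj⟩ := s29d_sum_w_le_prod E s 𝒮 h0
  rw [hT]
  refine (s29d_sum_prod_pow_le (s29d_x E s) (s29d_x_nonneg E s)
    (fun v ↦ lt_of_le_of_lt (s29d_x_le_half E hs.le v) (by norm_num))
    (fun I v ↦ s29d_c E v I) T 𝒮 hinj).trans ?_
  calc ∏ v ∈ T, (1 - s29d_x E s v)⁻¹
      ≤ ∏ v ∈ T, Real.exp (s29d_x E s v + 2 * s29d_x E s v ^ 2) :=
        Finset.prod_le_prod (fun v _ ↦ inv_nonneg.mpr (by
          have := s29d_x_le_half E hs.le v; linarith))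
          fun v _ ↦ s29d_inv_one_sub_le_exp (s29d_x_nonneg E s v) (s29d_x_le_half E hs.le v)
    _ = Real.exp (∑ v ∈ T, (s29d_x E s v + 2 * s29d_x E s v ^ 2)) := (Real.exp_sum _ _).symm
    _ ≤ Real.exp (s29d_F E s + 2 * s29d_Z E 2) := by
        refine Real.exp_le_exp.mpr ?_
        rw [Finset.sum_add_distrib, ← Finset.mul_sum]
        have h1 : ∑ v ∈ T, s29d_x E s v ≤ s29d_F E s :=
          (s29d_x_summable E hs).sum_le_tsum _ fun v _ ↦ s29d_x_nonneg E s v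
        have h2 : ∑ v ∈ T, s29d_x E s v ^ 2 ≤ s29d_Z E 2 :=
          (Finset.sum_le_sum fun v _ ↦ s29d_x_sq_le E hs.le v).trans (s29d_sum_x_two_le E T)
        linarith

/-- (L) -/
theorem s29d_Z_le_exp {s : ℝ} (hs : 1 < s) :
    s29d_Z E s ≤ Real.exp (s29d_F E s + 2 * s29d_Z E 2) := by
  classical
  refine Real.tsum_le_of_sum_range_le (fun n ↦ s29d_zterm_nonneg E s n) fun X ↦ ?_
  set 𝒮 : Finset (Ideal (𝓞 E)) :=
    (Ideal.finite_setOfPred_absNorm_le (S := 𝓞 E) X).toFinset.filter (· ≠ ⊥) with h𝒮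
  have h0 : ∀ I ∈ 𝒮, I ≠ ⊥ := fun I hI ↦ (Finset.mem_filter.mp hI).2
  refine le_trans ?_ (s29d_sum_w_le_exp E hs 𝒮 h0)
  rw [← Finset.sum_fiberwise_of_maps_to (s := 𝒮) (t := Finset.range (X + 1))
    (g := fun I ↦ Ideal.absNorm I) fun I hI ↦ by
      rw [h𝒮, Finset.mem_filter, Set.Finite.mem_toFinset] at hI
      exact Finset.mem_range.mpr (Nat.lt_succ_of_le hI.1)]
  refine (Finset.sum_le_sum_of_subset_of_nonneg (Finset.range_subset_range.mpr (Nat.le_succ X))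
    fun n _ _ ↦ s29d_zterm_nonneg E s n).trans ?_
  refine Finset.sum_le_sum fun n hn ↦ ?_
  rw [s29d_sum_w_fibre]
  unfold s29d_zterm
  split_ifs with hn0
  · positivity
  · rw [Real.rpow_neg (Nat.cast_nonneg n), div_eq_mul_inv]
    refine mul_le_mul_of_nonneg_right ?_ (by positivity)
    rw [s29d_a_eq_card]
    refine Nat.cast_le.mpr (Finset.card_le_card fun I hI ↦ ?_)
    rw [Set.Finite.mem_toFinset, Set.mem_ofPred_eq] at hI
    rw [Finset.mem_filter, h𝒮, Finset.mem_filter, Set.Finite.mem_toFinset, Set.mem_ofPred_eq]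
    refine ⟨⟨?_, fun h ↦ hn0 ?_⟩, hI⟩
    · rw [hI]; exact Nat.lt_succ_iff.mp (Finset.mem_range.mp hn)
    · rw [← hI, h]; simp


theorem s29d_log_Z_le {s : ℝ} (hs : 1 < s) :
    Real.log (s29d_Z E s) ≤ s29d_F E s + 2 * s29d_Z E 2 := by
  have h := Real.log_le_log (lt_of_lt_of_le one_pos (s29d_one_le_Z E hs)) (s29d_Z_le_exp E hs)
  rwa [Real.log_exp] at h

/-- the prime ideal sum of a number field is `log (1/(s-1)) + O(1)` as `s → 1⁺` -/
theorem s29d_F_asymp :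
    ∃ C : ℝ, ∀ᶠ s in 𝓝[>] (1 : ℝ), |s29d_F E s - Real.log (1 / (s - 1))| ≤ C := by
  set ρ := dedekindZeta_residue E with hρ
  have hρpos : 0 < ρ := dedekindZeta_residue_pos E
  have h1 : ∀ᶠ s in 𝓝[>] (1 : ℝ), (s - 1) * s29d_Z E s ∈ Set.Ioo (ρ / 2) (2 * ρ) :=
    (s29d_Z_tendsto E).eventually (Ioo_mem_nhds (by linarith) (by linarith))
  have h2 : ∀ᶠ s in 𝓝[>] (1 : ℝ), (1 : ℝ) < s := self_mem_nhdsWithin
  refine ⟨max |Real.log (ρ / 2)| |Real.log (2 * ρ)| + 2 * s29d_Z E 2, ?_⟩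
  filter_upwards [h1, h2] with s hs1 hs
  have hZ2 := s29d_Z_two_nonneg E
  have hs0 : 0 < s - 1 := by linarith
  have hZpos : 0 < s29d_Z E s := lt_of_lt_of_le one_pos (s29d_one_le_Z E hs)
  have hlog : Real.log ((s - 1) * s29d_Z E s) = Real.log (s29d_Z E s) - Real.log (1 / (s - 1)) := by
    rw [Real.log_mul hs0.ne' hZpos.ne', one_div, Real.log_inv]
    ring
  have hlo : Real.log (ρ / 2) ≤ Real.log ((s - 1) * s29d_Z E s) :=
    Real.log_le_log (by linarith) hs1.1.le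
  have hhi : Real.log ((s - 1) * s29d_Z E s) ≤ Real.log (2 * ρ) :=
    Real.log_le_log (mul_pos hs0 hZpos) hs1.2.le
  have hU := s29d_F_le E hs
  have hL := s29d_log_Z_le E hs
  have ha := neg_abs_le (Real.log (ρ / 2))
  have hb := le_abs_self (Real.log (2 * ρ))
  have hm1 := le_max_left |Real.log (ρ / 2)| |Real.log (2 * ρ)|
  have hm2 := le_max_right |Real.log (ρ / 2)| |Real.log (2 * ρ)|
  rw [abs_le]
  constructor <;> linarith

end Fermat.Agent.Lib.S29
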