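/-
[FD] Frobenius density theorem, existence form — part B: primes of a Galois number field versus
primes of the fixed field of a group of automorphisms (orbits, stabilisers, norms, regrouping of the
prime ideal sums).
-/
import Fermat.Agent.Lib.S29.FDZeta

set_option autoImplicit false
set_option linter.unusedSectionVars false

namespace Fermat.Agent.Lib.S29

open NumberField IsDedekindDomain Filter Topology Pointwise

/-- regrouping a sum along a surjection with finite fibres of known size -/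
theorem s29d_tsum_fibre {β γ : Type*} (φ : β → γ) (hφ : Function.Surjective φ) (n : β → ℕ) (N : ℕ)
    (hN : 0 < N) (hn : ∀ b, Nat.card {b' : β // φ b' = φ b} * n b = N) (g : γ → ℝ)
    (hg0 : ∀ c, 0 ≤ g c) (hg : Summable g) :
    Summable (fun b ↦ g (φ b) * n b / N) ∧ ∑' b, g (φ b) * n b / N = ∑' c, g c := by
  set f : β → ℝ := fun b ↦ g (φ b) * n b / N with hf
  have hf0 : ∀ b, 0 ≤ f b := fun b ↦ by rw [hf]; positivity [hg0 (φ b)]
  let e := Equiv.sigmaFiberEquiv φ
  have hinner : ∀ c : γ, ∀ y : {b : β // φ b = c}, f y.1 = g c / Nat.card {b : β // φ b = c} := by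
    intro c y
    have h1 := hn y.1
    have hc : φ y.1 = c := y.2
    rw [hc] at h1
    have hcard : (Nat.card {b : β // φ b = c} : ℝ) ≠ 0 := by
      intro h0
      have : Nat.card {b : β // φ b = c} = 0 := by exact_mod_cast h0
      rw [this, zero_mul] at h1
      omega
    have h2 : (n y.1 : ℝ) = N / Nat.card {b : β // φ b = c} := by
      rw [eq_div_iff hcard, mul_comm]
      exact_mod_cast h1
    have hN' : (N : ℝ) ≠ 0 := by exact_mod_cast hN.ne'
    rw [hf]
    simp only
    rw [hc, h2]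
    field_simp
  have hsum_inner : ∀ c : γ, ∑' y : {b : β // φ b = c}, f y.1 = g c := by
    intro c
    rw [tsum_congr (hinner c), tsum_const, nsmul_eq_mul]
    obtain ⟨b, hb⟩ := hφ c
    have h1 := hn b
    rw [hb] at h1
    have hcard : (Nat.card {b : β // φ b = c} : ℝ) ≠ 0 := by
      intro h0
      have : Nat.card {b : β // φ b = c} = 0 := by exact_mod_cast h0
      rw [this, zero_mul] at h1
      omega
    field_simp
  have hfin : ∀ c : γ, Finite {b : β // φ b = c} := by
    intro c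
    obtain ⟨b, hb⟩ := hφ c
    have h1 := hn b
    rw [hb] at h1
    refine Nat.finite_of_card_ne_zero fun h0 ↦ ?_
    rw [h0, zero_mul] at h1
    omega
  have hs : Summable (fun p : (Σ c : γ, {b : β // φ b = c}) ↦ f (e p)) := by
    rw [summable_sigma_of_nonneg fun p ↦ hf0 _]
    refine ⟨fun c ↦ ?_, ?_⟩
    · have := hfin c
      exact Summable.of_finite
    · refine hg.congr fun c ↦ ?_
      exact (hsum_inner c).symm
  have hs' : Summable f := (e.summable_iff (f := f)).mp hs
  refine ⟨hs', ?_⟩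
  rw [← e.tsum_eq f, Summable.tsum_sigma' (fun c ↦ ?_) hs]
  · exact tsum_congr fun c ↦ hsum_inner c
  · have := hfin c
    exact Summable.of_finite

section Generic

variable {K L Γ : Type*} [Field K] [Field L] [NumberField K] [NumberField L] [Algebra K L]
  [Group Γ] [Finite Γ] [MulSemiringAction Γ L] [IsGaloisGroup Γ K L]

variable (K)

theorem s29d_under_surjective :
    Function.Surjective fun v : HeightOneSpectrum (𝓞 L) ↦ v.under (𝓞 K) := by
  intro u
  have := u.isMaximal
  obtain ⟨P, hP, hPu⟩ := Ideal.exists_maximal_ideal_liesOver_of_isIntegral (S := 𝓞 L) u.asIdeal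
  have hne : P ≠ ⊥ := Ideal.ne_bot_of_liesOver_of_ne_bot u.ne_bot P
  exact ⟨⟨P, hP.isPrime, hne⟩, HeightOneSpectrum.ext hPu.over.symm⟩

variable (Γ)

/-- the cardinality of the stabilizer of a prime -/
noncomputable def s29d_stab (v : HeightOneSpectrum (𝓞 L)) : ℕ :=
  Nat.card (MulAction.stabilizer Γ v.asIdeal)

theorem s29d_stab_pos (v : HeightOneSpectrum (𝓞 L)) : 0 < s29d_stab Γ v := Nat.card_pos

theorem s29d_fibre_card (v : HeightOneSpectrum (𝓞 L)) :
    Nat.card {w : HeightOneSpectrum (𝓞 L) // w.under (𝓞 K) = v.under (𝓞 K)} *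
      s29d_stab Γ v = Nat.card Γ := by
  have hlies : v.asIdeal.LiesOver (v.under (𝓞 K)).asIdeal := ⟨rfl⟩
  have horb := Algebra.IsInvariant.orbit_eq_primesOver (𝓞 K) (𝓞 L) Γ
    (v.under (𝓞 K)).asIdeal v.asIdeal
  have e : {w : HeightOneSpectrum (𝓞 L) // w.under (𝓞 K) = v.under (𝓞 K)}
      ≃ MulAction.orbit Γ v.asIdeal := by
    rw [horb]
    refine Equiv.ofBijective (fun w ↦ ⟨w.1.asIdeal, w.1.isPrime, ⟨?_⟩⟩) ⟨?_, ?_⟩
    · have := congrArg HeightOneSpectrum.asIdeal w.2
      exact this.symm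
    · intro w w' h
      exact Subtype.ext (HeightOneSpectrum.ext (Subtype.ext_iff.mp h))
    · rintro ⟨Q, hQ, hQ'⟩
      have hne : Q ≠ ⊥ := Ideal.ne_bot_of_liesOver_of_ne_bot (v.under (𝓞 K)).ne_bot Q
      refine ⟨⟨⟨Q, hQ, hne⟩, HeightOneSpectrum.ext ?_⟩, rfl⟩
      exact hQ'.over.symm
  rw [Nat.card_congr e, s29d_stab, ← Nat.card_prod]
  exact Nat.card_congr (MulAction.orbitProdStabilizerEquivGroup Γ v.asIdeal)

theorem s29d_absNorm_eq (v : HeightOneSpectrum (𝓞 L))
    (hv : Nat.card (v.asIdeal.inertia Γ) = 1) :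
    Ideal.absNorm v.asIdeal = Ideal.absNorm (v.under (𝓞 K)).asIdeal ^ s29d_stab Γ v := by
  have hlies : v.asIdeal.LiesOver (v.under (𝓞 K)).asIdeal := ⟨rfl⟩
  have hmax : (v.under (𝓞 K)).asIdeal.IsMaximal := (v.under (𝓞 K)).isMaximal
  have hmax' : v.asIdeal.IsMaximal := v.isMaximal
  have hfin : Finite ((v.under (𝓞 K)).asIdeal.ResidueField) := by
    have : Finite (𝓞 K ⧸ (v.under (𝓞 K)).asIdeal) :=
      Ideal.finiteQuotientOfFreeOfNeBot _ (v.under (𝓞 K)).ne_bot
    exact Finite.of_surjective _ (Ideal.bijective_algebraMap_quotient_residueField _).2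
  have h1 := Ideal.card_stabilizer_eq_card_inertia_mul_finrank (G := Γ)
    (v.under (𝓞 K)).asIdeal v.asIdeal
  rw [hv, one_mul] at h1
  rw [s29d_stab, h1, ← Ideal.inertiaDeg'_eq_inertiaDeg (v.under (𝓞 K)).asIdeal v.asIdeal]
  exact Ideal.absNorm_eq_pow_inertiaDeg'_of_liesOver v.asIdeal (v.under (𝓞 K)).asIdeal
    (v.under (𝓞 K)).isPrime (v.under (𝓞 K)).ne_bot

/-- the prime ideal sum of the fixed field, as a sum over the primes of `L` -/
theorem s29d_fibre_sum {s : ℝ} (hs : 1 < s) :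
    Summable (fun v : HeightOneSpectrum (𝓞 L) ↦
      s29d_x K s (v.under (𝓞 K)) * s29d_stab Γ v / Nat.card Γ) ∧
    ∑' v : HeightOneSpectrum (𝓞 L), s29d_x K s (v.under (𝓞 K)) * s29d_stab Γ v / Nat.card Γ
      = s29d_F K s :=
  s29d_tsum_fibre (fun v : HeightOneSpectrum (𝓞 L) ↦ v.under (𝓞 K)) (s29d_under_surjective K)
    (fun v ↦ s29d_stab Γ v) (Nat.card Γ) Nat.card_pos (fun v ↦ s29d_fibre_card K Γ v)
    (s29d_x K s) (s29d_x_nonneg K s) (s29d_x_summable K hs)

end Generic

end Fermat.Agent.Lib.S29
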