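/-
[FD] Frobenius density theorem, existence form — part B2: a Galois number field `L/ℚ`, the fixed
fields of subgroups `H` of its Galois group, and the comparison of the primes of `L^H` below a
prime `v` of `L` for two subgroups `H ≤ H₀`.
-/
import Fermat.Agent.Lib.S29.FDSplit

set_option autoImplicit false
set_option linter.unusedSectionVars false

namespace Fermat.Agent.Lib.S29

open NumberField IsDedekindDomain Filter Topology Pointwise

section Concrete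

variable (L : Type*) [Field L] [NumberField L] [IsGalois ℚ L]

/-- the fixed field of a subgroup -/
noncomputable abbrev s29d_E (H : Subgroup Gal(L/ℚ)) : IntermediateField ℚ L :=
  FixedPoints.intermediateField H

variable {L}

theorem s29d_smul_ideal (H : Subgroup Gal(L/ℚ)) (σ : H) (P : Ideal (𝓞 L)) :
    σ • P = (σ : Gal(L/ℚ)) • P := rfl

/-- cardinality of the stabilizer in `H`, in terms of the action of the full Galois group -/
noncomputable def s29d_stG (H : Subgroup Gal(L/ℚ)) (v : HeightOneSpectrum (𝓞 L)) : ℕ :=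
  Nat.card ↥(H ⊓ MulAction.stabilizer Gal(L/ℚ) v.asIdeal)

theorem s29d_stab_eq (H : Subgroup Gal(L/ℚ)) (v : HeightOneSpectrum (𝓞 L)) :
    s29d_stab H v = s29d_stG H v := by
  unfold s29d_stab s29d_stG
  refine Nat.card_congr ⟨fun σ ↦ ⟨σ.1.1, Subgroup.mem_inf.mpr ⟨σ.1.2, ?_⟩⟩,
    fun σ ↦ ⟨⟨σ.1, (Subgroup.mem_inf.mp σ.2).1⟩, ?_⟩, fun σ ↦ rfl, fun σ ↦ rfl⟩
  · have h := MulAction.mem_stabilizer_iff.mp σ.2
    exact MulAction.mem_stabilizer_iff.mpr h
  · have h := MulAction.mem_stabilizer_iff.mp (Subgroup.mem_inf.mp σ.2).2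
    exact MulAction.mem_stabilizer_iff.mpr h

/-- a prime is good if its inertia group in the full Galois group is trivial -/
def s29d_good (v : HeightOneSpectrum (𝓞 L)) : Prop :=
  v.asIdeal.inertia Gal(L/ℚ) = ⊥

theorem s29d_good_inertia (H : Subgroup Gal(L/ℚ)) (v : HeightOneSpectrum (𝓞 L))
    (hv : s29d_good v) : Nat.card (v.asIdeal.inertia H) = 1 := by
  rw [Nat.card_eq_one_iff_unique]
  refine ⟨⟨fun σ τ ↦ ?_⟩, ⟨1⟩⟩
  have key : ∀ σ : v.asIdeal.inertia H, (σ.1 : Gal(L/ℚ)) = 1 := by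
    intro σ
    have hσ : (σ.1 : Gal(L/ℚ)) ∈ v.asIdeal.inertia Gal(L/ℚ) := fun x ↦ σ.2 x
    rw [hv] at hσ
    exact hσ
  exact Subtype.ext (Subtype.ext ((key σ).trans (key τ).symm))

theorem s29d_bad_finite : {v : HeightOneSpectrum (𝓞 L) | ¬ s29d_good v}.Finite := by
  classical
  have hfaith : FaithfulSMul Gal(L/ℚ) (𝓞 L) := IsGaloisGroup.faithful ℤ
  have hex : ∀ σ : Gal(L/ℚ), σ ≠ 1 → ∃ x : 𝓞 L, σ • x - x ≠ 0 := by
    intro σ hσ
    by_contra h
    push Not at h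
    exact hσ (hfaith.eq_of_smul_eq_smul fun x ↦ by
      rw [one_smul]; exact sub_eq_zero.mp (h x))
  choose! x hx using hex
  refine Set.Finite.subset (Set.Finite.biUnion (Set.toFinite {σ : Gal(L/ℚ) | σ ≠ 1})
    fun σ hσ ↦ Ideal.finite_factors (I := Ideal.span {σ • x σ - x σ})
      (by simpa using hx σ hσ)) ?_
  intro v hv
  obtain ⟨σ, hσ1⟩ := (Subgroup.ne_bot_iff_exists_ne_one).mp hv
  have hσ1' : (σ : Gal(L/ℚ)) ≠ 1 := fun h ↦ hσ1 (Subtype.ext h)
  refine Set.mem_biUnion (x := (σ : Gal(L/ℚ))) hσ1' ?_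
  rw [Set.mem_ofPred_eq, Ideal.dvd_iff_le, Ideal.span_singleton_le_iff_mem]
  exact σ.2 (x σ)

/-- the weight of the prime of the fixed field of `H` below `v` -/
noncomputable def s29d_xu (H : Subgroup Gal(L/ℚ)) (s : ℝ) (v : HeightOneSpectrum (𝓞 L)) : ℝ :=
  s29d_x (s29d_E L H) s (v.under (𝓞 (s29d_E L H)))

/-- the norm of the prime of the fixed field of `H` below `v` -/
noncomputable def s29d_nu (H : Subgroup Gal(L/ℚ)) (v : HeightOneSpectrum (𝓞 L)) : ℕ :=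
  Ideal.absNorm (v.under (𝓞 (s29d_E L H))).asIdeal

theorem s29d_xu_eq (H : Subgroup Gal(L/ℚ)) (s : ℝ) (v : HeightOneSpectrum (𝓞 L)) :
    s29d_xu H s v = (s29d_nu H v : ℝ) ^ (-s) := rfl

theorem s29d_two_le_nu (H : Subgroup Gal(L/ℚ)) (v : HeightOneSpectrum (𝓞 L)) :
    2 ≤ s29d_nu H v := s29d_two_le_absNorm _ _

theorem s29d_xu_nonneg (H : Subgroup Gal(L/ℚ)) (s : ℝ) (v : HeightOneSpectrum (𝓞 L)) :
    0 ≤ s29d_xu H s v := s29d_x_nonneg _ _ _

theorem s29d_xu_le_one (H : Subgroup Gal(L/ℚ)) {s : ℝ} (hs : 1 ≤ s)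
    (v : HeightOneSpectrum (𝓞 L)) : s29d_xu H s v ≤ 1 :=
  (s29d_x_le_half _ hs _).trans (by norm_num)

theorem s29d_stG_pos (H : Subgroup Gal(L/ℚ)) (v : HeightOneSpectrum (𝓞 L)) : 0 < s29d_stG H v :=
  Nat.card_pos

theorem s29d_stG_le (H : Subgroup Gal(L/ℚ)) (v : HeightOneSpectrum (𝓞 L)) :
    s29d_stG H v ≤ Nat.card H :=
  Subgroup.card_le_of_le inf_le_left

theorem s29d_absNorm_eq_nu (H : Subgroup Gal(L/ℚ)) (v : HeightOneSpectrum (𝓞 L))
    (hv : s29d_good v) : Ideal.absNorm v.asIdeal = s29d_nu H v ^ s29d_stG H v := by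
  rw [← s29d_stab_eq]
  exact s29d_absNorm_eq (s29d_E L H) H v (s29d_good_inertia H v hv)

/-- the total weight over the primes of `L` computes `|H|` times the prime ideal sum of `L^H` -/
theorem s29d_sum_xu (H : Subgroup Gal(L/ℚ)) {s : ℝ} (hs : 1 < s) :
    Summable (fun v : HeightOneSpectrum (𝓞 L) ↦ s29d_xu H s v * s29d_stG H v) ∧
    ∑' v : HeightOneSpectrum (𝓞 L), s29d_xu H s v * s29d_stG H v
      = Nat.card H * s29d_F (s29d_E L H) s := by
  obtain ⟨h1, h2⟩ := s29d_fibre_sum (s29d_E L H) H (L := L) hs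
  have hc : (Nat.card H : ℝ) ≠ 0 := by exact_mod_cast (Nat.card_pos (α := H)).ne'
  have hfun : (fun v : HeightOneSpectrum (𝓞 L) ↦ s29d_xu H s v * s29d_stG H v)
      = fun v ↦ (Nat.card H : ℝ) * (s29d_x (s29d_E L H) s (v.under (𝓞 (s29d_E L H))) *
        s29d_stab H v / Nat.card H) := by
    funext v
    rw [s29d_stab_eq, s29d_xu]
    field_simp
  rw [hfun]
  exact ⟨h1.mul_left _, by rw [tsum_mul_left, h2]⟩

theorem s29d_cmp_le (H₀ H : Subgroup Gal(L/ℚ)) (hH : H ≤ H₀) (v : HeightOneSpectrum (𝓞 L))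
    (hv : s29d_good v) (hS : H₀ ⊓ MulAction.stabilizer Gal(L/ℚ) v.asIdeal ≤ H) :
    s29d_nu H v = s29d_nu H₀ v ∧ s29d_stG H v = s29d_stG H₀ v := by
  have heq : H ⊓ MulAction.stabilizer Gal(L/ℚ) v.asIdeal
      = H₀ ⊓ MulAction.stabilizer Gal(L/ℚ) v.asIdeal :=
    le_antisymm (inf_le_inf_right _ hH) (le_inf hS inf_le_right)
  have hst : s29d_stG H v = s29d_stG H₀ v := by
    unfold s29d_stG
    rw [heq]
  refine ⟨?_, hst⟩
  have h1 := s29d_absNorm_eq_nu H v hv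
  have h2 := s29d_absNorm_eq_nu H₀ v hv
  rw [hst] at h1
  exact Nat.pow_left_injective (s29d_stG_pos H₀ v).ne' (h1.symm.trans h2)

theorem s29d_cmp_not_le (H₀ H : Subgroup Gal(L/ℚ)) (hH : H ≤ H₀) (v : HeightOneSpectrum (𝓞 L))
    (hv : s29d_good v) (hS : ¬ H₀ ⊓ MulAction.stabilizer Gal(L/ℚ) v.asIdeal ≤ H) :
    s29d_nu H₀ v ^ 2 ≤ s29d_nu H v := by
  have hle : H ⊓ MulAction.stabilizer Gal(L/ℚ) v.asIdeal
      ≤ H₀ ⊓ MulAction.stabilizer Gal(L/ℚ) v.asIdeal := inf_le_inf_right _ hH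
  have hdvd : s29d_stG H v ∣ s29d_stG H₀ v := Subgroup.card_dvd_of_le hle
  have hne : s29d_stG H v ≠ s29d_stG H₀ v := by
    intro heq
    have := Subgroup.eq_of_le_of_card_ge hle (le_of_eq heq.symm)
    exact hS (this ▸ inf_le_left)
  obtain ⟨c, hc⟩ := hdvd
  have hk := s29d_stG_pos H v
  have hk0 := s29d_stG_pos H₀ v
  have hc2 : 2 ≤ c := by
    by_contra hlt
    have hc01 : c = 0 ∨ c = 1 := by omega
    rcases hc01 with rfl | rfl
    · rw [mul_zero] at hc; omega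
    · rw [mul_one] at hc; exact hne hc.symm
  have h1 := s29d_absNorm_eq_nu H v hv
  have h2 := s29d_absNorm_eq_nu H₀ v hv
  rw [hc, pow_mul'] at h2
  have h3 : (s29d_nu H₀ v ^ c) = s29d_nu H v :=
    Nat.pow_left_injective hk.ne' (h2.symm.trans h1)
  rw [← h3]
  exact Nat.pow_le_pow_right (by have := s29d_two_le_nu H₀ v; omega) hc2

end Concrete

end Fermat.Agent.Lib.S29
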