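/-
[FD] Frobenius density theorem, existence form — part C: the sieve over the subgroups of the cyclic
group generated by `g`, and the resulting infinitude of the unramified primes fixed by `g`.
-/
import Fermat.Agent.Lib.S29.FDConc

set_option autoImplicit false
set_option linter.unusedSectionVars false

namespace Fermat.Agent.Lib.S29

open NumberField IsDedekindDomain Filter Topology Pointwise

/-- the basic sieve identity -/
theorem s29d_sieve {ι : Type*} [Fintype ι] [DecidableEq ι] (p : ι → Prop) [DecidablePred p] :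
    ∑ A : Finset ι, (-1 : ℝ) ^ A.card * (if ∀ i ∈ A, p i then 1 else 0)
      = if ∀ i, ¬ p i then 1 else 0 := by
  have h1 : ∀ A : Finset ι, (-1 : ℝ) ^ A.card * (if ∀ i ∈ A, p i then 1 else 0)
      = ∏ i ∈ A, (-(if p i then (1 : ℝ) else 0)) := by
    intro A
    rw [Finset.prod_neg, Finset.prod_boole]
    congr
  rw [Finset.sum_congr rfl fun A _ ↦ h1 A, ← Finset.powerset_univ, ← Finset.prod_one_add]
  have h2 : ∀ i, (1 + -(if p i then (1 : ℝ) else 0)) = if ¬ p i then 1 else 0 := by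
    intro i
    by_cases hp : p i <;> simp [hp]
  rw [Finset.prod_congr rfl fun i _ ↦ h2 i, Fintype.prod_boole]

theorem s29d_tendsto_log : Tendsto (fun s : ℝ ↦ Real.log (1 / (s - 1))) (𝓝[>] 1) atTop := by
  have h1 : Tendsto (fun s : ℝ ↦ s - 1) (𝓝[>] 1) (𝓝[>] 0) := by
    refine tendsto_nhdsWithin_iff.mpr ⟨?_, ?_⟩
    · have : Tendsto (fun s : ℝ ↦ s - 1) (𝓝 1) (𝓝 (1 - 1)) :=
        (continuous_id.sub continuous_const).tendsto 1
      rw [sub_self] at this
      exact this.mono_left nhdsWithin_le_nhds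
    · filter_upwards [self_mem_nhdsWithin] with s hs
      exact sub_pos.mpr (Set.mem_Ioi.mp hs)
  have h2 := tendsto_inv_nhdsGT_zero.comp h1
  have h3 := Real.tendsto_log_atTop.comp h2
  refine h3.congr fun s ↦ ?_
  simp [one_div]

section Main

variable {L : Type*} [Field L] [NumberField L] [IsGalois ℚ L]

/-- the sieved weight attached to a subgroup `H` of `H₀` -/
noncomputable def s29d_psi (H₀ H : Subgroup Gal(L/ℚ)) (s : ℝ) (v : HeightOneSpectrum (𝓞 L)) : ℝ :=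
  open Classical in
  if s29d_good v ∧ H₀ ⊓ MulAction.stabilizer Gal(L/ℚ) v.asIdeal ≤ H then
    s29d_xu H₀ s v * s29d_stG H₀ v else 0

/-- the error weight -/
noncomputable def s29d_beta (H₀ : Subgroup Gal(L/ℚ)) (v : HeightOneSpectrum (𝓞 L)) : ℝ :=
  open Classical in
  Nat.card H₀ * (s29d_xu H₀ 2 v + if s29d_good v then 0 else 1)

theorem s29d_xu_le_of_sq (H₀ H : Subgroup Gal(L/ℚ)) {s : ℝ} (hs : 1 ≤ s)
    (v : HeightOneSpectrum (𝓞 L)) (h : s29d_nu H₀ v ^ 2 ≤ s29d_nu H v) :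
    s29d_xu H s v ≤ s29d_xu H₀ 2 v := by
  rw [s29d_xu_eq, s29d_xu_eq]
  have h2 := s29d_two_le_nu H₀ v
  have hpos : (0 : ℝ) < (s29d_nu H₀ v : ℝ) := by positivity
  have h1 : (1 : ℝ) ≤ (s29d_nu H₀ v : ℝ) := by exact_mod_cast (by omega : 1 ≤ s29d_nu H₀ v)
  have hcast : ((s29d_nu H₀ v : ℝ)) ^ 2 ≤ (s29d_nu H v : ℝ) := by exact_mod_cast h
  calc ((s29d_nu H v : ℝ)) ^ (-s) ≤ (((s29d_nu H₀ v : ℝ)) ^ 2) ^ (-s) :=
        Real.rpow_le_rpow_of_nonpos (by positivity) hcast (by linarith)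
    _ = (s29d_nu H₀ v : ℝ) ^ (-(2 * s)) := by
        rw [← Real.rpow_natCast, ← Real.rpow_mul hpos.le]
        congr 1
        push_cast
        ring
    _ ≤ (s29d_nu H₀ v : ℝ) ^ (-(2 : ℝ)) :=
        Real.rpow_le_rpow_of_exponent_le h1 (by linarith)

theorem s29d_psi_close (H₀ H : Subgroup Gal(L/ℚ)) (hH : H ≤ H₀) {s : ℝ} (hs : 1 ≤ s)
    (v : HeightOneSpectrum (𝓞 L)) :
    |s29d_xu H s v * s29d_stG H v - s29d_psi H₀ H s v| ≤ s29d_beta H₀ v := by
  classical
  have hcardle : (s29d_stG H v : ℝ) ≤ Nat.card H₀ := by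
    exact_mod_cast (s29d_stG_le H v).trans (Subgroup.card_le_of_le hH)
  have hx0 := s29d_xu_nonneg H s v
  have hx1 := s29d_xu_le_one H hs v
  have hst0 : (0 : ℝ) ≤ s29d_stG H v := by positivity
  have hb0 := s29d_xu_nonneg H₀ 2 v
  have hn0 : (0 : ℝ) ≤ Nat.card H₀ := by positivity
  unfold s29d_psi s29d_beta
  by_cases hg : s29d_good v
  · by_cases hS : H₀ ⊓ MulAction.stabilizer Gal(L/ℚ) v.asIdeal ≤ H
    · obtain ⟨e1, e2⟩ := s29d_cmp_le H₀ H hH v hg hS
      rw [if_pos ⟨hg, hS⟩, if_pos hg, s29d_xu_eq, s29d_xu_eq, e1, e2, sub_self, abs_zero]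
      positivity
    · have hsq := s29d_cmp_not_le H₀ H hH v hg hS
      have hle := s29d_xu_le_of_sq H₀ H hs v hsq
      rw [if_neg (fun h ↦ hS h.2), if_pos hg, sub_zero, abs_of_nonneg (by positivity), add_zero,
        mul_comm]
      exact mul_le_mul hcardle hle hx0 hn0
  · rw [if_neg (fun h ↦ hg h.1), if_neg hg, sub_zero, abs_of_nonneg (by positivity), mul_comm]
    refine mul_le_mul hcardle ?_ hx0 hn0
    linarith

theorem s29d_xu_two_summable (H₀ : Subgroup Gal(L/ℚ)) :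
    Summable (fun v : HeightOneSpectrum (𝓞 L) ↦ s29d_xu H₀ 2 v) := by
  refine Summable.of_nonneg_of_le (fun v ↦ s29d_xu_nonneg H₀ 2 v) (fun v ↦ ?_)
    (s29d_sum_xu H₀ (by norm_num : (1 : ℝ) < 2)).1
  have h1 : (1 : ℝ) ≤ s29d_stG H₀ v := by exact_mod_cast s29d_stG_pos H₀ v
  have h0 := s29d_xu_nonneg H₀ 2 v
  nlinarith

theorem s29d_beta_summable (H₀ : Subgroup Gal(L/ℚ)) :
    Summable (fun v : HeightOneSpectrum (𝓞 L) ↦ s29d_beta H₀ v) := by
  classical
  unfold s29d_beta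
  refine Summable.mul_left _ ((s29d_xu_two_summable H₀).add ?_)
  refine summable_of_hasFiniteSupport ?_
  refine (s29d_bad_finite (L := L)).subset fun v hv ↦ ?_
  rw [Function.mem_support] at hv
  intro hg
  exact hv (if_pos hg)

theorem s29d_beta_nonneg (H₀ : Subgroup Gal(L/ℚ)) (v : HeightOneSpectrum (𝓞 L)) :
    0 ≤ s29d_beta H₀ v := by
  classical
  unfold s29d_beta
  have := s29d_xu_nonneg H₀ 2 v
  split_ifs <;> positivity

theorem s29d_psi_sum_close (H₀ H : Subgroup Gal(L/ℚ)) (hH : H ≤ H₀) {s : ℝ} (hs : 1 < s) :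
    Summable (s29d_psi H₀ H s) ∧
      |∑' v, s29d_psi H₀ H s v - Nat.card H * s29d_F (s29d_E L H) s|
        ≤ ∑' v, s29d_beta H₀ v := by
  obtain ⟨hsum, heq⟩ := s29d_sum_xu H hs
  have hdiff : Summable (fun v ↦ s29d_xu H s v * s29d_stG H v - s29d_psi H₀ H s v) :=
    Summable.of_norm_bounded (s29d_beta_summable H₀) fun v ↦ by
      rw [Real.norm_eq_abs]
      exact s29d_psi_close H₀ H hH hs.le v
  have hpsi : Summable (s29d_psi H₀ H s) := by
    have := hsum.sub hdiff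
    refine this.congr fun v ↦ ?_
    ring
  refine ⟨hpsi, ?_⟩
  rw [← heq, abs_sub_comm, ← hsum.tsum_sub hpsi]
  rw [← Real.norm_eq_abs]
  exact tsum_of_norm_bounded (s29d_beta_summable H₀).hasSum fun v ↦ by
    rw [Real.norm_eq_abs]
    exact s29d_psi_close H₀ H hH hs.le v
theorem s29d_psi_asymp (H₀ H : Subgroup Gal(L/ℚ)) (hH : H ≤ H₀) :
    ∃ C : ℝ, ∀ᶠ s in 𝓝[>] (1 : ℝ), Summable (s29d_psi H₀ H s) ∧
      |∑' v, s29d_psi H₀ H s v - Nat.card H * Real.log (1 / (s - 1))| ≤ C := by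
  obtain ⟨C, hC⟩ := s29d_F_asymp (s29d_E L H)
  refine ⟨∑' v, s29d_beta H₀ v + Nat.card H * C, ?_⟩
  filter_upwards [hC, self_mem_nhdsWithin] with s hs1 hs2
  obtain ⟨h1, h2⟩ := s29d_psi_sum_close H₀ H hH (Set.mem_Ioi.mp hs2)
  refine ⟨h1, ?_⟩
  have h3 : |(Nat.card H : ℝ) * s29d_F (s29d_E L H) s - Nat.card H * Real.log (1 / (s - 1))|
      ≤ Nat.card H * C := by
    rw [← mul_sub, abs_mul, abs_of_nonneg (by positivity : (0 : ℝ) ≤ Nat.card H)]
    exact mul_le_mul_of_nonneg_left hs1 (by positivity)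
  exact (abs_sub_le _ _ _).trans (add_le_add h2 h3)

/-- **Frobenius density, counting form**: for every `g` in the Galois group there are infinitely
many unramified primes of `L` fixed by `g`. -/
theorem s29d_infinite_fixed (g : Gal(L/ℚ)) :
    {v : HeightOneSpectrum (𝓞 L) | s29d_good v ∧ g • v.asIdeal = v.asIdeal}.Infinite := by
  classical
  intro hfin
  set H₀ : Subgroup Gal(L/ℚ) := Subgroup.zpowers g with hH₀
  let ι := {M : Subgroup Gal(L/ℚ) // M < H₀}
  have : Fintype ι := Fintype.ofFinite ι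
  have : Fintype Gal(L/ℚ) := Fintype.ofFinite _
  let HA : Finset ι → Subgroup Gal(L/ℚ) := fun A ↦ H₀ ⊓ ⨅ i ∈ A, i.1
  have hHA : ∀ A, HA A ≤ H₀ := fun A ↦ inf_le_left
  have hasym := fun A ↦ s29d_psi_asymp H₀ (HA A) (hHA A)
  choose C hC using hasym
  set θ : ℝ → HeightOneSpectrum (𝓞 L) → ℝ := fun s v ↦
    if s29d_good v ∧ H₀ ⊓ MulAction.stabilizer Gal(L/ℚ) v.asIdeal = H₀ then
      s29d_xu H₀ s v * s29d_stG H₀ v else 0 with hθ
  -- the sieve, prime by prime
  have hsieve : ∀ s v, ∑ A : Finset ι, (-1 : ℝ) ^ A.card * s29d_psi H₀ (HA A) s v = θ s v := by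
    intro s v
    set D := H₀ ⊓ MulAction.stabilizer Gal(L/ℚ) v.asIdeal with hD
    have h1 : ∀ A : Finset ι, (-1 : ℝ) ^ A.card * s29d_psi H₀ (HA A) s v
        = ((-1 : ℝ) ^ A.card * (if ∀ i ∈ A, D ≤ i.1 then 1 else 0)) *
          (if s29d_good v then s29d_xu H₀ s v * s29d_stG H₀ v else 0) := by
      intro A
      have hiff : D ≤ HA A ↔ ∀ i ∈ A, D ≤ i.1 := by
        simp only [HA, le_inf_iff, le_iInf₂_iff]
        exact ⟨fun h ↦ h.2, fun h ↦ ⟨inf_le_left, h⟩⟩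
      unfold s29d_psi
      by_cases hg : s29d_good v
      · by_cases hA : ∀ i ∈ A, D ≤ i.1
        · rw [if_pos ⟨hg, hiff.mpr hA⟩, if_pos hA, if_pos hg, mul_one]
        · rw [if_neg (fun h ↦ hA (hiff.mp h.2)), if_neg hA]
          simp
      · rw [if_neg (fun h ↦ hg h.1), if_neg hg]
        simp
    rw [Finset.sum_congr rfl fun A _ ↦ h1 A, ← Finset.sum_mul, s29d_sieve]
    have hiff2 : (∀ i : ι, ¬ D ≤ i.1) ↔ D = H₀ := by
      constructor
      · intro h
        by_contra hne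
        exact h ⟨D, lt_of_le_of_ne inf_le_left hne⟩ le_rfl
      · intro h i hi
        rw [h] at hi
        exact absurd i.2 (not_lt_of_ge hi)
    change _ = if s29d_good v ∧ D = H₀ then s29d_xu H₀ s v * s29d_stG H₀ v else 0
    by_cases hg : s29d_good v
    · by_cases hDD : D = H₀
      · rw [if_pos (hiff2.mpr hDD), if_pos hg, if_pos ⟨hg, hDD⟩, one_mul]
      · rw [if_neg (show ¬ (∀ i : ι, ¬ D ≤ i.1) from fun h ↦ hDD (hiff2.mp h)),
          if_neg (show ¬ (s29d_good v ∧ D = H₀) from fun h ↦ hDD h.2), zero_mul]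
    · rw [if_neg hg, if_neg (show ¬ (s29d_good v ∧ D = H₀) from fun h ↦ hg h.1), mul_zero]
  -- the constant
  have hc : 1 ≤ ∑ A : Finset ι, (-1 : ℝ) ^ A.card * Nat.card (HA A) := by
    have hcard : ∀ A : Finset ι, (Nat.card (HA A) : ℝ)
        = ∑ x : Gal(L/ℚ), (if ∀ i ∈ A, x ∈ i.1 then 1 else 0) * (if x ∈ H₀ then (1 : ℝ) else 0) := by
      intro A
      rw [Nat.card_eq_fintype_card, Fintype.card_subtype, Finset.card_filter]
      push_cast
      refine Finset.sum_congr rfl fun x _ ↦ ?_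
      have hiff : x ∈ HA A ↔ (∀ i ∈ A, x ∈ i.1) ∧ x ∈ H₀ := by
        simp only [HA, Subgroup.mem_inf, Subgroup.mem_iInf]
        tauto
      by_cases h1 : x ∈ H₀
      · by_cases h2 : ∀ i ∈ A, x ∈ i.1
        · rw [if_pos (hiff.mpr ⟨h2, h1⟩), if_pos h1, if_pos h2, mul_one]
        · rw [if_neg (fun h ↦ h2 (hiff.mp h).1), if_neg h2, zero_mul]
      · rw [if_neg (fun h ↦ h1 (hiff.mp h).2), if_neg h1, mul_zero]
    have h2 : ∑ A : Finset ι, (-1 : ℝ) ^ A.card * Nat.card (HA A)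
        = ∑ x : Gal(L/ℚ), (if ∀ i : ι, ¬ x ∈ i.1 then 1 else 0) *
            (if x ∈ H₀ then (1 : ℝ) else 0) := by
      simp only [hcard, Finset.mul_sum]
      rw [Finset.sum_comm]
      refine Finset.sum_congr rfl fun x _ ↦ ?_
      simp only [← mul_assoc]
      rw [← Finset.sum_mul, s29d_sieve]
    rw [h2]
    have hterm : (1 : ℝ) = (if ∀ i : ι, ¬ g ∈ i.1 then 1 else 0) *
        (if g ∈ H₀ then (1 : ℝ) else 0) := by
      rw [if_pos, if_pos (Subgroup.mem_zpowers g), mul_one]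
      intro i hi
      exact absurd i.2 (not_lt_of_ge (Subgroup.zpowers_le.mpr hi))
    refine hterm.le.trans ?_
    refine Finset.single_le_sum (f := fun x : Gal(L/ℚ) ↦ (if ∀ i : ι, ¬ x ∈ i.1 then 1 else 0) *
        (if x ∈ H₀ then (1 : ℝ) else 0)) (fun x _ ↦ ?_) (Finset.mem_univ g)
    positivity
  -- the upper bound coming from finiteness
  have hupper : ∀ s : ℝ, 1 ≤ s → ∑' v, θ s v ≤ Nat.card H₀ * hfin.toFinset.card := by
    intro s hs
    rw [tsum_eq_sum (s := hfin.toFinset)]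
    · rw [mul_comm, ← nsmul_eq_mul, ← Finset.sum_const]
      refine Finset.sum_le_sum fun v _ ↦ ?_
      rw [hθ]
      simp only
      split_ifs
      · have h1 := s29d_xu_le_one H₀ hs v
        have h2 : (s29d_stG H₀ v : ℝ) ≤ Nat.card H₀ := by exact_mod_cast s29d_stG_le H₀ v
        have h3 := s29d_xu_nonneg H₀ s v
        have h4 : (0 : ℝ) ≤ s29d_stG H₀ v := by positivity
        nlinarith
      · positivity
    · intro v hv
      rw [hθ]
      simp only
      rw [if_neg]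
      rintro ⟨hg, hD⟩
      refine hv (hfin.mem_toFinset.mpr ⟨hg, ?_⟩)
      have hgD : g ∈ H₀ ⊓ MulAction.stabilizer Gal(L/ℚ) v.asIdeal := by
        rw [hD]
        exact Subgroup.mem_zpowers g
      exact MulAction.mem_stabilizer_iff.mp (Subgroup.mem_inf.mp hgD).2
  -- combine
  have hall : ∀ᶠ s in 𝓝[>] (1 : ℝ), ∀ A : Finset ι, Summable (s29d_psi H₀ (HA A) s) ∧
      |∑' v, s29d_psi H₀ (HA A) s v - Nat.card (HA A) * Real.log (1 / (s - 1))| ≤ C A :=
    Filter.eventually_all.mpr hC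
  set c : ℝ := ∑ A : Finset ι, (-1 : ℝ) ^ A.card * Nat.card (HA A) with hcdef
  set B : ℝ := Nat.card H₀ * hfin.toFinset.card + ∑ A : Finset ι, C A with hB
  have hlog := s29d_tendsto_log.eventually_gt_atTop (max B 0)
  obtain ⟨s, ⟨hs1, hs2⟩, hs3⟩ := ((hall.and hlog).and self_mem_nhdsWithin).exists
  have hs3' : (1 : ℝ) < s := hs3
  have hsum : ∑' v, θ s v = ∑ A : Finset ι, (-1 : ℝ) ^ A.card * ∑' v, s29d_psi H₀ (HA A) s v := by
    have : (fun v ↦ θ s v) = fun v ↦ ∑ A : Finset ι, (-1 : ℝ) ^ A.card * s29d_psi H₀ (HA A) s v := by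
      funext v
      exact (hsieve s v).symm
    rw [this, Summable.tsum_finsetSum fun A _ ↦ ((hs1 A).1.mul_left _)]
    refine Finset.sum_congr rfl fun A _ ↦ ?_
    rw [tsum_mul_left]
  have hdiff : |∑' v, θ s v - c * Real.log (1 / (s - 1))| ≤ ∑ A : Finset ι, C A := by
    rw [hsum, hcdef, Finset.sum_mul, ← Finset.sum_sub_distrib]
    refine (Finset.abs_sum_le_sum_abs _ _).trans (Finset.sum_le_sum fun A _ ↦ ?_)
    rw [mul_assoc, ← mul_sub, abs_mul, abs_pow, abs_neg, abs_one, one_pow, one_mul]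
    exact (hs1 A).2
  have hup := hupper s hs3'.le
  have hlogB : B < Real.log (1 / (s - 1)) := lt_of_le_of_lt (le_max_left _ _) hs2
  have hlog0 : 0 < Real.log (1 / (s - 1)) := lt_of_le_of_lt (le_max_right _ _) hs2
  have h1 := (abs_le.mp hdiff).1
  have h2 : Real.log (1 / (s - 1)) ≤ c * Real.log (1 / (s - 1)) := by nlinarith
  linarith

end Main

end Fermat.Agent.Lib.S29
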