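/-
[FD] Frobenius density theorem, existence form — part D: from primes of the Galois number field `L`
to places of `ℚ̄` and Frobenius elements of the absolute Galois group; proof of `s29k_FrobDensity`.
-/
import Fermat.Agent.Lib.S29.FDMain
import Fermat.Agent.Lib.S29.KIface
import Fermat.Agent.Lib.Frobenius.Exists

set_option autoImplicit false
set_option linter.unusedSectionVars false

namespace Fermat.Agent.Lib.S29

open NumberField IsDedekindDomain Filter Topology Pointwise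

/-- every ring endomorphism of a finite field of characteristic `ℓ` is a power of the Frobenius -/
theorem s29d_finite_field_end {k : Type*} [Field k] [Finite k] (ℓ : ℕ) [Fact ℓ.Prime] [CharP k ℓ]
    (φ : k →+* k) : ∃ j : ℕ, ∀ x : k, φ x = x ^ (ℓ ^ j) := by
  let _ : Algebra (ZMod ℓ) k := ZMod.algebra k ℓ
  let φa : k →ₐ[ZMod ℓ] k :=
    { φ with
      commutes' := fun r ↦ by
        have h := Subsingleton.elim (φ.comp (algebraMap (ZMod ℓ) k)) (algebraMap (ZMod ℓ) k)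
        exact RingHom.congr_fun h r }
  obtain ⟨⟨n, hlt⟩, hn⟩ := (FiniteField.bijective_frobeniusAlgHom_pow (ZMod ℓ) k).2 φa
  refine ⟨n, fun x ↦ ?_⟩
  have h1 : φ x = φa x := rfl
  rw [h1, ← hn]
  simp only [AlgHom.coe_pow, FiniteField.coe_frobeniusAlgHom, pow_iterate, ZMod.card]

section Local

variable {L : Type*} [Field L] [NumberField L] [IsGalois ℚ L]

theorem s29d_smul_mem_of_stab (v : HeightOneSpectrum (𝓞 L)) (τ : Gal(L/ℚ))
    (hτ : τ • v.asIdeal = v.asIdeal) {x : 𝓞 L} (hx : x ∈ v.asIdeal) : τ • x ∈ v.asIdeal := by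
  have : τ • x ∈ τ • v.asIdeal := Ideal.smul_mem_pointwise_smul_iff.mpr hx
  rwa [hτ] at this

/-- an element of the decomposition group acts on the residue field as a power of Frobenius -/
theorem s29d_exists_pow_frob (v : HeightOneSpectrum (𝓞 L)) (ℓ : ℕ) (hℓ : ℓ.Prime)
    (hℓv : (ℓ : 𝓞 L) ∈ v.asIdeal) (τ : Gal(L/ℚ)) (hτ : τ • v.asIdeal = v.asIdeal) :
    ∃ j : ℕ, ∀ x : 𝓞 L, τ • x - x ^ (ℓ ^ j) ∈ v.asIdeal := by
  have hmax : v.asIdeal.IsMaximal := v.isMaximal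
  let _ : Field (𝓞 L ⧸ v.asIdeal) := Ideal.Quotient.field _
  have : Finite (𝓞 L ⧸ v.asIdeal) := Ideal.finiteQuotientOfFreeOfNeBot _ v.ne_bot
  have : Fact ℓ.Prime := ⟨hℓ⟩
  have : CharP (𝓞 L ⧸ v.asIdeal) ℓ := by
    rw [CharP.charP_iff_prime_eq_zero hℓ]
    have h : ((ℓ : 𝓞 L) : 𝓞 L ⧸ v.asIdeal) = 0 := Ideal.Quotient.eq_zero_iff_mem.mpr hℓv
    simpa using h
  let φ : (𝓞 L ⧸ v.asIdeal) →+* (𝓞 L ⧸ v.asIdeal) :=
    Ideal.quotientMap v.asIdeal (MulSemiringAction.toRingHom Gal(L/ℚ) (𝓞 L) τ) (fun x hx ↦ by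
      rw [Ideal.mem_comap]
      exact s29d_smul_mem_of_stab v τ hτ hx)
  obtain ⟨j, hj⟩ := s29d_finite_field_end ℓ φ
  refine ⟨j, fun x ↦ ?_⟩
  have h := hj (Ideal.Quotient.mk v.asIdeal x)
  rw [← Ideal.Quotient.eq, map_pow, ← h]
  rfl

theorem s29d_pow_frob (v : HeightOneSpectrum (𝓞 L)) (ℓ : ℕ) (ρ : Gal(L/ℚ))
    (hρ : ρ • v.asIdeal = v.asIdeal) (hfrob : ∀ x : 𝓞 L, ρ • x - x ^ ℓ ∈ v.asIdeal) (j : ℕ) :
    ∀ x : 𝓞 L, ρ ^ j • x - x ^ (ℓ ^ j) ∈ v.asIdeal := by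
  induction j with
  | zero => intro x; simp
  | succ j ih =>
    intro x
    have hρj : ρ ^ j • v.asIdeal = v.asIdeal := by
      clear ih
      induction j with
      | zero => simp
      | succ j ih => rw [pow_succ, mul_smul, hρ, ih]
    have h1 : ρ ^ j • (ρ • x - x ^ ℓ) ∈ v.asIdeal := s29d_smul_mem_of_stab v _ hρj (hfrob x)
    have h2 := ih (x ^ ℓ)
    have e : ρ ^ (j + 1) • x - x ^ (ℓ ^ (j + 1))
        = ρ ^ j • (ρ • x - x ^ ℓ) + (ρ ^ j • (x ^ ℓ) - (x ^ ℓ) ^ (ℓ ^ j)) := by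
      rw [smul_sub, pow_succ ρ, mul_smul, ← pow_mul, pow_succ' ℓ j]
      ring
    rw [e]
    exact v.asIdeal.add_mem h1 h2

/-- **local step**: at an unramified prime, the decomposition group is generated by any Frobenius
element -/
theorem s29d_local_step (v : HeightOneSpectrum (𝓞 L)) (hv : s29d_good v) (ℓ : ℕ) (hℓ : ℓ.Prime)
    (hℓv : (ℓ : 𝓞 L) ∈ v.asIdeal) (τ ρ : Gal(L/ℚ)) (hτ : τ • v.asIdeal = v.asIdeal)
    (hρ : ρ • v.asIdeal = v.asIdeal) (hfrob : ∀ x : 𝓞 L, ρ • x - x ^ ℓ ∈ v.asIdeal) :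
    ∃ j : ℕ, ρ ^ j = τ := by
  obtain ⟨j, hj⟩ := s29d_exists_pow_frob v ℓ hℓ hℓv τ hτ
  refine ⟨j, ?_⟩
  have hρj := s29d_pow_frob v ℓ ρ hρ hfrob j
  have hρjv : (ρ ^ j)⁻¹ • v.asIdeal = v.asIdeal := by
    have : ρ ^ j • v.asIdeal = v.asIdeal := by
      clear hj hρj
      induction j with
      | zero => simp
      | succ j ih => rw [pow_succ, mul_smul, hρ, ih]
    rw [inv_smul_eq_iff, this]
  have hmem : (ρ ^ j)⁻¹ * τ ∈ v.asIdeal.inertia Gal(L/ℚ) := by
    intro x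
    have h1 : τ • x - ρ ^ j • x ∈ v.asIdeal := by
      have := v.asIdeal.sub_mem (hj x) (hρj x)
      simpa using this
    have h2 := s29d_smul_mem_of_stab v _ hρjv h1
    rw [smul_sub, inv_smul_smul, ← mul_smul] at h2
    exact h2
  rw [hv, Subgroup.mem_bot, inv_mul_eq_one] at hmem
  exact hmem

end Local

section Aux

theorem s29d_exists_prime_mem {L : Type*} [Field L] [NumberField L]
    (v : HeightOneSpectrum (𝓞 L)) : ∃ ℓ : ℕ, ℓ.Prime ∧ (ℓ : 𝓞 L) ∈ v.asIdeal := by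
  set p : Ideal ℤ := v.asIdeal.under ℤ with hp
  have hprime : p.IsPrime := Ideal.IsPrime.under ℤ v.asIdeal
  have hne : p ≠ ⊥ := Ideal.under_ne_bot ℤ v.ne_bot
  have hgen := Submodule.IsPrincipal.prime_generator_of_isPrime p hne
  refine ⟨(Submodule.IsPrincipal.generator p).natAbs, Int.prime_iff_natAbs_prime.mp hgen, ?_⟩
  have hmem : ((Submodule.IsPrincipal.generator p).natAbs : ℤ) ∈ p := by
    have h1 : ((Submodule.IsPrincipal.generator p).natAbs : ℤ)
        ∈ Ideal.span {Submodule.IsPrincipal.generator p} :=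
      Ideal.mem_span_singleton.mpr Int.dvd_natAbs_self
    rwa [Ideal.span_singleton_generator p] at h1
  have := (Ideal.mem_comap.mp hmem)
  simpa using this

theorem s29d_over_finite {L : Type*} [Field L] [NumberField L] (S : Finset ℕ) :
    {v : HeightOneSpectrum (𝓞 L) | ∃ q ∈ S, q ≠ 0 ∧ (q : 𝓞 L) ∈ v.asIdeal}.Finite := by
  have h : ∀ q ∈ S, {v : HeightOneSpectrum (𝓞 L) | q ≠ 0 ∧ (q : 𝓞 L) ∈ v.asIdeal}.Finite := by
    intro q _
    by_cases hq : q = 0
    · refine Set.Finite.subset Set.finite_empty fun v hv ↦ (hv.1 hq).elim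
    · have hne : Ideal.span {(q : 𝓞 L)} ≠ 0 := by
        simpa using hq
      refine (Ideal.finite_factors hne).subset fun v hv ↦ ?_
      rw [Set.mem_ofPred_eq, Ideal.dvd_iff_le, Ideal.span_singleton_le_iff_mem]
      exact hv.2
  refine (Set.Finite.biUnion S.finite_toSet h).subset fun v hv ↦ ?_
  obtain ⟨q, hqS, hq⟩ := hv
  exact Set.mem_biUnion (Finset.mem_coe.mpr hqS) hq

/-- a place of a field above a maximal ideal of a subring -/
theorem s29d_exists_place {R K : Type*} [CommRing R] [Field K] (ι : R →+* K)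
    (hι : Function.Injective ι) (P : Ideal R) [hP : P.IsMaximal] :
    ∃ A : ValuationSubring K, (∀ x : R, ι x ∈ A) ∧ ∀ x : R, x ∈ P ↔ ι x ∈ A.nonunits := by
  let I : Ideal ι.range := P.map ι.rangeRestrict
  have hsurj : Function.Surjective ι.rangeRestrict := ι.rangeRestrict_surjective
  have hI : I ≠ ⊤ := by
    intro h
    have h1 : (1 : ι.range) ∈ I := by rw [h]; trivial
    obtain ⟨y, hy, hy1⟩ := (Ideal.mem_map_iff_of_surjective _ hsurj).mp h1
    have h2 : ι y = ι 1 := by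
      have := congrArg Subtype.val hy1
      simpa using this
    rw [hι h2] at hy
    exact hP.ne_top ((Ideal.eq_top_iff_one P).mpr hy)
  obtain ⟨A, hA1, hA2⟩ := Ideal.image_subset_nonunits_valuationSubring I hI
  have hmemA : ∀ x : R, ι x ∈ A := fun x ↦ hA1 ⟨x, rfl⟩
  have hnon : ∀ x : R, x ∈ P → ι x ∈ A.nonunits := fun x hx ↦
    hA2 ⟨ι.rangeRestrict x, Ideal.mem_map_of_mem _ hx, rfl⟩
  refine ⟨A, hmemA, fun x ↦ ⟨hnon x, fun hx ↦ ?_⟩⟩
  by_contra hxP
  obtain ⟨y, i, hi, hyi⟩ := hP.exists_inv hxP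
  have h1 : ι x * ι y ∈ A.nonunits := Frobenius.mul_mem_nonunits A hx (hmemA y)
  have h2 : ι i ∈ A.nonunits := hnon i hi
  have h3 : (1 : K) ∈ A.nonunits := by
    have : (1 : K) = ι x * ι y + ι i := by
      rw [← map_mul, ← map_add, mul_comm, hyi, map_one]
    rw [this]
    exact A.nonunits.add_mem h1 h2
  exact Frobenius.one_notMem_nonunits A h3

theorem s29d_frob_sub_mem {K : Type*} [Field K] [Algebra ℚ K] (A : ValuationSubring K)
    (σ : K ≃ₐ[ℚ] K) (ℓ : ℕ) (hσ : A.IsFrobeniusAt σ ℓ) (a : K) (ha : a ∈ A) :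
    σ a - a ^ ℓ ∈ A.nonunits := by
  have h := hσ.smul_residue_eq (IsLocalRing.residue A ⟨a, ha⟩)
  rw [← IsLocalRing.ResidueField.residue_smul, ← map_pow, ← sub_eq_zero, ← map_sub,
    IsLocalRing.residue_eq_zero_iff, ← ValuationSubring.coe_mem_nonunits_iff] at h
  exact h

theorem s29d_map_mem_nonunits {K : Type*} [Field K] [Algebra ℚ K] (A : ValuationSubring K)
    (σ : K ≃ₐ[ℚ] K) (hσ : σ • A = A) {a : K} (ha : a ∈ A.nonunits) : σ a ∈ A.nonunits := by
  have h := (Frobenius.mem_nonunits_smul_iff A σ (σ a)).mpr (by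
    have : σ⁻¹ • σ a = a := by
      show σ⁻¹ (σ a) = a
      exact σ.symm_apply_apply a
    rw [this]
    exact ha)
  rwa [hσ] at h

end Aux

section Global

/-- the packaged number field statement, with an arbitrary `ℚ`-algebra instance -/
theorem s29d_exists_frob_pow {K : Type*} [Field K] [NumberField K] [alg : Algebra ℚ K]
    [IsGalois ℚ K] (S : Finset ℕ) (τ : K ≃ₐ[ℚ] K) :
    ∃ (v : HeightOneSpectrum (𝓞 K)) (ℓ : ℕ), ℓ.Prime ∧ ℓ ∉ S ∧ (ℓ : 𝓞 K) ∈ v.asIdeal ∧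
      ∀ ρ : K ≃ₐ[ℚ] K, ρ • v.asIdeal = v.asIdeal → (∀ x : 𝓞 K, ρ • x - x ^ ℓ ∈ v.asIdeal) →
        ∃ j : ℕ, ρ ^ j = τ := by
  obtain rfl : alg = DivisionRing.toRatAlgebra := Subsingleton.elim _ _
  have hW := s29d_infinite_fixed τ
  obtain ⟨v, ⟨hgood, hfix⟩, hvS⟩ := (hW.sdiff (s29d_over_finite (L := K) S)).nonempty
  obtain ⟨ℓ, hℓ, hℓv⟩ := s29d_exists_prime_mem v
  have hℓS : ℓ ∉ S := fun h ↦ hvS ⟨ℓ, h, hℓ.ne_zero, hℓv⟩
  exact ⟨v, ℓ, hℓ, hℓS, hℓv, fun ρ hρ hfrob ↦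
    s29d_local_step v hgood ℓ hℓ hℓv τ ρ hfix hρ hfrob⟩

/-- **[FD]** the Frobenius density theorem in existence form -/
theorem s29d_frobDensity : s29k_FrobDensity := by
  intro L hfd hstable S g
  have hgal := Frobenius.isGalois_QBar
  have hnormal := (IntermediateField.normal_iff_forall_map_le' (K := L)).mpr (by
    rintro σ x ⟨y, hy, rfl⟩
    exact hstable σ y hy)
  have : NumberField L :=
    { to_charZero := inferInstance
      to_finiteDimensional := by convert hfd }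
  have hG := @IsGalois.mk ℚ _ L _ _ (by infer_instance) hnormal
  set gL := AlgEquiv.restrictNormalHom L g with hgL
  obtain ⟨v, ℓ, hℓ, hℓS, hℓv, hstep⟩ := s29d_exists_frob_pow S gL
  -- the place above `v`
  let ι : 𝓞 L →+* AlgebraicClosure ℚ :=
    (algebraMap L (AlgebraicClosure ℚ)).comp (algebraMap (𝓞 L) L)
  have hι : Function.Injective ι :=
    (algebraMap L (AlgebraicClosure ℚ)).injective.comp RingOfIntegers.coe_injective
  have : v.asIdeal.IsMaximal := v.isMaximal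
  obtain ⟨A, hA1, hA2⟩ := s29d_exists_place ι hι v.asIdeal
  have hAℓ : A.LiesOverPrime ℓ := by
    have := (hA2 _).mp hℓv
    change (ℓ : AlgebraicClosure ℚ) ∈ A.nonunits
    simpa [ι] using this
  obtain ⟨σ, hσ⟩ := Frobenius.exists_isFrobeniusAt_of_liesOverPrime A ℓ hℓ hAℓ
  set σL := AlgEquiv.restrictNormalHom L σ with hσL
  have hσA : σ • A = A := hσ.mem_decompositionSubgroup
  have hcomm : ∀ (ρ : s29k_G) (x : 𝓞 L), ι (AlgEquiv.restrictNormalHom L ρ • x) = ρ (ι x) := by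
    intro ρ x
    exact AlgEquiv.restrictNormalHom_apply L ρ (x : L)
  have hstab : ∀ ρ : s29k_G, ρ • A = A → ∀ x ∈ v.asIdeal,
      AlgEquiv.restrictNormalHom L ρ • x ∈ v.asIdeal := by
    intro ρ hρ x hx
    rw [hA2, hcomm]
    exact s29d_map_mem_nonunits A ρ hρ ((hA2 x).mp hx)
  have hσv : σL • v.asIdeal = v.asIdeal := by
    have hinv : σ⁻¹ • A = A := by rw [inv_smul_eq_iff, hσA]
    ext x
    rw [Ideal.mem_pointwise_smul_iff_inv_smul_mem]
    constructor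
    · intro hx
      have := hstab σ hσA _ hx
      rwa [smul_inv_smul] at this
    · intro hx
      have := hstab σ⁻¹ hinv x hx
      rwa [map_inv] at this
  have hfrob : ∀ x : 𝓞 L, σL • x - x ^ ℓ ∈ v.asIdeal := by
    intro x
    rw [hA2, map_sub, map_pow, hcomm]
    exact s29d_frob_sub_mem A σ ℓ hσ (ι x) (hA1 x)
  obtain ⟨j, hj⟩ := hstep σL hσv hfrob
  refine ⟨ℓ, A, σ, j, hℓ, hℓS, hAℓ, hσ, fun x hx ↦ ?_⟩
  have h1 : AlgEquiv.restrictNormalHom L (σ ^ j) = gL := by rw [map_pow, ← hj]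
  have h2 := AlgEquiv.restrictNormalHom_apply L (σ ^ j) ⟨x, hx⟩
  have h3 := AlgEquiv.restrictNormalHom_apply L g ⟨x, hx⟩
  exact h2.symm.trans ((congrArg Subtype.val (DFunLike.congr_fun h1 ⟨x, hx⟩)).trans h3)

end Global

end Fermat.Agent.Lib.S29
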