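/-
Plan K (S29 + S42): assembly of [EigenSupport] (helper8; pure linear algebra).
SUPERSEDED by lead's `EigenCore.lean` (`s29a_eigenSupport`), which landed a few minutes earlier; kept
only as an independent copy (prefix `s29ae_`, no name in common with `EigenAsm`/`EigenCore`).
Do not import this file in the S29/S42 closures.

* `s29ae_transfer`     : abstract transfer of a simultaneous eigenvector along a section of an
  injective equivariant map (`κ : J → X` injective, image ⊇ `ι H`; eigenvector in `k ⊗ H` ⇒ eigenvector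
  in `k ⊗ J`; uses flatness of `k` over the field `R`).
* `s29ae_DSOut`        : proposed output contract of [DS]  (nonzero eigenvector in `k ⊗ H_p`).
* `s29ae_KappaOut`     : proposed output contract of [KAP]+[EQ]+[DC]+[LAM]  (`κ₀` injective,
  `κ₀ ∘ T_ℓ = T_ℓ^H ∘ κ₀` for `ℓ ∤ Np`, image ⊇ `H_p`).
* `s29ae_eigenSupport` : `s29ae_DSOut → s29ae_KappaOut → s29k_EigenSupport`.
-/
import Mathlib
import Fermat.Agent.Lib.S29.KIface
import Fermat.Agent.Lib.S29.HStab

set_option autoImplicit false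

open scoped TensorProduct
open CongruenceSubgroup

namespace Fermat.Agent.Lib.S29

section Abstract

variable {R : Type*} [Field R] {H J X : Type*} [AddCommGroup H] [Module R H]
  [AddCommGroup J] [Module R J] [AddCommGroup X] [Module R X]

/-- **abstract transfer of eigenvectors.**  `ι : H → X` injective, `κ : J → X` injective with image
containing `ι H`; operators `TH` on `H`, `TJ` on `J`, `TX` on `X` (families indexed by `I`),
compatible with `ι`, `κ`.  Then an eigenvector in `k ⊗ H` gives an eigenvector in `k ⊗ J` with the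
same eigenvalues. -/
theorem s29ae_transfer {I : Type*} (k : Type*) [Field k] [Algebra R k]
    (ι : H →ₗ[R] X) (hι : Function.Injective ι) (κ : J →ₗ[R] X) (hκ : Function.Injective κ)
    (hsurj : ∀ χ : H, ∃ x : J, κ x = ι χ)
    (TH : I → Module.End R H) (TJ : I → Module.End R J) (TX : I → X → X)
    (hTH : ∀ i χ, ι (TH i χ) = TX i (ι χ)) (hTJ : ∀ i x, κ (TJ i x) = TX i (κ x))
    (c : I → k) (v : k ⊗[R] H) (hv : v ≠ 0) (hev : ∀ i, (TH i).baseChange k v = c i • v) :
    ∃ w : k ⊗[R] J, w ≠ 0 ∧ ∀ i, (TJ i).baseChange k w = c i • w := by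
  classical
  -- the section `Λ : H → J`
  choose s hs using hsurj
  let Λ : H →ₗ[R] J :=
    { toFun := s
      map_add' := fun a b => hκ (by rw [map_add, hs, hs, hs, map_add])
      map_smul' := fun r a => hκ (by rw [map_smul, hs, hs, RingHom.id_apply, map_smul]) }
  have hΛ : ∀ χ, κ (Λ χ) = ι χ := hs
  have hΛinj : Function.Injective Λ := by
    intro a b hab
    apply hι
    rw [← hΛ a, ← hΛ b, hab]
  have hcomm : ∀ i, (TJ i).comp Λ = Λ.comp (TH i) := by
    intro i
    apply LinearMap.ext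
    intro χ
    apply hκ
    show κ (TJ i (Λ χ)) = κ (Λ (TH i χ))
    rw [hTJ, hΛ, hΛ, hTH]
  have hinjk : Function.Injective (Λ.baseChange k) := by
    have := Module.Flat.lTensor_preserves_injective_linearMap (M := k) Λ hΛinj
    intro a b hab
    apply this
    exact hab
  refine ⟨Λ.baseChange k v, fun h0 => hv (hinjk (by rw [h0, map_zero])), fun i => ?_⟩
  have h1 : (TJ i).baseChange k (Λ.baseChange k v) = ((TJ i).comp Λ).baseChange k v := by
    rw [LinearMap.baseChange_comp]; rfl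
  rw [h1, hcomm i, LinearMap.baseChange_comp, LinearMap.comp_apply, hev i, map_smul]

end Abstract

/-- **[DS] output contract**: the mod-`𝔓` eigen-system of `g` occurs in `k ⊗ H_p`. -/
def s29ae_DSOut : Prop :=
  ∀ (N : ℕ) [NeZero N] (g : CuspForm (CongruenceSubgroup.Gamma0 N) 2), g.IsNormalizedEigenform →
  ∀ (p : ℕ) [Fact p.Prime] (k : Type) [Field k] [Algebra (ZMod p) k]
    (φ : integralClosure ℤ ℂ →+* k),
    ∃ v : k ⊗[ZMod p] s29h_Hp N p, v ≠ 0 ∧
      ∀ ℓ : Nat.Primes, ¬ (ℓ : ℕ) ∣ N * p →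
        ∃ a : integralClosure ℤ ℂ, (a : ℂ) = ModularFormClass.qCoeff g ℓ ∧
          (s29h_Tl N p ℓ).baseChange k v = φ a • v

/-- **[KAP]+[EQ]+[DC]+[LAM] output contract**: an injective, Hecke-equivariant (away from `Np`)
Kummer map `κ₀ : J₀(N)(ℚ̄)[p] → Hom(Γ₀(N), 𝔽_p)` whose image contains `H_p`. -/
def s29ae_KappaOut : Prop :=
  ∀ (N : ℕ) [NeZero N] (p : ℕ) [Fact p.Prime],
    ∃ κ₀ : s29k_Jp N p →+ (Additive (Gamma0 N) →+ ZMod p), Function.Injective κ₀ ∧
      (∀ ℓ : Nat.Primes, ¬ (ℓ : ℕ) ∣ N * p → ∀ x : s29k_Jp N p,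
        κ₀ (s29k_Tl N p ℓ x) =
          (haveI : Fact (ℓ : ℕ).Prime := ⟨ℓ.2⟩
           s29h_heckeHom N (ℓ : ℕ) (ZMod p) (κ₀ x))) ∧
      (∀ χ ∈ s29h_Hp N p, ∃ x : s29k_Jp N p, κ₀ x = χ)

/-- **assembly of [EigenSupport]**. -/
theorem s29ae_eigenSupport (hDS : s29ae_DSOut) (hK : s29ae_KappaOut) : s29k_EigenSupport := by
  intro N _ g hg p _ k _ _ φ
  obtain ⟨v, hv, hev⟩ := hDS N g hg p k φ
  obtain ⟨κ₀, hinj, heq, hsurj⟩ := hK N p
  choose a ha hav using hev
  let I := {ℓ : Nat.Primes // ¬ (ℓ : ℕ) ∣ N * p}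
  have hsurj' : ∀ χ : s29h_Hp N p, ∃ x : s29k_Jp N p,
      AddMonoidHom.toZModLinearMap p κ₀ x = (s29h_Hp N p).subtype χ := fun χ => hsurj χ.1 χ.2
  obtain ⟨w, hw, hew⟩ := s29ae_transfer (R := ZMod p) (I := I) k
    (s29h_Hp N p).subtype (Submodule.subtype_injective _)
    (AddMonoidHom.toZModLinearMap p κ₀) hinj hsurj'
    (fun i => s29h_Tl N p i.1) (fun i => s29k_Tl N p i.1)
    (fun i χ => (haveI : Fact (i.1 : ℕ).Prime := ⟨i.1.2⟩
           s29h_heckeHom N (i.1 : ℕ) (ZMod p) χ))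
    (fun i χ => rfl) (fun i x => heq i.1 i.2 x)
    (fun i => φ (a i.1 i.2)) v hv (fun i => hav i.1 i.2)
  exact ⟨w, hw, fun ℓ hℓ => ⟨a ℓ hℓ, ha ℓ hℓ, hew ⟨ℓ, hℓ⟩⟩⟩

end Fermat.Agent.Lib.S29
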