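/-
Plan K (S29/S42), package [BR]: the INTERFACE file (architect: helper4).  One-stop re-export of the
[BR] results about the function field `FK = K(j(q^d) : d ∣ N) ⊆ K((q))` of `X₀(N)` over a generic
constant field `K` of characteristic zero with an embedding `ι : K →+* ℂ` (use `K := ℂ`,
`ι := RingHom.id ℂ`, `Function.surjective_id`), its bridge `φ = s29bp_phi ι N : FK →+* ffm_E N` to
the analytic model, and its places.

* bridge (`BPPhi.lean`, helper4): `s29bp_FK`, `s29bp_phi`, `s29bp_phi_const`, `s29bp_phi_smul`,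
  `s29bp_phi_j`, `s29bp_phi_jd`, `s29bp_exists_frac`;
* degree (`BPDeg.lean`, helper4): `s29bp_degree`, `s29bp_ffGen`, `s29bp_dist`,
  `s29bp_sigma_injective`, `s29bp_transcendental_jK`, `s29bp_phi_linearIndependent`;
* points and cusps are places (`BPPlace.lean`, helper4): `s29bp_exists_place_at`,
  `s29bp_exists_place_cusp`, `s29bp_dvd_ord_at`, `s29bp_dvd_order_frac`,
  `s29bp_const_of_ord_eq_zero`;
* every place is a point or a cusp, with exact ramification (`BXMain.lean`, helper9):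
  `s29bx_places`, here with the degree hypothesis discharged: `s29bi_places`;
* HERE: `s29bi_degHyp`, `s29bi_places`, and the local-to-global principle for divisibility of
  divisors `s29bi_ord_eq_mul_of_local` (the consumer of lead's local lemmas `LamOrd.lean`):
  if all analytic orders of `φ h` are divisible by `p`, with the extra factor `2, 3, N / k` at the
  elliptic points / cusps stabilised by `Γ₀(N)`-conjugates, then `div h = p • D`.
-/
import Fermat.Agent.Lib.S29.BXMain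
import Fermat.Agent.Lib.S29.BPDeg
import Fermat.Agent.Lib.S29.BPPlace

set_option autoImplicit false
set_option linter.unusedSectionVars false

namespace Fermat.Agent.Lib.S29

open UpperHalfPlane hiding I
open AlgebraicCurve IntermediateField Matrix.SpecialLinearGroup CongruenceSubgroup ModularGroup
open Fermat.Agent.Lib.FF
open Fermat.Agent.Lib.RR (Q E4 E6)
open scoped MatrixGroups
open WithZero

noncomputable section

variable {K : Type*} [Field K] [Algebra ℚ K] (ι : K →+* ℂ) (N : ℕ) [NeZero N]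

/-- The degree package of `BXSqueeze.lean`, from `BPDeg.lean`. -/
theorem s29bi_degHyp : s29bx_DegHyp ι N :=
  ⟨s29bp_ffGen ι N, s29bp_finrank ι N, s29bp_sigma_injective ι N⟩

variable [IsAlgClosed K]

/-- **[BR3], classification of the places of `FK` with exact ramification** (helper9's
`s29bx_places` with the degree hypotheses discharged). -/
theorem s29bi_places (v : Place K ↥(s29bp_FK K N)) :
    (∃ (τ : ℍ) (q : Q N), E4 τ ≠ 0 ∧ E6 τ ≠ 0 ∧ ∀ f : ↥(s29bp_FK K N), f ≠ 0 →
        ffi_ord (ffm_ordAt N τ) (q.out • s29bp_phi ι N f) = v.ord f) ∨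
    (∃ (q : Q N) (m k : ℕ), m * k = 2 ∧ (S : SL(2, ℤ)) ^ k • q = q ∧
      ∀ f : ↥(s29bp_FK K N), f ≠ 0 →
        ffi_ord (ffm_ordAt N UpperHalfPlane.I) (q.out • s29bp_phi ι N f) = (m : ℤ) * v.ord f) ∨
    (∃ (q : Q N) (m k : ℕ), m * k = 3 ∧ (S * T : SL(2, ℤ)) ^ k • q = q ∧
      ∀ f : ↥(s29bp_FK K N), f ≠ 0 →
        ffi_ord (ffm_ordAt N RR.Ramanujan.rho) (q.out • s29bp_phi ι N f) = (m : ℤ) * v.ord f) ∨
    (∃ (q : Q N) (m k : ℕ), m * k = N ∧ (T : SL(2, ℤ)) ^ k • q = q ∧
      ∀ f : ↥(s29bp_FK K N), f ≠ 0 →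
        ffi_ord (ffm_ordInf N) (q.out • s29bp_phi ι N f) = (m : ℤ) * v.ord f) :=
  s29bx_places ι (s29bi_degHyp ι N) v

/-- **Local-to-global principle** (consumer of the local lemmas of `LamOrd.lean`): let `h ≠ 0` in
`FK`.  If for every twist `σ` the order of `σ • φ h` at every point of `ℍ` is a multiple of `p`,
at `i` (resp. `ρ`) it is a multiple of `2 p` (resp. `3 p`) whenever `σ⁻¹ S σ` (resp. `σ⁻¹ S T σ`)
lies in `Γ₀(N)`, and at `∞` it is a multiple of `(N / k) p` whenever `k ∣ N` and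
`σ⁻¹ T ^ k σ ∈ Γ₀(N)`, then `v.ord h` is a multiple of `p` at EVERY place `v` of `FK`. -/
theorem s29bi_ord_eq_mul_of_local (p : ℤ) {h : ↥(s29bp_FK K N)} (hh : h ≠ 0)
    (hpt : ∀ (σ : SL(2, ℤ)) (τ : ℍ), ∃ c : ℤ,
      ffi_ord (ffm_ordAt N τ) (σ • s29bp_phi ι N h) = p * c)
    (hI : ∀ σ : SL(2, ℤ), σ⁻¹ * S * σ ∈ Gamma0 N → ∃ c : ℤ,
      ffi_ord (ffm_ordAt N UpperHalfPlane.I) (σ • s29bp_phi ι N h) = p * (2 * c))
    (hrho : ∀ σ : SL(2, ℤ), σ⁻¹ * (S * T) * σ ∈ Gamma0 N → ∃ c : ℤ,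
      ffi_ord (ffm_ordAt N RR.Ramanujan.rho) (σ • s29bp_phi ι N h) = p * (3 * c))
    (hinf : ∀ (σ : SL(2, ℤ)) (k : ℕ), k ∣ N → σ⁻¹ * T ^ k * σ ∈ Gamma0 N → ∃ c : ℤ,
      ffi_ord (ffm_ordInf N) (σ • s29bp_phi ι N h) = p * (((N / k : ℕ) : ℤ) * c))
    (v : Place K ↥(s29bp_FK K N)) : ∃ c : ℤ, v.ord h = p * c := by
  rcases s29bi_places ι N v with ⟨τ, q, -, -, hq⟩ | ⟨q, m, k, hmk, hgk, hq⟩ |
    ⟨q, m, k, hmk, hgk, hq⟩ | ⟨q, m, k, hmk, hgk, hq⟩
  · obtain ⟨c, hc⟩ := hpt q.out τ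
    exact ⟨c, by rw [← hq h hh, hc]⟩
  · -- the point `i`
    have hm : (m = 1 ∧ k = 2) ∨ (m = 2 ∧ k = 1) := by
      have hm2 : m ∣ 2 := ⟨k, hmk.symm⟩
      have hmle : m ≤ 2 := Nat.le_of_dvd (by norm_num) hm2
      interval_cases m
      · omega
      · left; omega
      · right; omega
    rcases hm with ⟨rfl, rfl⟩ | ⟨rfl, rfl⟩
    · obtain ⟨c, hc⟩ := hpt q.out UpperHalfPlane.I
      refine ⟨c, ?_⟩
      have := hq h hh
      rw [hc] at this
      push_cast at this
      linarith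
    · rw [pow_one] at hgk
      have hmem := s29bx_mem_Gamma0_of_smul_eq N hgk
      obtain ⟨c, hc⟩ := hI q.out hmem
      refine ⟨c, ?_⟩
      have := hq h hh
      rw [hc] at this
      push_cast at this
      linarith
  · -- the point `ρ`
    have hm : (m = 1 ∧ k = 3) ∨ (m = 3 ∧ k = 1) := by
      have hm3 : m ∣ 3 := ⟨k, hmk.symm⟩
      have hmle : m ≤ 3 := Nat.le_of_dvd (by norm_num) hm3
      interval_cases m
      · omega
      · left; omega
      · omega
      · right; omega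
    rcases hm with ⟨rfl, rfl⟩ | ⟨rfl, rfl⟩
    · obtain ⟨c, hc⟩ := hpt q.out RR.Ramanujan.rho
      refine ⟨c, ?_⟩
      have := hq h hh
      rw [hc] at this
      push_cast at this
      linarith
    · rw [pow_one] at hgk
      have hmem := s29bx_mem_Gamma0_of_smul_eq N hgk
      obtain ⟨c, hc⟩ := hrho q.out hmem
      refine ⟨c, ?_⟩
      have := hq h hh
      rw [hc] at this
      push_cast at this
      linarith
  · -- the cusps
    have hN : N ≠ 0 := NeZero.ne N
    have hk0 : k ≠ 0 := by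
      rintro rfl
      rw [mul_zero] at hmk
      exact hN hmk.symm
    have hm0 : m ≠ 0 := by
      rintro rfl
      rw [zero_mul] at hmk
      exact hN hmk.symm
    have hkN : k ∣ N := ⟨m, by rw [← hmk, mul_comm]⟩
    have hNk : N / k = m := by
      rw [← hmk]
      exact Nat.mul_div_cancel m (Nat.pos_of_ne_zero hk0)
    have hmem := s29bx_mem_Gamma0_of_smul_eq N hgk
    obtain ⟨c, hc⟩ := hinf q.out k hkN hmem
    refine ⟨c, ?_⟩
    have := hq h hh
    rw [hc, hNk] at this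
    have hmZ : (m : ℤ) ≠ 0 := by exact_mod_cast hm0
    have h2 : (m : ℤ) * v.ord h = (m : ℤ) * (p * c) := by rw [← this]; ring
    exact mul_left_cancel₀ hmZ h2

end

end Fermat.Agent.Lib.S29
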