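/-
Plan K (S29 + S42), package [DC], abstract DESCENT ASSEMBLY (helper2).

Setting: function fields `F0 / K0`, `F1 / K1` (`K1` algebraically closed of characteristic zero, `F1`
finite over `K1(x1)`), a map `ext : Place K0 F0 → Place K1 F1` (extension of places), an additive
map `c : Pic0 K0 F0 →+ Pic0 K1 F1` which on classes is the push-forward of divisors along `ext`, and
a group `G` of semilinear automorphisms of `F1 / K1` fixing every `ext P0`, such that every place of
`F1` with FINITE `G`-orbit is of the form `ext P0`.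

* `s29ca_descent`: every class `y ∈ Pic0 K1 F1` with finite `G`-orbit lies in the range of `c`
  (canonical effective representative of `y` relative to `ext P0∞`, helper1's `s29cc_canonical_support`;
  its support consists of places with finite orbit).
* `s29ca_surj_torsion`: if moreover `c` is injective and `Pic0(F1)[p]` is finite, then `c` maps
  `Pic0(F0)[p]` ONTO `Pic0(F1)[p]`.
-/
import Fermat.Agent.Lib.S29.DCCanon

set_option autoImplicit false
set_option linter.unusedSectionVars false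

noncomputable section

open AlgebraicCurve Fermat.Agent.Lib.FF Fermat.Agent.Lib.S37

namespace Fermat.Agent.Lib.S29

variable {K0 K1 F0 F1 : Type*} [Field K0] [Field K1] [Field F0] [Field F1]
  [Algebra K0 F0] [Algebra K1 F1]

section Orbit

variable (G : Subgroup (SemilinearAut K1 F1))

/-- If `y` has finite `G`-orbit and a finite set `S` of places is stable under the stabiliser of
`y` in `G`, then every element of `S` has finite `G`-orbit. -/
theorem s29ca_orbit_finite (y : Pic0 K1 F1) (hy : {z : Pic0 K1 F1 | ∃ g ∈ G, g • y = z}.Finite)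
    (S : Finset (Place K1 F1))
    (hS : ∀ g ∈ G, g • y = y → ∀ v ∈ S, g • v ∈ S) (v : Place K1 F1) (hv : v ∈ S) :
    {Q : Place K1 F1 | ∃ g ∈ G, g • v = Q}.Finite := by
  classical
  -- representatives of the orbit of `y`
  have hτ : ∀ z : Pic0 K1 F1, ∃ τ : SemilinearAut K1 F1, τ ∈ G ∧
      ((∃ g ∈ G, g • y = z) → τ • y = z) := by
    intro z
    by_cases hz : ∃ g ∈ G, g • y = z
    · obtain ⟨g, hg, hgz⟩ := hz
      exact ⟨g, hg, fun _ => hgz⟩
    · exact ⟨1, G.one_mem, fun h => absurd h hz⟩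
  choose τ hτG hτy using hτ
  have hfin : (⋃ z ∈ {z : Pic0 K1 F1 | ∃ g ∈ G, g • y = z},
      (fun w : Place K1 F1 => τ z • w) '' (S : Set (Place K1 F1))).Finite :=
    hy.biUnion (fun z _ => (S.finite_toSet).image _)
  refine hfin.subset ?_
  rintro Q ⟨g, hg, rfl⟩
  have hz : ∃ g' ∈ G, g' • y = g • y := ⟨g, hg, rfl⟩
  refine Set.mem_biUnion hz ?_
  set t := τ (g • y) with ht
  have hty : t • y = g • y := hτy (g • y) hz
  have htG : t ∈ G := hτG (g • y)
  have hmem : t⁻¹ * g ∈ G := G.mul_mem (G.inv_mem htG) hg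
  have hfix : (t⁻¹ * g) • y = y := by
    rw [mul_smul, ← hty, inv_smul_smul]
  refine ⟨(t⁻¹ * g) • v, hS _ hmem hfix v hv, ?_⟩
  show t • ((t⁻¹ * g) • v) = g • v
  rw [mul_smul, smul_inv_smul]

end Orbit

section Descent

variable (x1 : F1) [FFGen K1 x1] [CharZero K1] [IsAlgClosed K1]
variable (ext : Place K0 F0 → Place K1 F1) (c : Pic0 K0 F0 →+ Pic0 K1 F1)
  (G : Subgroup (SemilinearAut K1 F1))

include x1 in
/-- **Descent of classes with finite orbit.** -/
theorem s29ca_descent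
    (h1 : ∀ g ∈ G, ∀ P0 : Place K0 F0, g • ext P0 = ext P0)
    (h2 : ∀ P : Place K1 F1, {Q : Place K1 F1 | ∃ g ∈ G, g • P = Q}.Finite →
      ∃ P0 : Place K0 F0, P = ext P0)
    (h3 : ∀ D0 : Divisor K0 F0,
      Divisor.degree (Finsupp.mapDomain ext D0 : Divisor K1 F1) = Divisor.degree D0)
    (h4 : ∀ (D0 : Divisor K0 F0) (h0 : D0 ∈ Divisor.degZero (K := K0) (F := F0))
      (h0' : (Finsupp.mapDomain ext D0 : Divisor K1 F1) ∈ Divisor.degZero (K := K1) (F := F1)),
      c (Pic0.mk ⟨D0, h0⟩) = Pic0.mk ⟨Finsupp.mapDomain ext D0, h0'⟩)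
    (P0inf : Place K0 F0) (y : Pic0 K1 F1)
    (hy : {z : Pic0 K1 F1 | ∃ g ∈ G, g • y = z}.Finite) :
    ∃ x : Pic0 K0 F0, c x = y := by
  classical
  obtain ⟨m, E, -, -, ⟨hmem, hmk⟩, hsupp⟩ := s29cc_canonical_support x1 (ext P0inf) y
  -- every place in the support of `E` comes from `F0`
  have hrat : ∀ v : Place K1 F1, ∃ P0 : Place K0 F0, v ∈ E.support → v = ext P0 := by
    intro v
    by_cases hv : v ∈ E.support
    · obtain ⟨P0, hP0⟩ := h2 v (s29ca_orbit_finite G y hy E.support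
        (fun g hg hgy w hw => hsupp g (h1 g hg P0inf) hgy w hw) v hv)
      exact ⟨P0, fun _ => hP0⟩
    · exact ⟨P0inf, fun h => absurd h hv⟩
  choose f hf using hrat
  set E0 : Divisor K0 F0 := Finsupp.mapDomain f E with hE0
  have hE : (Finsupp.mapDomain ext E0 : Divisor K1 F1) = E := by
    rw [hE0, ← Finsupp.mapDomain_comp]
    conv_rhs => rw [← Finsupp.mapDomain_id (v := E)]
    exact Finsupp.mapDomain_congr (fun v hv => (hf v hv).symm)
  set D0 : Divisor K0 F0 := E0 - m • Finsupp.single P0inf (1 : ℤ) with hD0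
  have hD : (Finsupp.mapDomain ext D0 : Divisor K1 F1)
      = E - m • Finsupp.single (ext P0inf) (1 : ℤ) := by
    have := map_sub (Finsupp.mapDomain.addMonoidHom (M := ℤ) ext) E0
      (m • Finsupp.single P0inf (1 : ℤ))
    simp only [Finsupp.mapDomain.addMonoidHom_apply] at this
    rw [hD0, this, hE]
    congr 1
    have h5 := map_nsmul (Finsupp.mapDomain.addMonoidHom (M := ℤ) ext) m
      (Finsupp.single P0inf (1 : ℤ))
    simp only [Finsupp.mapDomain.addMonoidHom_apply] at h5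
    rw [h5, Finsupp.mapDomain_single]
  have hdeg0 : D0 ∈ Divisor.degZero (K := K0) (F := F0) := by
    rw [Divisor.mem_degZero, ← h3 D0, hD]
    exact Divisor.mem_degZero.mp hmem
  have hdeg1 : (Finsupp.mapDomain ext D0 : Divisor K1 F1) ∈ Divisor.degZero (K := K1) (F := F1) := by
    rw [hD]; exact hmem
  refine ⟨Pic0.mk ⟨D0, hdeg0⟩, ?_⟩
  rw [h4 D0 hdeg0 hdeg1, ← hmk]
  congr 1
  exact Subtype.ext hD

include x1 in
/-- **Surjectivity on `p`-torsion.** -/
theorem s29ca_surj_torsion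
    (h1 : ∀ g ∈ G, ∀ P0 : Place K0 F0, g • ext P0 = ext P0)
    (h2 : ∀ P : Place K1 F1, {Q : Place K1 F1 | ∃ g ∈ G, g • P = Q}.Finite →
      ∃ P0 : Place K0 F0, P = ext P0)
    (h3 : ∀ D0 : Divisor K0 F0,
      Divisor.degree (Finsupp.mapDomain ext D0 : Divisor K1 F1) = Divisor.degree D0)
    (h4 : ∀ (D0 : Divisor K0 F0) (h0 : D0 ∈ Divisor.degZero (K := K0) (F := F0))
      (h0' : (Finsupp.mapDomain ext D0 : Divisor K1 F1) ∈ Divisor.degZero (K := K1) (F := F1)),
      c (Pic0.mk ⟨D0, h0⟩) = Pic0.mk ⟨Finsupp.mapDomain ext D0, h0'⟩)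
    (P0inf : Place K0 F0) (hinj : Function.Injective c) (p : ℕ)
    (hfin : Finite (Pic0.torsion K1 F1 p)) (y : Pic0 K1 F1) (hy : y ∈ Pic0.torsion K1 F1 p) :
    ∃ x : Pic0 K0 F0, x ∈ Pic0.torsion K0 F0 p ∧ c x = y := by
  have horb : {z : Pic0 K1 F1 | ∃ g ∈ G, g • y = z}.Finite := by
    have hT : ((Pic0.torsion K1 F1 p : AddSubgroup (Pic0 K1 F1)) : Set (Pic0 K1 F1)).Finite :=
      Set.toFinite _
    refine hT.subset ?_
    rintro z ⟨g, -, rfl⟩
    exact SemilinearAut.smul_mem_torsion g hy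
  obtain ⟨x, hx⟩ := s29ca_descent x1 ext c G h1 h2 h3 h4 P0inf y horb
  refine ⟨x, ?_, hx⟩
  rw [Pic0.mem_torsion]
  apply hinj
  rw [map_zsmul, hx, map_zero]
  exact Pic0.mem_torsion.mp hy

end Descent

end Fermat.Agent.Lib.S29
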