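/-
Plan K (S29 + S42), package [DC], piece [DCCoeff] (helper8, for helper7's descent), on top of
`DCField.lean`.

* `s29cf_mem_range_of_finite_orbit_rat` : the `≃ₐ[ℚ]` form of `s29cf_mem_range_of_finite_orbit`
  (the Prelude's `arithmeticGalois` is a representation of `L ≃ₐ[ℚ] L`).
* `s29cf_exists_coeffMap_eq_of_finite_orbit` : a Laurent series over `L` whose orbit under the
  coefficientwise action of `Aut(L/ι K)` is finite has all its coefficients in `ι K`, i.e. it is
  `coeffMap ι y` for some Laurent series `y` over `K`.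
* `s29cf_exists_coeffMap_eq_of_fixed` : the same for a fixed Laurent series.
-/
import Mathlib
import Fermat.Prelude.Def_ModularCurve_LaurentCoeff
import Fermat.Agent.Lib.S29.DCField

set_option autoImplicit false

namespace Fermat.Agent.Lib.S29

open ModularCurve

variable {K L : Type*} [Field K] [Field L]

/-- a ring automorphism of a `ℚ`-algebra field, as a `ℚ`-algebra automorphism. -/
def s29cf_toRatAlgEquiv [Algebra ℚ L] (σ : L ≃+* L) : L ≃ₐ[ℚ] L :=
  AlgEquiv.ofRingEquiv (f := σ) (fun q => by simp)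

@[simp]
theorem s29cf_toRatAlgEquiv_apply [Algebra ℚ L] (σ : L ≃+* L) (x : L) :
    s29cf_toRatAlgEquiv σ x = σ x := rfl

/-- **[DCField]**, `≃ₐ[ℚ]` form. -/
theorem s29cf_mem_range_of_finite_orbit_rat [Algebra ℚ L] [IsAlgClosed K] [IsAlgClosed L]
    (ι : K →+* L) (x : L)
    (h : {y : L | ∃ σ : L ≃ₐ[ℚ] L, (∀ a : K, σ (ι a) = ι a) ∧ σ x = y}.Finite) :
    x ∈ Set.range ι := by
  apply s29cf_mem_range_of_finite_orbit ι x
  apply h.subset
  rintro y ⟨σ, hσ, rfl⟩
  exact ⟨s29cf_toRatAlgEquiv σ, hσ, rfl⟩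

/-- a Laurent series all of whose coefficients lie in `ι K` comes from `K`. -/
theorem s29cf_exists_coeffMap_eq (ι : K →+* L) (x : LaurentSeries L)
    (h : ∀ n : ℤ, x.coeff n ∈ Set.range ι) : ∃ y : LaurentSeries K, coeffMap ι y = x := by
  classical
  choose c hc using h
  let f : ℤ → K := fun n => if x.coeff n = 0 then 0 else c n
  have hsupp : Function.support f ⊆ x.support := by
    intro n hn
    rw [Function.mem_support] at hn
    rw [HahnSeries.mem_support]
    intro h0
    apply hn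
    simp [f, h0]
  refine ⟨⟨f, x.isPWO_support.mono hsupp⟩, ?_⟩
  ext n
  rw [coeffMap_coeff]
  show ι (f n) = x.coeff n
  by_cases h0 : x.coeff n = 0
  · simp [f, h0]
  · simp [f, h0, hc n]

/-- **coefficientwise descent**: finite orbit under the coefficientwise action of `Aut(L/ι K)`
implies that the Laurent series is defined over `K`. -/
theorem s29cf_exists_coeffMap_eq_of_finite_orbit [Algebra ℚ L] [IsAlgClosed K] [IsAlgClosed L]
    (ι : K →+* L) (x : LaurentSeries L)
    (h : {z : LaurentSeries L | ∃ σ : L ≃ₐ[ℚ] L, (∀ a : K, σ (ι a) = ι a) ∧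
      coeffMap (σ : L →+* L) x = z}.Finite) :
    ∃ y : LaurentSeries K, coeffMap ι y = x := by
  apply s29cf_exists_coeffMap_eq ι x
  intro n
  apply s29cf_mem_range_of_finite_orbit_rat ι (x.coeff n)
  apply (h.image (fun z : LaurentSeries L => z.coeff n)).subset
  rintro y ⟨σ, hσ, rfl⟩
  exact ⟨coeffMap (σ : L →+* L) x, ⟨σ, hσ, rfl⟩, rfl⟩

/-- **coefficientwise descent**, fixed form. -/
theorem s29cf_exists_coeffMap_eq_of_fixed [Algebra ℚ L] [IsAlgClosed K] [IsAlgClosed L]
    (ι : K →+* L) (x : LaurentSeries L)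
    (h : ∀ σ : L ≃ₐ[ℚ] L, (∀ a : K, σ (ι a) = ι a) → coeffMap (σ : L →+* L) x = x) :
    ∃ y : LaurentSeries K, coeffMap ι y = x := by
  apply s29cf_exists_coeffMap_eq_of_finite_orbit ι x
  apply (Set.finite_singleton x).subset
  rintro z ⟨σ, hσ, rfl⟩
  exact h σ hσ

end Fermat.Agent.Lib.S29
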