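/-
Plan K (S29 + S42), package [DC], piece [DCRetract] (helper8, for the injectivity of the base
change map `c` in helper7's descent).

**Descent of membership**: for a ring hom `φ : K₀ → K₁` of fields (of characteristic `0`), a Laurent
series `y` over `K₀` with `coeffMap φ y ∈ laurentBaseChange K₁ F₀` already lies in
`laurentBaseChange K₀ F₀`.

Proof: `coeffMap φ y = r / s` with `r, s` in the `K₁`-span of the rational series `coeffEmb K₁ '' F₀`;
apply a `K₀`-linear functional `ρ : K₁ → K₀` coefficientwise (`ρ` chosen with `ρ (s_n) ≠ 0` for some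
coefficient): this is compatible with multiplication by series coming from `K₀`, so
`y * ρ(s) = ρ(r)` with `ρ(r), ρ(s)` in the `K₀`-span of `coeffEmb K₀ '' F₀` and `ρ(s) ≠ 0`.
-/
import Mathlib
import Fermat.Prelude.Def_ModularCurve_LaurentCoeff
import Fermat.Agent.Lib.S18.QBase

set_option autoImplicit false

namespace Fermat.Agent.Lib.S29

open ModularCurve Fermat.Agent.Lib.S18

section Retract

variable {K₀ K₁ : Type*} [Field K₀] [Field K₁] [Algebra K₀ K₁]

/-- a `K₀`-linear functional on `K₁`, applied coefficientwise. -/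
noncomputable def s29cf_retr (ρ : K₁ →ₗ[K₀] K₀) (x : LaurentSeries K₁) : LaurentSeries K₀ :=
  x.map ρ

@[simp]
theorem s29cf_retr_coeff (ρ : K₁ →ₗ[K₀] K₀) (x : LaurentSeries K₁) (n : ℤ) :
    (s29cf_retr ρ x).coeff n = ρ (x.coeff n) := rfl

theorem s29cf_retr_zero (ρ : K₁ →ₗ[K₀] K₀) : s29cf_retr ρ 0 = 0 := by
  ext n; simp

theorem s29cf_retr_add (ρ : K₁ →ₗ[K₀] K₀) (x y : LaurentSeries K₁) :
    s29cf_retr ρ (x + y) = s29cf_retr ρ x + s29cf_retr ρ y := by
  ext n; simp

/-- the key compatibility: `ρ (c · φ(w)) = ρ(c) · w`. -/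
theorem s29cf_retr_C_mul_coeffMap (ρ : K₁ →ₗ[K₀] K₀) (c : K₁) (w : LaurentSeries K₀) :
    s29cf_retr ρ (HahnSeries.C c * coeffMap (algebraMap K₀ K₁) w) = HahnSeries.C (ρ c) * w := by
  rw [HahnSeries.C_mul_eq_smul, HahnSeries.C_mul_eq_smul]
  ext n
  rw [s29cf_retr_coeff, HahnSeries.coeff_smul, HahnSeries.coeff_smul, coeffMap_coeff, smul_eq_mul,
    smul_eq_mul]
  have : c * algebraMap K₀ K₁ (w.coeff n) = w.coeff n • c := by
    rw [Algebra.smul_def, mul_comm]
  rw [this, map_smul, smul_eq_mul, mul_comm]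

end Retract

section Descent

variable {K₀ K₁ : Type*} [Field K₀] [Field K₁] [Algebra ℚ K₀] [Algebra ℚ K₁] [Algebra K₀ K₁]
variable (F₀ : IntermediateField ℚ (LaurentSeries ℚ))

/-- constants, in the `algebraMap` form used by `laurentBaseChange`. -/
theorem s29cf_C_eq (K : Type*) [Field K] (c : K) :
    (HahnSeries.C c : LaurentSeries K) = algebraMap K (LaurentSeries K) c := by
  rw [algebraMap_laurentSeries_eq_single]
  rfl

/-- the multiplicative semigroup of "monomials" `c · u`, `c` a constant and `u ∈ F₀` rational. -/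
def s29cf_gens (K : Type*) [Field K] [Algebra ℚ K] : Subsemigroup (LaurentSeries K) where
  carrier := {x | ∃ c : K, ∃ u ∈ F₀, x = HahnSeries.C c * coeffEmb K u}
  mul_mem' := by
    rintro _ _ ⟨c, u, hu, rfl⟩ ⟨c', u', hu', rfl⟩
    refine ⟨c * c', u * u', mul_mem hu hu', ?_⟩
    rw [map_mul, map_mul]
    ring

/-- the subalgebra generated by the rational series consists of sums of monomials. -/
theorem s29cf_adjoin_le_closure (K : Type*) [Field K] [Algebra ℚ K] {m : LaurentSeries K}
    (hm : m ∈ Algebra.adjoin K (⇑(coeffEmb K) '' (F₀ : Set (LaurentSeries ℚ)))) :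
    m ∈ AddSubmonoid.closure ((s29cf_gens F₀ K : Subsemigroup (LaurentSeries K)) :
      Set (LaurentSeries K)) := by
  induction hm using Algebra.adjoin_induction with
  | mem x hx =>
    obtain ⟨u, hu, rfl⟩ := hx
    exact AddSubmonoid.subset_closure ⟨1, u, hu, by rw [map_one, one_mul]⟩
  | algebraMap c =>
    refine AddSubmonoid.subset_closure ⟨c, 1, one_mem _, ?_⟩
    rw [map_one, mul_one, s29cf_C_eq]
  | add x y _ _ hx hy => exact add_mem hx hy
  | mul x y _ _ hx hy => exact MulMemClass.mul_mem_add_closure hx hy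

/-- sums of monomials: behaviour under a coefficientwise functional. -/
theorem s29cf_retr_closure (ρ : K₁ →ₗ[K₀] K₀) {m : LaurentSeries K₁}
    (hm : m ∈ AddSubmonoid.closure ((s29cf_gens F₀ K₁ : Subsemigroup (LaurentSeries K₁)) :
      Set (LaurentSeries K₁))) :
    s29cf_retr ρ m ∈ laurentBaseChange K₀ F₀ ∧
      ∀ z : LaurentSeries K₀,
        s29cf_retr ρ (coeffMap (algebraMap K₀ K₁) z * m) = z * s29cf_retr ρ m := by
  induction hm using AddSubmonoid.closure_induction with
  | mem x hx =>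
    obtain ⟨c, u, hu, rfl⟩ := hx
    have hu' : coeffEmb K₁ u = coeffMap (algebraMap K₀ K₁) (coeffEmb K₀ u) :=
      (s18q_coeffMap_coeffEmb (algebraMap K₀ K₁) u).symm
    have h1 : s29cf_retr ρ (HahnSeries.C c * coeffEmb K₁ u) =
        HahnSeries.C (ρ c) * coeffEmb K₀ u := by
      rw [hu', s29cf_retr_C_mul_coeffMap]
    refine ⟨?_, fun z => ?_⟩
    · rw [h1]
      refine mul_mem ?_ (coeffEmb_mem_laurentBaseChange K₀ hu)
      rw [s29cf_C_eq]
      exact (laurentBaseChange K₀ F₀).algebraMap_mem _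
    · rw [h1, hu']
      have e1 : coeffMap (algebraMap K₀ K₁) z *
          (HahnSeries.C c * coeffMap (algebraMap K₀ K₁) (coeffEmb K₀ u)) =
          HahnSeries.C c * coeffMap (algebraMap K₀ K₁) (z * coeffEmb K₀ u) := by
        rw [map_mul]; ring
      rw [e1, s29cf_retr_C_mul_coeffMap]
      ring
  | zero =>
    refine ⟨?_, fun z => ?_⟩
    · rw [s29cf_retr_zero]; exact zero_mem _
    · rw [mul_zero, s29cf_retr_zero, mul_zero]
  | add x y _ _ hx hy =>
    refine ⟨?_, fun z => ?_⟩
    · rw [s29cf_retr_add]; exact add_mem hx.1 hy.1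
    · rw [mul_add, s29cf_retr_add, s29cf_retr_add, hx.2, hy.2, mul_add]

/-- **[DCRetract] descent of membership in `laurentBaseChange`.** -/
theorem s29cf_mem_of_coeffMap_mem (y : LaurentSeries K₀)
    (h : coeffMap (algebraMap K₀ K₁) y ∈ laurentBaseChange K₁ F₀) :
    y ∈ laurentBaseChange K₀ F₀ := by
  obtain ⟨r, hr, s, hs, hx⟩ := IntermediateField.mem_adjoin_iff_div.mp h
  have hr' := s29cf_adjoin_le_closure F₀ K₁ hr
  have hs' := s29cf_adjoin_le_closure F₀ K₁ hs
  rcases eq_or_ne s 0 with rfl | hs0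
  · rw [div_zero] at hx
    have : y = 0 := (coeffMap (algebraMap K₀ K₁)).injective (by rw [hx, map_zero])
    rw [this]
    exact zero_mem _
  · obtain ⟨n, hn⟩ : ∃ n : ℤ, s.coeff n ≠ 0 := by
      by_contra hcon
      push Not at hcon
      exact hs0 (HahnSeries.ext (funext hcon))
    obtain ⟨ρ, hρ⟩ := Module.Projective.exists_dual_ne_zero K₀ hn
    have hmul : coeffMap (algebraMap K₀ K₁) y * s = r := by
      rw [hx, div_mul_cancel₀ _ hs0]
    have h1 := (s29cf_retr_closure F₀ ρ hs').2 y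
    rw [hmul] at h1
    have hs1 : s29cf_retr ρ s ≠ 0 := by
      intro h0
      apply hρ
      have := congrArg (fun z : LaurentSeries K₀ => z.coeff n) h0
      simpa using this
    have hy : y = s29cf_retr ρ r / s29cf_retr ρ s := by
      rw [h1, mul_div_cancel_right₀ _ hs1]
    rw [hy]
    exact div_mem (s29cf_retr_closure F₀ ρ hr').1 (s29cf_retr_closure F₀ ρ hs').1

/-- the same for an arbitrary ring hom `φ : K₀ → K₁`. -/
theorem s29cf_mem_of_coeffMap_mem' {K₀ K₁ : Type*} [Field K₀] [Field K₁] [Algebra ℚ K₀]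
    [Algebra ℚ K₁] (φ : K₀ →+* K₁) (F₀ : IntermediateField ℚ (LaurentSeries ℚ))
    (y : LaurentSeries K₀) (h : coeffMap φ y ∈ laurentBaseChange K₁ F₀) :
    y ∈ laurentBaseChange K₀ F₀ := by
  let _ : Algebra K₀ K₁ := φ.toAlgebra
  exact s29cf_mem_of_coeffMap_mem F₀ y h

end Descent

end Fermat.Agent.Lib.S29
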