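/-
Plan K (S29 + S42), package [DC], piece [DCFixed] (helper8): Galois descent of FUNCTIONS.

For a ring hom `φ : K₀ → K₁` of algebraically closed fields of characteristic `0`, an element `x` of
the function field `laurentBaseChange K₁ F₀` whose orbit under `{σ : K₁ ≃ₐ[ℚ] K₁ | σ ∘ φ = φ}`
(acting through the Prelude's `arithmeticGalois F₀`, i.e. coefficientwise) is FINITE — in particular
a fixed element — is `s18q_map φ F₀ y` for a (unique) `y` in `laurentBaseChange K₀ F₀`.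
(`DCCoeff`: the coefficients lie in `φ K₀`; `DCRetract`: membership descends.)
-/
import Mathlib
import Fermat.Prelude.Def_ModularCurve_ArithmeticGalois
import Fermat.Agent.Lib.S18.QBase
import Fermat.Agent.Lib.S29.DCCoeff
import Fermat.Agent.Lib.S29.DCRetract

set_option autoImplicit false

namespace Fermat.Agent.Lib.S29

open ModularCurve AlgebraicCurve Fermat.Agent.Lib.S18

variable {K₀ K₁ : Type*} [Field K₀] [Field K₁] [Algebra ℚ K₀] [Algebra ℚ K₁]
  [IsAlgClosed K₀] [IsAlgClosed K₁]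
variable (φ : K₀ →+* K₁) (F₀ : IntermediateField ℚ (LaurentSeries ℚ))

/-- **descent of functions, finite-orbit form.** -/
theorem s29cf_exists_map_eq_of_finite_orbit (x : ↥(laurentBaseChange K₁ F₀))
    (h : {z : ↥(laurentBaseChange K₁ F₀) | ∃ σ : K₁ ≃ₐ[ℚ] K₁, (∀ a : K₀, σ (φ a) = φ a) ∧
      arithmeticGalois F₀ σ • x = z}.Finite) :
    ∃ y : ↥(laurentBaseChange K₀ F₀), s18q_map φ F₀ y = x := by
  have h' : {z : LaurentSeries K₁ | ∃ σ : K₁ ≃ₐ[ℚ] K₁, (∀ a : K₀, σ (φ a) = φ a) ∧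
      coeffMap (σ : K₁ →+* K₁) (x : LaurentSeries K₁) = z}.Finite := by
    apply (h.image (fun z : ↥(laurentBaseChange K₁ F₀) => (z : LaurentSeries K₁))).subset
    rintro z ⟨σ, hσ, rfl⟩
    exact ⟨arithmeticGalois F₀ σ • x, ⟨σ, hσ, rfl⟩, coe_arithmeticGalois_smul F₀ σ x⟩
  obtain ⟨y, hy⟩ := s29cf_exists_coeffMap_eq_of_finite_orbit φ (x : LaurentSeries K₁) h'
  have hmem : y ∈ laurentBaseChange K₀ F₀ :=
    s29cf_mem_of_coeffMap_mem' φ F₀ y (by rw [hy]; exact x.2)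
  exact ⟨⟨y, hmem⟩, Subtype.ext (by rw [s18q_map_coe]; exact hy)⟩

/-- **descent of functions, fixed form.** -/
theorem s29cf_exists_map_eq_of_fixed (x : ↥(laurentBaseChange K₁ F₀))
    (h : ∀ σ : K₁ ≃ₐ[ℚ] K₁, (∀ a : K₀, σ (φ a) = φ a) → arithmeticGalois F₀ σ • x = x) :
    ∃ y : ↥(laurentBaseChange K₀ F₀), s18q_map φ F₀ y = x := by
  apply s29cf_exists_map_eq_of_finite_orbit φ F₀ x
  apply (Set.finite_singleton x).subset
  rintro z ⟨σ, hσ, rfl⟩
  exact h σ hσ

omit [IsAlgClosed K₀] [IsAlgClosed K₁] in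
/-- conversely, elements coming from `K₀` are fixed. -/
theorem s29cf_smul_map (y : ↥(laurentBaseChange K₀ F₀)) (σ : K₁ ≃ₐ[ℚ] K₁)
    (hσ : ∀ a : K₀, σ (φ a) = φ a) :
    arithmeticGalois F₀ σ • s18q_map φ F₀ y = s18q_map φ F₀ y := by
  apply Subtype.ext
  rw [coe_arithmeticGalois_smul, s18q_map_coe, coeffMap_coeffMap]
  exact coeffMap_congr (RingHom.ext fun a => hσ a) _

end Fermat.Agent.Lib.S29
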