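/-
Plan K (S29), package [DS] (helper3): the ALGEBRAIC CORE of the reduction mod `𝔓`
("Deligne–Serre, easy direction"), pure Mathlib.

* `s29s_iInf_ne_bot`: in a finite-dimensional vector space a family of subspaces all of whose finite
  intersections are nonzero has a nonzero intersection.
* `s29s_exists_kernel_vector`: `O` a commutative ring, `ι : O →+* C` injective into a field,
  `π : O →+* κ` surjective onto a field; a family of square matrices `S i` over `O` having a common
  nonzero kernel vector over `C` has a common nonzero kernel vector over `κ`.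
  (If not, finitely many of the `S i` already have trivial common kernel over `κ`; the stacked matrix
  has a left inverse over `κ`; lift it to `O`: `L * S ≡ 1 mod ker π`, so `det (L * S) ≠ 0`, hence
  the stacked matrix is injective over `C`.)
* `s29s_exists_eigenvector`: integer matrices `t i`, algebraic integers `a i`, a common eigenvector
  over `ℂ` ⇒ a common eigenvector over `k` with eigenvalues `φ (a i)`, for every ring homomorphism
  `φ : integralClosure ℤ ℂ →+* k` into a field of characteristic `p`.
-/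
import Mathlib

set_option autoImplicit false
set_option linter.unusedSectionVars false

noncomputable section

namespace Fermat.Agent.Lib.S29

open Matrix

/-! ### Finite intersections -/

theorem s29s_iInf_ne_bot {K V I : Type*} [Field K] [AddCommGroup V] [Module K V]
    [FiniteDimensional K V] (W : I → Submodule K V)
    (h : ∀ s : Finset I, (⨅ i ∈ s, W i) ≠ ⊥) : (⨅ i, W i) ≠ ⊥ := by
  classical
  -- a finite subfamily of minimal dimension
  have hex : ∃ d : ℕ, ∃ s : Finset I, Module.finrank K ↥(⨅ i ∈ s, W i) = d := ⟨_, ∅, rfl⟩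
  obtain ⟨s₀, hs₀⟩ := Nat.find_spec hex
  have hmin : ∀ s : Finset I, Nat.find hex ≤ Module.finrank K ↥(⨅ i ∈ s, W i) :=
    fun s => Nat.find_min' hex ⟨s, rfl⟩
  have hle : (⨅ i ∈ s₀, W i) ≤ ⨅ i, W i := by
    refine le_iInf fun j => ?_
    have h1 : (⨅ i ∈ insert j s₀, W i) ≤ ⨅ i ∈ s₀, W i := by
      refine le_iInf fun i => le_iInf fun hi => ?_
      exact iInf_le_of_le i (iInf_le _ (Finset.mem_insert_of_mem hi))
    have h2 : (⨅ i ∈ insert j s₀, W i) = ⨅ i ∈ s₀, W i :=
      Submodule.eq_of_le_of_finrank_le h1 (by rw [hs₀]; exact hmin _)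
    rw [← h2]
    exact iInf_le_of_le j (iInf_le _ (Finset.mem_insert_self j s₀))
  intro hbot
  exact h s₀ (le_bot_iff.mp (hbot ▸ hle))

/-! ### The left-inverse argument -/

/-- The stacked matrix of a family of square matrices. -/
def s29s_stack {O J n : Type*} (S : J → Matrix n n O) : Matrix (J × n) n O :=
  Matrix.of fun ja b => S ja.1 ja.2 b

theorem s29s_stack_map_mulVec {O R J n : Type*} [CommRing O] [CommRing R] [Fintype n]
    (S : J → Matrix n n O) (f : O →+* R) (v : n → R) (ja : J × n) :
    ((s29s_stack S).map f *ᵥ v) ja = ((S ja.1).map f *ᵥ v) ja.2 := rfl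

section Kernel

variable {O C κ : Type*} [CommRing O] [Field C] [Field κ]
  (ι : O →+* C) (hι : Function.Injective ι) (π : O →+* κ) (hπ : Function.Surjective π)
  {n : Type*} [Fintype n] [DecidableEq n]

include hι hπ in
/-- Finite version: a finite family with trivial common kernel over `κ` has trivial common kernel
over `C`. -/
theorem s29s_kernel_finite {J : Type*} [Fintype J] [DecidableEq J] (S : J → Matrix n n O)
    (hκ : ∀ w : n → κ, (∀ j, (S j).map π *ᵥ w = 0) → w = 0)
    (c : n → C) (hc : ∀ j, (S j).map ι *ᵥ c = 0) : c = 0 := by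
  -- the stacked matrix
  let St : Matrix (J × n) n O := s29s_stack S
  -- injectivity over `κ`
  have hker : (St.map π).mulVecLin.ker = ⊥ := by
    rw [Matrix.ker_mulVecLin_eq_bot_iff]
    intro w hw
    refine hκ w fun j => ?_
    funext a
    have := congrFun hw (j, a)
    rw [s29s_stack_map_mulVec] at this
    exact this
  obtain ⟨g, hg⟩ := LinearMap.exists_leftInverse_of_injective _ hker
  -- the left inverse as a matrix, and a lift
  let L : Matrix n (J × n) κ := LinearMap.toMatrix' g
  have hL : L * St.map π = 1 := by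
    have h1 : LinearMap.toMatrix' (g ∘ₗ (St.map π).mulVecLin) = 1 := by
      rw [hg, LinearMap.toMatrix'_id]
    rw [LinearMap.toMatrix'_comp] at h1
    rw [← h1]
    congr 1
    rw [← Matrix.toLin'_apply', LinearMap.toMatrix'_toLin']
  let Lt : Matrix n (J × n) O := Matrix.of fun a jb => (hπ (L a jb)).choose
  have hLt : Lt.map π = L := by
    ext a jb
    exact (hπ (L a jb)).choose_spec
  -- the determinant
  have hdet : π (Lt * St).det = 1 := by
    rw [RingHom.map_det, RingHom.mapMatrix_apply, Matrix.map_mul, hLt, hL, Matrix.det_one]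
  have hdet0 : ((Lt * St).map ι).det ≠ 0 := by
    have h1 : ((Lt * St).map ι).det = ι (Lt * St).det := by
      rw [RingHom.map_det, RingHom.mapMatrix_apply]
    rw [h1]
    intro h0
    have h2 : (Lt * St).det = 0 := hι (by rw [h0, map_zero])
    rw [h2, map_zero] at hdet
    exact zero_ne_one hdet
  -- conclude over `C`
  refine Matrix.eq_zero_of_mulVec_eq_zero hdet0 ?_
  rw [Matrix.map_mul, ← Matrix.mulVec_mulVec]
  have h0 : St.map ι *ᵥ c = 0 := by
    funext ja
    rw [s29s_stack_map_mulVec, hc ja.1]
    rfl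
  rw [h0, Matrix.mulVec_zero]

include hι hπ in
/-- **Common kernel vectors reduce**: a family of square matrices over `O` with a common nonzero
kernel vector over `C` has a common nonzero kernel vector over `κ`. -/
theorem s29s_exists_kernel_vector {I : Type*} (S : I → Matrix n n O)
    (c : n → C) (hc0 : c ≠ 0) (hc : ∀ i, (S i).map ι *ᵥ c = 0) :
    ∃ w : n → κ, w ≠ 0 ∧ ∀ i, (S i).map π *ᵥ w = 0 := by
  classical
  let W : I → Submodule κ (n → κ) := fun i => ((S i).map π).mulVecLin.ker
  have hfin : ∀ s : Finset I, (⨅ i ∈ s, W i) ≠ ⊥ := by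
    intro s hbot
    apply hc0
    refine s29s_kernel_finite ι hι π hπ (fun j : s => S j.1) (fun w hw => ?_) c (fun j => hc j.1)
    have hmem : w ∈ ⨅ i ∈ s, W i := by
      rw [Submodule.mem_iInf]
      intro i
      rw [Submodule.mem_iInf]
      intro hi
      exact hw ⟨i, hi⟩
    rw [hbot] at hmem
    exact (Submodule.mem_bot κ).mp hmem
  have hne := s29s_iInf_ne_bot W hfin
  obtain ⟨w, hw, hw0⟩ := Submodule.exists_mem_ne_zero_of_ne_bot hne
  refine ⟨w, hw0, fun i => ?_⟩
  have := (Submodule.mem_iInf _).mp hw i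
  exact this

end Kernel

/-! ### Eigenvectors of integer matrices modulo a prime of `ℤ̄` -/

section Eigen

local notation "Zbar" => integralClosure ℤ ℂ

variable {k : Type*} [Field k]

/-- The kernel of `φ : ℤ̄ → k` is a maximal ideal. -/
theorem s29s_ker_isMaximal (p : ℕ) [Fact p.Prime] [CharP k p] (φ : Zbar →+* k) :
    (RingHom.ker φ).IsMaximal := by
  haveI : (RingHom.ker φ).IsPrime := RingHom.ker_isPrime φ
  refine Ideal.isMaximal_of_isIntegral_of_isMaximal_comap (R := ℤ) (RingHom.ker φ) ?_
  have h1 : Ideal.comap (algebraMap ℤ Zbar) (RingHom.ker φ) = RingHom.ker (algebraMap ℤ k) := by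
    ext m
    rw [Ideal.mem_comap, RingHom.mem_ker, RingHom.mem_ker]
    simp
  rw [h1, CharP.ker_intAlgebraMap_eq_span p]
  exact PrincipalIdealRing.isMaximal_of_irreducible
    (Nat.prime_iff_prime_int.mp (Fact.out : p.Prime)).irreducible

/-- **Reduction of eigenvectors mod `𝔓`**: integer matrices `t i` with a common eigenvector over `ℂ`
for algebraic-integer eigenvalues `a i` have a common eigenvector over `k` for the eigenvalues
`φ (a i)`. -/
theorem s29s_exists_eigenvector (p : ℕ) [Fact p.Prime] [CharP k p] (φ : Zbar →+* k)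
    {n I : Type*} [Fintype n] [DecidableEq n]
    (t : I → Matrix n n ℤ) (a : I → Zbar) (c : n → ℂ) (hc0 : c ≠ 0)
    (hc : ∀ i, (t i).map (Int.cast : ℤ → ℂ) *ᵥ c = ((a i : Zbar) : ℂ) • c) :
    ∃ w : n → k, w ≠ 0 ∧ ∀ i, (t i).map (Int.cast : ℤ → k) *ᵥ w = φ (a i) • w := by
  haveI := s29s_ker_isMaximal p φ
  letI : Field (Zbar ⧸ RingHom.ker φ) := Ideal.Quotient.field (RingHom.ker φ)
  let S : I → Matrix n n Zbar := fun i =>
    (t i).map (Int.castRingHom Zbar) - Matrix.scalar n (a i)
  have hS : ∀ {R : Type _} [CommRing R] (f : Zbar →+* R) (i : I) (v : n → R),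
      (S i).map f *ᵥ v = (t i).map (Int.cast : ℤ → R) *ᵥ v - f (a i) • v := by
    intro R _ f i v
    have h1 : (S i).map f = (t i).map (Int.cast : ℤ → R) - Matrix.scalar n (f (a i)) := by
      ext x y
      simp only [S, Matrix.map_apply, Matrix.sub_apply, map_sub, Matrix.scalar_apply,
        Matrix.diagonal_apply]
      congr 1
      · simp
      · split_ifs <;> simp
    rw [h1, Matrix.sub_mulVec]
    congr 1
    funext x
    simp [Matrix.mulVec, dotProduct, Matrix.diagonal_apply]
  obtain ⟨w₀, hw₀, hw⟩ := s29s_exists_kernel_vector (algebraMap Zbar ℂ)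
    Subtype.val_injective (Ideal.Quotient.mk (RingHom.ker φ)) Ideal.Quotient.mk_surjective S c hc0
    (fun i => by
      rw [hS, hc i, sub_eq_zero]
      rfl)
  -- push forward along `ℤ̄ / ker φ → k`
  let φbar : (Zbar ⧸ RingHom.ker φ) →+* k := RingHom.kerLift φ
  have hφbar : Function.Injective φbar := RingHom.kerLift_injective φ
  refine ⟨fun x => φbar (w₀ x), ?_, fun i => ?_⟩
  · intro h0
    apply hw₀
    funext x
    apply hφbar
    have h1 : φbar (w₀ x) = 0 := congrFun h0 x
    rw [h1]
    exact (map_zero φbar).symm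
  · have h1 := hw i
    rw [hS, sub_eq_zero] at h1
    funext x
    have h2 := congrArg φbar (congrFun h1 x)
    simp only [Matrix.mulVec, dotProduct, map_sum, map_mul, Matrix.map_apply, Pi.smul_apply,
      smul_eq_mul] at h2 ⊢
    have h3 : φbar (Ideal.Quotient.mk (RingHom.ker φ) (a i)) = φ (a i) := RingHom.kerLift_mk φ (a i)
    rw [h3] at h2
    rw [← h2]
    refine Finset.sum_congr rfl fun y _ => ?_
    congr 1
    simp

/-- An eigenvalue of an integer matrix is an algebraic integer. -/
theorem s29s_isIntegral_of_eigen {n : Type*} [Fintype n] [DecidableEq n] (t : Matrix n n ℤ)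
    (μ : ℂ) (c : n → ℂ) (hc0 : c ≠ 0) (hc : t.map (Int.cast : ℤ → ℂ) *ᵥ c = μ • c) :
    IsIntegral ℤ μ := by
  refine ⟨t.charpoly, t.charpoly_monic, ?_⟩
  have h1 : (Matrix.scalar n μ - t.map (Int.castRingHom ℂ)).det = 0 := by
    refine Matrix.exists_mulVec_eq_zero_iff.mp ⟨c, hc0, ?_⟩
    rw [Matrix.sub_mulVec]
    have h2 : Matrix.scalar n μ *ᵥ c = μ • c := by
      funext x
      simp [Matrix.mulVec, dotProduct, Matrix.diagonal_apply]
    rw [h2]
    show μ • c - t.map (Int.cast : ℤ → ℂ) *ᵥ c = 0
    rw [hc, sub_self]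
  rw [← Polynomial.eval_map, ← Matrix.charpoly_map, Matrix.eval_charpoly]
  exact h1

end Eigen

end Fermat.Agent.Lib.S29
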