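/-
Plan K (S29), package [DS] (helper3): the PERIOD EIGENVECTOR.

For a normalised eigenform `g` of weight two on `Γ₀(N)` and a prime `ℓ ∤ N`:
* `s29s_heckeT_eigen`        : `T_ℓ g = a_ℓ(g) • g` (from the `q`-expansion principle);
* `s29s_heckeHom_periodMap`  : `T_ℓ^H (periodMap N f) = periodMap N (T_ℓ f)` for every cusp form `f`;
* `s29s_periodMap_ne_zero`   : `periodMap N f ≠ 0` for `f ≠ 0` (S21, injectivity);
* `s29s_period_eigen`        : `ψ_g := periodMap N g` is a nonzero parabolic homomorphism with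
                               `T_ℓ^H ψ_g = a_ℓ(g) • ψ_g`.
-/
import Mathlib
import Fermat.Agent.Lib.S29.HDefs
import Fermat.Agent.Lib.Integral.HeckeStable
import Fermat.Agent.Lib.Period.InjMain
import Fermat.Agent.Lib.Hecke.QCoeff
import Fermat.Prelude.Def_FLTPrelim_ModularRep

set_option autoImplicit false
set_option linter.unusedSectionVars false

noncomputable section

namespace Fermat.Agent.Lib.S29

open CongruenceSubgroup ModularCurve ModularCurve.Period ModularFormClass Fermat.Agent.Lib.ES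
  Fermat.Agent.Lib.Period Fermat.Agent.Lib.Integral Fermat.Agent.Lib.QCoeff
open P2MW.S_ModularForm_heckeT_slash_eq_self_of_mem_Gamma0.ModularForm.HeckeSlashInvariance
open scoped MatrixGroups

variable {N : ℕ} [NeZero N]

/-- A normalised eigenform is an eigenvector of `T_ℓ`, `ℓ ∤ N`, with eigenvalue `a_ℓ`. -/
theorem s29s_heckeT_eigen {g : CuspForm (Gamma0 N) 2} (hg : g.IsNormalizedEigenform) {ℓ : ℕ}
    (hℓ : ℓ.Prime) (hℓN : ¬ ℓ ∣ N) :
    CuspForm.heckeTLin 2 hℓ hℓN g = qCoeff (⇑g) ℓ • g := by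
  refine ext_of_qCoeff fun n hn => ?_
  rw [qCoeff_heckeTLin, qCoeff_smul]
  obtain ⟨r, m, hm, rfl⟩ := Nat.exists_eq_pow_mul_and_not_dvd (Nat.pos_iff_ne_zero.mp hn) ℓ
    hℓ.ne_one
  have hcop : ∀ s : ℕ, (ℓ ^ s).Coprime m :=
    fun s => Nat.Coprime.pow_left s ((Nat.Prime.coprime_iff_not_dvd hℓ).mpr hm)
  rcases r with _ | s
  · -- `ℓ ∤ n`
    rw [pow_zero, one_mul]
    have h1 : ¬ ℓ ∣ m := hm
    rw [if_neg h1, add_zero, hg.qCoeff_mul_of_coprime m ℓ
      ((Nat.Prime.coprime_iff_not_dvd hℓ).mpr hm).symm, mul_comm]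
  · -- `n = ℓ^(s+1) m`
    have hdvd : ℓ ∣ ℓ ^ (s + 1) * m := Dvd.dvd.mul_right (dvd_pow_self ℓ (Nat.succ_ne_zero s)) m
    rw [if_pos hdvd]
    have e1 : ℓ ^ (s + 1) * m * ℓ = ℓ ^ (s + 2) * m := by ring
    have e2 : ℓ ^ (s + 1) * m / ℓ = ℓ ^ s * m := by
      rw [pow_succ, mul_comm (ℓ ^ s) ℓ, mul_assoc, Nat.mul_div_cancel_left _ hℓ.pos]
    rw [e1, e2, hg.qCoeff_mul_of_coprime _ _ (hcop (s + 2)),
      hg.qCoeff_mul_of_coprime _ _ (hcop s), hg.qCoeff_mul_of_coprime _ _ (hcop (s + 1)),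
      hg.qCoeff_prime_pow_of_not_dvd ℓ s hℓ hℓN]
    norm_num
    ring

/-- **Hecke compatibility of the period map**: `T_ℓ^H (periodMap N f) = periodMap N (T_ℓ f)`. -/
theorem s29s_heckeHom_periodMap {ℓ : ℕ} [Fact ℓ.Prime] (hℓ : ℓ.Prime) (hℓN : ¬ ℓ ∣ N)
    (f : CuspForm (Gamma0 N) 2) :
    s29h_heckeHom N ℓ ℂ (periodMap N f) = periodMap N (CuspForm.heckeTLin 2 hℓ hℓN f) := by
  have : NeZero ℓ := ⟨hℓ.ne_zero⟩
  refine AddMonoidHom.ext fun γ => ?_
  obtain ⟨γ, rfl⟩ := Additive.ofMul.surjective γ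
  rw [s29h_heckeHom_apply hℓN]
  have hdet : ∀ x : OnePoint (ZMod ℓ), 0 < (heckeRepZ ℓ x).det := by
    intro x
    rw [det_heckeRepZ]
    exact_mod_cast hℓ.pos
  have hf' := coe_heckeTLin_eq_sum (N := N) 2 hℓ hℓN f
  exact (intHk_periodMap_of_sum_slash (heckeRepZ ℓ) (heckeRep ℓ) (coe_heckeRep_eq_map hℓ.ne_zero)
    hdet (heckeRepZ_apply_one_zero ℓ) f _ hf' γ (fun x => s29h_fam hℓN γ x)
    (heckePermT ℓ (γ : SL(2, ℤ))) (fun x => s29h_fam_spec hℓN γ x)).symm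

/-- The period map is injective (S21). -/
theorem s29s_periodMap_ne_zero {f : CuspForm (Gamma0 N) 2} (hf : f ≠ 0) : periodMap N f ≠ 0 := by
  intro h0
  have hinj := pmI_periodHomPair_injective (pmP_existsPeriodMapLinear N)
    (pmP_hasEquivariantPrimitive N)
  have h1 : periodHomPair N (f, 0) = 0 := by
    refine AddMonoidHom.ext fun γ => ?_
    obtain ⟨γ, rfl⟩ := Additive.ofMul.surjective γ
    rw [pmP_periodHomPair_apply, h0]
    have h2 : periodMap N (0 : CuspForm (Gamma0 N) 2) = 0 := by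
      have := (pmP_periodLin N).map_zero
      simpa using this
    rw [h2]
    simp
  have h3 : (f, (0 : CuspForm (Gamma0 N) 2)) = 0 := hinj (by rw [h1, map_zero])
  exact hf (congrArg Prod.fst h3)

/-- **The period eigenvector** of a normalised eigenform. -/
theorem s29s_period_eigen {g : CuspForm (Gamma0 N) 2} (hg : g.IsNormalizedEigenform) :
    periodMap N g ≠ 0 ∧ IsParabolicHom (Gamma0 N) (periodMap N g) ∧
      ∀ (ℓ : ℕ) [Fact ℓ.Prime], ¬ ℓ ∣ N →
        s29h_heckeHom N ℓ ℂ (periodMap N g) = qCoeff (⇑g) ℓ • periodMap N g := by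
  refine ⟨s29s_periodMap_ne_zero hg.ne_zero, pmP_periodMap_mem_parabolicHoms N g, ?_⟩
  intro ℓ _ hℓN
  have hℓ : ℓ.Prime := Fact.out
  rw [s29s_heckeHom_periodMap hℓ hℓN, s29s_heckeT_eigen hg hℓ hℓN]
  exact (pmP_periodLin N).map_smul _ g

end Fermat.Agent.Lib.S29
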