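/-
Plan K, assembly of `s29k_EigenSupport` (lead): the abstract linear algebra.

* `s29a_exists_section`: an injective linear map `κ : J → M` whose image contains a submodule `H`
  has a linear section `Λ : H → J` (`κ ∘ Λ = incl`).
* `s29a_section_equivariant`: such a section intertwines operators that `κ` intertwines.
* `s29a_transfer`: an injective intertwiner carries a nonzero simultaneous eigenvector of
  `k ⊗ H` to a nonzero simultaneous eigenvector of `k ⊗ J` (flatness over a field).
* `s29a_eigen_of_kappa`: the combination.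
-/
import Mathlib

set_option autoImplicit false

open TensorProduct

namespace Fermat.Agent.Lib.S29

/-- A linear section over a submodule contained in the image of an injective linear map. -/
theorem s29a_exists_section {F : Type*} [Field F] {J M : Type*} [AddCommGroup J] [Module F J]
    [AddCommGroup M] [Module F M] (κ : J →ₗ[F] M) (hκ : Function.Injective κ)
    (H : Submodule F M) (hsurj : ∀ χ ∈ H, ∃ x, κ x = χ) :
    ∃ Λ : H →ₗ[F] J, ∀ χ : H, κ (Λ χ) = χ := by
  classical
  -- `κ` restricted to the preimage of `H` is a linear equivalence onto `H`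
  let κ' : H.comap κ →ₗ[F] H := κ.restrict (fun x hx => hx)
  have hinj : Function.Injective κ' := by
    intro x y hxy
    apply Subtype.ext
    apply hκ
    exact congrArg Subtype.val hxy
  have hsur : Function.Surjective κ' := by
    intro χ
    obtain ⟨x, hx⟩ := hsurj χ χ.2
    refine ⟨⟨x, ?_⟩, Subtype.ext hx⟩
    show κ x ∈ H
    rw [hx]
    exact χ.2
  let e : H.comap κ ≃ₗ[F] H := LinearEquiv.ofBijective κ' ⟨hinj, hsur⟩
  refine ⟨(H.comap κ).subtype ∘ₗ e.symm.toLinearMap, fun χ => ?_⟩
  have h1 : κ' (e.symm χ) = χ := e.apply_symm_apply χ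
  exact congrArg Subtype.val h1

/-- A section as in `s29a_exists_section` intertwines what `κ` intertwines. -/
theorem s29a_section_equivariant {F : Type*} [Field F] {J M : Type*} [AddCommGroup J]
    [Module F J] [AddCommGroup M] [Module F M] (κ : J →ₗ[F] M) (hκ : Function.Injective κ)
    (H : Submodule F M) (Λ : H →ₗ[F] J) (hΛ : ∀ χ : H, κ (Λ χ) = χ)
    (TJ : Module.End F J) (TM : Module.End F M) (TH : Module.End F H)
    (hTH : ∀ χ : H, ((TH χ : H) : M) = TM χ) (hκT : ∀ x, κ (TJ x) = TM (κ x)) :
    Λ ∘ₗ TH = TJ ∘ₗ Λ := by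
  ext χ
  apply hκ
  simp only [LinearMap.comp_apply]
  rw [hΛ, hTH, hκT, hΛ]

/-- An injective intertwiner carries a nonzero simultaneous eigenvector of `k ⊗ H` to a nonzero
simultaneous eigenvector of `k ⊗ J`. -/
theorem s29a_transfer {F : Type*} [Field F] {k : Type*} [Field k] [Algebra F k]
    {H J : Type*} [AddCommGroup H] [Module F H] [AddCommGroup J] [Module F J]
    {ι : Type*} (TH : ι → Module.End F H) (TJ : ι → Module.End F J) (Λ : H →ₗ[F] J)
    (hΛ : Function.Injective Λ) (hcomm : ∀ i, Λ ∘ₗ TH i = TJ i ∘ₗ Λ)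
    (w : k ⊗[F] H) (hw : w ≠ 0) (c : ι → k)
    (heig : ∀ i, (TH i).baseChange k w = c i • w) :
    ∃ v : k ⊗[F] J, v ≠ 0 ∧ ∀ i, (TJ i).baseChange k v = c i • v := by
  refine ⟨Λ.baseChange k w, ?_, fun i => ?_⟩
  · have hinj : Function.Injective (Λ.baseChange k) := by
      rw [LinearMap.baseChange_eq_ltensor]
      exact Module.Flat.lTensor_preserves_injective_linearMap Λ hΛ
    intro h0
    apply hw
    apply hinj
    rw [h0, map_zero]
  · have h1 : (TJ i).baseChange k (Λ.baseChange k w) = ((TJ i ∘ₗ Λ).baseChange k) w := by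
      rw [LinearMap.baseChange_comp]
      rfl
    rw [h1, ← hcomm i, LinearMap.baseChange_comp, LinearMap.comp_apply, heig i, map_smul]

/-- The combination: from an injective `κ : J → M` intertwining `TJ i` with `TM i`, a
`TM`-stable submodule `H` in the image of `κ`, and a nonzero eigenvector in `k ⊗ H`, a nonzero
eigenvector in `k ⊗ J` with the same eigenvalues. -/
theorem s29a_eigen_of_kappa {F : Type*} [Field F] {k : Type*} [Field k] [Algebra F k]
    {J M : Type*} [AddCommGroup J] [Module F J] [AddCommGroup M] [Module F M]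
    (κ : J →ₗ[F] M) (hκ : Function.Injective κ) (H : Submodule F M)
    (hsurj : ∀ χ ∈ H, ∃ x, κ x = χ)
    {ι : Type*} (TJ : ι → Module.End F J) (TM : ι → Module.End F M) (TH : ι → Module.End F H)
    (hTH : ∀ i (χ : H), ((TH i χ : H) : M) = TM i χ) (hκT : ∀ i x, κ (TJ i x) = TM i (κ x))
    (w : k ⊗[F] H) (hw : w ≠ 0) (c : ι → k)
    (heig : ∀ i, (TH i).baseChange k w = c i • w) :
    ∃ v : k ⊗[F] J, v ≠ 0 ∧ ∀ i, (TJ i).baseChange k v = c i • v := by
  obtain ⟨Λ, hΛ⟩ := s29a_exists_section κ hκ H hsurj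
  have hΛinj : Function.Injective Λ := by
    intro χ ψ h
    apply Subtype.ext
    rw [← hΛ χ, ← hΛ ψ, h]
  exact s29a_transfer TH TJ Λ hΛinj
    (fun i => s29a_section_equivariant κ hκ H Λ hΛ (TJ i) (TM i) (TH i) (hTH i) (hκT i))
    w hw c heig

end Fermat.Agent.Lib.S29
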