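/-
Plan K, assembly of `s29k_EigenSupport` (lead): the two contracts of the analytic core and the
reduction of `s29k_EigenSupport` to them.

* `s29a_KappaCore` [KAP + DC + LAM + EQ]: an injective additive map
  `κ0 : J₀(N)(ℚ̄)[p] → Hom(Γ₀(N), 𝔽_p)` whose image contains `H_p = s29h_Hp N p` and which
  intertwines `T_ℓ = heckeOperatorBar N ℓ` with `T_ℓ^H = s29h_heckeHom N ℓ`, `ℓ ∤ Np`.
* `s29a_DSCore` [DS]: the mod-`𝔓` eigen-system of a normalised eigenform occurs in `k ⊗ H_p`.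
* `s29a_eigenSupport : s29a_KappaCore → s29a_DSCore → s29k_EigenSupport`.
-/
import Fermat.Agent.Lib.S29.KIface
import Fermat.Agent.Lib.S29.HStab
import Fermat.Agent.Lib.S29.EigenAsm

set_option autoImplicit false

open ModularCurve AlgebraicCurve CongruenceSubgroup TensorProduct

namespace Fermat.Agent.Lib.S29

/-- **[KAP + DC + LAM + EQ]**: the Kummer map on `J₀(N)(ℚ̄)[p]`. -/
def s29a_KappaCore : Prop :=
  ∀ (N : ℕ) [NeZero N] (p : ℕ) [Fact p.Prime],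
    ∃ κ0 : s29k_Jp N p →+ (Additive (Gamma0 N) →+ ZMod p),
      Function.Injective κ0 ∧ (∀ χ ∈ s29h_Hp N p, ∃ x, κ0 x = χ) ∧
      ∀ ℓ : Nat.Primes, ¬ (ℓ : ℕ) ∣ N * p → ∀ x : s29k_Jp N p,
        κ0 (s29k_Tl N p ℓ x) =
          (haveI : Fact (ℓ : ℕ).Prime := ⟨ℓ.2⟩
           s29h_heckeHom N (ℓ : ℕ) (ZMod p) (κ0 x))

/-- **[DS]**: the mod-`𝔓` eigen-system of `g` (away from `Np`) occurs in `k ⊗_{𝔽_p} H_p`. -/
def s29a_DSCore : Prop :=
  ∀ (N : ℕ) [NeZero N] (g : CuspForm (CongruenceSubgroup.Gamma0 N) 2), g.IsNormalizedEigenform →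
  ∀ (p : ℕ) [Fact p.Prime] (k : Type) [Field k] [Algebra (ZMod p) k]
    (φ : integralClosure ℤ ℂ →+* k),
    ∃ w : TensorProduct (ZMod p) k (s29h_Hp N p), w ≠ 0 ∧
      ∀ ℓ : Nat.Primes, ¬ (ℓ : ℕ) ∣ N * p →
        ∃ a : integralClosure ℤ ℂ, (a : ℂ) = ModularFormClass.qCoeff g ℓ ∧
          (s29h_Tl N p ℓ).baseChange k w = φ a • w

/-- The analytic core: `s29k_EigenSupport` from the two contracts. -/
theorem s29a_eigenSupport (hK : s29a_KappaCore) (hDS : s29a_DSCore) : s29k_EigenSupport := by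
  intro N _ g hg p _ k _ _ φ
  classical
  obtain ⟨κ0, hinj, hsurj, hEQ⟩ := hK N p
  obtain ⟨w, hw, heig⟩ := hDS N g hg p k φ
  -- index set: the good primes
  let ι : Type := {ℓ : Nat.Primes // ¬ (ℓ : ℕ) ∣ N * p}
  choose a ha hwa using heig
  let κ : s29k_Jp N p →ₗ[ZMod p] (Additive (Gamma0 N) →+ ZMod p) :=
    AddMonoidHom.toZModLinearMap p κ0
  have hκ : Function.Injective κ := hinj
  obtain ⟨v, hv, hveig⟩ := s29a_eigen_of_kappa (F := ZMod p) (k := k) κ hκ (s29h_Hp N p)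
    (fun χ hχ => hsurj χ hχ)
    (ι := ι)
    (fun i => s29k_Tl N p i.1)
    (fun i => haveI : Fact ((i.1 : Nat.Primes) : ℕ).Prime := ⟨i.1.2⟩
      s29h_heckeLin N ((i.1 : Nat.Primes) : ℕ) (ZMod p) (ZMod p))
    (fun i => s29h_Tl N p i.1)
    (fun i χ => rfl)
    (fun i x => hEQ i.1 i.2 x)
    w hw (fun i => φ (a i.1 i.2)) (fun i => hwa i.1 i.2)
  exact ⟨v, hv, fun ℓ hℓ => ⟨a ℓ hℓ, ha ℓ hℓ, hveig ⟨ℓ, hℓ⟩⟩⟩

end Fermat.Agent.Lib.S29
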