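/-
Plan K (S29), package [DS] (helper3): the MAIN THEOREM of [DS] = lead's contract `s29a_DSCore`.

For a normalised eigenform `g` on `Γ₀(N)`, a prime `p`, a field `k ⊇ 𝔽_p` and `φ : ℤ̄ →+* k`:
there is a nonzero `v ∈ k ⊗ H_p` (`H_p = s29h_Hp N p`) with
`T_ℓ^H v = φ(a_ℓ(g)) v` for all primes `ℓ ∤ N`.

Proof: `ψ_g = periodMap N g` is a nonzero parabolic hom `Γ₀(N) → ℂ` with
`T_ℓ^H ψ_g = a_ℓ ψ_g` (DSPeriod).  In a `ℤ`-basis `b` of the lattice `M = H(ℤ)` (DSLattice),
`ψ_g = ∑ c_i b_i` with `c ≠ 0`, and `t_ℓ c = a_ℓ c` for the integer matrices `t_ℓ` of `T_ℓ^H`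
on `M`; hence the `a_ℓ` are algebraic integers and (DSCore) there is `w ∈ k^r`, `w ≠ 0`, with
`t_ℓ w = φ(a_ℓ) w`.  Then `v = ∑ w_i ⊗ (b_i mod p)` works, the `b_i mod p` being
`𝔽_p`-linearly independent in `H_p` because `M` is saturated.
-/
import Mathlib
import Fermat.Agent.Lib.S29.DSLattice
import Fermat.Agent.Lib.S29.DSCore
import Fermat.Agent.Lib.S29.DSPeriod
import Fermat.Agent.Lib.S29.EigenCore

set_option autoImplicit false
set_option linter.unusedSectionVars false

noncomputable section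

namespace Fermat.Agent.Lib.S29

open CongruenceSubgroup ModularCurve ModularCurve.Period ModularFormClass
open scoped MatrixGroups
open TensorProduct Matrix

/-! ### Two lemmas on `k ⊗_F V` -/

section TensorLA

variable {F k V ι : Type*} [Field F] [Field k] [Algebra F k] [AddCommGroup V] [Module F V]
  [Fintype ι]

/-- A `k`-combination of `F`-linearly independent vectors in `k ⊗_F V` vanishes only trivially. -/
theorem s29s_tensor_sum_ne_zero (β : ι → V) (hβ : LinearIndependent F β) (w : ι → k)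
    (hw : w ≠ 0) : ∑ i, w i ⊗ₜ[F] β i ≠ 0 := by
  classical
  obtain ⟨i0, hi0⟩ := Function.ne_iff.mp hw
  have hinj : Function.Injective (Fintype.linearCombination F β) :=
    linearIndependent_iff_injective_fintypeLinearCombination.mp hβ
  obtain ⟨ρ, hρ⟩ := (Fintype.linearCombination F β).exists_leftInverse_of_injective
    (LinearMap.ker_eq_bot.mpr hinj)
  have hρβ : ∀ i, ρ (β i) = Pi.single i 1 := by
    intro i
    have h1 : Fintype.linearCombination F β (Pi.single i 1) = β i := by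
      rw [Fintype.linearCombination_apply_single, one_smul]
    rw [← h1]
    exact LinearMap.congr_fun hρ _
  let lam : V →ₗ[F] F := (LinearMap.proj i0).comp ρ
  have hlam : ∀ i, lam (β i) = if i = i0 then 1 else 0 := by
    intro i
    show (ρ (β i)) i0 = _
    rw [hρβ i, Pi.single_apply]
    simp [eq_comm]
  let E : k ⊗[F] V →ₗ[F] k := (TensorProduct.rid F k).toLinearMap.comp (lam.lTensor k)
  intro hv
  have h1 : E (∑ i, w i ⊗ₜ[F] β i) = w i0 := by
    rw [map_sum]
    have : ∀ i, E (w i ⊗ₜ[F] β i) = if i = i0 then w i else 0 := by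
      intro i
      show (TensorProduct.rid F k) ((lam.lTensor k) (w i ⊗ₜ[F] β i)) = _
      rw [LinearMap.lTensor_tmul, TensorProduct.rid_tmul, hlam i]
      split_ifs <;> simp
    simp_rw [this]
    simp
  rw [hv, map_zero] at h1
  exact hi0 h1.symm

/-- Base change of an endomorphism with matrix `t` on the vectors `β`. -/
theorem s29s_baseChange_sum (T : Module.End F V) (β : ι → V) (t : Matrix ι ι F)
    (hT : ∀ j, T (β j) = ∑ i, t i j • β i) (w : ι → k) :
    T.baseChange k (∑ j, w j ⊗ₜ[F] β j) =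
      ∑ i, ((t.map (algebraMap F k)) *ᵥ w) i ⊗ₜ[F] β i := by
  rw [map_sum]
  simp_rw [LinearMap.baseChange_tmul, hT, TensorProduct.tmul_sum, TensorProduct.tmul_smul,
    TensorProduct.smul_tmul']
  rw [Finset.sum_comm]
  refine Finset.sum_congr rfl fun i _ => ?_
  rw [← TensorProduct.sum_tmul]
  congr 1
  show _ = ∑ j, (t.map (algebraMap F k)) i j * w j
  refine Finset.sum_congr rfl fun j _ => ?_
  rw [Matrix.map_apply, Algebra.smul_def]

end TensorLA

/-! ### The main theorem -/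

/-- **[DS]**: the mod-`𝔓` eigen-system of a normalised eigenform occurs in `k ⊗ H_p`
(for all `ℓ ∤ N`). -/
theorem s29s_eigenSupport_H (N : ℕ) [NeZero N] (g : CuspForm (Gamma0 N) 2)
    (hg : g.IsNormalizedEigenform) (p : ℕ) [Fact p.Prime] (k : Type*) [Field k]
    [Algebra (ZMod p) k] (φ : integralClosure ℤ ℂ →+* k) :
    ∃ v : TensorProduct (ZMod p) k (s29h_Hp N p), v ≠ 0 ∧
      ∀ ℓ : Nat.Primes, ¬ (ℓ : ℕ) ∣ N →
        ∃ a : integralClosure ℤ ℂ, (a : ℂ) = qCoeff g ℓ ∧
          (s29h_Tl N p ℓ).baseChange k v = φ a • v := by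
  classical
  -- the lattice and its basis
  let b := Module.finBasis ℤ (s29s_M N)
  obtain ⟨hψ0, hψpar, hψeig⟩ := s29s_period_eigen hg
  obtain ⟨c, hc⟩ := s29s_exists_coeffs b (periodMap N g) hψpar
  have hc0 : c ≠ 0 := by
    rintro rfl
    apply hψ0
    rw [hc]
    simp
  -- the integer matrices and the eigen-equation over `ℂ`
  let I : Type := {ℓ : Nat.Primes // ¬ (ℓ : ℕ) ∣ N}
  let t : I → Matrix _ _ ℤ := fun i =>
    haveI : Fact ((i.1 : Nat.Primes) : ℕ).Prime := ⟨i.1.2⟩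
    s29s_heckeMat b ((i.1 : Nat.Primes) : ℕ)
  have heigC : ∀ i : I, (t i).map (Int.cast : ℤ → ℂ) *ᵥ c =
      qCoeff g ((i.1 : Nat.Primes) : ℕ) • c := by
    intro i
    haveI : Fact ((i.1 : Nat.Primes) : ℕ).Prime := ⟨i.1.2⟩
    have h1 := hψeig ((i.1 : Nat.Primes) : ℕ) i.2
    rw [hc, s29s_heckeHom_sum_castB, Finset.smul_sum] at h1
    simp_rw [smul_smul] at h1
    have hinj := linearIndependent_iff_injective_fintypeLinearCombination.mp
      (s29s_castB_linearIndependent_complex b)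
    have h2 : Fintype.linearCombination ℂ (s29s_castB b ℂ)
        ((t i).map (Int.cast : ℤ → ℂ) *ᵥ c) =
        Fintype.linearCombination ℂ (s29s_castB b ℂ)
          (qCoeff g ((i.1 : Nat.Primes) : ℕ) • c) := by
      rw [Fintype.linearCombination_apply, Fintype.linearCombination_apply]
      exact h1
    exact hinj h2
  -- integrality of the eigenvalues
  let a : I → integralClosure ℤ ℂ := fun i =>
    ⟨qCoeff g ((i.1 : Nat.Primes) : ℕ), s29s_isIntegral_of_eigen (t i) _ c hc0 (heigC i)⟩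
  -- reduction mod `𝔓`
  haveI : CharP k p := charP_of_injective_algebraMap (algebraMap (ZMod p) k).injective p
  obtain ⟨w, hw0, hw⟩ := s29s_exists_eigenvector p φ t a c hc0 heigC
  -- the vectors `b_i mod p` in `H_p`
  let β : Fin _ → s29h_Hp N p := fun i =>
    ⟨s29s_castB b (ZMod p) i, s29s_cast_mem_Hpar (ZMod p) (ZMod p) (b i).2⟩
  have hβ : LinearIndependent (ZMod p) β := by
    refine LinearIndependent.of_comp (s29h_Hp N p).subtype ?_
    exact s29s_castB_linearIndependent_zmod b p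
  refine ⟨∑ i, w i ⊗ₜ[ZMod p] β i, s29s_tensor_sum_ne_zero β hβ w hw0, fun ℓ hℓN => ?_⟩
  refine ⟨a ⟨ℓ, hℓN⟩, rfl, ?_⟩
  haveI : Fact ((ℓ : Nat.Primes) : ℕ).Prime := ⟨ℓ.2⟩
  have hT : ∀ j, s29h_Tl N p ℓ (β j) =
      ∑ i, ((s29s_heckeMat b (ℓ : ℕ)).map (Int.cast : ℤ → ZMod p)) i j • β i := by
    intro j
    apply Subtype.ext
    rw [s29h_Tl_coe, Submodule.coe_sum]
    simp only [Submodule.coe_smul, Matrix.map_apply]
    exact s29s_heckeHom_castB b (ZMod p) (ℓ : ℕ) j
  rw [s29s_baseChange_sum (s29h_Tl N p ℓ) β _ hT w]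
  have hmat : ((s29s_heckeMat b (ℓ : ℕ)).map (Int.cast : ℤ → ZMod p)).map
      (algebraMap (ZMod p) k) = (t ⟨ℓ, hℓN⟩).map (Int.cast : ℤ → k) := by
    ext i j
    simp [t]
  rw [hmat, hw ⟨ℓ, hℓN⟩, Finset.smul_sum]
  refine Finset.sum_congr rfl fun i _ => ?_
  rw [TensorProduct.smul_tmul', Pi.smul_apply]

/-- **[DS] = lead's contract** `s29a_DSCore`. -/
theorem s29s_dsCore : s29a_DSCore := by
  intro N _ g hg p _ k _ _ φ
  obtain ⟨v, hv0, hv⟩ := s29s_eigenSupport_H N g hg p k φ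
  exact ⟨v, hv0, fun ℓ hℓ => hv ℓ fun h => hℓ (Dvd.dvd.mul_right h p)⟩

end Fermat.Agent.Lib.S29
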