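/-
Plan K (S29), package [EQ], part 9 (owner: helper6): the equivariance clause of `s29a_KappaCore`
for the CONCRETE `κ₀ = κ ∘ c`:

* `κ = s29m_kappaK ιK N p hιK` (helper5, `KFinal.lean`) over an algebraically closed `K ⊇ ℚ̄` with a
  surjective `ιK : K →+* ℂ`;
* `c = s29c_c F₀ x0 x1` (helper7, `DCGalois.lean`) with `F₀ = modularFunctionFieldFull N`,
  `x0 = s29bp_jK ℚ̄ N`, `x1 = s29bp_jK K N`.

`s29q_EQ_conc : κ (ct (T_ℓ x)) = T_ℓ^H (κ (ct x))` for any restriction `ct` of `c` to the `p`-torsion.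
-/
import Fermat.Agent.Lib.S29.EQInst
import Fermat.Agent.Lib.S29.KFinal
import Fermat.Agent.Lib.S29.DCGalois

set_option autoImplicit false
set_option linter.unusedSectionVars false
set_option linter.style.haveILetI false

namespace Fermat.Agent.Lib.S29

open UpperHalfPlane hiding I
open ModularCurve AlgebraicCurve CongruenceSubgroup
open Fermat.Agent.Lib.FF Fermat.Agent.Lib.S18 Fermat.Agent.Lib.S37
open scoped MatrixGroups

noncomputable section

local notation "Kb" => AlgebraicClosure ℚ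

variable {K : Type*} [Field K] [Algebra ℚ K] [CharZero K] [IsAlgClosed K] [Algebra Kb K]
  (ιK : K →+* ℂ) (N : ℕ) [NeZero N] (p : ℕ) [NeZero p]

/-- **`div f = p • D` over `ℚ̄` implies `div (j f) = p • i_* D` over `K`.** -/
theorem s29q_ord_divMap (x0 : ↥(laurentBaseChange Kb (modularFunctionFieldFull N)))
    [FFGen Kb x0] {f : ↥(laurentBaseChange Kb (modularFunctionFieldFull N))} (hf : f ≠ 0)
    (D : Divisor Kb ↥(laurentBaseChange Kb (modularFunctionFieldFull N)))
    (hD : ∀ v : Place Kb ↥(laurentBaseChange Kb (modularFunctionFieldFull N)),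
      v.ord f = (p : ℤ) * D v)
    (w : Place K ↥(laurentBaseChange K (modularFunctionFieldFull N))) :
    w.ord (s18q_map (algebraMap Kb K) (modularFunctionFieldFull N) f) =
      (p : ℤ) * s29c_divMap (K1 := K) (modularFunctionFieldFull N) x0 D w := by
  have h1 := s29c_divMap_principal (K1 := K) (modularFunctionFieldFull N) x0 hf
    (D := (p : ℤ) • D) (fun v => by rw [Finsupp.smul_apply, smul_eq_mul, hD v]) w
  rw [← h1, map_zsmul, Finsupp.smul_apply, smul_eq_mul]

/-- **[EQ] for the concrete `κ₀ = κ ∘ c`** (`κ = s29m_kappaK`, `c = s29c_c`). -/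
theorem s29q_EQ_conc (hιK : Function.Surjective ιK) [FFGen Kb (s29bp_jK Kb N)]
    [FFGen K (s29bp_jK K N)]
    (ct : s29k_Jp N p → Pic0.torsion K ↥(s29bp_FK K N) p)
    (hct : ∀ x : s29k_Jp N p, (ct x : Pic0 K ↥(s29bp_FK K N)) =
      s29c_c (K1 := K) (modularFunctionFieldFull N) (s29bp_jK Kb N) (s29bp_jK K N) (x : JZero N))
    (ℓ : ℕ) [hℓ : Fact ℓ.Prime] (hℓN : ¬ ℓ ∣ N) (x : s29k_Jp N p) :
    s29m_kappaK ιK N p hιK (ct (s29k_Tl N p ⟨ℓ, hℓ.out⟩ x)) =
      s29h_heckeHom N ℓ (ZMod p) (s29m_kappaK ιK N p hιK (ct x)) := by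
  refine s29q_EQ (ιK.comp (algebraMap Kb K)) (s29m_bridgeHypK ιK N hιK p)
    (s18q_map (algebraMap Kb K) (modularFunctionFieldFull N)) ?_
    (s29c_c (K1 := K) (modularFunctionFieldFull N) (s29bp_jK Kb N) (s29bp_jK K N)) ?_ ct hct ℓ hℓN x
  · intro f
    refine s29q_phi_comp_eq ιK N (ιK.comp (algebraMap Kb K))
      (s18q_map (algebraMap Kb K) (modularFunctionFieldFull N)) (fun g => ?_) f
    have h1 : ((s18q_map (algebraMap Kb K) (modularFunctionFieldFull N) g :
        ↥(laurentBaseChange K (modularFunctionFieldFull N))) : LaurentSeries K) =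
        coeffMap (algebraMap Kb K) (g : LaurentSeries Kb) := rfl
    rw [h1, coeffMap_coeffMap]
  · intro D f hf hD
    refine ⟨s29c_degZeroMap (K1 := K) (modularFunctionFieldFull N) (s29bp_jK Kb N) (s29bp_jK K N) D,
      s29c_c_mk _ _ _ D, fun w => ?_⟩
    rw [s29c_coe_degZeroMap]
    exact s29q_ord_divMap N p (s29bp_jK Kb N) hf _ hD w

end

end Fermat.Agent.Lib.S29
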