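/-
Plan K (S29), package [EQ] (helper6), part 1: the analytic side of the norm product formula.

For a holomorphic `f : ℍ → ℂ` with convergent Laurent `q`-expansion `x` (`ffb_IsLaurent f x`):
* `z ↦ f (r + z)` (`r` real) has expansion `x(c q)`, `c = exp (2 π i r)`;
* `P(z) = ∏_{j<ℓ} f ((z + j) / ℓ)` has an expansion `y` with `y(q^ℓ) = ∏_{j<ℓ} x(ζ^j q)`,
  `ζ = exp (2 π i / ℓ)`;
* hence `z ↦ f (ℓ z) · P(z)` has an expansion `y'` with
  `y'(q^ℓ) = x(q^{ℓ²}) · ∏_{j<ℓ} x(ζ^j q)` — the right-hand side of the norm formula `s37w_norm_beta`.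
-/
import Fermat.Agent.Lib.FF.BridgeJ
import Fermat.Agent.Lib.S37.ESeries

set_option autoImplicit false

namespace Fermat.Agent.Lib.S29

open UpperHalfPlane hiding I
open Complex Filter Topology ModularForm Function ModularCurve
open Fermat.Agent.Lib.FF Fermat.Agent.Lib.S28 Fermat.Agent.Lib.S37
open scoped Manifold MatrixGroups

local notation "𝕢" => Periodic.qParam

noncomputable section

/-! ### Real translations -/

/-- The unit `exp (2 π i r)`. -/
def s29q_expUnit (r : ℝ) : ℂˣ := Units.mk0 (cexp (2 * Real.pi * I * r)) (Complex.exp_ne_zero _)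

@[simp] theorem s29q_expUnit_coe (r : ℝ) :
    ((s29q_expUnit r : ℂˣ) : ℂ) = cexp (2 * Real.pi * I * r) := rfl

theorem s29q_Q_vadd (r : ℝ) (z : ℍ) : ffb_Q (r +ᵥ z) = cexp (2 * Real.pi * I * r) * ffb_Q z := by
  rw [ffb_Q_apply, ffb_Q_apply, ← Complex.exp_add, UpperHalfPlane.coe_vadd]
  congr 1
  ring

theorem s29q_vadd_ofComplex (r : ℝ) {w : ℂ} (hw : 0 < w.im) :
    r +ᵥ ofComplex w = ofComplex ((r : ℂ) + w) := by
  have hw' : 0 < ((r : ℂ) + w).im := by simpa using hw
  apply UpperHalfPlane.ext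
  rw [UpperHalfPlane.coe_vadd, ofComplex_apply_of_im_pos hw, ofComplex_apply_of_im_pos hw']

theorem s29q_nice_vadd (r : ℝ) {f : ℍ → ℂ} (hf : ffb_Nice f) :
    ffb_Nice (fun z => f (r +ᵥ z)) where
  hol := by
    rw [UpperHalfPlane.mdifferentiable_iff]
    have h1 : DifferentiableOn ℂ (f ∘ ofComplex) {z | 0 < z.im} :=
      UpperHalfPlane.mdifferentiable_iff.mp hf.hol
    have h2 : DifferentiableOn ℂ ((f ∘ ofComplex) ∘ fun w : ℂ => (r : ℂ) + w) {z | 0 < z.im} := by
      refine h1.comp (by fun_prop) fun w hw => ?_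
      simpa using hw
    refine h2.congr fun w hw => ?_
    simp only [Function.comp_apply]
    rw [s29q_vadd_ofComplex r hw]
  per := by
    intro w
    simp only [Function.comp_apply]
    by_cases hw : 0 < w.im
    · have hw1 : 0 < (w + 1).im := by simpa using hw
      rw [s29q_vadd_ofComplex r hw, s29q_vadd_ofComplex r hw1]
      have := hf.per ((r : ℂ) + w)
      simp only [Function.comp_apply] at this
      rw [← this]
      congr 2
      ring
    · have hw1 : ¬ 0 < (w + 1).im := by simpa using hw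
      rw [ofComplex_apply_of_im_nonpos (not_lt.mp hw),
        ofComplex_apply_of_im_nonpos (not_lt.mp hw1)]
  bdd := by
    obtain ⟨C, A, h⟩ := isBoundedAtImInfty_iff.mp hf.bdd
    rw [isBoundedAtImInfty_iff]
    refine ⟨C, A, fun z hz => h _ ?_⟩
    rw [UpperHalfPlane.vadd_im]
    exact hz

theorem s29q_qExpansion_vadd (r : ℝ) {f : ℍ → ℂ} (hf : ffb_Nice f) :
    qExpansion 1 (fun z => f (r +ᵥ z)) =
      PowerSeries.rescale (cexp (2 * Real.pi * I * r)) (qExpansion 1 f) := by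
  have hmk : PowerSeries.rescale (cexp (2 * Real.pi * I * r)) (qExpansion 1 f) =
      PowerSeries.mk fun n => cexp (2 * Real.pi * I * r) ^ n * (qExpansion 1 f).coeff n := by
    ext n
    rw [PowerSeries.coeff_rescale, PowerSeries.coeff_mk]
  rw [hmk]
  refine (s29q_nice_vadd r hf).qExpansion_eq_mk fun τ => ?_
  have h1 := hf.hasSum (r +ᵥ τ)
  have hq : 𝕢 1 (r +ᵥ τ) = cexp (2 * Real.pi * I * r) * 𝕢 1 τ := s29q_Q_vadd r τ
  rw [hq] at h1
  refine h1.congr_fun fun m => ?_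
  simp only [smul_eq_mul]
  rw [mul_pow]
  ring

/-- The twist of the Laurent series attached to a power series. -/
theorem s29q_tw_ofPowerSeries (c : ℂˣ) (p : PowerSeries ℂ) :
    s28m_tw c (HahnSeries.ofPowerSeries ℤ ℂ p) =
      HahnSeries.ofPowerSeries ℤ ℂ (PowerSeries.rescale (c : ℂ) p) := by
  ext k
  rw [s28m_tw_coeff]
  rcases lt_or_ge k 0 with hk | hk
  · rw [ofPowerSeries_coeff_of_neg _ hk, ofPowerSeries_coeff_of_neg _ hk, mul_zero]
  · obtain ⟨n, rfl⟩ := Int.eq_ofNat_of_zero_le hk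
    rw [HahnSeries.ofPowerSeries_apply_coeff, HahnSeries.ofPowerSeries_apply_coeff,
      PowerSeries.coeff_rescale, zpow_natCast, Units.val_pow_eq_pow_val]

/-- **Translation by a real number twists the Laurent expansion.** -/
theorem s29q_isLaurent_vadd (r : ℝ) {f : ℍ → ℂ} {x : LaurentSeries ℂ} (h : ffb_IsLaurent f x) :
    ffb_IsLaurent (fun z => f (r +ᵥ z)) (s28m_tw (s29q_expUnit r) x) := by
  obtain ⟨M, h1, rfl⟩ := h
  set c : ℂ := cexp (2 * Real.pi * I * r) with hc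
  have hc0 : c ≠ 0 := Complex.exp_ne_zero _
  have e : ffb_Q ^ M * (fun z => f (r +ᵥ z)) =
      (fun _ : ℍ => (c ^ M)⁻¹) * fun z => (ffb_Q ^ M * f) (r +ᵥ z) := by
    funext z
    simp only [Pi.mul_apply, Pi.pow_apply]
    rw [s29q_Q_vadd, mul_pow, ← hc]
    field_simp
  have hn := s29q_nice_vadd r h1
  refine ⟨M, e ▸ (ffb_Nice.const _).mul hn, ?_⟩
  rw [e, (ffb_Nice.const _).qExpansion_mul hn, ffb_qExpansion_const, s29q_qExpansion_vadd r h1,
    map_mul, map_mul, s28m_tw_single, s29q_tw_ofPowerSeries, s29q_expUnit_coe, ← hc,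
    HahnSeries.ofPowerSeries_C]
  have h2 : (((s29q_expUnit r) ^ (-(M : ℤ)) : ℂˣ) : ℂ) = (c ^ M)⁻¹ := by
    rw [zpow_neg, zpow_natCast, Units.val_inv_eq_inv_val, Units.val_pow_eq_pow_val,
      s29q_expUnit_coe]
  rw [h2, mul_one]
  have h3 : (HahnSeries.single (-(M : ℤ)) ((c ^ M)⁻¹) : LaurentSeries ℂ) =
      HahnSeries.single (-(M : ℤ)) (1 : ℂ) * HahnSeries.C ((c ^ M)⁻¹) := by
    rw [HahnSeries.C_apply, HahnSeries.single_mul_single, add_zero, one_mul]
  rw [h3, mul_assoc]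

end

end Fermat.Agent.Lib.S29
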