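/-
Plan K (S29), package [EQ] (helper6), part 2: the product `P_f(z) = ∏_{j<ℓ} f ((z + j) / ℓ)` and
the "Hecke product" `z ↦ f (ℓ z) · P_f(z)`; their Laurent `q`-expansions.
-/
import Fermat.Agent.Lib.S29.EQTwist

set_option autoImplicit false
set_option linter.unusedSectionVars false

namespace Fermat.Agent.Lib.S29

open UpperHalfPlane hiding I
open Complex Filter Topology ModularForm Function ModularCurve
open Fermat.Agent.Lib.FF Fermat.Agent.Lib.S28 Fermat.Agent.Lib.S37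
open scoped Manifold MatrixGroups

local notation "𝕢" => Periodic.qParam

noncomputable section

variable (ℓ : ℕ) [NeZero ℓ]

/-- The point `(z + j) / ℓ` of the upper half plane. -/
def s29q_div (j : ℕ) (z : ℍ) : ℍ :=
  ⟨((z : ℂ) + j) / ℓ, by
    have hℓ : (0 : ℝ) < ℓ := Nat.cast_pos.mpr (NeZero.pos ℓ)
    have : (((z : ℂ) + j) / ℓ).im = z.im / ℓ := by
      rw [Complex.div_natCast_im]
      simp
    rw [this]
    exact div_pos z.im_pos hℓ⟩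

@[simp] theorem s29q_div_coe (j : ℕ) (z : ℍ) :
    ((s29q_div ℓ j z : ℍ) : ℂ) = ((z : ℂ) + j) / ℓ := rfl

theorem s29q_div_im (j : ℕ) (z : ℍ) : (s29q_div ℓ j z).im = z.im / ℓ := by
  show (((z : ℂ) + j) / ℓ).im = _
  rw [Complex.div_natCast_im]
  simp

theorem s29q_div_ofComplex (j : ℕ) {w : ℂ} (hw : 0 < w.im) :
    s29q_div ℓ j (ofComplex w) = ofComplex ((w + j) / ℓ) := by
  have hℓ : (0 : ℝ) < ℓ := Nat.cast_pos.mpr (NeZero.pos ℓ)
  have hw' : 0 < ((w + j) / ℓ).im := by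
    rw [Complex.div_natCast_im]
    simpa using div_pos hw hℓ
  apply UpperHalfPlane.ext
  rw [s29q_div_coe, ofComplex_apply_of_im_pos hw, ofComplex_apply_of_im_pos hw']

/-- `(ℓ z + j) / ℓ = j / ℓ + z`. -/
theorem s29q_div_dmul (j : ℕ) (z : ℍ) :
    s29q_div ℓ j (ffb_dmul ℓ z) = ((j : ℝ) / (ℓ : ℝ)) +ᵥ z := by
  have hℓ : (ℓ : ℂ) ≠ 0 := Nat.cast_ne_zero.mpr (NeZero.ne ℓ)
  apply UpperHalfPlane.ext
  rw [s29q_div_coe, ffb_dmul_coe, UpperHalfPlane.coe_vadd]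
  push_cast
  field_simp
  ring

/-- `(1 + z + j) / ℓ = (z + (j + 1)) / ℓ`. -/
theorem s29q_div_vadd_one (j : ℕ) (z : ℍ) :
    s29q_div ℓ j ((1 : ℝ) +ᵥ z) = s29q_div ℓ (j + 1) z := by
  apply UpperHalfPlane.ext
  rw [s29q_div_coe, s29q_div_coe, UpperHalfPlane.coe_vadd]
  push_cast
  ring

/-- `(z + ℓ) / ℓ = 1 + z / ℓ`. -/
theorem s29q_div_self (z : ℍ) : s29q_div ℓ ℓ z = (1 : ℝ) +ᵥ s29q_div ℓ 0 z := by
  have hℓ : (ℓ : ℂ) ≠ 0 := Nat.cast_ne_zero.mpr (NeZero.ne ℓ)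
  apply UpperHalfPlane.ext
  rw [UpperHalfPlane.coe_vadd, s29q_div_coe, s29q_div_coe]
  push_cast
  field_simp
  ring

theorem s29q_mdiff_comp_div (j : ℕ) {f : ℍ → ℂ} (hf : MDiff f) :
    MDiff (fun z => f (s29q_div ℓ j z)) := by
  have hℓ : (0 : ℝ) < ℓ := Nat.cast_pos.mpr (NeZero.pos ℓ)
  rw [UpperHalfPlane.mdifferentiable_iff]
  have h1 : DifferentiableOn ℂ (f ∘ ofComplex) {z | 0 < z.im} :=
    UpperHalfPlane.mdifferentiable_iff.mp hf
  have h2 : DifferentiableOn ℂ ((f ∘ ofComplex) ∘ fun w : ℂ => (w + j) / ℓ) {z | 0 < z.im} := by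
    refine h1.comp (by fun_prop) fun w hw => ?_
    show 0 < ((w + j) / ℓ).im
    rw [Complex.div_natCast_im]
    simpa using div_pos hw hℓ
  refine h2.congr fun w hw => ?_
  simp only [Function.comp_apply]
  rw [s29q_div_ofComplex ℓ j hw]

theorem s29q_bdd_comp_div (j : ℕ) {f : ℍ → ℂ} (hf : IsBoundedAtImInfty f) :
    IsBoundedAtImInfty (fun z => f (s29q_div ℓ j z)) := by
  have hℓ : (0 : ℝ) < ℓ := Nat.cast_pos.mpr (NeZero.pos ℓ)
  obtain ⟨C, A, h⟩ := isBoundedAtImInfty_iff.mp hf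
  rw [isBoundedAtImInfty_iff]
  refine ⟨C, ℓ * A, fun z hz => h _ ?_⟩
  rw [s29q_div_im, le_div_iff₀ hℓ]
  linarith

/-- The product `P_f(z) = ∏_{j<ℓ} f ((z + j) / ℓ)`. -/
def s29q_P (f : ℍ → ℂ) : ℍ → ℂ := fun z => ∏ j ∈ Finset.range ℓ, f (s29q_div ℓ j z)

theorem s29q_P_apply (f : ℍ → ℂ) (z : ℍ) :
    s29q_P ℓ f z = ∏ j ∈ Finset.range ℓ, f (s29q_div ℓ j z) := rfl

theorem s29q_P_eq_prod (f : ℍ → ℂ) :
    s29q_P ℓ f = ∏ j ∈ Finset.range ℓ, fun z => f (s29q_div ℓ j z) := by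
  funext z
  rw [s29q_P_apply, Finset.prod_apply]

theorem s29q_P_mul (f g : ℍ → ℂ) : s29q_P ℓ (f * g) = s29q_P ℓ f * s29q_P ℓ g := by
  funext z
  simp only [s29q_P_apply, Pi.mul_apply, Finset.prod_mul_distrib]

theorem s29q_P_pow (f : ℍ → ℂ) (n : ℕ) : s29q_P ℓ (f ^ n) = s29q_P ℓ f ^ n := by
  funext z
  simp only [s29q_P_apply, Pi.pow_apply, Finset.prod_pow]

theorem s29q_mdiff_P {f : ℍ → ℂ} (hf : MDiff f) : MDiff (s29q_P ℓ f) := by
  rw [s29q_P_eq_prod]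
  generalize Finset.range ℓ = s
  induction s using Finset.induction_on with
  | empty =>
    rw [Finset.prod_empty]
    exact mdifferentiable_const
  | insert a s ha ih =>
    rw [Finset.prod_insert ha]
    exact (s29q_mdiff_comp_div ℓ a hf).mul ih

theorem s29q_bdd_P {f : ℍ → ℂ} (hf : IsBoundedAtImInfty f) : IsBoundedAtImInfty (s29q_P ℓ f) := by
  rw [s29q_P_eq_prod]
  generalize Finset.range ℓ = s
  induction s using Finset.induction_on with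
  | empty =>
    rw [Finset.prod_empty]
    exact Filter.const_boundedAtFilter _ (1 : ℂ)
  | insert a s ha ih =>
    rw [Finset.prod_insert ha]
    exact (s29q_bdd_comp_div ℓ a hf).mul ih

/-- `P_f` is `1`-periodic if `f` is. -/
theorem s29q_P_vadd_one {f : ℍ → ℂ} (hf : ∀ z : ℍ, f ((1 : ℝ) +ᵥ z) = f z) (z : ℍ) :
    s29q_P ℓ f ((1 : ℝ) +ᵥ z) = s29q_P ℓ f z := by
  obtain ⟨m, hm⟩ : ∃ m, ℓ = m + 1 := ⟨ℓ - 1, by have := NeZero.pos ℓ; omega⟩
  rw [s29q_P_apply, s29q_P_apply]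
  simp only [s29q_div_vadd_one]
  have hr : Finset.range ℓ = Finset.range (m + 1) := by rw [hm]
  rw [hr, Finset.prod_range_succ (fun j => f (s29q_div ℓ (j + 1) z)) m,
    Finset.prod_range_succ' (fun j => f (s29q_div ℓ j z)) m]
  congr 1
  rw [← hm, s29q_div_self ℓ z, hf]

theorem s29q_periodic_of_nice {f : ℍ → ℂ} (hf : ffb_Nice f) (z : ℍ) :
    f ((1 : ℝ) +ᵥ z) = f z := by
  have h := hf.per (z : ℂ)
  simp only [Function.comp_apply] at h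
  have h1 : ofComplex ((z : ℂ) + 1) = (1 : ℝ) +ᵥ z := by
    have := s29q_vadd_ofComplex 1 z.im_pos
    rw [UpperHalfPlane.ofComplex_apply] at this
    rw [this]
    congr 1
    push_cast
    ring
  rw [h1, UpperHalfPlane.ofComplex_apply] at h
  exact h

theorem s29q_periodic_comp_ofComplex {g : ℍ → ℂ} (hg : ∀ z : ℍ, g ((1 : ℝ) +ᵥ z) = g z) :
    Periodic (g ∘ ofComplex) 1 := by
  intro w
  simp only [Function.comp_apply]
  by_cases hw : 0 < w.im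
  · have hw1 : 0 < (w + 1).im := by simpa using hw
    have h1 : ofComplex (w + 1) = (1 : ℝ) +ᵥ ofComplex w := by
      rw [s29q_vadd_ofComplex 1 hw]
      congr 1
      push_cast
      ring
    rw [h1, hg]
  · have hw1 : ¬ 0 < (w + 1).im := by simpa using hw
    rw [ofComplex_apply_of_im_nonpos (not_lt.mp hw),
      ofComplex_apply_of_im_nonpos (not_lt.mp hw1)]

/-- `P_g` is nice if `g` is. -/
theorem s29q_nice_P {g : ℍ → ℂ} (hg : ffb_Nice g) : ffb_Nice (s29q_P ℓ g) where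
  hol := s29q_mdiff_P ℓ hg.hol
  per := s29q_periodic_comp_ofComplex (s29q_P_vadd_one ℓ (s29q_periodic_of_nice hg))
  bdd := s29q_bdd_P ℓ hg.bdd

/-- The constant `ε = ∏_{j<ℓ} exp (2 π i j / ℓ)`. -/
def s29q_eps : ℂ := ∏ j ∈ Finset.range ℓ, cexp (2 * Real.pi * I * ((j : ℂ) / ℓ))

theorem s29q_eps_ne_zero : s29q_eps ℓ ≠ 0 :=
  Finset.prod_ne_zero_iff.mpr fun _ _ => Complex.exp_ne_zero _

/-- `∏_{j<ℓ} q((z + j) / ℓ) = ε · q(z)`. -/
theorem s29q_P_Q : s29q_P ℓ ffb_Q = (fun _ : ℍ => s29q_eps ℓ) * ffb_Q := by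
  have hℓ : (ℓ : ℂ) ≠ 0 := Nat.cast_ne_zero.mpr (NeZero.ne ℓ)
  funext z
  rw [s29q_P_apply, Pi.mul_apply, s29q_eps]
  have h1 : ∀ j ∈ Finset.range ℓ, ffb_Q (s29q_div ℓ j z) =
      cexp (2 * Real.pi * I * ((j : ℂ) / ℓ)) * cexp (2 * Real.pi * I * ((z : ℂ) / ℓ)) := by
    intro j _
    rw [ffb_Q_apply, s29q_div_coe, ← Complex.exp_add]
    congr 1
    ring
  rw [Finset.prod_congr rfl h1, Finset.prod_mul_distrib, Finset.prod_const, Finset.card_range,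
    ← Complex.exp_nat_mul, ffb_Q_apply]
  congr 2
  field_simp

/-- **(B)**: `P_f` has a Laurent expansion if `f` has. -/
theorem s29q_exists_isLaurent_P {f : ℍ → ℂ} {x : LaurentSeries ℂ} (h : ffb_IsLaurent f x) :
    ∃ y : LaurentSeries ℂ, ffb_IsLaurent (s29q_P ℓ f) y := by
  obtain ⟨M, h1, -⟩ := h
  have hn := s29q_nice_P ℓ h1
  rw [s29q_P_mul, s29q_P_pow, s29q_P_Q] at hn
  have e : ffb_Q ^ M * s29q_P ℓ f =
      (fun _ : ℍ => (s29q_eps ℓ ^ M)⁻¹) *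
        (((fun _ : ℍ => s29q_eps ℓ) * ffb_Q) ^ M * s29q_P ℓ f) := by
    funext z
    simp only [Pi.mul_apply, Pi.pow_apply]
    have := s29q_eps_ne_zero ℓ
    rw [mul_pow]
    field_simp
  exact ⟨_, M, e ▸ (ffb_Nice.const _).mul hn, rfl⟩

/-- A finite product of Laurent expansions. -/
theorem s29q_isLaurent_prod {ι : Type*} (s : Finset ι) (f : ι → ℍ → ℂ)
    (x : ι → LaurentSeries ℂ) (h : ∀ i ∈ s, ffb_IsLaurent (f i) (x i)) :
    ffb_IsLaurent (∏ i ∈ s, f i) (∏ i ∈ s, x i) := by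
  classical
  induction s using Finset.induction_on with
  | empty =>
    rw [Finset.prod_empty, Finset.prod_empty]
    have := ffb_IsLaurent.const (1 : ℂ)
    rwa [map_one] at this
  | insert a s ha ih =>
    rw [Finset.prod_insert ha, Finset.prod_insert ha]
    exact (h a (Finset.mem_insert_self a s)).mul (ih fun i hi => h i (Finset.mem_insert_of_mem hi))

/-- The primitive `ℓ`-th root of unity `exp (2 π i / ℓ)` as a unit. -/
def s29q_zeta : ℂˣ := s29q_expUnit ((1 : ℝ) / (ℓ : ℝ))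

theorem s29q_zeta_pow (j : ℕ) : s29q_zeta ℓ ^ j = s29q_expUnit ((j : ℝ) / (ℓ : ℝ)) := by
  apply Units.ext
  rw [Units.val_pow_eq_pow_val, s29q_zeta, s29q_expUnit_coe, s29q_expUnit_coe,
    ← Complex.exp_nat_mul]
  congr 1
  push_cast
  ring

theorem s29q_zeta_coe : ((s29q_zeta ℓ : ℂˣ) : ℂ) = cexp (2 * Real.pi * I / ℓ) := by
  rw [s29q_zeta, s29q_expUnit_coe]
  congr 1
  push_cast
  ring

theorem s29q_zeta_isPrimitiveRoot : IsPrimitiveRoot ((s29q_zeta ℓ : ℂˣ) : ℂ) ℓ := by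
  rw [s29q_zeta_coe]
  exact Complex.isPrimitiveRoot_exp ℓ (NeZero.ne ℓ)

/-- **(C)**: the Laurent expansion `y` of `P_f` satisfies `y(q^ℓ) = ∏_{j<ℓ} x(ζ^j q)`. -/
theorem s29q_qExpand_P {f : ℍ → ℂ} {x y : LaurentSeries ℂ} (h : ffb_IsLaurent f x)
    (hy : ffb_IsLaurent (s29q_P ℓ f) y) :
    qExpand ℂ ℓ y = s37e_prodTw ℓ (s29q_zeta ℓ) x := by
  have h1 : ffb_IsLaurent (fun z => s29q_P ℓ f (ffb_dmul ℓ z)) (qExpand ℂ ℓ y) := hy.comp_dmul ℓ
  have h2 : (fun z => s29q_P ℓ f (ffb_dmul ℓ z)) =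
      ∏ j ∈ Finset.range ℓ, fun z => f (((j : ℝ) / (ℓ : ℝ)) +ᵥ z) := by
    funext z
    rw [s29q_P_apply, Finset.prod_apply]
    exact Finset.prod_congr rfl fun j _ => by rw [s29q_div_dmul]
  have h3 : ffb_IsLaurent (∏ j ∈ Finset.range ℓ, fun z => f (((j : ℝ) / (ℓ : ℝ)) +ᵥ z))
      (∏ j ∈ Finset.range ℓ, s28m_tw (s29q_zeta ℓ ^ j) x) :=
    s29q_isLaurent_prod _ _ _ fun j _ => by
      rw [s29q_zeta_pow]
      exact s29q_isLaurent_vadd _ h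
  rw [h2] at h1
  exact h1.unique h3

/-- The "Hecke product" `z ↦ f (ℓ z) · ∏_{j<ℓ} f ((z + j) / ℓ)`. -/
def s29q_hprodFun (f : ℍ → ℂ) : ℍ → ℂ := (fun z => f (ffb_dmul ℓ z)) * s29q_P ℓ f

theorem s29q_hprodFun_apply (f : ℍ → ℂ) (z : ℍ) :
    s29q_hprodFun ℓ f z = f (ffb_dmul ℓ z) * ∏ j ∈ Finset.range ℓ, f (s29q_div ℓ j z) := rfl

/-- **(Q1), analytic core**: the Hecke product of `f` has a Laurent expansion `y` with
`y(q^ℓ) = x(q^{ℓ²}) · ∏_{j<ℓ} x(ζ^j q)`. -/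
theorem s29q_isLaurent_hprodFun {f : ℍ → ℂ} {x : LaurentSeries ℂ} (h : ffb_IsLaurent f x) :
    ∃ y : LaurentSeries ℂ, ffb_IsLaurent (s29q_hprodFun ℓ f) y ∧
      qExpand ℂ ℓ y = qExpand ℂ ℓ (qExpand ℂ ℓ x) * s37e_prodTw ℓ (s29q_zeta ℓ) x := by
  obtain ⟨y, hy⟩ := s29q_exists_isLaurent_P ℓ h
  refine ⟨qExpand ℂ ℓ x * y, (h.comp_dmul ℓ).mul hy, ?_⟩
  rw [map_mul, s29q_qExpand_P ℓ h hy]

theorem s29q_mdiff_hprodFun {f : ℍ → ℂ} (hf : MDiff f) : MDiff (s29q_hprodFun ℓ f) := by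
  have hd : (0 : ℝ) < ℓ := Nat.cast_pos.mpr (NeZero.pos ℓ)
  refine MDifferentiable.mul ?_ (s29q_mdiff_P ℓ hf)
  rw [UpperHalfPlane.mdifferentiable_iff]
  have h1 : DifferentiableOn ℂ (f ∘ ofComplex) {z | 0 < z.im} :=
    UpperHalfPlane.mdifferentiable_iff.mp hf
  have h2 : DifferentiableOn ℂ ((f ∘ ofComplex) ∘ fun w : ℂ => (ℓ : ℂ) * w) {z | 0 < z.im} := by
    refine h1.comp (by fun_prop) fun w hw => ?_
    simpa using mul_pos hd hw
  refine h2.congr fun w hw => ?_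
  simp only [Function.comp_apply]
  rw [ffb_dmul_ofComplex ℓ hw]

end

end Fermat.Agent.Lib.S29
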