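/-
Plan K (S29), package [EQ] (helper6), part 3: the Hecke product over the coset representatives
`α_x = heckeRep ℓ x`, `x ∈ ℙ¹(𝔽_ℓ)`, and its multiplier.

* `s29q_hprod ℓ u z = ∏_x u (α_x • z)`; it equals the explicit `s29q_hprodFun ℓ u` of part 2.
* **(Q2)** if `u (γ • z) = m γ * u z` for `γ` in a set `S` (e.g. `Γ₀(N)`), and
  `α_x γ = γ'_x α_{σ x}` with `γ'_x ∈ S`, then
  `(s29q_hprod ℓ u) (γ • z) = (∏_x m (γ'_x)) * s29q_hprod ℓ u z`.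
-/
import Fermat.Agent.Lib.S29.EQProd
import Fermat.Agent.Lib.ES.HeckeFamilies

set_option autoImplicit false
set_option linter.unusedSectionVars false

namespace Fermat.Agent.Lib.S29

open UpperHalfPlane hiding I
open Complex Filter Topology ModularForm Function ModularCurve Matrix.SpecialLinearGroup
open Fermat.Agent.Lib.FF Fermat.Agent.Lib.S28 Fermat.Agent.Lib.S37 Fermat.Agent.Lib.ES
open P2MW.S_ModularForm_heckeT_slash_eq_self_of_mem_Gamma0.ModularForm.HeckeSlashInvariance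
open scoped Manifold MatrixGroups OnePoint

noncomputable section

variable (ℓ : ℕ) [hℓ : Fact ℓ.Prime]

instance s29q_neZero : NeZero ℓ := ⟨hℓ.out.ne_zero⟩

/-- The Hecke product `z ↦ ∏_{x ∈ ℙ¹(𝔽_ℓ)} u (α_x • z)`. -/
def s29q_hprod (u : ℍ → ℂ) : ℍ → ℂ := fun z => ∏ x : OnePoint (ZMod ℓ), u (heckeRep ℓ x • z)

theorem s29q_hprod_apply (u : ℍ → ℂ) (z : ℍ) :
    s29q_hprod ℓ u z = ∏ x : OnePoint (ZMod ℓ), u (heckeRep ℓ x • z) := rfl

theorem s29q_heckeMatrix_smul (j : ℕ) (z : ℍ) : heckeMatrix ℓ j • z = s29q_div ℓ j z := by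
  apply UpperHalfPlane.ext
  rw [coe_heckeMatrix_smul hℓ.out.ne_zero, s29q_div_coe]

theorem s29q_heckeDiagMatrix_smul (z : ℍ) : heckeDiagMatrix ℓ • z = ffb_dmul ℓ z := by
  apply UpperHalfPlane.ext
  rw [coe_heckeDiagMatrix_smul hℓ.out.ne_zero, ffb_dmul_coe]

theorem s29q_prod_range_eq_prod_zmod {M : Type*} [CommMonoid M] (F : ℕ → M) :
    ∏ j ∈ Finset.range ℓ, F j = ∏ x : ZMod ℓ, F x.val := by
  refine Finset.prod_nbij' (fun j : ℕ ↦ (j : ZMod ℓ)) (fun x : ZMod ℓ ↦ x.val)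
    (fun _ _ ↦ Finset.mem_univ _) (fun x _ ↦ Finset.mem_range.mpr x.val_lt) (fun j hj ↦ ?_)
    (fun x _ ↦ ?_) (fun j hj ↦ ?_)
  · exact ZMod.val_cast_of_lt (Finset.mem_range.mp hj)
  · exact ZMod.natCast_zmod_val x
  · rw [ZMod.val_cast_of_lt (Finset.mem_range.mp hj)]

/-- The Hecke product over `ℙ¹(𝔽_ℓ)` is the explicit product of part 2. -/
theorem s29q_hprod_eq_hprodFun (u : ℍ → ℂ) : s29q_hprod ℓ u = s29q_hprodFun ℓ u := by
  funext z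
  rw [s29q_hprod_apply, s29q_hprodFun_apply]
  refine (Fintype.prod_option (fun x : OnePoint (ZMod ℓ) ↦ u (heckeRep ℓ x • z))).trans ?_
  congr 1
  · show u (heckeDiagMatrix ℓ • z) = _
    rw [s29q_heckeDiagMatrix_smul]
  · rw [s29q_prod_range_eq_prod_zmod]
    refine Finset.prod_congr rfl fun j _ => ?_
    show u (heckeMatrix ℓ j.val • z) = _
    rw [s29q_heckeMatrix_smul]

/-- From the integral coset identity to the identity in `GL₂(ℝ)`. -/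
theorem s29q_heckeRep_mul_of_Z (γ γ' : SL(2, ℤ)) (x y : OnePoint (ZMod ℓ))
    (h : heckeRepZ ℓ x * (γ : Matrix (Fin 2) (Fin 2) ℤ) =
      (γ' : Matrix (Fin 2) (Fin 2) ℤ) * heckeRepZ ℓ y) :
    heckeRep ℓ x * mapGL ℝ γ = mapGL ℝ γ' * heckeRep ℓ y := by
  apply Units.ext
  rw [Units.val_mul, Units.val_mul, coe_heckeRep_eq_map hℓ.out.ne_zero,
    coe_heckeRep_eq_map hℓ.out.ne_zero, coe_mapGL_eq_map, coe_mapGL_eq_map,
    ← Matrix.map_mul_intCast, ← Matrix.map_mul_intCast, h]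

/-- **(Q2)** the multiplier of the Hecke product. -/
theorem s29q_hprod_smul (u : ℍ → ℂ) (m : SL(2, ℤ) → ℂ) (S : Set SL(2, ℤ))
    (hu : ∀ γ ∈ S, ∀ z : ℍ, u (γ • z) = m γ * u z)
    (γ : SL(2, ℤ)) (γ' : OnePoint (ZMod ℓ) → SL(2, ℤ)) (σ : Equiv.Perm (OnePoint (ZMod ℓ)))
    (hγ' : ∀ x, γ' x ∈ S)
    (hmul : ∀ x, heckeRepZ ℓ x * (γ : Matrix (Fin 2) (Fin 2) ℤ) =
      (γ' x : Matrix (Fin 2) (Fin 2) ℤ) * heckeRepZ ℓ (σ x))
    (z : ℍ) :
    s29q_hprod ℓ u (γ • z) = (∏ x : OnePoint (ZMod ℓ), m (γ' x)) * s29q_hprod ℓ u z := by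
  rw [s29q_hprod_apply, s29q_hprod_apply, ← Equiv.prod_comp σ (fun x => u (heckeRep ℓ x • z)),
    ← Finset.prod_mul_distrib]
  refine Finset.prod_congr rfl fun x _ => ?_
  have h1 : heckeRep ℓ x • (γ • z) = γ' x • (heckeRep ℓ (σ x) • z) := by
    rw [ModularGroup.sl_moeb γ z, ModularGroup.sl_moeb (γ' x), ← mul_smul, ← mul_smul]
    congr 1
    exact s29q_heckeRep_mul_of_Z ℓ γ (γ' x) x (σ x) (hmul x)
  rw [h1, hu _ (hγ' x)]

/-- Invariance of the Hecke product of a `Γ₀(N)`-invariant function, `ℓ ∤ N`. -/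
theorem s29q_hprod_invariant {N : ℕ} (hℓN : ¬ ℓ ∣ N) (u : ℍ → ℂ)
    (hu : ∀ γ ∈ CongruenceSubgroup.Gamma0 N, ∀ z : ℍ, u (γ • z) = u z)
    (γ : SL(2, ℤ)) (hγ : γ ∈ CongruenceSubgroup.Gamma0 N) (z : ℍ) :
    s29q_hprod ℓ u (γ • z) = s29q_hprod ℓ u z := by
  obtain ⟨γ', h1, h2⟩ := exists_family_heckeRepZ hℓN γ hγ
  have := s29q_hprod_smul ℓ u (fun _ => 1) (CongruenceSubgroup.Gamma0 N : Set SL(2, ℤ))
    (fun δ hδ z => by rw [one_mul]; exact hu δ hδ z) γ γ' (heckePermT ℓ γ) h1 h2 z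
  rw [this, Finset.prod_const_one, one_mul]

end

end Fermat.Agent.Lib.S29
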