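import Mathlib

/-!
# Plan K (S29), analytic input 1: Eisenstein series with a (non-congruence) character

For a weight function `c : (Fin 2 → ℤ) → ℂ` with `‖c v‖ ≤ 1` we study the weighted Eisenstein sum
`s29e_wE c k z = ∑' v, c v * (v 0 * z + v 1) ^ (-k)` (`k ≥ 3`): absolute convergence, holomorphy,
the slash action of `SL(2, ℤ)` (which only moves the weight function), periodicity, boundedness at
`i∞` of all slash translates and the limit at `i∞`.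

For a subgroup `Γ ≤ SL(2, ℤ)` and a unitary character `χ : Γ →* ℂˣ` which is trivial on the
elements of `Γ` with lower-left entry `0`, the weight function `s29e_coef Γ χ` (value `χ(γ)⁻¹` on the
bottom row of `γ ∈ Γ`, zero elsewhere) gives the Eisenstein series with character
`s29e_E Γ χ k`, which satisfies `E (γ • z) = χ γ * denom γ z ^ k * E z` for `γ ∈ Γ`, and tends to
`1 + (-1)^k·[−1 ∈ Γ]`-type constants at `i∞`; in particular it is not identically zero for even `k`.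
-/

set_option autoImplicit false
set_option linter.unusedSectionVars false
set_option linter.style.haveILetI false

noncomputable section

namespace Fermat.Agent.Lib.S29

open ModularForm UpperHalfPlane Matrix CongruenceSubgroup EisensteinSeries Filter Topology Complex
open scoped MatrixGroups Manifold

/-! ### Weighted Eisenstein sums -/

/-- The weighted Eisenstein sum `∑' v, c v * (v 0 * z + v 1) ^ (-k)`. -/
def s29e_wE (c : (Fin 2 → ℤ) → ℂ) (k : ℤ) (z : ℍ) : ℂ :=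
  ∑' v : Fin 2 → ℤ, c v * eisSummand k v z

theorem s29e_norm_term_le {c : (Fin 2 → ℤ) → ℂ} (hc : ∀ v, ‖c v‖ ≤ 1) (k : ℤ) (v : Fin 2 → ℤ)
    (z : ℍ) : ‖c v * eisSummand k v z‖ ≤ ‖eisSummand k v z‖ := by
  rw [norm_mul]
  exact mul_le_of_le_one_left (norm_nonneg _) (hc v)

theorem s29e_summable_norm {c : (Fin 2 → ℤ) → ℂ} (hc : ∀ v, ‖c v‖ ≤ 1) {k : ℤ} (hk : 3 ≤ k)
    (z : ℍ) : Summable fun v : Fin 2 → ℤ => ‖c v * eisSummand k v z‖ :=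
  (summable_norm_eisSummand hk z).of_nonneg_of_le (fun _ => norm_nonneg _)
    (fun v => s29e_norm_term_le hc k v z)

theorem s29e_summable {c : (Fin 2 → ℤ) → ℂ} (hc : ∀ v, ‖c v‖ ≤ 1) {k : ℤ} (hk : 3 ≤ k)
    (z : ℍ) : Summable fun v : Fin 2 → ℤ => c v * eisSummand k v z :=
  (s29e_summable_norm hc hk z).of_norm

theorem s29e_coe_mul_inv (σ : SL(2, ℤ)) :
    (σ : Matrix (Fin 2) (Fin 2) ℤ) * ((σ⁻¹ : SL(2, ℤ)) : Matrix (Fin 2) (Fin 2) ℤ) = 1 := by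
  have h1 : ((σ * σ⁻¹ : SL(2, ℤ)) : Matrix (Fin 2) (Fin 2) ℤ) = 1 := by
    rw [mul_inv_cancel]; rfl
  exact h1

theorem s29e_vecMul_mul_inv (σ : SL(2, ℤ)) (v : Fin 2 → ℤ) :
    (v ᵥ* (σ : Matrix (Fin 2) (Fin 2) ℤ)) ᵥ* ((σ⁻¹ : SL(2, ℤ)) : Matrix (Fin 2) (Fin 2) ℤ) = v :=
  calc (v ᵥ* (σ : Matrix (Fin 2) (Fin 2) ℤ)) ᵥ* ((σ⁻¹ : SL(2, ℤ)) : Matrix (Fin 2) (Fin 2) ℤ)
      = v ᵥ* ((σ : Matrix (Fin 2) (Fin 2) ℤ) * ((σ⁻¹ : SL(2, ℤ)) : Matrix (Fin 2) (Fin 2) ℤ)) :=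
        vecMul_vecMul _ _ _
    _ = v ᵥ* (1 : Matrix (Fin 2) (Fin 2) ℤ) :=
        congrArg (fun M => v ᵥ* M) (s29e_coe_mul_inv σ)
    _ = v := vecMul_one v

theorem s29e_vecMul_inv_mul (σ : SL(2, ℤ)) (v : Fin 2 → ℤ) :
    (v ᵥ* ((σ⁻¹ : SL(2, ℤ)) : Matrix (Fin 2) (Fin 2) ℤ)) ᵥ* (σ : Matrix (Fin 2) (Fin 2) ℤ) = v := by
  have h := s29e_vecMul_mul_inv σ⁻¹ v
  rwa [inv_inv] at h

theorem s29e_vecMul_mul (σ τ : SL(2, ℤ)) (v : Fin 2 → ℤ) :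
    (v ᵥ* (σ : Matrix (Fin 2) (Fin 2) ℤ)) ᵥ* (τ : Matrix (Fin 2) (Fin 2) ℤ) =
      v ᵥ* ((σ * τ : SL(2, ℤ)) : Matrix (Fin 2) (Fin 2) ℤ) :=
  vecMul_vecMul _ _ _

/-- Right multiplication by `σ ∈ SL(2, ℤ)` as a permutation of `ℤ²`. -/
def s29e_vecMulEquiv (σ : SL(2, ℤ)) : (Fin 2 → ℤ) ≃ (Fin 2 → ℤ) where
  toFun v := v ᵥ* (↑σ : Matrix (Fin 2) (Fin 2) ℤ)
  invFun v := v ᵥ* (↑(σ⁻¹ : SL(2, ℤ)) : Matrix (Fin 2) (Fin 2) ℤ)
  left_inv v := s29e_vecMul_mul_inv σ v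
  right_inv v := s29e_vecMul_inv_mul σ v

@[simp] theorem s29e_vecMulEquiv_apply (σ : SL(2, ℤ)) (v : Fin 2 → ℤ) :
    s29e_vecMulEquiv σ v = v ᵥ* (↑σ : Matrix (Fin 2) (Fin 2) ℤ) := rfl

@[simp] theorem s29e_vecMulEquiv_symm_apply (σ : SL(2, ℤ)) (v : Fin 2 → ℤ) :
    (s29e_vecMulEquiv σ).symm v = v ᵥ* (↑(σ⁻¹ : SL(2, ℤ)) : Matrix (Fin 2) (Fin 2) ℤ) := rfl

/-- The value of a weighted Eisenstein sum at `σ • z`. -/
theorem s29e_wE_smul (c : (Fin 2 → ℤ) → ℂ) (k : ℤ) (σ : SL(2, ℤ)) (z : ℍ) :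
    s29e_wE c k (σ • z) =
      denom (SpecialLinearGroup.toGL ((SpecialLinearGroup.map (Int.castRingHom ℝ)) σ)) ↑z ^ k *
        s29e_wE (fun v => c (v ᵥ* (↑(σ⁻¹ : SL(2, ℤ)) : Matrix (Fin 2) (Fin 2) ℤ))) k z := by
  unfold s29e_wE
  rw [← tsum_mul_left]
  rw [← (s29e_vecMulEquiv σ).tsum_eq (fun v => _ * (c (v ᵥ* (↑(σ⁻¹ : SL(2, ℤ)) : Matrix (Fin 2) (Fin 2) ℤ)) *
    eisSummand k v z))]
  refine tsum_congr fun v => ?_
  rw [eisSummand_SL2_apply, s29e_vecMulEquiv_apply, s29e_vecMul_mul_inv]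
  ring

/-- **Slash action**: it only moves the weight function. -/
theorem s29e_wE_slash (c : (Fin 2 → ℤ) → ℂ) (k : ℤ) (σ : SL(2, ℤ)) :
    s29e_wE c k ∣[k] σ = s29e_wE (fun v => c (v ᵥ* (↑(σ⁻¹ : SL(2, ℤ)) : Matrix (Fin 2) (Fin 2) ℤ))) k := by
  ext z
  rw [SL_slash_apply, s29e_wE_smul, mul_comm, ← mul_assoc, _root_.zpow_neg,
    inv_mul_cancel₀ (zpow_ne_zero _ (denom_ne_zero _ z)), one_mul]

/-! ### Holomorphy -/

/-- The weighted Eisenstein sum converges locally uniformly on `ℍ`. -/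
theorem s29e_wE_tendstoLocallyUniformly {c : (Fin 2 → ℤ) → ℂ} (hc : ∀ v, ‖c v‖ ≤ 1) {k : ℤ}
    (hk : 3 ≤ k) :
    TendstoLocallyUniformly (fun (s : Finset (Fin 2 → ℤ)) ↦ (∑ v ∈ s, c v * eisSummand k v ·))
      (s29e_wE c k ·) Filter.atTop := by
  have hk' : (2 : ℝ) < k := by norm_cast
  have p_sum : Summable fun x : Fin 2 → ℤ ↦ ‖x‖ ^ (-k) :=
    mod_cast (summable_one_div_norm_rpow hk')
  simp only [tendstoLocallyUniformly_iff_forall_isCompact, s29e_wE]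
  intro K hK
  obtain ⟨A, B, hB, HABK⟩ := subset_verticalStrip_of_isCompact hK
  refine (tendstoUniformlyOn_tsum (hu := p_sum.mul_left <| r ⟨⟨A, B⟩, hB⟩ ^ (-k : ℝ))
    (fun p z hz ↦ ?_)).mono HABK
  refine (s29e_norm_term_le hc k p z).trans ?_
  simpa only [eisSummand, one_div, ← _root_.zpow_neg, norm_zpow, ← Real.rpow_intCast,
    Int.cast_neg] using summand_bound_of_mem_verticalStrip (by positivity) p hB hz

/-- Variant on `{z : ℂ | 0 < z.im}`. -/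
theorem s29e_wE_tendstoLocallyUniformlyOn {c : (Fin 2 → ℤ) → ℂ} (hc : ∀ v, ‖c v‖ ≤ 1) {k : ℤ}
    (hk : 3 ≤ k) :
    TendstoLocallyUniformlyOn (fun (s : Finset (Fin 2 → ℤ)) ↦
      ↑ₕ(fun (z : ℍ) ↦ ∑ v ∈ s, c v * eisSummand k v z)) (↑ₕ(s29e_wE c k))
        Filter.atTop {z : ℂ | 0 < z.im} := by
  rw [← upperHalfPlaneSet, ← range_coe, ← Set.image_univ]
  apply TendstoLocallyUniformlyOn.comp (s := ⊤) _ _ _ (OpenPartialHomeomorph.continuousOn_symm _)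
  · simp only [Set.top_eq_univ, tendstoLocallyUniformlyOn_univ]
    exact s29e_wE_tendstoLocallyUniformly hc hk
  · simp only [IsOpenEmbedding.toOpenPartialHomeomorph_target, Set.top_eq_univ,
      Set.mapsTo_range_iff, Set.mem_univ, forall_const]

/-- **Holomorphy** of the weighted Eisenstein sum. -/
theorem s29e_wE_mdifferentiable {c : (Fin 2 → ℤ) → ℂ} (hc : ∀ v, ‖c v‖ ≤ 1) {k : ℤ}
    (hk : 3 ≤ k) : MDiff (s29e_wE c k) := by
  intro τ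
  suffices DifferentiableAt ℂ (↑ₕ(s29e_wE c k)) τ.1 by
    convert!
      MDifferentiableAt.comp τ (DifferentiableAt.mdifferentiableAt this) τ.mdifferentiable_coe
    exact funext fun z ↦ (comp_ofComplex (s29e_wE c k) z).symm
  refine DifferentiableOn.differentiableAt ?_ (isOpen_upperHalfPlaneSet.mem_nhds τ.2)
  refine (s29e_wE_tendstoLocallyUniformlyOn hc hk).differentiableOn
    (Eventually.of_forall fun s ↦ ?_) isOpen_upperHalfPlaneSet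
  have h1 : (↑ₕ(fun (z : ℍ) ↦ ∑ v ∈ s, c v * eisSummand k v z)) =
      fun w : ℂ => ∑ v ∈ s, c v * (↑ₕ(eisSummand k v)) w := by
    funext w
    simp only [Function.comp_apply]
  rw [h1]
  exact DifferentiableOn.fun_sum fun v _ ↦
    (eisSummand_extension_differentiableOn k v).const_mul (c v)

/-! ### Periodicity, boundedness and the limit at `i∞` -/

theorem s29e_vecMul_T_zpow (n : ℤ) (v : Fin 2 → ℤ) :
    v ᵥ* ((ModularGroup.T ^ n : SL(2, ℤ)) : Matrix (Fin 2) (Fin 2) ℤ) =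
      ![v 0, n * v 0 + v 1] := by
  rw [ModularGroup.coe_T_zpow]
  ext i
  fin_cases i <;> simp [vecMul, dotProduct, Fin.sum_univ_two, mul_comm]

theorem s29e_eisSummand_T_zpow (k n : ℤ) (v : Fin 2 → ℤ) (z : ℍ) :
    eisSummand k v (ModularGroup.T ^ n • z) =
      eisSummand k (v ᵥ* ((ModularGroup.T ^ n : SL(2, ℤ)) : Matrix (Fin 2) (Fin 2) ℤ)) z := by
  rw [s29e_vecMul_T_zpow]
  unfold eisSummand
  rw [ModularGroup.coe_T_zpow_smul_eq]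
  congr 1
  simp only [Matrix.cons_val_zero, Matrix.cons_val_one, Int.cast_add, Int.cast_mul]
  ring

/-- **Periodicity**: a weight function invariant under `T ^ n` gives a `T ^ n`-periodic sum. -/
theorem s29e_wE_T_zpow (c : (Fin 2 → ℤ) → ℂ) (k n : ℤ)
    (hper : ∀ v, c (v ᵥ* (((ModularGroup.T ^ n)⁻¹ : SL(2, ℤ)) : Matrix (Fin 2) (Fin 2) ℤ)) = c v)
    (z : ℍ) : s29e_wE c k (ModularGroup.T ^ n • z) = s29e_wE c k z := by
  unfold s29e_wE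
  rw [← (s29e_vecMulEquiv (ModularGroup.T ^ n)).tsum_eq (fun v => c v * eisSummand k v z)]
  refine tsum_congr fun v => ?_
  rw [s29e_eisSummand_T_zpow, s29e_vecMulEquiv_apply]
  congr 1
  rw [← hper (v ᵥ* ((ModularGroup.T ^ n : SL(2, ℤ)) : Matrix (Fin 2) (Fin 2) ℤ)),
    s29e_vecMul_mul_inv]

/-- Uniform bound on a vertical strip. -/
theorem s29e_wE_norm_le_of_mem_verticalStrip {c : (Fin 2 → ℤ) → ℂ} (hc : ∀ v, ‖c v‖ ≤ 1)
    {k : ℤ} (hk : 3 ≤ k) {A B : ℝ} (hB : 0 < B) {z : ℍ} (hz : z ∈ verticalStrip A B) :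
    ‖s29e_wE c k z‖ ≤ ∑' x : Fin 2 → ℤ, r ⟨⟨A, B⟩, hB⟩ ^ (-k) * ‖x‖ ^ (-k) := by
  have hk' : (2 : ℝ) < k := by norm_cast
  have hk0 : (0 : ℝ) ≤ k := (lt_trans two_pos hk').le
  have hsum : Summable fun x : Fin 2 → ℤ => r ⟨⟨A, B⟩, hB⟩ ^ (-k) * ‖x‖ ^ (-k) := by
    exact_mod_cast (summable_one_div_norm_rpow hk').mul_left <| r ⟨⟨A, B⟩, hB⟩ ^ (-k)
  refine (norm_tsum_le_tsum_norm (s29e_summable_norm hc hk z)).trans ?_
  refine (s29e_summable_norm hc hk z).tsum_le_tsum (fun x => ?_) hsum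
  refine (s29e_norm_term_le hc k x z).trans ?_
  simp_rw [eisSummand, norm_zpow]
  exact_mod_cast summand_bound_of_mem_verticalStrip hk0 x hB hz

/-- **Boundedness at `i∞`** of a periodic weighted Eisenstein sum. -/
theorem s29e_wE_isBoundedAtImInfty {c : (Fin 2 → ℤ) → ℂ} (hc : ∀ v, ‖c v‖ ≤ 1) {k : ℤ}
    (hk : 3 ≤ k) {w : ℕ} (hw : 0 < w)
    (hper : ∀ (m : ℤ) (v : Fin 2 → ℤ),
      c (v ᵥ* (((ModularGroup.T ^ ((w : ℤ) * m))⁻¹ : SL(2, ℤ)) : Matrix (Fin 2) (Fin 2) ℤ)) =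
        c v) :
    IsBoundedAtImInfty (s29e_wE c k) := by
  rw [UpperHalfPlane.isBoundedAtImInfty_iff]
  refine ⟨∑' x : Fin 2 → ℤ, r ⟨⟨w, 2⟩, Nat.ofNat_pos⟩ ^ (-k) * ‖x‖ ^ (-k), 2, fun z hz => ?_⟩
  obtain ⟨m, hm⟩ := ModularGroup_T_zpow_mem_verticalStrip z hw
  rw [← s29e_wE_T_zpow c k ((w : ℤ) * m) (hper m) z]
  exact s29e_wE_norm_le_of_mem_verticalStrip hc hk two_pos (verticalStrip_anti_right w hz hm)

/-- The termwise limit at `i∞`. -/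
theorem s29e_term_tendsto (c : (Fin 2 → ℤ) → ℂ) {k : ℤ} (hk : 1 ≤ k) (v : Fin 2 → ℤ) :
    Tendsto (fun z : ℍ => c v * eisSummand k v z) atImInfty
      (𝓝 (if v 0 = 0 then c v * (v 1 : ℂ) ^ (-k) else 0)) := by
  by_cases hv : v 0 = 0
  · rw [if_pos hv]
    have : (fun z : ℍ => c v * eisSummand k v z) = fun _ => c v * (v 1 : ℂ) ^ (-k) := by
      funext z
      simp [eisSummand, hv]
    rw [this]
    exact tendsto_const_nhds
  · rw [if_neg hv]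
    rw [← mul_zero (c v)]
    refine Tendsto.const_mul (c v) ?_
    rw [tendsto_zero_iff_norm_tendsto_zero]
    have him : Tendsto (fun z : ℍ => z.im) atImInfty atTop := tendsto_comap
    have h0 : Tendsto (fun z : ℍ => (z.im) ^ (-k)) atImInfty (𝓝 0) :=
      (tendsto_zpow_atTop_zero (by omega : -k < 0)).comp him
    refine squeeze_zero' (Eventually.of_forall fun z => norm_nonneg _) ?_ h0
    have hev : ∀ᶠ z : ℍ in atImInfty, (1 : ℝ) ≤ z.im :=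
      (atImInfty_mem _).mpr ⟨1, fun z hz => hz⟩
    filter_upwards [hev] with z hz
    have h1 : z.im ≤ ‖(v 0 : ℂ) * (z : ℂ) + (v 1 : ℂ)‖ := by
      have h2 : |((v 0 : ℂ) * (z : ℂ) + (v 1 : ℂ)).im| ≤ ‖(v 0 : ℂ) * (z : ℂ) + (v 1 : ℂ)‖ :=
        Complex.abs_im_le_norm _
      have h3 : ((v 0 : ℂ) * (z : ℂ) + (v 1 : ℂ)).im = (v 0 : ℝ) * z.im := by
        simp
      rw [h3, abs_mul, abs_of_pos z.im_pos] at h2
      have h4 : (1 : ℝ) ≤ |(v 0 : ℝ)| := by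
        have : (1 : ℤ) ≤ |v 0| := Int.one_le_abs hv
        exact_mod_cast this
      calc z.im = 1 * z.im := (one_mul _).symm
        _ ≤ |(v 0 : ℝ)| * z.im := mul_le_mul_of_nonneg_right h4 z.im_pos.le
        _ ≤ _ := h2
    rw [eisSummand, norm_zpow, _root_.zpow_neg, _root_.zpow_neg]
    have hpos : 0 < z.im ^ k := zpow_pos z.im_pos k
    refine inv_anti₀ hpos ?_
    lift k to ℕ using (by omega : 0 ≤ k)
    simp only [zpow_natCast]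
    exact pow_le_pow_left₀ z.im_pos.le h1 k

/-- **The limit at `i∞`** of a periodic weighted Eisenstein sum: only the terms with `v 0 = 0`
survive. -/
theorem s29e_wE_tendsto_atImInfty {c : (Fin 2 → ℤ) → ℂ} (hc : ∀ v, ‖c v‖ ≤ 1) {k : ℤ}
    (hk : 3 ≤ k) {w : ℕ} (hw : 0 < w)
    (hper : ∀ (m : ℤ) (v : Fin 2 → ℤ),
      c (v ᵥ* (((ModularGroup.T ^ ((w : ℤ) * m))⁻¹ : SL(2, ℤ)) : Matrix (Fin 2) (Fin 2) ℤ)) =
        c v) :
    Tendsto (s29e_wE c k) atImInfty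
      (𝓝 (∑' v : Fin 2 → ℤ, if v 0 = 0 then c v * (v 1 : ℂ) ^ (-k) else 0)) := by
  have hk' : (2 : ℝ) < k := by norm_cast
  have hk0 : (0 : ℝ) ≤ k := (lt_trans two_pos hk').le
  set L : ℂ := ∑' v : Fin 2 → ℤ, if v 0 = 0 then c v * (v 1 : ℂ) ^ (-k) else 0 with hL
  -- Step 1: convergence along the strip.
  have hsum : Summable fun x : Fin 2 → ℤ => r ⟨⟨w, 1⟩, one_pos⟩ ^ (-k) * ‖x‖ ^ (-k) := by
    exact_mod_cast (summable_one_div_norm_rpow hk').mul_left <| r ⟨⟨w, 1⟩, one_pos⟩ ^ (-k)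
  have hstrip : Tendsto (s29e_wE c k) (atImInfty ⊓ 𝓟 (verticalStrip w 1)) (𝓝 L) := by
    refine tendsto_tsum_of_dominated_convergence hsum
      (fun v => (s29e_term_tendsto c (by omega) v).mono_left inf_le_left) ?_
    have : ∀ᶠ z : ℍ in atImInfty ⊓ 𝓟 (verticalStrip w 1), z ∈ verticalStrip w 1 :=
      eventually_inf_principal.mpr (Eventually.of_forall fun z hz => hz)
    filter_upwards [this] with z hz v
    refine (s29e_norm_term_le hc k v z).trans ?_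
    simp_rw [eisSummand, norm_zpow]
    exact_mod_cast summand_bound_of_mem_verticalStrip hk0 v one_pos hz
  -- Step 2: transfer by periodicity.
  rw [Metric.tendsto_nhds] at hstrip ⊢
  intro ε hε
  have h1 := hstrip ε hε
  rw [eventually_inf_principal, Filter.Eventually, atImInfty_mem] at h1
  obtain ⟨A, hA⟩ := h1
  rw [Filter.Eventually, atImInfty_mem]
  refine ⟨max A 1, fun z hz => ?_⟩
  obtain ⟨m, hm⟩ := ModularGroup_T_zpow_mem_verticalStrip z hw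
  have hz1 : (1 : ℝ) ≤ z.im := (le_max_right A 1).trans hz
  have hzA : A ≤ z.im := (le_max_left A 1).trans hz
  have hmem : ModularGroup.T ^ ((w : ℤ) * m) • z ∈ verticalStrip w 1 :=
    verticalStrip_anti_right w hz1 hm
  have him : (ModularGroup.T ^ ((w : ℤ) * m) • z).im = z.im := ModularGroup.im_T_zpow_smul z _
  have h2 := hA (ModularGroup.T ^ ((w : ℤ) * m) • z) (by rw [him]; exact hzA) hmem
  rwa [s29e_wE_T_zpow c k ((w : ℤ) * m) (hper m) z] at h2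

/-! ### The weight function of a character and the Eisenstein series with character -/

section Character

variable (Γ : Subgroup SL(2, ℤ)) (χ : Γ →* ℂˣ)

/-- The bottom row of a matrix in `SL(2, ℤ)`, as `![0, 1] ᵥ* γ`. -/
def s29e_row (γ : SL(2, ℤ)) : Fin 2 → ℤ := ![0, 1] ᵥ* (γ : Matrix (Fin 2) (Fin 2) ℤ)

theorem s29e_row_apply (γ : SL(2, ℤ)) : s29e_row γ = ![γ 1 0, γ 1 1] := by
  unfold s29e_row
  ext i
  fin_cases i <;> simp [vecMul, dotProduct, Fin.sum_univ_two]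

theorem s29e_row_one : s29e_row 1 = ![0, 1] := by
  rw [s29e_row_apply]
  simp

theorem s29e_row_mul (γ γ' : SL(2, ℤ)) :
    s29e_row (γ * γ') = s29e_row γ ᵥ* (γ' : Matrix (Fin 2) (Fin 2) ℤ) := by
  unfold s29e_row
  exact (vecMul_vecMul _ _ _).symm

/-- If two matrices have the same bottom row, their quotient has bottom row `(0, 1)`. -/
theorem s29e_row_mul_inv_of_row_eq {γ₁ γ₂ : SL(2, ℤ)} (h : s29e_row γ₁ = s29e_row γ₂) :
    s29e_row (γ₁ * γ₂⁻¹) = ![0, 1] := by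
  rw [s29e_row_mul, h, ← s29e_row_mul, mul_inv_cancel, s29e_row_one]

open Classical in
/-- The weight function of the character `χ`: the value `χ(γ)⁻¹` on the bottom row of `γ ∈ Γ`,
and `0` on vectors which are not bottom rows of elements of `Γ`. -/
def s29e_coef (v : Fin 2 → ℤ) : ℂ :=
  if h : ∃ γ : Γ, s29e_row (γ : SL(2, ℤ)) = v then (((χ h.choose)⁻¹ : ℂˣ) : ℂ) else 0

variable {Γ χ}

/-- Well-definedness: `χ` trivial on the elements of `Γ` with bottom row `(0, 1)`. -/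
theorem s29e_coef_row (htriv : ∀ γ : Γ, s29e_row (γ : SL(2, ℤ)) = ![0, 1] → χ γ = 1) (γ : Γ) :
    s29e_coef Γ χ (s29e_row (γ : SL(2, ℤ))) = (((χ γ)⁻¹ : ℂˣ) : ℂ) := by
  have h : ∃ γ' : Γ, s29e_row (γ' : SL(2, ℤ)) = s29e_row (γ : SL(2, ℤ)) := ⟨γ, rfl⟩
  unfold s29e_coef
  rw [dif_pos h]
  have h1 : s29e_row ((h.choose * γ⁻¹ : Γ) : SL(2, ℤ)) = ![0, 1] := by
    have := s29e_row_mul_inv_of_row_eq h.choose_spec
    simpa using this
  have h2 : χ (h.choose * γ⁻¹) = 1 := htriv _ h1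
  rw [map_mul, map_inv, mul_inv_eq_one] at h2
  rw [h2]

theorem s29e_coef_of_not_row {v : Fin 2 → ℤ} (h : ¬ ∃ γ : Γ, s29e_row (γ : SL(2, ℤ)) = v) :
    s29e_coef Γ χ v = 0 := by
  unfold s29e_coef
  rw [dif_neg h]

/-- The weight function is bounded by `1` for a unitary character. -/
theorem s29e_norm_coef_le (hunit : ∀ γ : Γ, ‖((χ γ : ℂˣ) : ℂ)‖ = 1) (v : Fin 2 → ℤ) :
    ‖s29e_coef Γ χ v‖ ≤ 1 := by
  unfold s29e_coef
  split_ifs with h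
  · rw [Units.val_inv_eq_inv_val, norm_inv, hunit, inv_one]
  · rw [norm_zero]; exact zero_le_one

/-- **Equivariance of the weight function** under right multiplication by `Γ`. -/
theorem s29e_coef_vecMul_inv (htriv : ∀ γ : Γ, s29e_row (γ : SL(2, ℤ)) = ![0, 1] → χ γ = 1)
    (γ' : Γ) (v : Fin 2 → ℤ) :
    s29e_coef Γ χ (v ᵥ* ((((γ' : SL(2, ℤ)))⁻¹ : SL(2, ℤ)) : Matrix (Fin 2) (Fin 2) ℤ)) =
      ((χ γ' : ℂˣ) : ℂ) * s29e_coef Γ χ v := by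
  by_cases h : ∃ γ : Γ, s29e_row (γ : SL(2, ℤ)) = v
  · obtain ⟨γ, rfl⟩ := h
    have h1 : s29e_row (γ : SL(2, ℤ)) ᵥ*
        ((((γ' : SL(2, ℤ)))⁻¹ : SL(2, ℤ)) : Matrix (Fin 2) (Fin 2) ℤ) =
        s29e_row ((γ * γ'⁻¹ : Γ) : SL(2, ℤ)) := by
      rw [Subgroup.coe_mul, Subgroup.coe_inv, s29e_row_mul]
    rw [h1, s29e_coef_row htriv, s29e_coef_row htriv, map_mul, map_inv, mul_inv, inv_inv,
      Units.val_mul, mul_comm]
  · have h' : ¬ ∃ γ : Γ, s29e_row (γ : SL(2, ℤ)) =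
        v ᵥ* ((((γ' : SL(2, ℤ)))⁻¹ : SL(2, ℤ)) : Matrix (Fin 2) (Fin 2) ℤ) := by
      rintro ⟨γ, hγ⟩
      apply h
      refine ⟨γ * γ', ?_⟩
      rw [Subgroup.coe_mul, s29e_row_mul, hγ, s29e_vecMul_inv_mul]
    rw [s29e_coef_of_not_row h, s29e_coef_of_not_row h', mul_zero]

variable (Γ χ)

/-- **The Eisenstein series of weight `k` with character `χ`** on the subgroup `Γ`. -/
def s29e_E (k : ℤ) : ℍ → ℂ := s29e_wE (s29e_coef Γ χ) k

variable {Γ χ}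

/-- **Transformation law**: `E (γ • z) = χ γ * denom γ z ^ k * E z` for `γ ∈ Γ`. -/
theorem s29e_E_smul (htriv : ∀ γ : Γ, s29e_row (γ : SL(2, ℤ)) = ![0, 1] → χ γ = 1) (k : ℤ)
    (γ : Γ) (z : ℍ) :
    s29e_E Γ χ k ((γ : SL(2, ℤ)) • z) =
      ((χ γ : ℂˣ) : ℂ) *
        denom (SpecialLinearGroup.toGL ((SpecialLinearGroup.map (Int.castRingHom ℝ))
          (γ : SL(2, ℤ)))) ↑z ^ k * s29e_E Γ χ k z := by
  unfold s29e_E
  rw [s29e_wE_smul]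
  have h1 : (fun v => s29e_coef Γ χ
      (v ᵥ* ((((γ : SL(2, ℤ)))⁻¹ : SL(2, ℤ)) : Matrix (Fin 2) (Fin 2) ℤ))) =
      fun v => ((χ γ : ℂˣ) : ℂ) * s29e_coef Γ χ v :=
    funext fun v => s29e_coef_vecMul_inv htriv γ v
  rw [h1]
  unfold s29e_wE
  simp_rw [mul_assoc]
  rw [tsum_mul_left]
  ring

/-- Slash form of the transformation law. -/
theorem s29e_E_slash (htriv : ∀ γ : Γ, s29e_row (γ : SL(2, ℤ)) = ![0, 1] → χ γ = 1) (k : ℤ)
    (γ : Γ) : s29e_E Γ χ k ∣[k] (γ : SL(2, ℤ)) = ((χ γ : ℂˣ) : ℂ) • s29e_E Γ χ k := by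
  ext z
  rw [SL_slash_apply, s29e_E_smul htriv, Pi.smul_apply, smul_eq_mul, mul_assoc, mul_assoc,
    mul_comm (s29e_E Γ χ k z), ← mul_assoc (_ ^ k), _root_.zpow_neg,
    mul_inv_cancel₀ (zpow_ne_zero _ (denom_ne_zero _ z)), one_mul]

/-- **Holomorphy.** -/
theorem s29e_E_mdifferentiable (hunit : ∀ γ : Γ, ‖((χ γ : ℂˣ) : ℂ)‖ = 1) {k : ℤ} (hk : 3 ≤ k) :
    MDiff (s29e_E Γ χ k) :=
  s29e_wE_mdifferentiable (s29e_norm_coef_le hunit) hk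

/-! ### Behaviour at the cusps -/

/-- The slash translate by any `σ ∈ SL(2, ℤ)` is again a weighted Eisenstein sum. -/
theorem s29e_E_slash_SL (k : ℤ) (σ : SL(2, ℤ)) :
    s29e_E Γ χ k ∣[k] σ =
      s29e_wE (fun v => s29e_coef Γ χ
        (v ᵥ* ((σ⁻¹ : SL(2, ℤ)) : Matrix (Fin 2) (Fin 2) ℤ))) k :=
  s29e_wE_slash _ k σ

/-- Invariance of the translated weight function under the stabiliser of the cusp `σ∞`. -/
theorem s29e_coef_cusp_invariant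
    (htriv : ∀ γ : Γ, s29e_row (γ : SL(2, ℤ)) = ![0, 1] → χ γ = 1) (σ τ : SL(2, ℤ))
    (γ₀ : Γ) (hγ₀ : (γ₀ : SL(2, ℤ)) = σ * τ * σ⁻¹) (hχ : χ γ₀ = 1) (v : Fin 2 → ℤ) :
    s29e_coef Γ χ ((v ᵥ* ((τ⁻¹ : SL(2, ℤ)) : Matrix (Fin 2) (Fin 2) ℤ)) ᵥ*
        ((σ⁻¹ : SL(2, ℤ)) : Matrix (Fin 2) (Fin 2) ℤ)) =
      s29e_coef Γ χ (v ᵥ* ((σ⁻¹ : SL(2, ℤ)) : Matrix (Fin 2) (Fin 2) ℤ)) := by
  have h1 : (v ᵥ* ((τ⁻¹ : SL(2, ℤ)) : Matrix (Fin 2) (Fin 2) ℤ)) ᵥ*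
      ((σ⁻¹ : SL(2, ℤ)) : Matrix (Fin 2) (Fin 2) ℤ) =
      (v ᵥ* ((σ⁻¹ : SL(2, ℤ)) : Matrix (Fin 2) (Fin 2) ℤ)) ᵥ*
        ((((γ₀ : SL(2, ℤ)))⁻¹ : SL(2, ℤ)) : Matrix (Fin 2) (Fin 2) ℤ) := by
    rw [s29e_vecMul_mul, s29e_vecMul_mul, hγ₀]
    congr 2
    group
  rw [h1, s29e_coef_vecMul_inv htriv, hχ, Units.val_one, one_mul]

/-- **Boundedness at every cusp**: if the stabiliser of the cusp `σ∞` in `Γ` contains the
`σ T^{wm} σ⁻¹` and `χ` is trivial on them, then `E ∣[k] σ` is bounded at `i∞`. -/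
theorem s29e_E_slash_isBoundedAtImInfty
    (htriv : ∀ γ : Γ, s29e_row (γ : SL(2, ℤ)) = ![0, 1] → χ γ = 1)
    (hunit : ∀ γ : Γ, ‖((χ γ : ℂˣ) : ℂ)‖ = 1) {k : ℤ} (hk : 3 ≤ k) (σ : SL(2, ℤ)) {w : ℕ}
    (hw : 0 < w)
    (hcusp : ∀ m : ℤ, ∃ γ₀ : Γ,
      (γ₀ : SL(2, ℤ)) = σ * ModularGroup.T ^ ((w : ℤ) * m) * σ⁻¹ ∧ χ γ₀ = 1) :
    IsBoundedAtImInfty (s29e_E Γ χ k ∣[k] σ) := by
  rw [s29e_E_slash_SL]
  refine s29e_wE_isBoundedAtImInfty (fun v => s29e_norm_coef_le hunit _) hk hw fun m v => ?_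
  obtain ⟨γ₀, hγ₀, hχ⟩ := hcusp m
  exact s29e_coef_cusp_invariant htriv σ _ γ₀ hγ₀ hχ v

/-- Periodicity of `E ∣[k] σ` under the cusp width. -/
theorem s29e_E_slash_T_zpow
    (htriv : ∀ γ : Γ, s29e_row (γ : SL(2, ℤ)) = ![0, 1] → χ γ = 1) (k : ℤ) (σ : SL(2, ℤ))
    (n : ℤ) (γ₀ : Γ) (hγ₀ : (γ₀ : SL(2, ℤ)) = σ * ModularGroup.T ^ n * σ⁻¹) (hχ : χ γ₀ = 1)
    (z : ℍ) :
    (s29e_E Γ χ k ∣[k] σ) (ModularGroup.T ^ n • z) = (s29e_E Γ χ k ∣[k] σ) z := by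
  rw [s29e_E_slash_SL]
  exact s29e_wE_T_zpow _ k n (fun v => s29e_coef_cusp_invariant htriv σ _ γ₀ hγ₀ hχ v) z

/-- The limit of `E ∣[k] σ` at `i∞` exists. -/
theorem s29e_E_slash_tendsto
    (htriv : ∀ γ : Γ, s29e_row (γ : SL(2, ℤ)) = ![0, 1] → χ γ = 1)
    (hunit : ∀ γ : Γ, ‖((χ γ : ℂˣ) : ℂ)‖ = 1) {k : ℤ} (hk : 3 ≤ k) (σ : SL(2, ℤ)) {w : ℕ}
    (hw : 0 < w)
    (hcusp : ∀ m : ℤ, ∃ γ₀ : Γ,
      (γ₀ : SL(2, ℤ)) = σ * ModularGroup.T ^ ((w : ℤ) * m) * σ⁻¹ ∧ χ γ₀ = 1) :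
    Tendsto (s29e_E Γ χ k ∣[k] σ) atImInfty
      (𝓝 (∑' v : Fin 2 → ℤ, if v 0 = 0 then
        s29e_coef Γ χ (v ᵥ* ((σ⁻¹ : SL(2, ℤ)) : Matrix (Fin 2) (Fin 2) ℤ)) * (v 1 : ℂ) ^ (-k)
        else 0)) := by
  rw [s29e_E_slash_SL]
  refine s29e_wE_tendsto_atImInfty (fun v => s29e_norm_coef_le hunit _) hk hw fun m v => ?_
  obtain ⟨γ₀, hγ₀, hχ⟩ := hcusp m
  exact s29e_coef_cusp_invariant htriv σ _ γ₀ hγ₀ hχ v

/-! ### Non-vanishing: the limit at `i∞` for even weight -/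

/-- A bottom row `(0, d)` of a matrix in `SL(2, ℤ)` has `d = ±1`. -/
theorem s29e_row_eq_of_zero {γ : SL(2, ℤ)} (h : γ 1 0 = 0) : γ 1 1 = 1 ∨ γ 1 1 = -1 := by
  have hdet := γ.det_coe
  rw [Matrix.det_fin_two, h, mul_zero, sub_zero] at hdet
  exact Int.isUnit_iff.mp (IsUnit.of_mul_eq_one _ (by rw [mul_comm]; exact hdet))

/-- **The Eisenstein series with character tends to `1` or `2` at `i∞`** for even weight `k ≥ 4`,
if `χ` is trivial on the elements of `Γ` with lower-left entry `0` and `T ^ w ∈ Γ`. -/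
theorem s29e_E_tendsto_atImInfty
    (htriv0 : ∀ γ : Γ, (γ : SL(2, ℤ)) 1 0 = 0 → χ γ = 1)
    (hunit : ∀ γ : Γ, ‖((χ γ : ℂˣ) : ℂ)‖ = 1) {k : ℤ} (hk : 3 ≤ k) (hkeven : Even k) {w : ℕ}
    (hw : 0 < w) (hT : ModularGroup.T ^ w ∈ Γ) :
    ∃ L : ℂ, (L = 1 ∨ L = 2) ∧ Tendsto (s29e_E Γ χ k) atImInfty (𝓝 L) := by
  classical
  have htriv : ∀ γ : Γ, s29e_row (γ : SL(2, ℤ)) = ![0, 1] → χ γ = 1 := by
    intro γ hγ
    apply htriv0
    rw [s29e_row_apply] at hγ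
    have := congrFun hγ 0
    simpa using this
  -- periodicity of the weight function
  have hper : ∀ (m : ℤ) (v : Fin 2 → ℤ), s29e_coef Γ χ
      (v ᵥ* (((ModularGroup.T ^ ((w : ℤ) * m))⁻¹ : SL(2, ℤ)) : Matrix (Fin 2) (Fin 2) ℤ)) =
        s29e_coef Γ χ v := by
    intro m v
    have hmem : ModularGroup.T ^ ((w : ℤ) * m) ∈ Γ := by
      rw [_root_.zpow_mul]
      exact Γ.zpow_mem (by simpa using hT) m
    have h1 := s29e_coef_vecMul_inv htriv ⟨_, hmem⟩ v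
    have h2 : χ ⟨_, hmem⟩ = 1 := by
      apply htriv0
      show (ModularGroup.T ^ ((w : ℤ) * m) : SL(2, ℤ)) 1 0 = 0
      rw [ModularGroup.coe_T_zpow]
      simp
    rw [h2, Units.val_one, one_mul] at h1
    exact h1
  have hlim := s29e_wE_tendsto_atImInfty (s29e_norm_coef_le hunit) hk hw hper
  refine ⟨_, ?_, hlim⟩
  -- evaluation of the limit
  set f : (Fin 2 → ℤ) → ℂ := fun v =>
    if v 0 = 0 then s29e_coef Γ χ v * (v 1 : ℂ) ^ (-k) else 0 with hf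
  have hsupp : ∀ v ∉ ({![0, 1], ![0, -1]} : Finset (Fin 2 → ℤ)), f v = 0 := by
    intro v hv
    simp only [hf]
    split_ifs with h0
    · by_cases hex : ∃ γ : Γ, s29e_row (γ : SL(2, ℤ)) = v
      · exfalso
        obtain ⟨γ, rfl⟩ := hex
        rw [s29e_row_apply] at h0 hv
        have hc : (γ : SL(2, ℤ)) 1 0 = 0 := by simpa using h0
        apply hv
        rcases s29e_row_eq_of_zero hc with h1 | h1
        · simp [hc, h1]
        · simp [hc, h1]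
      · rw [s29e_coef_of_not_row hex, zero_mul]
    · rfl
  have hne : (![0, 1] : Fin 2 → ℤ) ≠ ![0, -1] := by
    intro h
    have := congrFun h 1
    simp at this
  have hval1 : f ![0, 1] = 1 := by
    simp only [hf]
    have h1 : s29e_coef Γ χ ![0, 1] = 1 := by
      have := s29e_coef_row htriv (1 : Γ)
      rw [Subgroup.coe_one, s29e_row_one, map_one, inv_one, Units.val_one] at this
      exact this
    simp [h1]
  have hval2 : f ![0, -1] = 0 ∨ f ![0, -1] = 1 := by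
    simp only [hf]
    by_cases hex : ∃ γ : Γ, s29e_row (γ : SL(2, ℤ)) = ![0, -1]
    · right
      obtain ⟨γ, hγ⟩ := hex
      have hc : (γ : SL(2, ℤ)) 1 0 = 0 := by
        rw [s29e_row_apply] at hγ
        have := congrFun hγ 0
        simpa using this
      have h1 : s29e_coef Γ χ ![0, -1] = 1 := by
        rw [← hγ, s29e_coef_row htriv, htriv0 γ hc, inv_one, Units.val_one]
      simp [h1]
      exact hkeven.neg_one_zpow
    · left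
      rw [s29e_coef_of_not_row hex]
      simp
  have hsum : ∑' v, f v = f ![0, 1] + f ![0, -1] := by
    rw [tsum_eq_sum hsupp, Finset.sum_pair hne]
  show ∑' v, f v = 1 ∨ ∑' v, f v = 2
  rw [hsum, hval1]
  rcases hval2 with h | h
  · left; rw [h, add_zero]
  · right; rw [h]; norm_num

/-- **Non-vanishing** of the Eisenstein series with character (even weight `k ≥ 4`). -/
theorem s29e_E_ne_zero
    (htriv0 : ∀ γ : Γ, (γ : SL(2, ℤ)) 1 0 = 0 → χ γ = 1)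
    (hunit : ∀ γ : Γ, ‖((χ γ : ℂˣ) : ℂ)‖ = 1) {k : ℤ} (hk : 3 ≤ k) (hkeven : Even k) {w : ℕ}
    (hw : 0 < w) (hT : ModularGroup.T ^ w ∈ Γ) :
    ∃ z : ℍ, s29e_E Γ χ k z ≠ 0 := by
  obtain ⟨L, hL, hlim⟩ := s29e_E_tendsto_atImInfty htriv0 hunit hk hkeven hw hT
  have hL0 : L ≠ 0 := by
    rcases hL with rfl | rfl <;> norm_num
  by_contra hall
  push Not at hall
  have h0 : Tendsto (s29e_E Γ χ k) atImInfty (𝓝 0) := by
    have : s29e_E Γ χ k = fun _ => 0 := funext hall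
    rw [this]
    exact tendsto_const_nhds
  exact hL0 (tendsto_nhds_unique hlim h0)

end Character

end Fermat.Agent.Lib.S29
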