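/-
Plan K (S29), package [PS], part 2 (owner: helper5).

Specialisation of `EisChar.lean` to `Γ = Γ₀(N)` and a *parabolic character of exponent `p`*
`χ : Γ₀(N) →* ℂˣ`  (`χ ^ p = 1`, `χ (-1) = 1`, `χ` trivial on all `SL(2, ℤ)`-conjugates of powers of
`T` that lie in `Γ₀(N)`):

* `s29e_G0` : the weight `k` Eisenstein series `E^χ` on `Γ₀(N)` (`k ≥ 3` even, e.g. `k = 4`);
* `s29e_G0_smul`, `s29e_G0_slash` : `E^χ (γ z) = χ γ · j(γ, z) ^ k · E^χ z`;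
* `s29e_G0_mdifferentiable`, `s29e_G0_slash_isBoundedAtImInfty`, `s29e_G0_ne_zero`;
* `s29e_G0_quot_smul` : `u = E^χ / E^ψ` satisfies `u (γ z) = χ γ / ψ γ · u z`;
* `s29e_G0powMF` : `(E^χ) ^ p` as a `ModularForm (Γ₀(N)) (k * p)`, with `s29e_G0powMF_apply` and
  `s29e_G0powMF_ne_zero`.
-/
import Mathlib
import Fermat.Agent.Lib.S29.EisChar

set_option autoImplicit false

namespace Fermat.Agent.Lib.S29

open ModularForm UpperHalfPlane Matrix CongruenceSubgroup EisensteinSeries Filter Topology Complex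
open scoped MatrixGroups Manifold

/-- `χ : Γ₀(N) →* ℂˣ` is a *parabolic character of exponent `p`*: `χ ^ p = 1`, `χ (-1) = 1` and `χ`
is trivial on every element of `Γ₀(N)` which is `SL(2, ℤ)`-conjugate to a power of `T`. -/
structure s29e_IsParChar (N : ℕ) (χ : Gamma0 N →* ℂˣ) (p : ℕ) : Prop where
  pow_eq_one : ∀ γ : Gamma0 N, χ γ ^ p = 1
  neg_one : ∀ γ : Gamma0 N, (γ : SL(2, ℤ)) = -1 → χ γ = 1
  parabolic : ∀ (γ : Gamma0 N) (σ : SL(2, ℤ)) (n : ℤ),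
    (γ : SL(2, ℤ)) = σ * ModularGroup.T ^ n * σ⁻¹ → χ γ = 1

/-- The trivial character is a parabolic character of every exponent. -/
theorem s29e_isParChar_one (N p : ℕ) : s29e_IsParChar N (1 : Gamma0 N →* ℂˣ) p where
  pow_eq_one _ := by simp
  neg_one _ _ := rfl
  parabolic _ _ _ _ := rfl

/-- Products of parabolic characters are parabolic characters. -/
theorem s29e_IsParChar.mul {N p : ℕ} {χ ψ : Gamma0 N →* ℂˣ} (hχ : s29e_IsParChar N χ p)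
    (hψ : s29e_IsParChar N ψ p) : s29e_IsParChar N (χ * ψ) p where
  pow_eq_one γ := by rw [MonoidHom.mul_apply, mul_pow, hχ.pow_eq_one, hψ.pow_eq_one, one_mul]
  neg_one γ h := by rw [MonoidHom.mul_apply, hχ.neg_one γ h, hψ.neg_one γ h, one_mul]
  parabolic γ σ n h := by
    rw [MonoidHom.mul_apply, hχ.parabolic γ σ n h, hψ.parabolic γ σ n h, one_mul]

section

variable {N : ℕ} {χ : Gamma0 N →* ℂˣ} {p : ℕ}

theorem s29e_IsParChar.norm_eq_one (hχ : s29e_IsParChar N χ p) (hp : 0 < p) (γ : Gamma0 N) :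
    ‖((χ γ : ℂˣ) : ℂ)‖ = 1 := by
  have h1 : ((χ γ : ℂˣ) : ℂ) ^ p = 1 := by
    rw [← Units.val_pow_eq_pow_val, hχ.pow_eq_one, Units.val_one]
  exact Complex.norm_eq_one_of_pow_eq_one h1 hp.ne'

theorem s29e_Gamma_le_Gamma0 (N : ℕ) : CongruenceSubgroup.Gamma N ≤ Gamma0 N := by
  intro γ hγ
  rw [Gamma_mem] at hγ
  rw [Gamma0_mem]
  exact hγ.2.2.1

theorem s29e_conj_T_zpow_mem_Gamma0 (N : ℕ) (σ : SL(2, ℤ)) (m : ℤ) :
    σ * ModularGroup.T ^ ((N : ℤ) * m) * σ⁻¹ ∈ Gamma0 N := by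
  apply s29e_Gamma_le_Gamma0
  have h1 := ModularGroup_T_pow_mem_Gamma (N : ℤ) ((N : ℤ) * m) (dvd_mul_right _ _)
  rw [Int.natAbs_natCast] at h1
  exact (Gamma_normal (N := N)).conj_mem _ h1 σ

/-- An element of `SL(2, ℤ)` with lower-left entry `0` is `T ^ n` or `- T ^ n`. -/
theorem s29e_eq_T_zpow_of_c_eq_zero {γ : SL(2, ℤ)} (hc : γ 1 0 = 0) :
    ∃ n : ℤ, γ = ModularGroup.T ^ n ∨ γ = -ModularGroup.T ^ n := by
  have hdet := γ.det_coe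
  rw [Matrix.det_fin_two, hc, mul_zero, sub_zero] at hdet
  rcases s29e_row_eq_of_zero hc with hd | hd
  · refine ⟨γ 0 1, Or.inl ?_⟩
    have ha : γ 0 0 = 1 := by rw [hd, mul_one] at hdet; exact hdet
    ext i j
    rw [ModularGroup.coe_T_zpow]
    fin_cases i <;> fin_cases j <;> simp [ha, hc, hd]
  · refine ⟨-γ 0 1, Or.inr ?_⟩
    have ha : γ 0 0 = -1 := by rw [hd, mul_neg, mul_one] at hdet; linarith
    ext i j
    rw [SpecialLinearGroup.coe_neg, ModularGroup.coe_T_zpow]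
    fin_cases i <;> fin_cases j <;> simp [ha, hc, hd]

theorem s29e_neg_one_mem_Gamma0 (N : ℕ) : (-1 : SL(2, ℤ)) ∈ Gamma0 N := by
  rw [Gamma0_mem]
  simp

/-- A parabolic character is trivial on the elements with lower-left entry `0`. -/
theorem s29e_IsParChar.htriv0 (hχ : s29e_IsParChar N χ p) (γ : Gamma0 N)
    (hc : (γ : SL(2, ℤ)) 1 0 = 0) : χ γ = 1 := by
  obtain ⟨n, hn | hn⟩ := s29e_eq_T_zpow_of_c_eq_zero hc
  · exact hχ.parabolic γ 1 n (by rw [hn]; group)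
  · have hmem : ModularGroup.T ^ n ∈ Gamma0 N := by
      rw [Gamma0_mem, ModularGroup.coe_T_zpow]
      simp
    have h1 : γ = ⟨-1, s29e_neg_one_mem_Gamma0 N⟩ * ⟨ModularGroup.T ^ n, hmem⟩ := by
      apply Subtype.ext
      rw [hn]
      simp
    rw [h1, map_mul, hχ.neg_one _ rfl, hχ.parabolic ⟨ModularGroup.T ^ n, hmem⟩ 1 n (by group),
      one_mul]

theorem s29e_IsParChar.htriv (hχ : s29e_IsParChar N χ p) (γ : Gamma0 N)
    (h : s29e_row (γ : SL(2, ℤ)) = ![0, 1]) : χ γ = 1 := by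
  apply hχ.htriv0
  rw [s29e_row_apply] at h
  have := congrFun h 0
  simpa using this

theorem s29e_IsParChar.hcusp (hχ : s29e_IsParChar N χ p) (σ : SL(2, ℤ)) (m : ℤ) :
    ∃ γ₀ : Gamma0 N,
      (γ₀ : SL(2, ℤ)) = σ * ModularGroup.T ^ ((N : ℤ) * m) * σ⁻¹ ∧ χ γ₀ = 1 :=
  ⟨⟨_, s29e_conj_T_zpow_mem_Gamma0 N σ m⟩, rfl, hχ.parabolic _ σ _ rfl⟩

end

variable (N : ℕ) (χ : Gamma0 N →* ℂˣ)

/-- **The Eisenstein series `E^χ` of weight `k` on `Γ₀(N)`.** -/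
noncomputable def s29e_G0 (k : ℤ) : ℍ → ℂ := s29e_E (Gamma0 N) χ k

variable {N χ} {p : ℕ}

/-- `E^χ (γ z) = χ γ · j(γ, z) ^ k · E^χ z`. -/
theorem s29e_G0_smul (hχ : s29e_IsParChar N χ p) (k : ℤ) (γ : Gamma0 N) (z : ℍ) :
    s29e_G0 N χ k ((γ : SL(2, ℤ)) • z) =
      ((χ γ : ℂˣ) : ℂ) *
        denom (SpecialLinearGroup.toGL ((SpecialLinearGroup.map (Int.castRingHom ℝ))
          (γ : SL(2, ℤ)))) ↑z ^ k * s29e_G0 N χ k z :=
  s29e_E_smul hχ.htriv k γ z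

/-- `E^χ ∣[k] γ = χ γ • E^χ`. -/
theorem s29e_G0_slash (hχ : s29e_IsParChar N χ p) (k : ℤ) (γ : Gamma0 N) :
    s29e_G0 N χ k ∣[k] (γ : SL(2, ℤ)) = ((χ γ : ℂˣ) : ℂ) • s29e_G0 N χ k :=
  s29e_E_slash hχ.htriv k γ

theorem s29e_G0_mdifferentiable (hχ : s29e_IsParChar N χ p) (hp : 0 < p) {k : ℤ} (hk : 3 ≤ k) :
    MDiff (s29e_G0 N χ k) :=
  s29e_E_mdifferentiable (hχ.norm_eq_one hp) hk

/-- All `SL(2, ℤ)`-translates of `E^χ` are bounded at `i∞`. -/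
theorem s29e_G0_slash_isBoundedAtImInfty [NeZero N] (hχ : s29e_IsParChar N χ p) (hp : 0 < p)
    {k : ℤ} (hk : 3 ≤ k) (σ : SL(2, ℤ)) :
    IsBoundedAtImInfty (s29e_G0 N χ k ∣[k] σ) :=
  s29e_E_slash_isBoundedAtImInfty hχ.htriv (hχ.norm_eq_one hp) hk σ
    (Nat.pos_of_ne_zero (NeZero.ne N)) (hχ.hcusp σ)

/-- All `SL(2, ℤ)`-translates of `E^χ` have a limit at `i∞`. -/
theorem s29e_G0_slash_tendsto [NeZero N] (hχ : s29e_IsParChar N χ p) (hp : 0 < p)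
    {k : ℤ} (hk : 3 ≤ k) (σ : SL(2, ℤ)) :
    ∃ L : ℂ, Tendsto (s29e_G0 N χ k ∣[k] σ) atImInfty (𝓝 L) :=
  ⟨_, s29e_E_slash_tendsto hχ.htriv (hχ.norm_eq_one hp) hk σ
    (Nat.pos_of_ne_zero (NeZero.ne N)) (hχ.hcusp σ)⟩

theorem s29e_T_pow_mem_Gamma0 (N : ℕ) : ModularGroup.T ^ N ∈ Gamma0 N := by
  have h := s29e_conj_T_zpow_mem_Gamma0 N 1 1
  simpa using h

/-- `E^χ` tends to `1` or `2` at `i∞` (even weight). -/
theorem s29e_G0_tendsto_atImInfty [NeZero N] (hχ : s29e_IsParChar N χ p) (hp : 0 < p)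
    {k : ℤ} (hk : 3 ≤ k) (hkeven : Even k) :
    ∃ L : ℂ, (L = 1 ∨ L = 2) ∧ Tendsto (s29e_G0 N χ k) atImInfty (𝓝 L) :=
  s29e_E_tendsto_atImInfty hχ.htriv0 (hχ.norm_eq_one hp) hk hkeven
    (Nat.pos_of_ne_zero (NeZero.ne N)) (s29e_T_pow_mem_Gamma0 N)

/-- `E^χ ≢ 0` (even weight). -/
theorem s29e_G0_ne_zero [NeZero N] (hχ : s29e_IsParChar N χ p) (hp : 0 < p)
    {k : ℤ} (hk : 3 ≤ k) (hkeven : Even k) : ∃ z : ℍ, s29e_G0 N χ k z ≠ 0 :=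
  s29e_E_ne_zero hχ.htriv0 (hχ.norm_eq_one hp) hk hkeven
    (Nat.pos_of_ne_zero (NeZero.ne N)) (s29e_T_pow_mem_Gamma0 N)

/-- The quotient `u = E^χ / E^ψ` transforms by the character `χ / ψ` (pointwise, with the
convention `x / 0 = 0`). -/
theorem s29e_G0_quot_smul {ψ : Gamma0 N →* ℂˣ} (hχ : s29e_IsParChar N χ p)
    (hψ : s29e_IsParChar N ψ p) (k : ℤ) (γ : Gamma0 N) (z : ℍ) :
    s29e_G0 N χ k ((γ : SL(2, ℤ)) • z) / s29e_G0 N ψ k ((γ : SL(2, ℤ)) • z) =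
      (((χ γ : ℂˣ) : ℂ) / ((ψ γ : ℂˣ) : ℂ)) * (s29e_G0 N χ k z / s29e_G0 N ψ k z) := by
  rw [s29e_G0_smul hχ, s29e_G0_smul hψ]
  have hd : denom (SpecialLinearGroup.toGL ((SpecialLinearGroup.map (Int.castRingHom ℝ))
      (γ : SL(2, ℤ)))) ↑z ^ k ≠ 0 := zpow_ne_zero _ (denom_ne_zero _ z)
  have hψ0 : ((ψ γ : ℂˣ) : ℂ) ≠ 0 := Units.ne_zero _
  by_cases h0 : s29e_G0 N ψ k z = 0
  · simp [h0]
  · field_simp

/-! ### `(E^χ) ^ p` as a modular form on `Γ₀(N)` -/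

/-- Slash of a power. -/
theorem s29e_pow_slash (f : ℍ → ℂ) (k : ℤ) (n : ℕ) (σ : SL(2, ℤ)) :
    (f ^ n) ∣[k * n] σ = (f ∣[k] σ) ^ n := by
  ext z
  rw [SL_slash_apply, Pi.pow_apply, Pi.pow_apply, SL_slash_apply, mul_pow, ← zpow_natCast (_ ^ (-k)),
    ← _root_.zpow_mul, neg_mul]

theorem s29e_isBoundedAtImInfty_pow {f : ℍ → ℂ} (hf : IsBoundedAtImInfty f) (n : ℕ) :
    IsBoundedAtImInfty (f ^ n) := by
  induction n with
  | zero =>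
    rw [pow_zero]
    exact Filter.const_boundedAtFilter _ (1 : ℂ)
  | succ n ih =>
    rw [pow_succ]
    exact ih.mul hf

/-- **`(E^χ) ^ p` is a modular form of weight `k p` on `Γ₀(N)`.** -/
noncomputable def s29e_G0powMF [NeZero N] (hχ : s29e_IsParChar N χ p) (hp : 0 < p) {k : ℤ}
    (hk : 3 ≤ k) : ModularForm (Gamma0 N) (k * p) where
  toFun := s29e_G0 N χ k ^ p
  slash_action_eq' A hA := by
    obtain ⟨A, (hA : A ∈ Gamma0 N), rfl⟩ := hA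
    change (s29e_G0 N χ k ^ p) ∣[k * p] A = _
    rw [s29e_pow_slash, s29e_G0_slash hχ k ⟨A, hA⟩, smul_pow, ← Units.val_pow_eq_pow_val,
      hχ.pow_eq_one, Units.val_one, one_smul]
  holo' := by
    have h := s29e_G0_mdifferentiable hχ hp hk
    exact h.pow p
  bdd_at_cusps' {c} hc := by
    rw [Subgroup.IsArithmetic.isCusp_iff_isCusp_SL2Z] at hc
    rw [OnePoint.isBoundedAt_iff_forall_SL2Z hc]
    intro σ _
    rw [s29e_pow_slash]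
    exact s29e_isBoundedAtImInfty_pow (s29e_G0_slash_isBoundedAtImInfty hχ hp hk σ) p

@[simp]
theorem s29e_G0powMF_apply [NeZero N] (hχ : s29e_IsParChar N χ p) (hp : 0 < p) {k : ℤ}
    (hk : 3 ≤ k) (z : ℍ) : s29e_G0powMF hχ hp hk z = s29e_G0 N χ k z ^ p := rfl

theorem s29e_G0powMF_ne_zero [NeZero N] (hχ : s29e_IsParChar N χ p) (hp : 0 < p) {k : ℤ}
    (hk : 3 ≤ k) (hkeven : Even k) : s29e_G0powMF hχ hp hk ≠ 0 := by
  obtain ⟨z, hz⟩ := s29e_G0_ne_zero hχ hp hk hkeven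
  intro h
  have h1 := congrArg (fun f : ModularForm (Gamma0 N) (k * p) => f z) h
  simp only [s29e_G0powMF_apply, _root_.zero_apply] at h1
  exact hz (pow_eq_zero_iff (hp.ne') |>.mp h1)

end Fermat.Agent.Lib.S29
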