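/-
S29 long-haul ("Plan K"), dependency-free algebra package [FG2] (helper8):
the FINITE-GROUP LEMMA.  If a group `G` acts on a nonzero finite-dimensional vector space `V` over
an algebraically closed field `k` such that every `g + d(g) g⁻¹` is the scalar `t(g)`
(`d : G →* kˣ` a character), then there is a two-dimensional representation `ρ'` of `G` with
characteristic polynomials `X² - t(g) X + d(g)`.

Route: a simple `k[G]`-submodule `W ⊆ V`; Schur + Jacobson density (Burnside) show `dim W ≤ 2`;
`dim W = 2`: `W` itself; `dim W = 1` with character `ψ`: `ψ ⊕ d ψ⁻¹`.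
-/
import Mathlib

set_option autoImplicit false
set_option linter.style.haveILetI false
set_option linter.unusedSectionVars false

noncomputable section

namespace Fermat.Agent.Lib.S29

open Polynomial Module

section Density

variable {k : Type*} [Field k] [IsAlgClosed k] {R : Type*} [Ring R] [Algebra k R]
  {W : Type*} [AddCommGroup W] [Module k W] [Module R W] [IsScalarTower k R W]
  [FiniteDimensional k W] [IsSimpleModule R W]

/-- **Burnside / Jacobson density** for a simple module, finite-dimensional over an algebraically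
closed field: every `k`-linear endomorphism agrees with the action of a ring element on any given
finite set of vectors. -/
theorem s29f_density (a : W →ₗ[k] W) (s : Finset W) : ∃ r : R, ∀ w ∈ s, a w = r • w := by
  have hschur := (IsSimpleModule.algebraMap_end_bijective_of_isAlgClosed (A := R) (V := W) k).2
  let f : Module.End (Module.End R W) W :=
    { toFun := a
      map_add' := a.map_add
      map_smul' := by
        intro φ w
        obtain ⟨c, rfl⟩ := hschur φ
        simp only [RingHom.id_apply]
        rw [Module.End.smul_def, Module.End.smul_def, Module.algebraMap_end_apply,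
          Module.algebraMap_end_apply, map_smul] }
  obtain ⟨r, hr⟩ := jacobson_density f s
  exact ⟨r, fun w hw => hr w hw⟩


/-- **Dimension bound.** If a `k`-linear functional `T` on `R` satisfies
`b b' + b' b - T(b') b - T(b) b' = scalar` on the simple module `W`, then `dim_k W ≤ 2`. -/
theorem s29f_finrank_le_two (T : R →ₗ[k] k)
    (hT : ∀ (b b' : R) (w : W), b • b' • w + b' • b • w - T b' • b • w - T b • b' • w =
      (T (b * b') - T b * T b') • w) :
    Module.finrank k W ≤ 2 := by
  by_contra hlt
  rw [not_le] at hlt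
  set n := Module.finrank k W with hn
  let B : Basis (Fin n) k W := Module.finBasis k W
  let i0 : Fin n := ⟨0, by omega⟩
  let i1 : Fin n := ⟨1, by omega⟩
  let i2 : Fin n := ⟨2, by omega⟩
  have h01 : i0 ≠ i1 := by simp [i0, i1, Fin.ext_iff]
  have h02 : i0 ≠ i2 := by simp [i0, i2, Fin.ext_iff]
  have h12 : i1 ≠ i2 := by simp [i1, i2, Fin.ext_iff]
  -- `a : e₁ ↦ e₀`, everything else to `0`; `a' : e₂ ↦ e₁`, everything else to `0`
  let a : W →ₗ[k] W := B.constr k (fun i => if i = i1 then B i0 else 0)
  let a' : W →ₗ[k] W := B.constr k (fun i => if i = i2 then B i1 else 0)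
  have ha1 : a (B i1) = B i0 := by simp [a]
  have ha2 : a (B i2) = 0 := by simp [a, h12.symm]
  have ha'2 : a' (B i2) = B i1 := by simp [a']
  classical
  obtain ⟨b, hb⟩ := s29f_density (R := R) a {B i1, B i2}
  obtain ⟨b', hb'⟩ := s29f_density (R := R) a' {B i2}
  have hb1 : b • B i1 = B i0 := by
    rw [← hb (B i1) (by simp), ha1]
  have hb2 : b • B i2 = 0 := by
    rw [← hb (B i2) (by simp), ha2]
  have hb'2 : b' • B i2 = B i1 := by
    rw [← hb' (B i2) (by simp), ha'2]
  have key := hT b b' (B i2)
  rw [hb'2, hb1, hb2, smul_zero, smul_zero, add_zero, sub_zero] at key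
  -- `e₀ - T b • e₁ = c • e₂` contradicts linear independence
  have hli := B.linearIndependent
  have := congrArg (fun w => B.repr w i0) key
  simp only [map_sub, map_smul, Basis.repr_self, Finsupp.coe_sub, Finsupp.coe_smul,
    Pi.sub_apply, Pi.smul_apply, Finsupp.single_eq_same, smul_eq_mul] at this
  rw [Finsupp.single_eq_of_ne h01, Finsupp.single_eq_of_ne h02] at this
  simp at this

end Density


section GroupAlgebra

variable {k : Type*} [Field k] {G : Type*} [Group G]
  {V : Type*} [AddCommGroup V] [Module k V]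
  (ρ : Representation k G V) (d : G →* kˣ) (t : G → k)

/-- the linear extension of `t` to the group algebra. -/
def s29f_T : MonoidAlgebra k G →ₗ[k] k :=
  (Finsupp.linearCombination k t).comp (MonoidAlgebra.coeffLinearEquiv k).toLinearMap

theorem s29f_T_single (g : G) (c : k) : s29f_T t (MonoidAlgebra.single g c) = c * t g := by
  simp [s29f_T, Finsupp.linearCombination_single]

variable {ρ d t}

/-- the basic relation for two group elements, in any `k`-algebra. -/
theorem s29f_rel_two_alg {A : Type*} [Ring A] [Algebra k A] {ρ : G →* A} {d : G →* kˣ}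
    {t : G → k} (h : ∀ g, ρ g + (d g : k) • ρ g⁻¹ = t g • 1) (g g' : G) :
    ρ g * ρ g' + ρ g' * ρ g - t g' • ρ g - t g • ρ g' = (t (g * g') - t g * t g') • 1 := by
  have e1 : ∀ x : G, (d x : k) • ρ x⁻¹ = t x • 1 - ρ x := fun x => by
    rw [← h x]; abel
  have e2 : ((d (g * g') : kˣ) : k) • ρ (g * g')⁻¹ =
      ((d g' : k) • ρ g'⁻¹) * ((d g : k) • ρ g⁻¹) := by
    rw [mul_inv_rev, map_mul, map_mul, Units.val_mul, smul_mul_smul_comm, mul_comm]
  rw [e1, e1, e1, map_mul] at e2
  have e3 : (t g' • (1 : A) - ρ g') * (t g • 1 - ρ g) =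
      (t g' * t g) • 1 - t g' • ρ g - t g • ρ g' + ρ g' * ρ g := by
    rw [sub_mul, mul_sub, mul_sub, smul_mul_smul_comm, mul_one, smul_mul_assoc, one_mul,
      mul_smul_comm, mul_one]
    abel
  rw [e3] at e2
  have e5 : ρ g * ρ g' = t (g * g') • 1 -
      ((t g' * t g) • 1 - t g' • ρ g - t g • ρ g' + ρ g' * ρ g) := by
    rw [← e2]; abel
  rw [e5, sub_smul, mul_comm (t g)]
  abel

/-- the basic relation for two group elements. -/
theorem s29f_rel_two (h : ∀ g, ρ g + (d g : k) • ρ g⁻¹ = t g • 1) (g g' : G) :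
    ρ g * ρ g' + ρ g' * ρ g - t g' • ρ g - t g • ρ g' = (t (g * g') - t g * t g') • 1 :=
  s29f_rel_two_alg (A := Module.End k V) (ρ := ρ) h g g'

/-- the defect of the relation, as a function of two elements of the group algebra. -/
def s29f_defect (ρ : Representation k G V) (t : G → k) (b b' : MonoidAlgebra k G) :
    Module.End k V :=
  ρ.asAlgebraHom b * ρ.asAlgebraHom b' + ρ.asAlgebraHom b' * ρ.asAlgebraHom b
    - s29f_T t b' • ρ.asAlgebraHom b - s29f_T t b • ρ.asAlgebraHom b'
    - (s29f_T t (b * b') - s29f_T t b * s29f_T t b') • 1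

theorem s29f_defect_add_left (b₁ b₂ b' : MonoidAlgebra k G) :
    s29f_defect ρ t (b₁ + b₂) b' = s29f_defect ρ t b₁ b' + s29f_defect ρ t b₂ b' := by
  unfold s29f_defect
  simp only [map_add, add_mul, mul_add, add_smul, smul_add, sub_smul]
  abel

theorem s29f_defect_add_right (b b₁ b₂ : MonoidAlgebra k G) :
    s29f_defect ρ t b (b₁ + b₂) = s29f_defect ρ t b b₁ + s29f_defect ρ t b b₂ := by
  unfold s29f_defect
  simp only [map_add, add_mul, mul_add, add_smul, smul_add, sub_smul]
  abel

theorem s29f_defect_single (h : ∀ g, ρ g + (d g : k) • ρ g⁻¹ = t g • 1) (g g' : G) (c c' : k) :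
    s29f_defect ρ t (MonoidAlgebra.single g c) (MonoidAlgebra.single g' c') = 0 := by
  unfold s29f_defect
  rw [MonoidAlgebra.single_mul_single, s29f_T_single, s29f_T_single, s29f_T_single,
    Representation.asAlgebraHom_single, Representation.asAlgebraHom_single,
    smul_mul_smul_comm, smul_mul_smul_comm]
  have h2 := congrArg (fun z => (c * c') • z) (s29f_rel_two h g g')
  simp only [smul_sub, smul_add, smul_smul] at h2
  rw [sub_eq_zero, smul_smul, smul_smul, mul_comm c' c]
  have e1 : c' * t g' * c = c * c' * t g' := by ring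
  have e2 : c * t g * c' = c * c' * t g := by ring
  have e3 : c * c' * t (g * g') - c * t g * (c' * t g') =
      c * c' * t (g * g') - c * c' * (t g * t g') := by ring
  rw [e1, e2, e3, h2, mul_sub]

theorem s29f_defect_eq_zero (h : ∀ g, ρ g + (d g : k) • ρ g⁻¹ = t g • 1)
    (b b' : MonoidAlgebra k G) : s29f_defect ρ t b b' = 0 := by
  induction b using MonoidAlgebra.induction_linear with
  | zero => unfold s29f_defect; simp
  | add x y hx hy => rw [s29f_defect_add_left, hx, hy, add_zero]
  | single g c =>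
    induction b' using MonoidAlgebra.induction_linear with
    | zero => unfold s29f_defect; simp
    | add x y hx hy => rw [s29f_defect_add_right, hx, hy, add_zero]
    | single g' c' => exact s29f_defect_single h g g' c c'

/-- the relation on the whole group algebra. -/
theorem s29f_rel_algebra (h : ∀ g, ρ g + (d g : k) • ρ g⁻¹ = t g • 1)
    (b b' : MonoidAlgebra k G) :
    ρ.asAlgebraHom b * ρ.asAlgebraHom b' + ρ.asAlgebraHom b' * ρ.asAlgebraHom b
        - s29f_T t b' • ρ.asAlgebraHom b - s29f_T t b • ρ.asAlgebraHom b' =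
      (s29f_T t (b * b') - s29f_T t b * s29f_T t b') • 1 :=
  sub_eq_zero.mp (s29f_defect_eq_zero h b b')

end GroupAlgebra


section Matrices

variable {k : Type*} [Field k] {G : Type*} [Group G]

/-- **two-dimensional case, matrix form**: trace and determinant. -/
theorem s29f_trace_det (m : G →* Matrix (Fin 2) (Fin 2) k) (d : G →* kˣ) (t : G → k)
    (h : ∀ g, m g + (d g : k) • m g⁻¹ = t g • 1)
    (hns : ∃ g₀, ∀ c : k, m g₀ ≠ c • 1) (g : G) :
    (m g).trace = t g ∧ (m g).det = (d g : k) := by
  obtain ⟨g₀, hg₀⟩ := hns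
  set M := m g with hM
  have hinv : m g⁻¹ * M = 1 := by rw [hM, ← map_mul, inv_mul_cancel, map_one]
  -- the quadratic relation
  have hq : M * M - t g • M + (d g : k) • (1 : Matrix (Fin 2) (Fin 2) k) = 0 := by
    have h1 := congrArg (fun z => z * M) (h g)
    simp only [add_mul, smul_mul_assoc, hinv, one_mul] at h1
    rw [← h1]; abel
  -- Cayley–Hamilton
  have hch : M * M - M.trace • M + M.det • (1 : Matrix (Fin 2) (Fin 2) k) = 0 := by
    have h1 := Matrix.aeval_self_charpoly M
    rw [Matrix.charpoly_fin_two] at h1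
    simp only [map_add, map_sub, map_mul, aeval_X, aeval_C, pow_two,
      Algebra.algebraMap_eq_smul_one, smul_mul_assoc, one_mul] at h1
    exact h1
  have hdiff : (M.trace - t g) • M = (M.det - (d g : k)) • (1 : Matrix (Fin 2) (Fin 2) k) := by
    have : (M * M - t g • M + (d g : k) • (1 : Matrix (Fin 2) (Fin 2) k)) -
        (M * M - M.trace • M + M.det • 1) = 0 := by rw [hq, hch, sub_zero]
    rw [sub_smul, sub_smul]
    rw [← sub_eq_zero]
    rw [← this]
    abel
  by_cases htr : M.trace = t g
  · refine ⟨htr, ?_⟩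
    rw [htr, sub_self, zero_smul] at hdiff
    have h00 := congrFun (congrFun hdiff 0) 0
    simp at h00
    exact (sub_eq_zero.mp h00.symm)
  · exfalso
    -- `M` is a scalar `lam`
    have hne : M.trace - t g ≠ 0 := sub_ne_zero.mpr htr
    obtain ⟨lam, hlam⟩ : ∃ lam : k, lam = (M.trace - t g)⁻¹ * (M.det - (d g : k)) := ⟨_, rfl⟩
    have hMs : M = lam • (1 : Matrix (Fin 2) (Fin 2) k) := by
      have := congrArg (fun z => (M.trace - t g)⁻¹ • z) hdiff
      simp only [smul_smul, inv_mul_cancel₀ hne, one_smul] at this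
      rw [hlam]
      exact this
    have htrace : M.trace = 2 * lam := by
      rw [hMs]; simp; ring
    -- the relation with the non-scalar `H = m g₀`
    have hrel := s29f_rel_two_alg (A := Matrix (Fin 2) (Fin 2) k) (ρ := m) h g g₀
    rw [← hM, hMs] at hrel
    simp only [smul_mul_assoc, one_mul, mul_smul_comm, mul_one] at hrel
    have hH : (2 * lam - t g) • m g₀ =
        ((t (g * g₀) - t g * t g₀) + t g₀ * lam) • (1 : Matrix (Fin 2) (Fin 2) k) := by
      have e1 : (2 * lam - t g) • m g₀ = lam • m g₀ + lam • m g₀ - t g • m g₀ := by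
        rw [sub_smul, two_mul, add_smul]
      have e2 : lam • m g₀ + lam • m g₀ - t g • m g₀ =
          (lam • m g₀ + lam • m g₀ - t g₀ • lam • (1 : Matrix (Fin 2) (Fin 2) k) - t g • m g₀) +
            t g₀ • lam • (1 : Matrix (Fin 2) (Fin 2) k) := by abel
      rw [e1, e2, hrel, add_smul, mul_smul]
    have h2 : 2 * lam - t g = 0 := by
      by_contra hne2
      apply hg₀ ((2 * lam - t g)⁻¹ * ((t (g * g₀) - t g * t g₀) + t g₀ * lam))
      have := congrArg (fun z => (2 * lam - t g)⁻¹ • z) hH
      simp only [smul_smul, inv_mul_cancel₀ hne2, one_smul] at this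
      exact this
    exact htr (by rw [htrace]; exact sub_eq_zero.mp h2)

/-- **one-dimensional case**: the representation `ψ ⊕ d ψ⁻¹`. -/
def s29f_diag (ψ d : G →* kˣ) : G →* Matrix (Fin 2) (Fin 2) k where
  toFun g := Matrix.diagonal ![(ψ g : k), (d g : k) * ((ψ g)⁻¹ : kˣ)]
  map_one' := by
    ext i j
    fin_cases i <;> fin_cases j <;> simp
  map_mul' g g' := by
    rw [Matrix.diagonal_mul_diagonal]
    congr 1
    ext i
    fin_cases i
    · simp
    · simp only [map_mul, Units.val_mul, mul_inv_rev]
      show (d g : k) * (d g' : k) * (((ψ g')⁻¹ : kˣ) * ((ψ g)⁻¹ : kˣ)) =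
        (d g : k) * ((ψ g)⁻¹ : kˣ) * ((d g' : k) * ((ψ g')⁻¹ : kˣ))
      ring

theorem s29f_diag_trace (ψ d : G →* kˣ) (g : G) :
    (s29f_diag ψ d g).trace = (ψ g : k) + (d g : k) * ((ψ g)⁻¹ : kˣ) := by
  simp [s29f_diag]

theorem s29f_diag_det (ψ d : G →* kˣ) (g : G) :
    (s29f_diag ψ d g).det = (d g : k) := by
  simp only [s29f_diag, MonoidHom.coe_mk, OneHom.coe_mk, Matrix.det_diagonal, Fin.prod_univ_two,
    Matrix.cons_val_zero, Matrix.cons_val_one]
  rw [mul_comm, mul_assoc, Units.inv_mul, mul_one]

theorem s29f_diag_eq_one (ψ d : G →* kˣ) (g : G) (h1 : ψ g = 1) (h2 : d g = 1) :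
    s29f_diag ψ d g = 1 := by
  ext i j
  fin_cases i <;> fin_cases j <;> simp [s29f_diag, h1, h2]

/-- from trace and determinant to the two-dimensional representation on `k²`. -/
theorem s29f_of_matrix (m : G →* Matrix (Fin 2) (Fin 2) k) (d : G →* kˣ) (t : G → k)
    (h : ∀ g, (m g).trace = t g ∧ (m g).det = (d g : k)) :
    ∃ ρ' : G →* ((Fin 2 → k) →ₗ[k] (Fin 2 → k)),
      (∀ g, LinearMap.charpoly (ρ' g) = X ^ 2 - C (t g) * X + C (d g : k)) ∧
      (∀ g, m g = 1 → ρ' g = 1) := by
  refine ⟨(Matrix.toLinAlgEquiv' : Matrix (Fin 2) (Fin 2) k ≃ₐ[k] _).toAlgHom.toRingHom.toMonoidHom.comp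
    m, fun g => ?_, fun g hg => ?_⟩
  · show LinearMap.charpoly (Matrix.toLin' (m g)) = _
    rw [← LinearMap.charpoly_toMatrix (Matrix.toLin' (m g)) (Pi.basisFun k (Fin 2)),
      LinearMap.toMatrix_eq_toMatrix', LinearMap.toMatrix'_toLin', Matrix.charpoly_fin_two,
      (h g).1, (h g).2]
  · show Matrix.toLin' (m g) = 1
    rw [hg, Matrix.toLin'_one]
    rfl

end Matrices


section Main

variable {k : Type*} [Field k] [IsAlgClosed k] {G : Type*} [Group G]
  {V : Type*} [AddCommGroup V] [Module k V] [FiniteDimensional k V] [Nontrivial V]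

/-- a representation on a space of dimension `n`, in matrix form. -/
theorem s29f_exists_matrix {W : Type*} [AddCommGroup W] [Module k W] [FiniteDimensional k W]
    (σ : G →* Module.End k W) (d : G →* kˣ) (t : G → k)
    (h : ∀ g, σ g + (d g : k) • σ g⁻¹ = t g • 1) (n : ℕ) (hn : Module.finrank k W = n) :
    ∃ m : G →* Matrix (Fin n) (Fin n) k, (∀ g, m g + (d g : k) • m g⁻¹ = t g • 1) ∧
      (∀ g, σ g = 1 → m g = 1) ∧ (∀ g (c : k), m g = c • 1 → σ g = c • 1) := by
  let B : Basis (Fin n) k W := Module.finBasisOfFinrankEq k W hn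
  let e : Module.End k W ≃ₐ[k] Matrix (Fin n) (Fin n) k := LinearMap.toMatrixAlgEquiv B
  refine ⟨e.toAlgHom.toRingHom.toMonoidHom.comp σ, fun g => ?_, fun g hg => ?_, fun g c hg => ?_⟩
  · show e (σ g) + (d g : k) • e (σ g⁻¹) = t g • 1
    rw [← map_smul, ← map_add, h g, map_smul, map_one]
  · show e (σ g) = 1
    rw [hg, map_one]
  · have hg' : e (σ g) = c • 1 := hg
    apply e.injective
    rw [hg', map_smul, map_one]

variable {ρ : Representation k G V} {d : G →* kˣ} {t : G → k}

/-- **The finite-group lemma.** -/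
theorem s29f_exists_two_dim (h : ∀ g, ρ g + (d g : k) • ρ g⁻¹ = t g • 1) :
    ∃ ρ' : G →* ((Fin 2 → k) →ₗ[k] (Fin 2 → k)),
      (∀ g, LinearMap.charpoly (ρ' g) = X ^ 2 - C (t g) * X + C (d g : k)) ∧
      (∀ g, ρ g = 1 → d g = 1 → ρ' g = 1) := by
  classical
  -- a simple submodule
  haveI : IsArtinian (MonoidAlgebra k G) ρ.asModule := isArtinian_of_tower k inferInstance
  haveI : Nontrivial ρ.asModule := ρ.asModuleEquiv.toEquiv.nontrivial
  obtain ⟨W, hW, -⟩ := (IsAtomic.eq_bot_or_exists_atom_le
    (⊤ : Submodule (MonoidAlgebra k G) ρ.asModule)).resolve_left top_ne_bot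
  haveI : IsSimpleModule (MonoidAlgebra k G) W := isSimpleModule_iff_isAtom.mpr hW
  haveI : FiniteDimensional k W :=
    Module.Finite.of_injective ((W.subtype).restrictScalars k) Subtype.val_injective
  haveI : Nontrivial W := IsSimpleModule.nontrivial (MonoidAlgebra k G) W
  -- the action on `W` in terms of `ρ`
  have hact : ∀ (b : MonoidAlgebra k G) (w : W),
      ρ.asModuleEquiv ((b • w : W) : ρ.asModule) =
        ρ.asAlgebraHom b (ρ.asModuleEquiv (w : ρ.asModule)) := fun b w => by
    rw [Submodule.coe_smul, Representation.asModuleEquiv_map_smul]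
  have hactk : ∀ (c : k) (w : W),
      ρ.asModuleEquiv ((c • w : W) : ρ.asModule) = c • ρ.asModuleEquiv (w : ρ.asModule) :=
    fun c w => by rw [Submodule.coe_smul_of_tower, map_smul]
  have hinj : ∀ w w' : W, ρ.asModuleEquiv (w : ρ.asModule) = ρ.asModuleEquiv (w' : ρ.asModule) →
      w = w' := fun w w' hww => Subtype.ext (ρ.asModuleEquiv.injective hww)
  -- the dimension bound
  have hle : Module.finrank k W ≤ 2 := by
    refine s29f_finrank_le_two (R := MonoidAlgebra k G) (s29f_T t) fun b b' w => ?_
    apply hinj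
    have key := LinearMap.congr_fun (s29f_rel_algebra h b b') (ρ.asModuleEquiv (w : ρ.asModule))
    simp only [LinearMap.sub_apply, LinearMap.add_apply, LinearMap.smul_apply,
      Module.End.mul_apply, Module.End.one_apply] at key
    simp only [Submodule.coe_sub, Submodule.coe_add, map_sub, map_add, hact, hactk]
    exact key
  -- the representation on `W`
  let σ : G →* Module.End k W :=
    ((Module.toModuleEnd k (S := MonoidAlgebra k G) W).toMonoidHom).comp (MonoidAlgebra.of k G)
  have hσ : ∀ (g : G) (w : W), ρ.asModuleEquiv ((σ g w : W) : ρ.asModule) =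
      ρ g (ρ.asModuleEquiv (w : ρ.asModule)) := fun g w => by
    show ρ.asModuleEquiv ((MonoidAlgebra.of k G g • w : W) : ρ.asModule) = _
    rw [hact, Representation.asAlgebraHom_of]
  have hσh : ∀ g, σ g + (d g : k) • σ g⁻¹ = t g • 1 := fun g => by
    apply LinearMap.ext
    intro w
    apply hinj
    simp only [LinearMap.add_apply, LinearMap.smul_apply, Module.End.one_apply,
      Submodule.coe_add, map_add, hactk, hσ]
    have := LinearMap.congr_fun (h g) (ρ.asModuleEquiv (w : ρ.asModule))
    simpa only [LinearMap.add_apply, LinearMap.smul_apply, Module.End.one_apply] using this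
  have hσ1 : ∀ g, ρ g = 1 → σ g = 1 := fun g hg => by
    apply LinearMap.ext
    intro w
    apply hinj
    rw [hσ, hg]
    rfl
  have hpos : 0 < Module.finrank k W := Module.finrank_pos
  have hcases : Module.finrank k W = 1 ∨ Module.finrank k W = 2 := by omega
  rcases hcases with h1 | h2
  · -- dimension one
    obtain ⟨m, hm, hm1, -⟩ := s29f_exists_matrix σ d t hσh 1 h1
    -- the character
    let ψ' : G →* k :=
      { toFun := fun g => m g 0 0
        map_one' := by rw [map_one]; rfl
        map_mul' := fun g g' => by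
          rw [map_mul, Matrix.mul_apply, Fin.sum_univ_one] }
    let ψ : G →* kˣ := ψ'.toHomUnits
    have hψ : ∀ g, ((ψ g : kˣ) : k) = m g 0 0 := fun g => rfl
    have hψinv : ∀ g, (((ψ g)⁻¹ : kˣ) : k) = m g⁻¹ 0 0 := fun g => by
      rw [← map_inv, hψ]
    have htd : ∀ g, (s29f_diag ψ d g).trace = t g ∧ (s29f_diag ψ d g).det = (d g : k) := by
      intro g
      refine ⟨?_, s29f_diag_det ψ d g⟩
      rw [s29f_diag_trace, hψ, hψinv]
      have := congrFun (congrFun (hm g) 0) 0
      simpa using this
    obtain ⟨ρ', hρ', hρ'1⟩ := s29f_of_matrix (s29f_diag ψ d) d t htd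
    refine ⟨ρ', hρ', fun g hg hdg => hρ'1 g (s29f_diag_eq_one ψ d g ?_ hdg)⟩
    apply Units.ext
    rw [hψ, hm1 g (hσ1 g hg)]
    rfl
  · -- dimension two
    obtain ⟨m, hm, hm1, hms⟩ := s29f_exists_matrix σ d t hσh 2 h2
    have hns : ∃ g₀, ∀ c : k, m g₀ ≠ c • 1 := by
      by_contra hcon
      -- all group elements act on `W` by scalars
      have hsc : ∀ g, ∃ c : k, σ g = c • 1 := fun g => by
        by_contra hg
        exact hcon ⟨g, fun c hc => hg ⟨c, hms g c hc⟩⟩
      obtain ⟨w, hw⟩ := exists_ne (0 : W)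
      have hall : ∀ b : MonoidAlgebra k G, ∃ c : k, b • w = c • w := by
        intro b
        induction b using MonoidAlgebra.induction_linear with
        | zero => exact ⟨0, by rw [zero_smul, zero_smul]⟩
        | add x y hx hy =>
          obtain ⟨c₁, h₁⟩ := hx
          obtain ⟨c₂, h₂⟩ := hy
          exact ⟨c₁ + c₂, by rw [add_smul, add_smul, h₁, h₂]⟩
        | single g r =>
          obtain ⟨c, hc⟩ := hsc g
          refine ⟨r * c, ?_⟩
          have e1 : MonoidAlgebra.single g r = r • MonoidAlgebra.of k G g := by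
            rw [MonoidAlgebra.of_apply, MonoidAlgebra.smul_single, smul_eq_mul, mul_one]
          have e2 : MonoidAlgebra.of k G g • w = σ g w := rfl
          rw [e1, smul_assoc, e2, hc, LinearMap.smul_apply, Module.End.one_apply, smul_smul]
      have hsurj := IsSimpleModule.toSpanSingleton_surjective (MonoidAlgebra k G) hw
      have hle1 : Module.finrank k W ≤ 1 := by
        refine finrank_le_one w fun w' => ?_
        obtain ⟨b, hb⟩ := hsurj w'
        obtain ⟨c, hc⟩ := hall b
        exact ⟨c, by rw [← hc, ← hb]; rfl⟩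
      omega
    obtain ⟨ρ', hρ', hρ'1⟩ := s29f_of_matrix m d t (s29f_trace_det m d t hm hns)
    exact ⟨ρ', hρ', fun g hg _ => hρ'1 g (hm1 g (hσ1 g hg))⟩

end Main

end Fermat.Agent.Lib.S29
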