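/-
Plan K, [GS] step GS4 (abstract part; pure Mathlib).

* `R : G →* End_k M` a representation, `v : M`: `s29g_W R v` the `k`-span of the orbit of `v`,
  `s29g_rho R v : G →* End_k W` the restriction; finiteness (`s29g_W_finiteDimensional`),
  nontriviality, triviality of the normal core of the stabiliser, eigen-relations and quadratic
  relations pass to `W`;
* `F ⊆ k` fields, `J` an `F`-module with an `F`-linear action `r : G →* End_F J`:
  `s29g_bc k r : G →* End_k (k ⊗[F] J)`  the base-changed action, base change of commutation and of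
  quadratic relations;
* `s29g_lucas`: in a `k`-algebra, `h² - a h + b = 0` implies `h^j + (a - h)^j ∈ k`;
* `s29g_trace_of_pow`: the identity `ρ g + d • ρ g⁻¹ = t • 1` when `ρ g = h^j`, `d = b^j`.
-/
import Mathlib

set_option autoImplicit false

open scoped TensorProduct

namespace Fermat.Agent.Lib.S29

section span

variable {k M G : Type*} [Field k] [AddCommGroup M] [Module k M] [Group G]

/-- The `k`-span of the orbit of `v`. -/
def s29g_W (R : G →* Module.End k M) (v : M) : Submodule k M :=
  Submodule.span k (Set.range fun σ : G => R σ v)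

theorem s29g_orbit_mem_W (R : G →* Module.End k M) (v : M) (σ : G) : R σ v ∈ s29g_W R v :=
  Submodule.subset_span ⟨σ, rfl⟩

theorem s29g_self_mem_W (R : G →* Module.End k M) (v : M) : v ∈ s29g_W R v := by
  have h := s29g_orbit_mem_W R v 1
  rwa [map_one, Module.End.one_apply] at h

theorem s29g_W_stable (R : G →* Module.End k M) (v : M) (σ : G) {w : M}
    (hw : w ∈ s29g_W R v) : R σ w ∈ s29g_W R v := by
  unfold s29g_W at hw
  induction hw using Submodule.span_induction with
  | mem x hx =>
    obtain ⟨τ, rfl⟩ := hx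
    have : R σ (R τ v) = R (σ * τ) v := by
      rw [map_mul, Module.End.mul_apply]
    rw [this]
    exact s29g_orbit_mem_W R v (σ * τ)
  | zero => rw [map_zero]; exact Submodule.zero_mem _
  | add x y _ _ hx hy => rw [map_add]; exact Submodule.add_mem _ hx hy
  | smul c x _ hx => rw [map_smul]; exact Submodule.smul_mem _ c hx

/-- The representation on the span of the orbit. -/
def s29g_rho (R : G →* Module.End k M) (v : M) : G →* Module.End k (s29g_W R v) where
  toFun σ := (R σ).restrict (fun _ hw => s29g_W_stable R v σ hw)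
  map_one' := by
    ext w
    rw [LinearMap.coe_restrict_apply, map_one, Module.End.one_apply, Module.End.one_apply]
  map_mul' σ τ := by
    ext w
    rw [LinearMap.coe_restrict_apply, map_mul, Module.End.mul_apply, Module.End.mul_apply,
      LinearMap.coe_restrict_apply, LinearMap.coe_restrict_apply]

@[simp]
theorem s29g_rho_coe (R : G →* Module.End k M) (v : M) (σ : G) (w : s29g_W R v) :
    ((s29g_rho R v σ w : s29g_W R v) : M) = R σ (w : M) := rfl

theorem s29g_W_nontrivial (R : G →* Module.End k M) {v : M} (hv : v ≠ 0) :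
    Nontrivial (s29g_W R v) :=
  ⟨⟨⟨v, s29g_self_mem_W R v⟩, 0, fun h => hv (congrArg Subtype.val h)⟩⟩

theorem s29g_W_finiteDimensional (R : G →* Module.End k M) (v : M)
    (hfin : (Set.range fun σ : G => R σ v).Finite) : FiniteDimensional k (s29g_W R v) :=
  FiniteDimensional.span_of_finite k hfin

/-- A `k`-linear identity that holds on the orbit holds on `W`. -/
theorem s29g_eq_on_W (R : G →* Module.End k M) (v : M) (f g : Module.End k M)
    (h : ∀ σ : G, f (R σ v) = g (R σ v)) {w : M} (hw : w ∈ s29g_W R v) : f w = g w := by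
  unfold s29g_W at hw
  induction hw using Submodule.span_induction with
  | mem x hx => obtain ⟨τ, rfl⟩ := hx; exact h τ
  | zero => rw [map_zero, map_zero]
  | add x y _ _ hx hy => rw [map_add, map_add, hx, hy]
  | smul c x _ hx => rw [map_smul, map_smul, hx]

/-- If all conjugates of `σ` fix `v`, then `σ` acts trivially on `W`. -/
theorem s29g_rho_eq_one (R : G →* Module.End k M) (v : M) (σ : G)
    (h : ∀ τ : G, R (τ⁻¹ * σ * τ) v = v) : s29g_rho R v σ = 1 := by
  ext w
  rw [s29g_rho_coe, Module.End.one_apply]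
  refine s29g_eq_on_W R v (R σ) 1 (fun τ => ?_) w.property
  rw [Module.End.one_apply]
  have h1 : R σ (R τ v) = R τ (R (τ⁻¹ * σ * τ) v) := by
    rw [← Module.End.mul_apply, ← Module.End.mul_apply, ← map_mul, ← map_mul]
    congr 2
    group
  rw [h1, h τ]

/-- If `g⁻¹ σ^j` acts trivially on `W`, then `g` acts as the `j`-th power of `σ`. -/
theorem s29g_rho_eq_pow (R : G →* Module.End k M) (v : M) (g σ : G) (j : ℕ)
    (h : s29g_rho R v (g⁻¹ * σ ^ j) = 1) : s29g_rho R v g = s29g_rho R v σ ^ j := by
  rw [← map_pow]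
  have : σ ^ j = g * (g⁻¹ * σ ^ j) := by rw [mul_inv_cancel_left]
  rw [this, map_mul, h, mul_one]

/-- If `σ` acts trivially on `M`, it acts trivially on `W`. -/
theorem s29g_rho_eq_one_of_R (R : G →* Module.End k M) (v : M) (σ : G)
    (h : R σ = 1) : s29g_rho R v σ = 1 := by
  ext w
  rw [s29g_rho_coe, Module.End.one_apply, h, Module.End.one_apply]

/-- An operator commuting with the action that has `v` as an eigenvector acts as a scalar on
`W`. -/
theorem s29g_eigen_on_W (R : G →* Module.End k M) (v : M) (T : Module.End k M)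
    (hcomm : ∀ (σ : G) (m : M), T (R σ m) = R σ (T m)) (c : k)
    (hv : T v = c • v) {w : M} (hw : w ∈ s29g_W R v) : T w = c • w := by
  refine s29g_eq_on_W R v T (c • (1 : Module.End k M)) (fun σ => ?_) hw
  rw [LinearMap.smul_apply, Module.End.one_apply, hcomm, hv, map_smul]

/-- A quadratic relation on `M` passes to `W` (with the Hecke operator replaced by its
eigenvalue). -/
theorem s29g_quadratic_on_W (R : G →* Module.End k M) (v : M) (T : Module.End k M)
    (hcomm : ∀ (σ : G) (m : M), T (R σ m) = R σ (T m)) (c : k)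
    (hv : T v = c • v) (σ : G) (b : k)
    (hq : ∀ m : M, R σ (R σ m) - T (R σ m) + b • m = 0) :
    s29g_rho R v σ * s29g_rho R v σ - c • s29g_rho R v σ
      + b • (1 : Module.End k (s29g_W R v)) = 0 := by
  ext w
  have hw := hq (w : M)
  rw [s29g_eigen_on_W R v T hcomm c hv (s29g_W_stable R v σ w.property)] at hw
  simp only [LinearMap.add_apply, LinearMap.sub_apply, LinearMap.smul_apply, Module.End.mul_apply,
    Module.End.one_apply, LinearMap.zero_apply, Submodule.coe_add, Submodule.coe_sub,
    Submodule.coe_smul, s29g_rho_coe, Submodule.coe_zero]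
  exact hw

end span

section bc

variable {F : Type*} (k : Type*) {J G : Type*} [Field F] [Field k] [Algebra F k]
  [AddCommGroup J] [Module F J] [Group G]

/-- The base-changed action on `k ⊗[F] J`. -/
noncomputable def s29g_bc (r : G →* Module.End F J) : G →* Module.End k (k ⊗[F] J) where
  toFun σ := (r σ).baseChange k
  map_one' := by rw [map_one, LinearMap.baseChange_one]
  map_mul' σ τ := by rw [map_mul, LinearMap.baseChange_mul]

@[simp]
theorem s29g_bc_apply (r : G →* Module.End F J) (σ : G) :
    s29g_bc k r σ = (r σ).baseChange k := rfl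

theorem s29g_bc_tmul (r : G →* Module.End F J) (σ : G) (c : k) (x : J) :
    s29g_bc k r σ (c ⊗ₜ[F] x) = c ⊗ₜ[F] (r σ x) := by
  rw [s29g_bc_apply, LinearMap.baseChange_tmul]

theorem s29g_bc_eq_one (r : G →* Module.End F J) (σ : G) (h : r σ = 1) : s29g_bc k r σ = 1 := by
  rw [s29g_bc_apply, h, LinearMap.baseChange_one]

/-- Base change of a commutation relation. -/
theorem s29g_bc_comm (r : G →* Module.End F J) (T : Module.End F J)
    (hcomm : ∀ (σ : G) (x : J), T (r σ x) = r σ (T x)) (σ : G) (m : k ⊗[F] J) :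
    T.baseChange k (s29g_bc k r σ m) = s29g_bc k r σ (T.baseChange k m) := by
  have hc : T.baseChange k ∘ₗ (r σ).baseChange k = (r σ).baseChange k ∘ₗ T.baseChange k := by
    rw [← LinearMap.baseChange_comp, ← LinearMap.baseChange_comp]
    congr 1
    ext x
    exact hcomm σ x
  rw [s29g_bc_apply, ← LinearMap.comp_apply, hc, LinearMap.comp_apply]

/-- Base change of a quadratic relation. -/
theorem s29g_bc_quadratic (r : G →* Module.End F J) (T : Module.End F J) (σ : G) (b : F)
    (hq : ∀ x : J, r σ (r σ x) - T (r σ x) + b • x = 0) (m : k ⊗[F] J) :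
    s29g_bc k r σ (s29g_bc k r σ m) - T.baseChange k (s29g_bc k r σ m)
      + (algebraMap F k b) • m = 0 := by
  induction m using TensorProduct.induction_on with
  | zero => simp
  | tmul a x =>
    rw [s29g_bc_tmul, s29g_bc_tmul, LinearMap.baseChange_tmul, ← TensorProduct.tmul_sub,
      algebraMap_smul, ← TensorProduct.tmul_smul, ← TensorProduct.tmul_add, hq x,
      TensorProduct.tmul_zero]
  | add x y hx hy =>
    rw [map_add, map_add, map_add, smul_add]
    have : ∀ a b c a' b' c' : k ⊗[F] J,
        a + a' - (b + b') + (c + c') = (a - b + c) + (a' - b' + c') :=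
      fun _ _ _ _ _ _ => by abel
    rw [this, hx, hy, add_zero]

end bc

section lucas

variable {k E : Type*} [Field k] [Ring E] [Algebra k E]

/-- In a `k`-algebra, `h² - a h + b = 0` implies that `h^j + (a - h)^j` is a scalar. -/
theorem s29g_lucas (h : E) (a b : k) (hq : h * h - a • h + b • (1 : E) = 0) (j : ℕ) :
    ∃ t : k, h ^ j + (a • (1 : E) - h) ^ j = t • (1 : E) := by
  set h' : E := a • (1 : E) - h with hh'
  have hmul : h * h' = b • (1 : E) := by
    have : h * h' = -(h * h - a • h + b • (1 : E)) + b • (1 : E) := by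
      rw [hh', mul_sub, mul_smul_comm, mul_one]; abel
    rw [this, hq, neg_zero, zero_add]
  have hmul' : h' * h = b • (1 : E) := by
    have : h' * h = -(h * h - a • h + b • (1 : E)) + b • (1 : E) := by
      rw [hh', sub_mul, smul_mul_assoc, one_mul]; abel
    rw [this, hq, neg_zero, zero_add]
  have hadd : h + h' = a • (1 : E) := by rw [hh']; abel
  have key : ∀ j : ℕ, ∃ t t' : k, h ^ j + h' ^ j = t • (1 : E) ∧
      h ^ (j + 1) + h' ^ (j + 1) = t' • (1 : E) := by
    intro j
    induction j with
    | zero =>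
      refine ⟨2, a, ?_, ?_⟩
      · rw [pow_zero, pow_zero, two_smul]
      · rw [zero_add, pow_one, pow_one, hadd]
    | succ j ih =>
      obtain ⟨t, t', ht, ht'⟩ := ih
      refine ⟨t', a * t' - b * t, ht', ?_⟩
      have e : h ^ (j + 1 + 1) + h' ^ (j + 1 + 1)
          = (h + h') * (h ^ (j + 1) + h' ^ (j + 1)) - ((h * h') * h' ^ j + (h' * h) * h ^ j) := by
        rw [pow_succ' h (j + 1), pow_succ' h' (j + 1), pow_succ' h j, pow_succ' h' j]
        noncomm_ring
      rw [e, hadd, ht', hmul, hmul']
      simp only [smul_mul_assoc, one_mul]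
      rw [← smul_add, add_comm (h' ^ j), ht, smul_smul, smul_smul, ← sub_smul]
  obtain ⟨t, _, ht, _⟩ := key j
  exact ⟨t, ht⟩

/-- The trace identity for a power of an element satisfying a quadratic relation. -/
theorem s29g_trace_of_pow (h : E) (a b : k) (hq : h * h - a • h + b • (1 : E) = 0) (j : ℕ)
    (x y : E) (hx : x = h ^ j) (hxy : x * y = 1) :
    ∃ t : k, x + (b ^ j) • y = t • (1 : E) := by
  obtain ⟨t, ht⟩ := s29g_lucas h a b hq j
  refine ⟨t, ?_⟩
  rw [← ht, hx]
  congr 1
  have hmul' : (a • (1 : E) - h) * h = b • (1 : E) := by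
    have : (a • (1 : E) - h) * h = -(h * h - a • h + b • (1 : E)) + b • (1 : E) := by
      rw [sub_mul, smul_mul_assoc, one_mul]; abel
    rw [this, hq, neg_zero, zero_add]
  have hc : Commute (a • (1 : E) - h) h :=
    ((Commute.one_left h).smul_left a).sub_left (Commute.refl h)
  have h1 : (a • (1 : E) - h) ^ j * h ^ j = (b ^ j) • (1 : E) := by
    rw [← hc.mul_pow, hmul', smul_pow, one_pow]
  calc (b ^ j) • y = ((b ^ j) • (1 : E)) * y := by rw [smul_mul_assoc, one_mul]
    _ = (a • (1 : E) - h) ^ j * (h ^ j * y) := by rw [← h1, mul_assoc]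
    _ = (a • (1 : E) - h) ^ j := by rw [← hx, hxy, mul_one]

end lucas

section trace

variable {k M G : Type*} [Field k] [AddCommGroup M] [Module k M] [Group G]

/-- The trace identity on `W` for an element acting as a power of an element satisfying a
quadratic relation. -/
theorem s29g_trace_identity (R : G →* Module.End k M) (v : M) (T : Module.End k M)
    (hcomm : ∀ (σ : G) (m : M), T (R σ m) = R σ (T m)) (c : k) (hv : T v = c • v) (σ : G) (b : k)
    (hq : ∀ m : M, R σ (R σ m) - T (R σ m) + b • m = 0) (j : ℕ) (g : G)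
    (hg : s29g_rho R v g = s29g_rho R v σ ^ j) :
    ∃ t : k, s29g_rho R v g + b ^ j • s29g_rho R v g⁻¹
      = t • (1 : Module.End k (s29g_W R v)) :=
  s29g_trace_of_pow (s29g_rho R v σ) c b (s29g_quadratic_on_W R v T hcomm c hv σ b hq) j _ _ hg
    (by rw [← map_mul, mul_inv_cancel, map_one])

/-- The trace identity for the element itself. -/
theorem s29g_trace_frob (R : G →* Module.End k M) (v : M) (T : Module.End k M)
    (hcomm : ∀ (σ : G) (m : M), T (R σ m) = R σ (T m)) (c : k) (hv : T v = c • v) (σ : G) (b : k)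
    (hq : ∀ m : M, R σ (R σ m) - T (R σ m) + b • m = 0) :
    s29g_rho R v σ + b • s29g_rho R v σ⁻¹ = c • (1 : Module.End k (s29g_W R v)) := by
  have hq' := s29g_quadratic_on_W R v T hcomm c hv σ b hq
  have hinv : s29g_rho R v σ * s29g_rho R v σ⁻¹ = 1 := by
    rw [← map_mul, mul_inv_cancel, map_one]
  have h1 : (s29g_rho R v σ * s29g_rho R v σ - c • s29g_rho R v σ
      + b • (1 : Module.End k (s29g_W R v))) * s29g_rho R v σ⁻¹
      = s29g_rho R v σ + b • s29g_rho R v σ⁻¹ - c • (1 : Module.End k (s29g_W R v)) := by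
    rw [add_mul, sub_mul, mul_assoc, hinv, mul_one, smul_mul_assoc, hinv, smul_mul_assoc, one_mul]
    abel
  rw [hq', zero_mul] at h1
  exact (sub_eq_zero.mp h1.symm)

/-- Variant of `s29g_trace_identity` with the determinant given up to equality. -/
theorem s29g_trace_identity' (R : G →* Module.End k M) (v : M) (T : Module.End k M)
    (hcomm : ∀ (σ : G) (m : M), T (R σ m) = R σ (T m)) (c : k) (hv : T v = c • v) (σ : G) (b : k)
    (hq : ∀ m : M, R σ (R σ m) - T (R σ m) + b • m = 0) (j : ℕ) (g : G)
    (hg : s29g_rho R v g = s29g_rho R v σ ^ j) (d : k) (hd : d = b ^ j) :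
    ∃ t : k, s29g_rho R v g + d • s29g_rho R v g⁻¹
      = t • (1 : Module.End k (s29g_W R v)) := by
  rw [hd]
  exact s29g_trace_identity R v T hcomm c hv σ b hq j g hg

/-- Variant of `s29g_trace_frob` with the determinant given up to equality. -/
theorem s29g_trace_frob' (R : G →* Module.End k M) (v : M) (T : Module.End k M)
    (hcomm : ∀ (σ : G) (m : M), T (R σ m) = R σ (T m)) (c : k) (hv : T v = c • v) (σ : G) (b : k)
    (hq : ∀ m : M, R σ (R σ m) - T (R σ m) + b • m = 0) (d : k) (hd : d = b) :
    s29g_rho R v σ + d • s29g_rho R v σ⁻¹ = c • (1 : Module.End k (s29g_W R v)) := by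
  rw [hd]
  exact s29g_trace_frob R v T hcomm c hv σ b hq

/-- Scalars act faithfully on `W` when `v ≠ 0`. -/
theorem s29g_smul_one_injective (R : G →* Module.End k M) {v : M} (hv : v ≠ 0) {t t' : k}
    (h : t • (1 : Module.End k (s29g_W R v)) = t' • (1 : Module.End k (s29g_W R v))) : t = t' := by
  have h1 := congrArg (fun f : Module.End k (s29g_W R v) =>
    ((f ⟨v, s29g_self_mem_W R v⟩ : s29g_W R v) : M)) h
  simp only [LinearMap.smul_apply, Module.End.one_apply, Submodule.coe_smul] at h1
  by_contra hne
  have h2 : (t - t') • v = 0 := by rw [sub_smul, h1, sub_self]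
  rcases smul_eq_zero.mp h2 with h3 | h3
  · exact hne (sub_eq_zero.mp h3)
  · exact hv h3

end trace

end Fermat.Agent.Lib.S29
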