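/-
Plan K, [GS] step GS4: the finite-group lemma [FG] (`s29f_exists_two_dim`) applied to the span of the
orbit of a vector (abstract module `M`; pure Mathlib + FGTwo + GSSpan).
-/
import Mathlib
import Fermat.Agent.Lib.S29.GSSpan
import Fermat.Agent.Lib.S29.FGTwo

set_option autoImplicit false

namespace Fermat.Agent.Lib.S29

open Polynomial

theorem s29g_two_dim_of_trace {k M G : Type*} [Field k] [IsAlgClosed k] [AddCommGroup M]
    [Module k M] [Group G] (R : G →* Module.End k M) (v : M) (hv : v ≠ 0)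
    (hfin : (Set.range fun σ : G => R σ v).Finite) (d : G →* kˣ) (t : G → k)
    (h : ∀ g, s29g_rho R v g + (d g : k) • s29g_rho R v g⁻¹
      = t g • (1 : Module.End k (s29g_W R v))) :
    ∃ ρ' : G →* ((Fin 2 → k) →ₗ[k] (Fin 2 → k)),
      (∀ g, LinearMap.charpoly (ρ' g) = X ^ 2 - C (t g) * X + C (d g : k)) ∧
      (∀ g, s29g_rho R v g = 1 → d g = 1 → ρ' g = 1) := by
  have : FiniteDimensional k (s29g_W R v) := s29g_W_finiteDimensional R v hfin
  have : Nontrivial (s29g_W R v) := s29g_W_nontrivial R hv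
  exact s29f_exists_two_dim (ρ := s29g_rho R v) (d := d) (t := t) h

end Fermat.Agent.Lib.S29
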