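/-
Plan K, [GS] step GS4 (assembly): from a non-zero Hecke eigenvector `v ∈ k ⊗ J₀(N)(ℚ̄)[p]`
(`s29k_EigenSupport` shape) + `s29k_S37Int` + `s29k_FrobDensity` to a 2-dimensional representation
of `Gal(ℚ̄/ℚ)` over `k` (algebraically closed) with the expected characteristic polynomials of
Frobenius, unramified outside `N p`, factoring through a finite level.
-/
import Mathlib
import Fermat.Agent.Lib.S29.KIface
import Fermat.Agent.Lib.S29.GSSpan
import Fermat.Agent.Lib.S29.GSChi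
import Fermat.Agent.Lib.S29.FGTwo
import Fermat.Agent.Lib.S29.GSTwo

set_option autoImplicit false
set_option linter.unusedSectionVars false
set_option linter.style.haveILetI false

noncomputable section

namespace Fermat.Agent.Lib.S29

open ModularCurve AlgebraicCurve Fermat.Agent.Lib.CFT Polynomial
open scoped TensorProduct IntermediateField

/-- The Galois action on `J₀(N)(ℚ̄)[p]`. -/
abbrev s29g_r (N p : ℕ) : s29k_G →* Module.End (ZMod p) (s29k_Jp N p) :=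
  JZero.torsionGaloisRep N p

theorem s29g_r_coe (N p : ℕ) (σ : s29k_G) (x : s29k_Jp N p) :
    ((s29g_r N p σ x : s29k_Jp N p) : JZero N) = σ • (x : JZero N) := rfl

/-- The mod `p` cyclotomic character with values in `k`. -/
def s29g_d (p : ℕ) [Fact p.Prime] (k : Type*) [Field k] [Algebra (ZMod p) k] : s29k_G →* kˣ :=
  (Units.map (algebraMap (ZMod p) k : ZMod p →* k)).comp (cff_chi p)

theorem s29g_d_coe (p : ℕ) [Fact p.Prime] (k : Type*) [Field k] [Algebra (ZMod p) k]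
    (σ : s29k_G) :
    ((s29g_d p k σ : kˣ) : k) = algebraMap (ZMod p) k ((cff_chi p σ : (ZMod p)ˣ) : ZMod p) := rfl

section S37

variable (hS : s29k_S37Int) (N p : ℕ) [NeZero N]
include hS

theorem s29g_Tl_comm (ℓ : Nat.Primes) (σ : s29k_G) (x : s29k_Jp N p) :
    s29k_Tl N p ℓ (s29g_r N p σ x) = s29g_r N p σ (s29k_Tl N p ℓ x) := by
  apply Subtype.ext
  rw [s29k_Tl_coe, s29g_r_coe, s29g_r_coe, s29k_Tl_coe]
  exact (hS.comm N ℓ σ (x : JZero N)).symm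

theorem s29g_r_quadratic (ℓ : Nat.Primes) (hℓNp : ¬ (ℓ : ℕ) ∣ N * p)
    (A : ValuationSubring (AlgebraicClosure ℚ)) (hA : A.LiesOverPrime ℓ) (σ : s29k_G)
    (hσ : A.IsFrobeniusAt σ ℓ) (x : s29k_Jp N p) :
    s29g_r N p σ (s29g_r N p σ x) - s29k_Tl N p ℓ (s29g_r N p σ x)
      + (((ℓ : ℕ) : ZMod p)) • x = 0 := by
  apply Subtype.ext
  have hx := Pic0.mem_torsion.mp x.property
  have h := hS.frobQuad N p ℓ hℓNp A hA σ hσ (x : JZero N) hx
  rw [Nat.cast_smul_eq_nsmul]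
  rw [natCast_zsmul] at h
  rw [AddSubgroup.coe_add, AddSubgroup.coe_sub, AddSubgroupClass.coe_nsmul, s29k_Tl_coe,
    s29g_r_coe, s29g_r_coe, AddSubgroup.coe_zero]
  exact h

theorem s29g_r_inertia (ℓ : ℕ) (hℓ : ℓ.Prime) (hℓNp : ¬ ℓ ∣ N * p)
    (A : ValuationSubring (AlgebraicClosure ℚ)) (hA : A.LiesOverPrime ℓ) (τ : s29k_G)
    (hτ : τ ∈ A.inertiaSubgroupIn ℚ) : s29g_r N p τ = 1 := by
  ext x
  rw [Module.End.one_apply, s29g_r_coe]
  exact hS.unram N p ℓ hℓ hℓNp A hA τ hτ (x : JZero N) (Pic0.mem_torsion.mp x.property)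

/-- Open stabilisers on `k ⊗ J[p]`. -/
theorem s29g_exists_level_tensor [Fact p.Prime] (k : Type*) [Field k] [Algebra (ZMod p) k]
    (v : k ⊗[ZMod p] (s29k_Jp N p)) :
    ∃ L : IntermediateField ℚ (AlgebraicClosure ℚ), FiniteDimensional ℚ L ∧
      ∀ σ : s29k_G, (∀ y ∈ L, σ y = y) → s29g_bc k (s29g_r N p) σ v = v := by
  induction v using TensorProduct.induction_on with
  | zero => exact ⟨⊥, inferInstance, fun σ _ => map_zero _⟩
  | tmul c x =>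
    obtain ⟨L, hL, h⟩ := hS.openStab N (x : JZero N)
    refine ⟨L, hL, fun σ hσ => ?_⟩
    rw [s29g_bc_tmul]
    congr 1
    exact Subtype.ext (h σ hσ)
  | add v w hv hw =>
    obtain ⟨L₁, hL₁, h₁⟩ := hv
    obtain ⟨L₂, hL₂, h₂⟩ := hw
    refine ⟨L₁ ⊔ L₂, inferInstance, fun σ hσ => ?_⟩
    rw [map_add, h₁ σ (fun y hy => hσ y (le_sup_left (a := L₁) (b := L₂) hy)),
      h₂ σ (fun y hy => hσ y (le_sup_right (a := L₁) (b := L₂) hy))]

/-- A finite Galois level containing `μ_p` above which `v` is fixed. -/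
theorem s29g_exists_galois_level [Fact p.Prime] (k : Type*) [Field k] [Algebra (ZMod p) k]
    (v : k ⊗[ZMod p] (s29k_Jp N p)) :
    ∃ L : IntermediateField ℚ (AlgebraicClosure ℚ), FiniteDimensional ℚ L ∧
      (∀ σ : s29k_G, ∀ y ∈ L, σ y ∈ L) ∧
      (∀ σ : s29k_G, (∀ y ∈ L, σ y = y) → cff_chi p σ = 1) ∧
      ∀ σ : s29k_G, (∀ y ∈ L, σ y = y) → s29g_bc k (s29g_r N p) σ v = v := by
  have hp : p.Prime := Fact.out
  haveI : NeZero p := ⟨hp.ne_zero⟩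
  obtain ⟨L₀, hL₀, h₀⟩ := s29g_exists_level_tensor hS N p k v
  obtain ⟨ζ, hζ⟩ : ∃ ζ : AlgebraicClosure ℚ, IsPrimitiveRoot ζ p :=
    HasEnoughRootsOfUnity.exists_primitiveRoot (AlgebraicClosure ℚ) p
  have hζint : IsIntegral ℚ ζ := (hζ.isIntegral hp.pos).tower_top
  haveI : FiniteDimensional ℚ (ℚ⟮ζ⟯) := IntermediateField.adjoin.finiteDimensional hζint
  set L₁ : IntermediateField ℚ (AlgebraicClosure ℚ) := L₀ ⊔ ℚ⟮ζ⟯ with hL₁
  haveI : FiniteDimensional ℚ L₁ := IntermediateField.finiteDimensional_sup L₀ ℚ⟮ζ⟯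
  set L : IntermediateField ℚ (AlgebraicClosure ℚ) :=
    IntermediateField.normalClosure ℚ L₁ (AlgebraicClosure ℚ) with hL
  have hle : L₁ ≤ L := IntermediateField.le_normalClosure L₁
  have hnorm : Normal ℚ L := normalClosure.normal ℚ L₁ (AlgebraicClosure ℚ)
  refine ⟨L, normalClosure.is_finiteDimensional ℚ L₁ (AlgebraicClosure ℚ),
    fun σ y hy => ?_, fun σ hσ => ?_, fun σ hσ => ?_⟩
  · have h1 := IntermediateField.normal_iff_forall_map_le'.mp hnorm σ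
    exact h1 ((IntermediateField.mem_map _).mpr ⟨y, hy, rfl⟩)
  · rw [cff_chi_eq_one_iff hζ]
    refine hσ ζ (hle ?_)
    exact (le_sup_right : ℚ⟮ζ⟯ ≤ L₀ ⊔ ℚ⟮ζ⟯) (IntermediateField.mem_adjoin_simple_self ℚ ζ)
  · refine h₀ σ (fun y hy => hσ y (hle ?_))
    exact (le_sup_left : L₀ ≤ L₀ ⊔ ℚ⟮ζ⟯) hy

end S37

/-- A function on the Galois group that only depends on the restriction to a finite level has
finite range. -/
theorem s29g_range_finite (L : IntermediateField ℚ (AlgebraicClosure ℚ)) [FiniteDimensional ℚ L]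
    {X : Type*} (f : s29k_G → X) (h : ∀ σ τ : s29k_G, (∀ y ∈ L, σ y = τ y) → f σ = f τ) :
    (Set.range f).Finite := by
  classical
  let res : s29k_G → (L →ₐ[ℚ] AlgebraicClosure ℚ) := fun σ => (σ : AlgebraicClosure ℚ →ₐ[ℚ]
    AlgebraicClosure ℚ).comp L.val
  have hfac : Function.FactorsThrough f res := by
    intro σ τ hστ
    refine h σ τ (fun y hy => ?_)
    exact AlgHom.congr_fun hστ ⟨y, hy⟩
  have hcomp : f = Function.extend res f (fun _ => f 1) ∘ res := (hfac.extend_comp _).symm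
  rw [hcomp]
  exact (Set.finite_range _).subset (Set.range_comp_subset_range _ _)

section Main

variable (hS : s29k_S37Int) (N p : ℕ) [NeZero N] [Fact p.Prime]
  (k : Type*) [Field k] [Algebra (ZMod p) k]
include hS

/-- The base-changed Hecke operators commute with the base-changed Galois action. -/
theorem s29g_TlK_comm (ℓ : Nat.Primes) (σ : s29k_G) (m : k ⊗[ZMod p] (s29k_Jp N p)) :
    (s29k_Tl N p ℓ).baseChange k (s29g_bc k (s29g_r N p) σ m)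
      = s29g_bc k (s29g_r N p) σ ((s29k_Tl N p ℓ).baseChange k m) :=
  s29g_bc_comm k (s29g_r N p) (s29k_Tl N p ℓ) (s29g_Tl_comm hS N p ℓ) σ m

/-- The Eichler–Shimura relation on `k ⊗ J[p]`. -/
theorem s29g_bc_frob_quadratic (ℓ : Nat.Primes) (hℓNp : ¬ (ℓ : ℕ) ∣ N * p)
    (A : ValuationSubring (AlgebraicClosure ℚ)) (hA : A.LiesOverPrime ℓ) (σ : s29k_G)
    (hσ : A.IsFrobeniusAt σ ℓ) (m : k ⊗[ZMod p] (s29k_Jp N p)) :
    s29g_bc k (s29g_r N p) σ (s29g_bc k (s29g_r N p) σ m)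
      - (s29k_Tl N p ℓ).baseChange k (s29g_bc k (s29g_r N p) σ m) + (((ℓ : ℕ) : k)) • m = 0 := by
  have h := s29g_bc_quadratic k (s29g_r N p) (s29k_Tl N p ℓ) σ (((ℓ : ℕ) : ZMod p))
    (s29g_r_quadratic hS N p ℓ hℓNp A hA σ hσ) m
  rwa [map_natCast] at h

/-- Elements fixing a Galois-stable level above which `v` is fixed act trivially on the span of the
orbit of `v`. -/
theorem s29g_rho_eq_one_of_fixes (v : k ⊗[ZMod p] (s29k_Jp N p))
    (L : IntermediateField ℚ (AlgebraicClosure ℚ)) (hstab : ∀ σ : s29k_G, ∀ y ∈ L, σ y ∈ L)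
    (hv : ∀ σ : s29k_G, (∀ y ∈ L, σ y = y) → s29g_bc k (s29g_r N p) σ v = v)
    (σ : s29k_G) (hσ : ∀ y ∈ L, σ y = y) : s29g_rho (s29g_bc k (s29g_r N p)) v σ = 1 := by
  refine s29g_rho_eq_one _ v σ (fun τ => hv _ (fun y hy => ?_))
  show τ⁻¹ (σ (τ y)) = y
  rw [hσ (τ y) (hstab τ y hy)]
  exact τ.symm_apply_apply y

/-- The orbit of `v` is finite. -/
theorem s29g_orbit_finite (v : k ⊗[ZMod p] (s29k_Jp N p)) :
    (Set.range fun σ : s29k_G => s29g_bc k (s29g_r N p) σ v).Finite := by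
  obtain ⟨L, hL, -, -, hv⟩ := s29g_exists_galois_level hS N p k v
  refine s29g_range_finite L _ (fun σ τ h => ?_)
  have h1 : s29g_bc k (s29g_r N p) (τ⁻¹ * σ) v = v := by
    refine hv _ (fun y hy => ?_)
    show τ⁻¹ (σ y) = y
    rw [h y hy]
    exact τ.symm_apply_apply y
  have h2 : s29g_bc k (s29g_r N p) σ v
      = s29g_bc k (s29g_r N p) τ (s29g_bc k (s29g_r N p) (τ⁻¹ * σ) v) := by
    rw [← Module.End.mul_apply, ← map_mul, mul_inv_cancel_left]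
  show s29g_bc k (s29g_r N p) σ v = s29g_bc k (s29g_r N p) τ v
  rw [h2, h1]

end Main

section Assembly

variable (hS : s29k_S37Int) (hF : s29k_FrobDensity) (N p : ℕ) [NeZero N] [Fact p.Prime]
  (k : Type*) [Field k] [Algebra (ZMod p) k]
  (tl : Nat.Primes → k) (v : k ⊗[ZMod p] (s29k_Jp N p))
  (hT : ∀ ℓ : Nat.Primes, ¬ (ℓ : ℕ) ∣ N * p → (s29k_Tl N p ℓ).baseChange k v = tl ℓ • v)
include hS hT

/-- The trace identity at a Frobenius element. -/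
theorem s29g_trace_at_frob (ℓ : Nat.Primes) (hℓNp : ¬ (ℓ : ℕ) ∣ N * p)
    (A : ValuationSubring (AlgebraicClosure ℚ)) (hA : A.LiesOverPrime ℓ) (σ : s29k_G)
    (hσ : A.IsFrobeniusAt σ ℓ) :
    s29g_rho (s29g_bc k (s29g_r N p)) v σ
      + ((s29g_d p k σ : kˣ) : k) • s29g_rho (s29g_bc k (s29g_r N p)) v σ⁻¹
      = tl ℓ • (1 : Module.End k (s29g_W (s29g_bc k (s29g_r N p)) v)) ∧
    ((s29g_d p k σ : kˣ) : k) = (((ℓ : ℕ) : k)) := by
  have hne : (ℓ : ℕ) ≠ p := by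
    rintro h
    exact hℓNp (h ▸ Dvd.intro_left N rfl)
  have hd : ((s29g_d p k σ : kˣ) : k) = (((ℓ : ℕ) : k)) := by
    rw [s29g_d_coe, s29g_chi_frobenius p ℓ.2 hne A hA σ hσ, map_natCast]
  refine ⟨?_, hd⟩
  exact s29g_trace_frob' (s29g_bc k (s29g_r N p)) v ((s29k_Tl N p ℓ).baseChange k)
    (fun σ m => s29g_TlK_comm hS N p k ℓ σ m) (tl ℓ) (hT ℓ hℓNp) σ _
    (s29g_bc_frob_quadratic hS N p k ℓ hℓNp A hA σ hσ) _ hd

include hF

/-- The trace identity at every element of the Galois group. -/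
theorem s29g_exists_trace (g : s29k_G) :
    ∃ t : k, s29g_rho (s29g_bc k (s29g_r N p)) v g
      + ((s29g_d p k g : kˣ) : k) • s29g_rho (s29g_bc k (s29g_r N p)) v g⁻¹
      = t • (1 : Module.End k (s29g_W (s29g_bc k (s29g_r N p)) v)) := by
  have hp : p.Prime := Fact.out
  generalize hP : (∃ t : k, s29g_rho (s29g_bc k (s29g_r N p)) v g
      + ((s29g_d p k g : kˣ) : k) • s29g_rho (s29g_bc k (s29g_r N p)) v g⁻¹
      = t • (1 : Module.End k (s29g_W (s29g_bc k (s29g_r N p)) v))) = P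
  obtain ⟨L, hL, hstab, hchi, hv⟩ := s29g_exists_galois_level hS N p k v
  have hNp : N * p ≠ 0 := mul_ne_zero (NeZero.ne N) hp.ne_zero
  obtain ⟨ℓ, A, σ, j, hℓ, hℓS, hA, hσ, hres⟩ := hF L hL hstab (N * p).primeFactors g
  rw [← hP]
  have hℓNp : ¬ ℓ ∣ N * p := fun h => hℓS (Nat.mem_primeFactors.mpr ⟨hℓ, h, hNp⟩)
  have hne : ℓ ≠ p := by
    rintro h
    exact hℓNp (h ▸ Dvd.intro_left N rfl)
  -- `g⁻¹ σ^j` fixes `L`
  have hfix : ∀ y ∈ L, (g⁻¹ * σ ^ j) y = y := by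
    intro y hy
    show g⁻¹ ((σ ^ j) y) = y
    rw [hres y hy]
    exact g.symm_apply_apply y
  have h1 : s29g_rho (s29g_bc k (s29g_r N p)) v (g⁻¹ * σ ^ j) = 1 :=
    s29g_rho_eq_one_of_fixes hS N p k v L hstab hv _ hfix
  have hg : s29g_rho (s29g_bc k (s29g_r N p)) v g
      = s29g_rho (s29g_bc k (s29g_r N p)) v σ ^ j :=
    s29g_rho_eq_pow _ v g σ j h1
  have hdg : ((s29g_d p k g : kˣ) : k) = (((ℓ : ℕ) : k)) ^ j := by
    have h2 : cff_chi p (g⁻¹ * σ ^ j) = 1 := hchi _ hfix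
    have h3 : cff_chi p g = cff_chi p σ ^ j := by
      rw [← map_pow]
      have : σ ^ j = g * (g⁻¹ * σ ^ j) := by rw [mul_inv_cancel_left]
      rw [this, map_mul, h2, mul_one]
    rw [s29g_d_coe, h3, Units.val_pow_eq_pow_val, s29g_chi_frobenius p hℓ hne A hA σ hσ,
      map_pow, map_natCast]
  exact s29g_trace_identity' (s29g_bc k (s29g_r N p)) v ((s29k_Tl N p ⟨ℓ, hℓ⟩).baseChange k)
    (fun σ m => s29g_TlK_comm hS N p k ⟨ℓ, hℓ⟩ σ m) (tl ⟨ℓ, hℓ⟩) (hT ⟨ℓ, hℓ⟩ hℓNp) σ _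
    (s29g_bc_frob_quadratic hS N p k ⟨ℓ, hℓ⟩ hℓNp A hA σ hσ) j g hg _ hdg

/-- **GS4, main theorem**: a non-zero eigenvector in `k ⊗ J₀(N)(ℚ̄)[p]` (eigenvalues `tl ℓ` for the
`T_ℓ`, `ℓ ∤ N p`) gives a two-dimensional representation of `Gal(ℚ̄/ℚ)` over `k` (algebraically
closed) which factors through a finite Galois level, is unramified outside `N p`, and such that
Frobenius elements at `ℓ ∤ N p` have characteristic polynomial `X² - tl ℓ X + ℓ`. -/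
theorem s29g_exists_rep [IsAlgClosed k] (hv0 : v ≠ 0) :
    ∃ ρ' : s29k_G →* ((Fin 2 → k) →ₗ[k] (Fin 2 → k)),
      (∃ L : IntermediateField ℚ (AlgebraicClosure ℚ), FiniteDimensional ℚ L ∧
        (∀ σ : s29k_G, ∀ y ∈ L, σ y ∈ L) ∧ ∀ σ : s29k_G, (∀ y ∈ L, σ y = y) → ρ' σ = 1) ∧
      (∀ ℓ : ℕ, ℓ.Prime → ¬ ℓ ∣ N * p →
        ∀ A : ValuationSubring (AlgebraicClosure ℚ), A.LiesOverPrime ℓ →
          ∀ τ ∈ A.inertiaSubgroupIn ℚ, ρ' τ = 1) ∧
      (∀ ℓ : Nat.Primes, ¬ (ℓ : ℕ) ∣ N * p →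
        ∀ A : ValuationSubring (AlgebraicClosure ℚ), A.LiesOverPrime ℓ →
          ∀ σ : s29k_G, A.IsFrobeniusAt σ ℓ →
            LinearMap.charpoly (ρ' σ) = X ^ 2 - C (tl ℓ) * X + C (((ℓ : ℕ) : k))) := by
  choose t ht using s29g_exists_trace hS hF N p k tl v hT
  obtain ⟨ρ', hchar, hone⟩ := s29g_two_dim_of_trace (s29g_bc k (s29g_r N p)) v hv0
    (s29g_orbit_finite hS N p k v) (s29g_d p k) t ht
  obtain ⟨L, hL, hstab, hchi, hv⟩ := s29g_exists_galois_level hS N p k v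
  refine ⟨ρ', ⟨L, hL, hstab, fun σ hσ => ?_⟩, fun ℓ hℓ hℓNp A hA τ hτ => ?_,
    fun ℓ hℓNp A hA σ hσ => ?_⟩
  · refine hone σ (s29g_rho_eq_one_of_fixes hS N p k v L hstab hv σ hσ) ?_
    unfold s29g_d
    rw [MonoidHom.comp_apply, hchi σ hσ, map_one]
  · have hne : ℓ ≠ p := by
      rintro h
      exact hℓNp (h ▸ Dvd.intro_left N rfl)
    refine hone τ (s29g_rho_eq_one_of_R _ v τ
      (s29g_bc_eq_one k _ τ (s29g_r_inertia hS N p ℓ hℓ hℓNp A hA τ hτ))) ?_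
    unfold s29g_d
    rw [MonoidHom.comp_apply, s29g_chi_inertia p hℓ hne A hA τ hτ, map_one]
  · obtain ⟨h1, h2⟩ := s29g_trace_at_frob hS N p k tl v hT ℓ hℓNp A hA σ hσ
    have h3 : t σ = tl ℓ :=
      s29g_smul_one_injective (s29g_bc k (s29g_r N p)) hv0 ((ht σ).symm.trans h1)
    rw [hchar σ, h3, h2]

end Assembly

/-- **S29 for algebraically closed `k` and `N ≠ 0`**, from the three contracts. -/
theorem s29g_attached_of (hS : s29k_S37Int) (hE : s29k_EigenSupport) (hF : s29k_FrobDensity)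
    (N : ℕ) [NeZero N] (g : CuspForm (CongruenceSubgroup.Gamma0 N) 2)
    (hg : g.IsNormalizedEigenform) (p : ℕ) [Fact p.Prime]
    (k : Type) [Field k] [IsAlgClosed k] [Algebra (ZMod p) k] (φ : integralClosure ℤ ℂ →+* k) :
    ∃ ρ' : s29k_G →* ((Fin 2 → k) →ₗ[k] (Fin 2 → k)),
      (∃ L : IntermediateField ℚ (AlgebraicClosure ℚ), FiniteDimensional ℚ L ∧
        (∀ σ : s29k_G, ∀ y ∈ L, σ y ∈ L) ∧ ∀ σ : s29k_G, (∀ y ∈ L, σ y = y) → ρ' σ = 1) ∧
      (∀ ℓ : ℕ, ℓ.Prime → ¬ ℓ ∣ N * p →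
        ∀ A : ValuationSubring (AlgebraicClosure ℚ), A.LiesOverPrime ℓ →
          ∀ τ ∈ A.inertiaSubgroupIn ℚ, ρ' τ = 1) ∧
      (∀ ℓ : ℕ, ℓ.Prime → ¬ ℓ ∣ N * p →
        ∀ A : ValuationSubring (AlgebraicClosure ℚ), A.LiesOverPrime ℓ →
          ∀ σ : s29k_G, A.IsFrobeniusAt σ ℓ →
            ∃ a : integralClosure ℤ ℂ, (a : ℂ) = ModularFormClass.qCoeff g ℓ ∧
              LinearMap.charpoly (ρ' σ) = X ^ 2 - C (φ a) * X + C ((ℓ : k))) := by
  classical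
  obtain ⟨v, hv0, hv⟩ := hE N g hg p k φ
  let tl : Nat.Primes → k := fun ℓ =>
    if h : ¬ (ℓ : ℕ) ∣ N * p then φ (Classical.choose (hv ℓ h)) else 0
  have htl : ∀ (ℓ : Nat.Primes) (h : ¬ (ℓ : ℕ) ∣ N * p),
      tl ℓ = φ (Classical.choose (hv ℓ h)) := fun ℓ h => dif_pos h
  have hT : ∀ ℓ : Nat.Primes, ¬ (ℓ : ℕ) ∣ N * p →
      (s29k_Tl N p ℓ).baseChange k v = tl ℓ • v := by
    intro ℓ h
    rw [htl ℓ h]
    exact (Classical.choose_spec (hv ℓ h)).2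
  obtain ⟨ρ', h1, h2, h3⟩ := s29g_exists_rep hS hF N p k tl v hT hv0
  refine ⟨ρ', h1, h2, fun ℓ hℓ hℓNp A hA σ hσ => ?_⟩
  refine ⟨Classical.choose (hv ⟨ℓ, hℓ⟩ hℓNp), (Classical.choose_spec (hv ⟨ℓ, hℓ⟩ hℓNp)).1, ?_⟩
  rw [← htl ⟨ℓ, hℓ⟩ hℓNp]
  exact h3 ⟨ℓ, hℓ⟩ hℓNp A hA σ hσ

end Fermat.Agent.Lib.S29
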