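/-
Plan K (S29 + S42), [PACK] input contract (owner: helper8).

`s29pk_GSOut` is what the Galois-side package [GS] (helper2) exports and what the packaging
[PACK] consumes:  for every normalised eigenform `g` of level `N ≠ 0`, every prime `p` and every
ring hom `φ : ℤ̄ → k` to a field of characteristic `p`, there are a NONZERO finite-dimensional
representation `ρ` of `G_ℚ` over `k`, a character `d` (the mod-`p` cyclotomic character) and a
function `t` with
  `ρ σ + d σ • ρ σ⁻¹ = t σ • 1`   for all `σ`,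
such that `ρ` and `d` factor through a finite level, are trivial on inertia at `ℓ ∤ Np`, and
`d σ = ℓ`, `t σ = φ a_ℓ` on Frobenius elements at `ℓ ∤ Np`.
-/
import Mathlib
import Fermat.Agent.Lib.S29.KIface

set_option autoImplicit false

namespace Fermat.Agent.Lib.S29

/-- **Output contract of [GS]**, input of [PACK]. -/
def s29pk_GSOut : Prop :=
  ∀ (N : ℕ) [NeZero N] (g : CuspForm (CongruenceSubgroup.Gamma0 N) 2), g.IsNormalizedEigenform →
  ∀ (p : ℕ) [Fact p.Prime] (k : Type) [Field k] [Algebra (ZMod p) k]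
    (φ : integralClosure ℤ ℂ →+* k),
    ∃ (W : Type) (_ : AddCommGroup W) (_ : Module k W) (_ : FiniteDimensional k W)
      (_ : Nontrivial W) (ρ : Representation k s29k_G W) (d : s29k_G →* kˣ) (t : s29k_G → k),
      (∀ σ : s29k_G, ρ σ + (d σ : k) • ρ σ⁻¹ = t σ • 1) ∧
      (∃ L : IntermediateField ℚ (AlgebraicClosure ℚ), FiniteDimensional ℚ L ∧
        ∀ σ : s29k_G, (∀ x ∈ L, σ x = x) → ρ σ = 1 ∧ d σ = 1) ∧
      (∀ ℓ : ℕ, ℓ.Prime → ¬ ℓ ∣ N * p →
        ∀ A : ValuationSubring (AlgebraicClosure ℚ), A.LiesOverPrime ℓ →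
          (∀ σ ∈ A.inertiaSubgroupIn ℚ, ρ σ = 1 ∧ d σ = 1) ∧
          (∀ σ : s29k_G, A.IsFrobeniusAt σ ℓ →
            (d σ : k) = (ℓ : k) ∧
            ∃ a : integralClosure ℤ ℂ, (a : ℂ) = ModularFormClass.qCoeff g ℓ ∧ t σ = φ a))

end Fermat.Agent.Lib.S29
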