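/-
Plan K, [GS] final: the output contract `s29pk_GSOut` of [GS] (= input contract of [PACK]).

* `s29g_GSOut_of : s29k_S37Int → s29k_EigenSupport → s29k_FrobDensity → s29pk_GSOut`
  (light closure: KIface + PackIface + GSSpan/GSChi/GSMain).
-/
import Fermat.Agent.Lib.S29.GSMain
import Fermat.Agent.Lib.S29.PackIface

set_option autoImplicit false

namespace Fermat.Agent.Lib.S29

open scoped TensorProduct

/-- **[GS] output contract**, from the three top-level contracts. -/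
theorem s29g_GSOut_of (hS : s29k_S37Int) (hE : s29k_EigenSupport) (hF : s29k_FrobDensity) :
    s29pk_GSOut := by
  intro N _ g hg p _ k _ _ φ
  classical
  obtain ⟨v, hv0, hv⟩ := hE N g hg p k φ
  let tl : Nat.Primes → k := fun ℓ =>
    if h : ¬ (ℓ : ℕ) ∣ N * p then φ (Classical.choose (hv ℓ h)) else 0
  have htl : ∀ (ℓ : Nat.Primes) (h : ¬ (ℓ : ℕ) ∣ N * p),
      tl ℓ = φ (Classical.choose (hv ℓ h)) := fun ℓ h => dif_pos h
  have hT : ∀ ℓ : Nat.Primes, ¬ (ℓ : ℕ) ∣ N * p →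
      (s29k_Tl N p ℓ).baseChange k v = tl ℓ • v := by
    intro ℓ h
    rw [htl ℓ h]
    exact (Classical.choose_spec (hv ℓ h)).2
  obtain ⟨L, hL, hstab, hchi, hvL⟩ := s29g_exists_galois_level hS N p k v
  have hfd : FiniteDimensional k (s29g_W (s29g_bc k (s29g_r N p)) v) :=
    s29g_W_finiteDimensional _ v (s29g_orbit_finite hS N p k v)
  have hnt : Nontrivial (s29g_W (s29g_bc k (s29g_r N p)) v) := s29g_W_nontrivial _ hv0
  choose t ht using s29g_exists_trace hS hF N p k tl v hT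
  refine ⟨↥(s29g_W (s29g_bc k (s29g_r N p)) v), inferInstance, inferInstance, hfd, hnt,
    s29g_rho (s29g_bc k (s29g_r N p)) v, s29g_d p k, t, ht, ⟨L, hL, fun σ hσ => ⟨?_, ?_⟩⟩,
    fun ℓ hℓ hℓNp A hA => ⟨fun τ hτ => ⟨?_, ?_⟩, fun σ hσ => ?_⟩⟩
  · exact s29g_rho_eq_one_of_fixes hS N p k v L hstab hvL σ hσ
  · unfold s29g_d
    rw [MonoidHom.comp_apply, hchi σ hσ, map_one]
  · exact s29g_rho_eq_one_of_R _ v τ
      (s29g_bc_eq_one k _ τ (s29g_r_inertia hS N p ℓ hℓ hℓNp A hA τ hτ))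
  · have hne : ℓ ≠ p := by
      rintro h
      exact hℓNp (h ▸ Dvd.intro_left N rfl)
    unfold s29g_d
    rw [MonoidHom.comp_apply, s29g_chi_inertia p hℓ hne A hA τ hτ, map_one]
  · obtain ⟨h1, h2⟩ := s29g_trace_at_frob hS N p k tl v hT ⟨ℓ, hℓ⟩ hℓNp A hA σ hσ
    refine ⟨h2, Classical.choose (hv ⟨ℓ, hℓ⟩ hℓNp),
      (Classical.choose_spec (hv ⟨ℓ, hℓ⟩ hℓNp)).1, ?_⟩
    rw [← htl ⟨ℓ, hℓ⟩ hℓNp]
    exact s29g_smul_one_injective (s29g_bc k (s29g_r N p)) hv0 ((ht σ).symm.trans h1)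

end Fermat.Agent.Lib.S29
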