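/-
Plan K, [GS] final: **`s29g_GSOut : s29k_EigenSupport → s29pk_GSOut`** (the contracts [S37int] and
[FD] are discharged by `s29g_S37Int` and `s29d_frobDensity`), and S29 for algebraically closed `k`
and `N ≠ 0`, conditional only on [EigenSupport] (and [FD]).
-/
import Fermat.Agent.Lib.S29.GSMain
import Fermat.Agent.Lib.S29.GSOut
import Fermat.Agent.Lib.S29.GSInt
import Fermat.Agent.Lib.S29.FDPlace

set_option autoImplicit false

namespace Fermat.Agent.Lib.S29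

open Polynomial

/-- A non-zero Hecke eigenvector in `k ⊗ J₀(N)(ℚ̄)[p]` gives a two-dimensional Galois
representation (`[FD]` is the only remaining hypothesis). -/
theorem s29g_exists_rep_of_FD (hF : s29k_FrobDensity) (N p : ℕ) [NeZero N] [Fact p.Prime]
    (k : Type*) [Field k] [Algebra (ZMod p) k] [IsAlgClosed k] (tl : Nat.Primes → k)
    (v : TensorProduct (ZMod p) k (s29k_Jp N p))
    (hT : ∀ ℓ : Nat.Primes, ¬ (ℓ : ℕ) ∣ N * p → (s29k_Tl N p ℓ).baseChange k v = tl ℓ • v)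
    (hv0 : v ≠ 0) :
    ∃ ρ' : s29k_G →* ((Fin 2 → k) →ₗ[k] (Fin 2 → k)),
      (∃ L : IntermediateField ℚ (AlgebraicClosure ℚ), FiniteDimensional ℚ L ∧
        (∀ σ : s29k_G, ∀ y ∈ L, σ y ∈ L) ∧ ∀ σ : s29k_G, (∀ y ∈ L, σ y = y) → ρ' σ = 1) ∧
      (∀ ℓ : ℕ, ℓ.Prime → ¬ ℓ ∣ N * p →
        ∀ A : ValuationSubring (AlgebraicClosure ℚ), A.LiesOverPrime ℓ →
          ∀ τ ∈ A.inertiaSubgroupIn ℚ, ρ' τ = 1) ∧
      (∀ ℓ : Nat.Primes, ¬ (ℓ : ℕ) ∣ N * p →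
        ∀ A : ValuationSubring (AlgebraicClosure ℚ), A.LiesOverPrime ℓ →
          ∀ σ : s29k_G, A.IsFrobeniusAt σ ℓ →
            LinearMap.charpoly (ρ' σ) = X ^ 2 - C (tl ℓ) * X + C (((ℓ : ℕ) : k))) :=
  s29g_exists_rep s29g_S37Int hF N p k tl v hT hv0

/-- **S29 for algebraically closed `k` and `N ≠ 0`**, from [EigenSupport] and [FD]. -/
theorem s29g_attached (hE : s29k_EigenSupport) (hF : s29k_FrobDensity)
    (N : ℕ) [NeZero N] (g : CuspForm (CongruenceSubgroup.Gamma0 N) 2)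
    (hg : g.IsNormalizedEigenform) (p : ℕ) [Fact p.Prime]
    (k : Type) [Field k] [IsAlgClosed k] [Algebra (ZMod p) k] (φ : integralClosure ℤ ℂ →+* k) :
    ∃ ρ' : s29k_G →* ((Fin 2 → k) →ₗ[k] (Fin 2 → k)),
      (∃ L : IntermediateField ℚ (AlgebraicClosure ℚ), FiniteDimensional ℚ L ∧
        (∀ σ : s29k_G, ∀ y ∈ L, σ y ∈ L) ∧ ∀ σ : s29k_G, (∀ y ∈ L, σ y = y) → ρ' σ = 1) ∧
      (∀ ℓ : ℕ, ℓ.Prime → ¬ ℓ ∣ N * p →
        ∀ A : ValuationSubring (AlgebraicClosure ℚ), A.LiesOverPrime ℓ →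
          ∀ τ ∈ A.inertiaSubgroupIn ℚ, ρ' τ = 1) ∧
      (∀ ℓ : ℕ, ℓ.Prime → ¬ ℓ ∣ N * p →
        ∀ A : ValuationSubring (AlgebraicClosure ℚ), A.LiesOverPrime ℓ →
          ∀ σ : s29k_G, A.IsFrobeniusAt σ ℓ →
            ∃ a : integralClosure ℤ ℂ, (a : ℂ) = ModularFormClass.qCoeff g ℓ ∧
              LinearMap.charpoly (ρ' σ) = X ^ 2 - C (φ a) * X + C ((ℓ : k))) :=
  s29g_attached_of s29g_S37Int hE hF N g hg p k φ

/-- **[GS] output contract** with [S37int] discharged. -/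
theorem s29g_GSOut_of_FD (hE : s29k_EigenSupport) (hF : s29k_FrobDensity) : s29pk_GSOut :=
  s29g_GSOut_of s29g_S37Int hE hF

/-- **[GS] output contract**, from [EigenSupport] alone. -/
theorem s29g_GSOut (hE : s29k_EigenSupport) : s29pk_GSOut :=
  s29g_GSOut_of s29g_S37Int hE s29d_frobDensity

end Fermat.Agent.Lib.S29
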