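/-
Plan K (S29), package [KAP], part 2 (owner: helper5): the field of meromorphic functions on `ℍ`.

* `s29m_O` : the ring of all holomorphic functions `ℍ → ℂ` (a domain);
* `s29m_M := FractionRing s29m_O` : "meromorphic functions on `ℍ`", a field containing `ℂ`;
* `SL(2, ℤ)` acts on both by `(γ • f) z = f (γ⁻¹ • z)` (same convention as `Lib/FF/Model`);
* `s29m_inclR N : ffm_R N →ₐ[ℂ] s29m_O`, `s29m_inclE N : ffm_E N →+* s29m_M`, injective and equivariant;
* `s29m_root_mem_R` : a holomorphic `Γ(N)`-invariant `w` with `w ^ p ∈ ffm_R N` lies in `ffm_R N`.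
-/
import Mathlib
import Fermat.Agent.Lib.FF.Model

set_option autoImplicit false

namespace Fermat.Agent.Lib.S29

open Fermat.Agent.Lib.FF
open UpperHalfPlane hiding I
open Filter Complex Real CongruenceSubgroup Matrix.SpecialLinearGroup
open scoped MatrixGroups Manifold Topology

noncomputable section

/-- The ring of all holomorphic functions on the upper half plane. -/
def s29m_O : Subalgebra ℂ (ℍ → ℂ) where
  carrier := {f | MDiff f}
  mul_mem' := fun hf hg => hf.mul hg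
  add_mem' := fun hf hg => hf.add hg
  algebraMap_mem' := fun _ => mdifferentiable_const

theorem s29m_mem_O_iff {f : ℍ → ℂ} : f ∈ s29m_O ↔ MDiff f := Iff.rfl

theorem s29m_O_mdiff (f : s29m_O) : MDiff (f : ℍ → ℂ) := f.2

instance s29m_O_isDomain : IsDomain s29m_O := by
  have : NoZeroDivisors s29m_O := ⟨by
    intro f g h
    have h' : (f : ℍ → ℂ) * (g : ℍ → ℂ) = 0 := by
      have := congrArg Subtype.val h
      simpa using this
    rcases (UpperHalfPlane.mul_eq_zero_iff f.2 g.2).mp h' with h0 | h0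
    · exact Or.inl (Subtype.ext h0)
    · exact Or.inr (Subtype.ext h0)⟩
  have : Nontrivial s29m_O := ⟨⟨0, 1, fun h => by
    have := congrFun (congrArg Subtype.val h) UpperHalfPlane.I
    simp at this⟩⟩
  exact NoZeroDivisors.to_isDomain _

/-- The field of meromorphic functions on `ℍ` (fractions of holomorphic functions). -/
abbrev s29m_M : Type := FractionRing s29m_O

/-- Constructor for elements of `s29m_O`. -/
def s29m_mkO (f : ℍ → ℂ) (hf : MDiff f) : s29m_O := ⟨f, hf⟩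

@[simp] theorem s29m_mkO_coe (f : ℍ → ℂ) (hf : MDiff f) :
    ((s29m_mkO f hf : s29m_O) : ℍ → ℂ) = f := rfl

theorem s29m_mdiff_smul {f : ℍ → ℂ} (hf : MDiff f) (γ : SL(2, ℤ)) :
    MDiff (fun z => f (γ⁻¹ • z)) := by
  have : MDiff (fun τ : ℍ => ((γ⁻¹ : SL(2, ℤ)) : GL (Fin 2) ℝ) • τ) :=
    UpperHalfPlane.mdifferentiable_smul (by simp)
  exact hf.comp this

instance s29m_O_smul : SMul SL(2, ℤ) s29m_O :=
  ⟨fun γ f => ⟨fun z => (f : ℍ → ℂ) (γ⁻¹ • z), s29m_mdiff_smul f.2 γ⟩⟩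

@[simp] theorem s29m_smul_apply (γ : SL(2, ℤ)) (f : s29m_O) (z : ℍ) :
    ((γ • f : s29m_O) : ℍ → ℂ) z = (f : ℍ → ℂ) (γ⁻¹ • z) := rfl

instance s29m_O_mulSemiringAction : MulSemiringAction SL(2, ℤ) s29m_O where
  one_smul f := by
    ext z; simp
  mul_smul γ δ f := by
    ext z; simp [mul_smul]
  smul_zero γ := by
    ext z; simp
  smul_add γ f g := by
    ext z; simp
  smul_one γ := by
    ext z; simp
  smul_mul γ f g := by
    ext z; simp

instance s29m_O_smulCommClass : SMulCommClass SL(2, ℤ) ℂ s29m_O :=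
  ⟨fun γ c f => by ext z; simp⟩

theorem s29m_smul_algebraMap_C (γ : SL(2, ℤ)) (c : ℂ) :
    γ • (algebraMap ℂ s29m_O c) = algebraMap ℂ s29m_O c := by
  ext z; rfl

instance s29m_M_mulSemiringAction : MulSemiringAction SL(2, ℤ) s29m_M :=
  IsFractionRing.mulSemiringAction SL(2, ℤ) s29m_O s29m_M

instance s29m_M_smulDistribClass : SMulDistribClass SL(2, ℤ) s29m_O s29m_M :=
  IsFractionRing.smulDistribClass SL(2, ℤ) s29m_O s29m_M

theorem s29m_smul_algebraMap (γ : SL(2, ℤ)) (f : s29m_O) :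
    γ • (algebraMap s29m_O s29m_M f) = algebraMap s29m_O s29m_M (γ • f) :=
  (algebraMap.coe_smul' γ f s29m_M).symm

/-- Constants are fixed by `SL(2, ℤ)`. -/
theorem s29m_smul_const (γ : SL(2, ℤ)) (c : ℂ) :
    γ • (algebraMap ℂ s29m_M c) = algebraMap ℂ s29m_M c := by
  rw [IsScalarTower.algebraMap_apply ℂ s29m_O s29m_M, s29m_smul_algebraMap,
    s29m_smul_algebraMap_C]

instance s29m_M_smulCommClass : SMulCommClass SL(2, ℤ) ℂ s29m_M :=
  ⟨fun γ c x => by
    rw [Algebra.smul_def, Algebra.smul_def, smul_mul', s29m_smul_const]⟩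

theorem s29m_algebraMap_injective : Function.Injective (algebraMap s29m_O s29m_M) :=
  IsFractionRing.injective _ _

/-! ### The inclusion of the model ring `ffm_R N` and of its fraction field -/

/-- `ffm_R N ⊆ s29m_O`. -/
def s29m_inclR (N : ℕ) : ffm_R N →ₐ[ℂ] s29m_O where
  toFun f := ⟨(f : ℍ → ℂ), f.2.mdiff⟩
  map_one' := rfl
  map_mul' _ _ := rfl
  map_zero' := rfl
  map_add' _ _ := rfl
  commutes' _ := rfl

@[simp] theorem s29m_inclR_coe (N : ℕ) (f : ffm_R N) :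
    ((s29m_inclR N f : s29m_O) : ℍ → ℂ) = (f : ℍ → ℂ) := rfl

theorem s29m_inclR_injective (N : ℕ) : Function.Injective (s29m_inclR N) := by
  intro f g h
  apply Subtype.ext
  exact congrArg (fun x : s29m_O => (x : ℍ → ℂ)) h

theorem s29m_inclR_smul (N : ℕ) (γ : SL(2, ℤ)) (f : ffm_R N) :
    s29m_inclR N (γ • f) = γ • s29m_inclR N f := rfl

/-- `ffm_E N ⊆ s29m_M`. -/
def s29m_inclE (N : ℕ) : ffm_E N →+* s29m_M :=
  IsFractionRing.lift (A := ffm_R N) (K := ffm_E N) (L := s29m_M)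
    (g := (algebraMap s29m_O s29m_M).comp (s29m_inclR N).toRingHom)
    (s29m_algebraMap_injective.comp (s29m_inclR_injective N))

@[simp] theorem s29m_inclE_algebraMap (N : ℕ) (f : ffm_R N) :
    s29m_inclE N (algebraMap (ffm_R N) (ffm_E N) f) = algebraMap s29m_O s29m_M (s29m_inclR N f) :=
  IsFractionRing.lift_algebraMap _ f

theorem s29m_inclE_injective (N : ℕ) : Function.Injective (s29m_inclE N) :=
  (s29m_inclE N).injective

theorem s29m_inclE_const (N : ℕ) (c : ℂ) :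
    s29m_inclE N (algebraMap ℂ (ffm_E N) c) = algebraMap ℂ s29m_M c := by
  rw [IsScalarTower.algebraMap_apply ℂ (ffm_R N) (ffm_E N), s29m_inclE_algebraMap,
    AlgHom.commutes, ← IsScalarTower.algebraMap_apply]

theorem s29m_inclE_smul (N : ℕ) (γ : SL(2, ℤ)) (x : ffm_E N) :
    s29m_inclE N (γ • x) = γ • s29m_inclE N x := by
  obtain ⟨a, b, hb, rfl⟩ := IsFractionRing.div_surjective (A := ffm_R N) x
  rw [smul_div₀', ffm_smul_algebraMap, ffm_smul_algebraMap, map_div₀, map_div₀, smul_div₀',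
    s29m_inclE_algebraMap, s29m_inclE_algebraMap, s29m_inclE_algebraMap, s29m_inclE_algebraMap,
    s29m_smul_algebraMap, s29m_smul_algebraMap, s29m_inclR_smul, s29m_inclR_smul]

/-! ### Roots of elements of `ffm_R N` -/

theorem s29m_moderateGrowth_of_pow {f : ℍ → ℂ} {p : ℕ} (hp : 0 < p)
    (h : ffm_ModerateGrowth (fun z => f z ^ p)) : ffm_ModerateGrowth f := by
  obtain ⟨M, hM⟩ := h
  refine ⟨M, ?_⟩
  rw [UpperHalfPlane.isBoundedAtImInfty_iff] at hM ⊢
  obtain ⟨C, A, hC⟩ := hM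
  refine ⟨max C 1, A, fun z hz => ?_⟩
  have h1 := hC z hz
  -- `‖f z * e(Mz)‖ ^ p ≤ ‖f z ^ p * e(Mz)‖`
  have he : ‖cexp (2 * π * I * M * z)‖ ≤ 1 := ffm_norm_cexp_le_one M z
  have he0 : 0 ≤ ‖cexp (2 * π * I * M * z)‖ := norm_nonneg _
  have h2 : ‖f z * cexp (2 * π * I * M * z)‖ ^ p ≤ max C 1 ^ p := by
    rw [norm_mul, mul_pow]
    have h3 : ‖cexp (2 * π * I * M * z)‖ ^ p ≤ ‖cexp (2 * π * I * M * z)‖ := by
      calc ‖cexp (2 * π * I * M * z)‖ ^ p
          = ‖cexp (2 * π * I * M * z)‖ ^ (p - 1) * ‖cexp (2 * π * I * M * z)‖ := by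
            rw [← pow_succ, Nat.sub_add_cancel hp]
        _ ≤ 1 * ‖cexp (2 * π * I * M * z)‖ :=
            mul_le_mul_of_nonneg_right (pow_le_one₀ he0 he) he0
        _ = _ := one_mul _
    calc ‖f z‖ ^ p * ‖cexp (2 * π * I * M * z)‖ ^ p
        ≤ ‖f z‖ ^ p * ‖cexp (2 * π * I * M * z)‖ :=
          mul_le_mul_of_nonneg_left h3 (pow_nonneg (norm_nonneg _) _)
      _ = ‖f z ^ p * cexp (2 * π * I * M * z)‖ := by rw [norm_mul, norm_pow]
      _ ≤ C := h1
      _ ≤ max C 1 := le_max_left _ _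
      _ ≤ max C 1 ^ p := le_self_pow₀ (le_max_right _ _) hp.ne'
  exact le_of_pow_le_pow_left₀ hp.ne' (le_trans zero_le_one (le_max_right _ _)) h2

/-- A holomorphic `Γ(N)`-invariant function whose `p`-th power lies in `ffm_R N` lies in `ffm_R N`. -/
theorem s29m_root_mem_R {N : ℕ} {p : ℕ} (hp : 0 < p) {w : ℍ → ℂ} (hw : MDiff w)
    (hinv : ∀ γ ∈ CongruenceSubgroup.Gamma N, ∀ z : ℍ, w (γ • z) = w z)
    (hpow : ffm_IsWH N (fun z => w z ^ p)) : ffm_IsWH N w :=
  ⟨hw, hinv, fun γ => s29m_moderateGrowth_of_pow hp (hpow.growth γ)⟩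

end

end Fermat.Agent.Lib.S29
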