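/-
Plan K (S29), package [LAMF], part 3 (owner: helper6): the `s29l_ChiData` of `LamMain.lean` for the
functions of `LamFun.lean`, and Lemma Λ for every `χ ∈ H_p`:

* `s29lf_chiData hχ : s29l_ChiData N p χ (s29lf_ga χ) (s29lf_gb N) (s29lf_A hχ) (s29lf_B N p)`;
* `s29lf_lambda_FK ι N hB hχ : ∃ y : Pic0.torsion K ↥(s29bp_FK K N) p, s29m_kappaC hB y = χ`.
-/
import Fermat.Agent.Lib.S29.LamFun
import Fermat.Agent.Lib.S29.LamPlaces

set_option autoImplicit false
set_option linter.unusedSectionVars false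

namespace Fermat.Agent.Lib.S29

open UpperHalfPlane hiding I
open Matrix.SpecialLinearGroup CongruenceSubgroup
open Fermat.Agent.Lib.FF AlgebraicCurve
open scoped MatrixGroups

noncomputable section

variable {N p : ℕ} [NeZero N] [NeZero p]

/-- The functions of `LamFun.lean` are `χ`-data in the sense of `LamMain.lean`. -/
theorem s29lf_chiData {χ : Additive (Gamma0 N) →+ ZMod p} (hχ : χ ∈ s29h_Hp N p) :
    s29l_ChiData N p χ (s29lf_ga χ) (s29lf_gb N) (s29lf_A hχ) (s29lf_B N p) where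
  chi_a := s29lf_ga_isChiFun hχ
  chi_b := s29lf_gb_isChiFun N
  law_a γ z := by
    rw [s29lf_ga_smul hχ, s29lf_chiC_coe]
    rfl
  law_b γ z := s29lf_gb_smul γ z
  coe_A z := s29lf_A_apply hχ z
  coe_B z := s29lf_B_apply z

/-- **Lemma Λ**: every `χ ∈ H_p` is `κ y` for some `y ∈ Pic⁰(K(X₀(N)))[p]`. -/
theorem s29lf_lambda_FK {K : Type*} [Field K] [Algebra ℚ K] [IsAlgClosed K] (ι : K →+* ℂ)
    (hB : s29m_BridgeHyp K N p (s29bp_phi ι N)) {χ : Additive (Gamma0 N) →+ ZMod p}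
    (hχ : χ ∈ s29h_Hp N p) :
    ∃ y : Pic0.torsion K ↥(s29bp_FK K N) p, s29m_kappaC hB y = χ :=
  s29l_lambda_FK ι N hB (s29lf_chiData hχ)

end

end Fermat.Agent.Lib.S29
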