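/-
Plan K (S29), package [LAMF], part 2 (owner: helper6): `κ (λ χ) = χ`.

Generic in the bridge `(K, F, φ)` of `KConcrete.lean`: if `φ h = A / B` with `A = ga ^ p`,
`B = gb ^ p` the elements of `LamFun.lean` attached to `χ ∈ H_p`, and `div h = p • D`, then
`κ [D] = χ` (`s29lf_kappaC_eq`).  Also `s29lf_exists_h`: such an `h` exists (from
`s29m_BridgeHyp.fixed`).
-/
import Fermat.Agent.Lib.S29.LamFun
import Fermat.Agent.Lib.S29.KConcrete

set_option autoImplicit false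
set_option linter.unusedSectionVars false

namespace Fermat.Agent.Lib.S29

open UpperHalfPlane hiding I
open Filter Matrix.SpecialLinearGroup Function CongruenceSubgroup ModularGroup ModularForm
open Fermat.Agent.Lib.FF Fermat.Agent.Lib.RR AlgebraicCurve
open scoped MatrixGroups Manifold Topology Real

noncomputable section

variable {N p : ℕ} [NeZero N] [NeZero p] {K F : Type*} [Field K] [Field F] [Algebra K F]
  {φ : F →+* ffm_E N}

/-- The quotient `A / B ∈ ffm_E N` attached to `χ`. -/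
def s29lf_AB {χ : Additive (Gamma0 N) →+ ZMod p} (hχ : χ ∈ s29h_Hp N p) : ffm_E N :=
  algebraMap (ffm_R N) (ffm_E N) (s29lf_A hχ) / algebraMap (ffm_R N) (ffm_E N) (s29lf_B N p)

theorem s29lf_AB_ne_zero {χ : Additive (Gamma0 N) →+ ZMod p} (hχ : χ ∈ s29h_Hp N p) :
    s29lf_AB hχ ≠ 0 := by
  have hinj := IsFractionRing.injective (ffm_R N) (ffm_E N)
  refine div_ne_zero ?_ ?_
  · rw [Ne, map_eq_zero_iff _ hinj]
    exact s29lf_A_ne_zero hχ
  · rw [Ne, map_eq_zero_iff _ hinj]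
    exact s29lf_B_ne_zero N p

/-- **Existence of `h_χ`**: a function with `φ h = A / B`. -/
theorem s29lf_exists_h (hB : s29m_BridgeHyp K N p φ) {χ : Additive (Gamma0 N) →+ ZMod p}
    (hχ : χ ∈ s29h_Hp N p) : ∃ h : F, h ≠ 0 ∧ φ h = s29lf_AB hχ := by
  obtain ⟨h, hh⟩ := hB.fixed (s29lf_AB hχ) (fun γ hγ => s29lf_div_smul hχ γ hγ)
  refine ⟨h, ?_, hh⟩
  rintro rfl
  rw [map_zero] at hh
  exact s29lf_AB_ne_zero hχ hh.symm

/-- **`κ [D] = χ`** for `div h = p • D`, `φ h = A / B`. -/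
theorem s29lf_kappaC_eq (hB : s29m_BridgeHyp K N p φ) {χ : Additive (Gamma0 N) →+ ZMod p}
    (hχ : χ ∈ s29h_Hp N p) (h : F) (hh : h ≠ 0) (hφ : φ h = s29lf_AB hχ)
    (D : Divisor.degZero (K := K) (F := F))
    (hD : ∀ v : Place K F, v.ord h = (p : ℤ) * (D : Divisor K F) v)
    (x : Pic0.torsion K F p) (hDx : Pic0.mk D = (x : Pic0 K F)) :
    s29m_kappaC hB x = χ := by
  refine AddMonoidHom.ext fun γ => ?_
  obtain ⟨γ, rfl⟩ := Additive.ofMul.surjective γ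
  have ha : MDiff ((s29lf_A hχ : ffm_R N) : ℍ → ℂ) := (s29lf_A hχ).2.mdiff
  have hb : MDiff ((s29lf_B N p : ffm_R N) : ℍ → ℂ) := (s29lf_B N p).2.mdiff
  have hb0 : ∃ τ, ((s29lf_B N p : ffm_R N) : ℍ → ℂ) τ ≠ 0 :=
    s29m_ne_zero_of_R _ (s29lf_B_ne_zero N p)
  have hbM : s29m_ofFun ((s29lf_B N p : ffm_R N) : ℍ → ℂ) hb ≠ 0 := s29m_ofFun_ne_zero hb hb0
  have hab : s29m_inclE N (φ h) * s29m_ofFun ((s29lf_B N p : ffm_R N) : ℍ → ℂ) hb =
      s29m_ofFun ((s29lf_A hχ : ffm_R N) : ℍ → ℂ) ha := by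
    rw [hφ, s29lf_AB, s29m_inclE_div, div_mul_cancel₀ _ hbM]
  refine s29m_kappaC_eq_of_fun hB x D hDx h hh hD ha hb (s29lf_root_mdiff hχ) hb0 hab ?_ ?_ γ
    (χ (Additive.ofMul γ)) ?_
  · intro δ hδ z
    rw [s29lf_B_apply, s29lf_B_apply]
    have := s29lf_gb_smul (N := N) ⟨δ, hδ⟩ z
    rw [this]
  · intro τ
    exact s29lf_root_pow hχ τ
  · intro τ
    exact s29lf_root_smul hχ γ τ

end

end Fermat.Agent.Lib.S29
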