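/-
Plan K (S29 + S42), [PACK]: the residue fields of `ℤ̄ = integralClosure ℤ ℂ`.

* `s29pk_exists_root`     : monic non-constant polynomials over `ℤ̄` have a root in `ℤ̄`;
* `s29pk_isAlgClosed`     : `ℤ̄ ⧸ 𝔪` is algebraically closed (`𝔪` maximal);
* `s29pk_isMaximal_ker`   : the kernel of `φ : ℤ̄ → k`, `k` a field of characteristic `p`, is maximal;
* `s29pk_charP_quotient`  : `ℤ̄ ⧸ 𝔪` has characteristic `p` if `p ∈ 𝔪`.
-/
import Mathlib

set_option autoImplicit false

open Polynomial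

namespace Fermat.Agent.Lib.S29

local notation "Zbar" => integralClosure ℤ ℂ

attribute [local instance] Ideal.Quotient.field

/-- monic non-constant polynomials over `ℤ̄` have roots in `ℤ̄`. -/
theorem s29pk_exists_root (f : Zbar[X]) (hf : f.Monic) (hdeg : f.natDegree ≠ 0) :
    ∃ a : Zbar, f.eval a = 0 := by
  have hdeg' : (f.map (algebraMap Zbar ℂ)).degree ≠ 0 := by
    rw [hf.degree_map, degree_eq_natDegree hf.ne_zero]
    exact_mod_cast hdeg
  obtain ⟨z, hz⟩ := IsAlgClosed.exists_root (f.map (algebraMap Zbar ℂ)) hdeg'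
  rw [IsRoot.def, eval_map] at hz
  have hz' : IsIntegral Zbar z := ⟨f, hf, hz⟩
  have hz'' : IsIntegral ℤ z := isIntegral_trans (R := ℤ) (A := Zbar) z hz'
  refine ⟨⟨z, hz''⟩, ?_⟩
  apply Subtype.ext
  have h2 : ((f.eval (⟨z, hz''⟩ : Zbar) : Zbar) : ℂ) = eval₂ (algebraMap Zbar ℂ) z f := by
    have := Polynomial.hom_eval₂ f (RingHom.id Zbar) (algebraMap Zbar ℂ) (⟨z, hz''⟩ : Zbar)
    simpa [eval₂_id] using this
  rw [h2, hz]
  rfl

/-- the residue fields of `ℤ̄` are algebraically closed. -/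
theorem s29pk_isAlgClosed (𝔪 : Ideal Zbar) [𝔪.IsMaximal] : IsAlgClosed (Zbar ⧸ 𝔪) := by
  apply IsAlgClosed.of_exists_root
  intro q hq hirr
  have hsurj : Function.Surjective (Ideal.Quotient.mk 𝔪) := Ideal.Quotient.mk_surjective
  obtain ⟨f, hf, hfm⟩ : ∃ f : Zbar[X], f.map (Ideal.Quotient.mk 𝔪) = q ∧ f.Monic := by
    obtain ⟨f, hf1, _, hf3⟩ := Polynomial.lifts_and_degree_eq_and_monic
      ((Polynomial.mem_lifts q).mpr (Polynomial.map_surjective _ hsurj q)) hq
    exact ⟨f, hf1, hf3⟩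
  have hdeg : f.natDegree ≠ 0 := by
    intro h0
    have : q.natDegree = 0 := by rw [← hf, hfm.natDegree_map, h0]
    have hq1 : q = 1 := by
      rw [eq_C_of_natDegree_eq_zero this] at hq ⊢
      have := hq.leadingCoeff
      rw [leadingCoeff_C] at this
      rw [this, C_1]
    exact hirr.ne_one hq1
  obtain ⟨a, ha⟩ := s29pk_exists_root f hfm hdeg
  refine ⟨Ideal.Quotient.mk 𝔪 a, ?_⟩
  rw [← hf, eval_map, eval₂_hom, ha, map_zero]

/-- the kernel of a ring hom from `ℤ̄` to a field of characteristic `p` is a maximal ideal. -/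
theorem s29pk_isMaximal_ker {p : ℕ} [Fact p.Prime] {k : Type*} [Field k] [CharP k p]
    (φ : Zbar →+* k) : (RingHom.ker φ).IsMaximal := by
  have : (RingHom.ker φ).IsPrime := RingHom.ker_isPrime φ
  apply Ideal.isMaximal_of_isIntegral_of_isMaximal_comap (R := ℤ)
  have : (RingHom.ker φ).comap (algebraMap ℤ Zbar) = Ideal.span {(p : ℤ)} := by
    ext n
    rw [Ideal.mem_comap, RingHom.mem_ker, Ideal.mem_span_singleton]
    have : φ (algebraMap ℤ Zbar n) = (n : k) := by simp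
    rw [this, CharP.intCast_eq_zero_iff k p]
  rw [this]
  exact PrincipalIdealRing.isMaximal_of_irreducible
    (Nat.prime_iff_prime_int.mp Fact.out).irreducible

/-- the residue field `ℤ̄ ⧸ 𝔪` has characteristic `p` as soon as `p ∈ 𝔪`. -/
theorem s29pk_charP_quotient {p : ℕ} [Fact p.Prime] (𝔪 : Ideal Zbar) [𝔪.IsMaximal]
    (hp : (p : Zbar) ∈ 𝔪) : CharP (Zbar ⧸ 𝔪) p := by
  have h0 : ((p : ℕ) : Zbar ⧸ 𝔪) = 0 := by
    rw [← map_natCast (Ideal.Quotient.mk 𝔪)]
    exact Ideal.Quotient.eq_zero_iff_mem.mpr hp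
  exact (CharP.charP_iff_prime_eq_zero (Fact.out : p.Prime)).mpr h0

end Fermat.Agent.Lib.S29
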