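/-
Plan K (S29 + S42), [PACK] steps (6)+(7) (owner: helper8).

From the [GS] output contract `s29pk_GSOut` (`PackIface.lean`) and the finite-group lemma
`s29f_exists_two_dim` (`FGTwo.lean`):

* `s29pk_two_dim`  : over an algebraically closed `k` of characteristic `p`, a representation
  `ρ' : G_ℚ →* End_k (k²)` of finite level, trivial on inertia at `ℓ ∤ Np`, with
  `charpoly ρ'(Frob_ℓ) = X² - φ(a_ℓ) X + ℓ` for `ℓ ∤ Np`;
* `s29pk_residual_of_two_dim` : the same as a `ResidualGaloisRep k`;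
* `s29pk_baseChangeAlong_isAttachedTo`, `s29pk_baseChangeAlong_isUnramifiedAt` : stability under
  extension of the coefficient field;
* `s29pk_S29` : the S29 statement from `s29pk_GSOut`
  (apply the above over `k_φ := ℤ̄ ⧸ ker φ`, algebraically closed, and extend scalars to `k`).
-/
import Mathlib
import Fermat.Agent.Lib.S29.KIface
import Fermat.Agent.Lib.S29.FGTwo
import Fermat.Agent.Lib.S29.PackIface
import Fermat.Agent.Lib.S29.PackField

set_option autoImplicit false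

open Polynomial

namespace Fermat.Agent.Lib.S29

local notation "Zbar" => integralClosure ℤ ℂ
local notation "Qbar" => AlgebraicClosure ℚ

attribute [local instance] Ideal.Quotient.field

/-- **Step (6)**: the two-dimensional representation over an algebraically closed field. -/
theorem s29pk_two_dim (hGS : s29pk_GSOut)
    {N : ℕ} [NeZero N] {g : CuspForm (CongruenceSubgroup.Gamma0 N) 2} (hg : g.IsNormalizedEigenform)
    {p : ℕ} [Fact p.Prime] {k : Type} [Field k] [IsAlgClosed k] [Algebra (ZMod p) k]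
    (φ : Zbar →+* k) :
    ∃ ρ' : s29k_G →* Module.End k (Fin 2 → k),
      (∃ L : IntermediateField ℚ Qbar, FiniteDimensional ℚ L ∧
        ∀ σ : s29k_G, (∀ x ∈ L, σ x = x) → ρ' σ = 1) ∧
      (∀ ℓ : ℕ, ℓ.Prime → ¬ ℓ ∣ N * p →
        ∀ A : ValuationSubring Qbar, A.LiesOverPrime ℓ →
          (∀ σ ∈ A.inertiaSubgroupIn ℚ, ρ' σ = 1) ∧
          (∀ σ : s29k_G, A.IsFrobeniusAt σ ℓ →
            ∃ a : Zbar, (a : ℂ) = ModularFormClass.qCoeff g ℓ ∧
              LinearMap.charpoly (ρ' σ) = X ^ 2 - C (φ a) * X + C ((ℓ : k)))) := by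
  obtain ⟨W, _, _, _, _, ρ, d, t, hrel, ⟨L, hL, hLσ⟩, hloc⟩ := hGS N g hg p k φ
  obtain ⟨ρ', hchar, hone⟩ := s29f_exists_two_dim hrel
  refine ⟨ρ', ⟨L, hL, fun σ hσ => hone σ (hLσ σ hσ).1 (hLσ σ hσ).2⟩, fun ℓ hℓ hℓN A hA => ⟨?_, ?_⟩⟩
  · intro σ hσ
    exact hone σ ((hloc ℓ hℓ hℓN A hA).1 σ hσ).1 ((hloc ℓ hℓ hℓN A hA).1 σ hσ).2
  · intro σ hσ
    obtain ⟨hd, a, ha, hta⟩ := (hloc ℓ hℓ hℓN A hA).2 σ hσ
    exact ⟨a, ha, by rw [hchar σ, hta, hd]⟩

/-- the trivial two-dimensional residual representation. -/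
noncomputable def s29pk_trivialRep (k : Type) [Field k] : ResidualGaloisRep k where
  V := Fin 2 → k
  finrank_eq := by simp
  ρ := 1
  factorsThroughFiniteLevel := ⟨⊥, inferInstance, fun _ _ => rfl⟩

/-- a two-dimensional representation on `k²`, as a `ResidualGaloisRep`. -/
noncomputable def s29pk_ofTwoDim {k : Type} [Field k] (ρ' : s29k_G →* Module.End k (Fin 2 → k))
    (hfin : GaloisFactorsThroughFiniteLevel ρ') : ResidualGaloisRep k where
  V := Fin 2 → k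
  finrank_eq := by simp
  ρ := ρ'
  factorsThroughFiniteLevel := hfin

theorem s29pk_ne_of_natCast_ne_zero {p : ℕ} {k : Type} [Field k] [CharP k p] {ℓ : ℕ}
    (h : (ℓ : k) ≠ 0) : ℓ ≠ p := by
  rintro rfl
  exact h (CharP.cast_eq_zero k ℓ)

theorem s29pk_not_dvd_mul {N p ℓ : ℕ} (hp : p.Prime) (hℓ : ℓ.Prime) (hN : ¬ ℓ ∣ N) (hℓp : ℓ ≠ p) :
    ¬ ℓ ∣ N * p := by
  intro h
  rcases (Nat.Prime.dvd_mul hℓ).mp h with h | h
  · exact hN h
  · exact hℓp ((Nat.prime_dvd_prime_iff_eq hℓ hp).mp h)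

/-- **Step (7)**: packaging as a `ResidualGaloisRep`. -/
theorem s29pk_residual_of_two_dim {N : ℕ} {g : CuspForm (CongruenceSubgroup.Gamma0 N) 2}
    {p : ℕ} [Fact p.Prime] {k : Type} [Field k] [CharP k p] (φ : Zbar →+* k)
    (ρ' : s29k_G →* Module.End k (Fin 2 → k))
    (hfin : ∃ L : IntermediateField ℚ Qbar, FiniteDimensional ℚ L ∧
        ∀ σ : s29k_G, (∀ x ∈ L, σ x = x) → ρ' σ = 1)
    (hloc : ∀ ℓ : ℕ, ℓ.Prime → ¬ ℓ ∣ N * p →
        ∀ A : ValuationSubring Qbar, A.LiesOverPrime ℓ →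
          (∀ σ ∈ A.inertiaSubgroupIn ℚ, ρ' σ = 1) ∧
          (∀ σ : s29k_G, A.IsFrobeniusAt σ ℓ →
            ∃ a : Zbar, (a : ℂ) = ModularFormClass.qCoeff g ℓ ∧
              LinearMap.charpoly (ρ' σ) = X ^ 2 - C (φ a) * X + C ((ℓ : k)))) :
    ∃ ρ : ResidualGaloisRep k, ρ.IsAttachedTo g φ ∧
      ∀ ℓ : ℕ, ℓ.Prime → ¬ ℓ ∣ N * p → ρ.IsUnramifiedAt ℓ := by
  refine ⟨s29pk_ofTwoDim ρ' hfin, ?_, ?_⟩
  · intro ℓ hℓ hN hℓk A hA σ hσ
    exact (hloc ℓ hℓ (s29pk_not_dvd_mul Fact.out hℓ hN (s29pk_ne_of_natCast_ne_zero hℓk)) A hA).2 σ hσ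
  · intro ℓ hℓ hℓN A hA σ hσ
    exact (hloc ℓ hℓ hℓN A hA).1 σ hσ

section BaseChange

variable {k₀ k : Type} [Field k₀] [Field k] (ι : k₀ →+* k) (ρ₀ : ResidualGaloisRep k₀)

theorem s29pk_baseChangeAlong_isAttachedTo {N : ℕ}
    {g : CuspForm (CongruenceSubgroup.Gamma0 N) 2} {φ₀ : Zbar →+* k₀}
    (h : ρ₀.IsAttachedTo g φ₀) : (ρ₀.baseChangeAlong ι).IsAttachedTo g (ι.comp φ₀) := by
  intro ℓ hℓ hN hℓk A hA σ hσ
  have hℓ0 : (ℓ : k₀) ≠ 0 := by
    intro h0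
    apply hℓk
    rw [← map_natCast ι, h0, map_zero]
  obtain ⟨a, ha, hchar⟩ := h ℓ hℓ hN hℓ0 A hA σ hσ
  refine ⟨a, ha, ?_⟩
  let _ : Algebra k₀ k := ι.toAlgebra
  show LinearMap.charpoly ((ρ₀.ρ σ).baseChange k) = _
  rw [LinearMap.charpoly_baseChange, hchar]
  simp only [Polynomial.map_add, Polynomial.map_sub, Polynomial.map_mul, Polynomial.map_pow,
    Polynomial.map_X, Polynomial.map_C]
  rw [map_natCast (algebraMap k₀ k) ℓ]
  rfl

theorem s29pk_baseChangeAlong_isUnramifiedAt {q : ℕ} (h : ρ₀.IsUnramifiedAt q) :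
    (ρ₀.baseChangeAlong ι).IsUnramifiedAt q := by
  intro A hA σ hσ
  let _ : Algebra k₀ k := ι.toAlgebra
  show (ρ₀.ρ σ).baseChange k = 1
  rw [h A hA σ hσ, LinearMap.baseChange_one]

end BaseChange

/-- **S29 from the [GS] output.** -/
theorem s29pk_S29 (hGS : s29pk_GSOut)
    {N : ℕ} {g : CuspForm (CongruenceSubgroup.Gamma0 N) 2} (hg : g.IsNormalizedEigenform)
    {p : ℕ} (hp : p.Prime) {k : Type} [Field k] [CharP k p]
    (φ : Zbar →+* k) :
    ∃ ρ : ResidualGaloisRep k, ρ.IsAttachedTo g φ ∧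
      ∀ ℓ : ℕ, ℓ.Prime → ¬ ℓ ∣ N * p → ρ.IsUnramifiedAt ℓ := by
  rcases Nat.eq_zero_or_pos N with hN0 | hNpos
  · subst hN0
    refine ⟨s29pk_trivialRep k, fun ℓ _ hℓN => absurd (dvd_zero ℓ) hℓN, fun ℓ _ hℓN => ?_⟩
    exact absurd (by rw [zero_mul]; exact dvd_zero ℓ) hℓN
  · have : NeZero N := ⟨hNpos.ne'⟩
    have : Fact p.Prime := ⟨hp⟩
    have hmax : (RingHom.ker φ).IsMaximal := s29pk_isMaximal_ker (p := p) φ
    have : CharP (Zbar ⧸ RingHom.ker φ) p := s29pk_charP_quotient (p := p) (RingHom.ker φ) (by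
      rw [RingHom.mem_ker, map_natCast]
      exact CharP.cast_eq_zero k p)
    have : IsAlgClosed (Zbar ⧸ RingHom.ker φ) := s29pk_isAlgClosed _
    let _ : Algebra (ZMod p) (Zbar ⧸ RingHom.ker φ) := ZMod.algebra _ p
    obtain ⟨ρ', hfin, hloc⟩ := s29pk_two_dim hGS hg (p := p) (Ideal.Quotient.mk (RingHom.ker φ))
    obtain ⟨ρ₀, hatt, hunr⟩ := s29pk_residual_of_two_dim (N := N) (g := g) (p := p)
      (Ideal.Quotient.mk (RingHom.ker φ)) ρ' hfin hloc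
    refine ⟨ρ₀.baseChangeAlong (RingHom.kerLift φ), ?_, fun ℓ hℓ hℓN => ?_⟩
    · have := s29pk_baseChangeAlong_isAttachedTo (RingHom.kerLift φ) ρ₀ hatt
      have hcomp : (RingHom.kerLift φ).comp (Ideal.Quotient.mk (RingHom.ker φ)) = φ := by
        ext x
        simp
      rwa [hcomp] at this
    · exact s29pk_baseChangeAlong_isUnramifiedAt _ ρ₀ (hunr ℓ hℓ hℓN)

end Fermat.Agent.Lib.S29
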