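/-
Plan K (S29 + S42), [PACK]: the S42 shape (owner: helper8).

`s29pk_S42 : s29pk_GSOut → ∀ P M, 0 < M → P.EigenformResidualAttachmentAt M`:
take `K := ℤ̄ ⧸ 𝔪` (algebraically closed of characteristic `p`), `V := K²`, `ρ := ρ'` from
`s29pk_two_dim`, `ψ := ℤ̄ → ℤ̄ ⧸ 𝔪`, and `F :=` a finite Galois extension of `ℚ` inside `ℚ̄`
containing the `p`-torsion field of the Frey curve (finite since `#E[p] = p²`, `ent_ifaceCard`,
and `ptm_exists_level`) and a finite level of `ρ'`.
-/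
import Mathlib
import Fermat.Prelude.Def_FreyPackage_EigenformResidualAttachment
import Fermat.Agent.Lib.S29.KIface
import Fermat.Agent.Lib.S29.FGTwo
import Fermat.Agent.Lib.S29.PackIface
import Fermat.Agent.Lib.S29.PackField
import Fermat.Agent.Lib.S29.PackTwoDim
import Fermat.Agent.Lib.EN.FreyCard
import Fermat.Agent.Lib.Mz.S13Model

set_option autoImplicit false

open Polynomial
open scoped WeierstrassCurve.Affine

namespace Fermat.Agent.Lib.S29

local notation "Zbar" => integralClosure ℤ ℂ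
local notation "Qbar" => AlgebraicClosure ℚ

attribute [local instance] Ideal.Quotient.field

/-- a common finite Galois level. -/
theorem s29pk_exists_galois_level (L₁ L₂ : IntermediateField ℚ Qbar) [FiniteDimensional ℚ L₁]
    [FiniteDimensional ℚ L₂] :
    ∃ E : IntermediateField ℚ Qbar, FiniteDimensional ℚ E ∧ Normal ℚ E ∧ L₁ ≤ E ∧ L₂ ≤ E := by
  have : IsAlgClosure ℚ Qbar := ⟨inferInstance, AlgebraicClosure.isAlgebraic ℚ⟩
  have : Normal ℚ Qbar := IsAlgClosure.normal ℚ Qbar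
  refine ⟨IntermediateField.normalClosure ℚ ↥(L₁ ⊔ L₂) Qbar, inferInstance,
    normalClosure.normal ℚ ↥(L₁ ⊔ L₂) Qbar, ?_, ?_⟩
  · exact le_sup_left.trans (IntermediateField.le_normalClosure (L₁ ⊔ L₂))
  · exact le_sup_right.trans (IntermediateField.le_normalClosure (L₁ ⊔ L₂))

/-- elements of the kernel of the restriction to a normal intermediate field fix it pointwise. -/
theorem s29pk_fixes_of_mem_ker (E : IntermediateField ℚ Qbar) [Normal ℚ E] (σ : s29k_G)
    (hσ : σ ∈ (AlgEquiv.restrictNormalHom (F := ℚ) (K₁ := Qbar) E).ker) :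
    ∀ x ∈ E, σ x = x := by
  intro x hx
  have h1 : AlgEquiv.restrictNormalHom (F := ℚ) (K₁ := Qbar) E σ = 1 := hσ
  have h2 := AlgEquiv.restrictNormal_commutes σ E ⟨x, hx⟩
  have h3 : σ.restrictNormal E = 1 := h1
  rw [h3] at h2
  exact h2.symm

/-- trace and determinant from the characteristic polynomial in dimension two. -/
theorem s29pk_trace_det_of_charpoly {K : Type*} [Field K] (f : Module.End K (Fin 2 → K)) (t d : K)
    (h : LinearMap.charpoly f = X ^ 2 - C t * X + C d) :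
    LinearMap.trace K (Fin 2 → K) f = t ∧ LinearMap.det f = d := by
  have h1 := LinearMap.charpoly_toMatrix f (Pi.basisFun K (Fin 2))
  rw [Matrix.charpoly_fin_two, h] at h1
  have htr : (LinearMap.toMatrix (Pi.basisFun K (Fin 2)) (Pi.basisFun K (Fin 2)) f).trace = t := by
    have := congrArg (fun q => Polynomial.coeff q 1) h1
    simp [Polynomial.coeff_C] at this
    exact this
  have hdet : (LinearMap.toMatrix (Pi.basisFun K (Fin 2)) (Pi.basisFun K (Fin 2)) f).det = d := by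
    have := congrArg (fun q => Polynomial.coeff q 0) h1
    simp only [Polynomial.coeff_add, Polynomial.coeff_sub, Polynomial.coeff_X_pow,
      Polynomial.coeff_C_mul, Polynomial.coeff_X_zero, Polynomial.coeff_C_zero, mul_zero,
      sub_zero] at this
    simpa using this
  refine ⟨?_, ?_⟩
  · rw [LinearMap.trace_eq_matrix_trace K (Pi.basisFun K (Fin 2)), htr]
  · rw [← LinearMap.det_toMatrix (Pi.basisFun K (Fin 2)), hdet]

open Fermat.Agent.Lib.Mz Fermat.Agent.Lib.EN Fermat.Agent.Lib.S13 in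
/-- the `p`-torsion field of the Frey curve is a number field. -/
theorem s29pk_frey_level (P : FreyPackage) :
    ∃ L : IntermediateField ℚ Qbar, FiniteDimensional ℚ L ∧
      ∀ σ : s29k_G, (∀ x ∈ L, σ x = x) →
        ∀ v : Submodule.torsionBy ℤ (P.freyCurve⁄Qbar).Point P.p, σ • v = v := by
  classical
  have : Finite (Submodule.torsionBy ℤ (P.freyCurve⁄Qbar).Point P.p) :=
    Nat.finite_of_card_ne_zero (by
      have := ent_ifaceCard P
      unfold s13_V at this
      rw [this]; exact pow_ne_zero _ P.pp.ne_zero)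
  obtain ⟨F, hF, hFσ⟩ := ptm_exists_level P.freyCurve P.p
  refine ⟨F, hF, fun σ hσ v => hFσ σ ?_ v⟩
  rw [IntermediateField.mem_fixingSubgroup_iff]
  exact hσ

/-- **S42 from the [GS] output.** -/
theorem s29pk_S42 (hGS : s29pk_GSOut) (P : FreyPackage) :
    ∀ M : ℕ, 0 < M → P.EigenformResidualAttachmentAt M := by
  intro M hM g hg 𝔪 h𝔪 hp𝔪
  have : NeZero M := ⟨hM.ne'⟩
  have : Fact P.p.Prime := ⟨P.pp⟩
  have := h𝔪
  have : CharP (Zbar ⧸ 𝔪) P.p := s29pk_charP_quotient 𝔪 hp𝔪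
  have : IsAlgClosed (Zbar ⧸ 𝔪) := s29pk_isAlgClosed 𝔪
  let _ : Algebra (ZMod P.p) (Zbar ⧸ 𝔪) := ZMod.algebra _ P.p
  obtain ⟨ρ', ⟨L₂, hL₂, hL₂σ⟩, hloc⟩ := s29pk_two_dim hGS hg (p := P.p) (Ideal.Quotient.mk 𝔪)
  obtain ⟨L₁, hL₁, hL₁σ⟩ := s29pk_frey_level P
  obtain ⟨E, hE, hEn, h1, h2⟩ := s29pk_exists_galois_level L₁ L₂
  have : NumberField ↥E := { to_charZero := inferInstance, to_finiteDimensional := hE }
  have : IsGalois ℚ ↥E := { to_isSeparable := inferInstance, to_normal := hEn }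
  have hfix := s29pk_fixes_of_mem_ker E
  refine ⟨Zbar ⧸ 𝔪, inferInstance, inferInstance, Fin 2 → (Zbar ⧸ 𝔪), inferInstance, inferInstance,
    ρ', Ideal.Quotient.mk 𝔪, ↥E, inferInstance, inferInstance, inferInstance, inferInstance,
    inferInstance, ?_, ?_, ?_, ?_, ?_⟩
  · intro x hx
    rw [RingHom.mem_ker]
    exact Ideal.Quotient.eq_zero_iff_mem.mpr hx
  · simp
  · intro σ hσ
    have hσE := hfix σ hσ
    rw [Subgroup.mem_inf, MonoidHom.mem_ker, MonoidHom.mem_ker]
    refine ⟨?_, ?_⟩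
    · apply LinearMap.ext
      intro v
      exact hL₁σ σ (fun x hx => hσE x (h1 hx)) v
    · exact hL₂σ σ (fun x hx => hσE x (h2 hx))
  · intro ℓ hℓ hℓM hℓp A hA τ hτ
    obtain ⟨a, ha, hchar⟩ := (hloc ℓ hℓ (s29pk_not_dvd_mul P.pp hℓ hℓM hℓp) A hA).2 τ hτ
    exact ⟨a, ha, (s29pk_trace_det_of_charpoly _ _ _ hchar).1⟩
  · intro ℓ hℓ hℓM hℓp A hA τ hτ
    obtain ⟨a, ha, hchar⟩ := (hloc ℓ hℓ (s29pk_not_dvd_mul P.pp hℓ hℓM hℓp) A hA).2 τ hτ
    exact (s29pk_trace_det_of_charpoly _ _ _ hchar).2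

end Fermat.Agent.Lib.S29
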