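/-
Plan K (S29 + S42), helper lemma for step (5) (owner: helper8).

If `A B` are elements of a `k`-algebra with `A + B` and `A * B` (`= B * A`) scalars, then every
power sum `A ^ j + B ^ j` is a scalar (Dickson recursion
`s_{j+2} = (A + B) s_{j+1} - (A B) s_j`).  Applied to `A = ρ σ`, `B = c • ρ σ⁻¹` where
`(ρ σ)² - a • ρ σ + c • 1 = 0`, this gives: `ρ (σ ^ j) + c ^ j • ρ (σ ^ j)⁻¹` is a scalar.
-/
import Mathlib

set_option autoImplicit false

namespace Fermat.Agent.Lib.S29

section Algebra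

variable {k : Type*} [CommRing k] {E : Type*} [Ring E] [Algebra k E]

/-- power sums of two commuting elements with scalar sum and product are scalars. -/
theorem s29y_pow_add_pow_scalar {A B : E} {a c : k} (hsum : A + B = algebraMap k E a)
    (hAB : A * B = algebraMap k E c) (hBA : B * A = algebraMap k E c) (j : ℕ) :
    ∃ s : k, A ^ j + B ^ j = algebraMap k E s := by
  induction j using Nat.strong_induction_on with
  | _ j ih =>
    match j, ih with
    | 0, _ => exact ⟨2, by rw [pow_zero, pow_zero, map_ofNat, one_add_one_eq_two]⟩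
    | 1, _ => exact ⟨a, by simpa using hsum⟩
    | (j + 2), ih =>
      obtain ⟨s1, hs1⟩ := ih (j + 1) (by omega)
      obtain ⟨s0, hs0⟩ := ih j (by omega)
      refine ⟨a * s1 - c * s0, ?_⟩
      have key : A ^ (j + 2) + B ^ (j + 2) =
          (A + B) * (A ^ (j + 1) + B ^ (j + 1)) - (B * A) * A ^ j - (A * B) * B ^ j := by
        have h1 : B * A ^ (j + 1) = (B * A) * A ^ j := by rw [pow_succ', mul_assoc]
        have h2 : A * B ^ (j + 1) = (A * B) * B ^ j := by rw [pow_succ', mul_assoc]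
        rw [add_mul, mul_add, mul_add, h1, h2, ← pow_succ', ← pow_succ']
        abel
      rw [key, hsum, hs1, hAB, hBA, ← map_mul, sub_sub, ← mul_add, hs0, ← map_mul, ← map_sub]

end Algebra

section Rep

variable {k : Type*} [Field k] {G : Type*} [Group G] {W : Type*} [AddCommGroup W] [Module k W]

/-- **quadratic relation ⇒ the trace-like relation for all powers.**  If `ρ σ` satisfies
`X² - a X + c` with `c ≠ 0`, then `ρ (σ ^ j) + c ^ j • ρ (σ ^ j)⁻¹` is a scalar for every `j`. -/
theorem s29y_rep_pow_scalar (ρ : Representation k G W) (σ : G) (a c : k)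
    (hq : ρ σ * ρ σ - a • ρ σ + c • (1 : Module.End k W) = 0) (j : ℕ) :
    ∃ s : k, ρ (σ ^ j) + c ^ j • ρ (σ ^ j)⁻¹ = s • (1 : Module.End k W) := by
  have hinv : ρ σ * ρ σ⁻¹ = 1 := by rw [← map_mul, mul_inv_cancel, map_one]
  have hinv' : ρ σ⁻¹ * ρ σ = 1 := by rw [← map_mul, inv_mul_cancel, map_one]
  have hsum : ρ σ + c • ρ σ⁻¹ = algebraMap k (Module.End k W) a := by
    have h1 : (ρ σ * ρ σ - a • ρ σ + c • (1 : Module.End k W)) * ρ σ⁻¹ = 0 := by
      rw [hq, zero_mul]
    rw [add_mul, sub_mul, mul_assoc, hinv, mul_one, smul_mul_assoc, hinv, smul_mul_assoc,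
      one_mul] at h1
    rw [Algebra.algebraMap_eq_smul_one]
    have h2 : ρ σ + c • ρ σ⁻¹ - a • (1 : Module.End k W) = 0 := by
      rw [← h1]; abel
    exact sub_eq_zero.mp h2
  have hAB : ρ σ * (c • ρ σ⁻¹) = algebraMap k (Module.End k W) c := by
    rw [mul_smul_comm, hinv, Algebra.algebraMap_eq_smul_one]
  have hBA : (c • ρ σ⁻¹) * ρ σ = algebraMap k (Module.End k W) c := by
    rw [smul_mul_assoc, hinv', Algebra.algebraMap_eq_smul_one]
  obtain ⟨s, hs⟩ := s29y_pow_add_pow_scalar hsum hAB hBA j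
  refine ⟨s, ?_⟩
  rw [← Algebra.algebraMap_eq_smul_one, ← hs, smul_pow, map_pow, ← inv_pow, map_pow]

/-- the same with the quadratic relation stated pointwise. -/
theorem s29y_rep_pow_scalar' (ρ : Representation k G W) (σ : G) (a c : k)
    (hq : ∀ w : W, ρ σ (ρ σ w) - a • ρ σ w + c • w = 0) (j : ℕ) :
    ∃ s : k, ρ (σ ^ j) + c ^ j • ρ (σ ^ j)⁻¹ = s • (1 : Module.End k W) := by
  apply s29y_rep_pow_scalar ρ σ a c
  apply LinearMap.ext
  intro w
  simpa using hq w

end Rep

end Fermat.Agent.Lib.S29
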